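import Mathlib
import Fermat.Prelude.Def_ModularCurve_IgusaScheme

/-!
# Project S28 (Igusa): shared definitions and contracts

Owner: lead.  Nothing deep is proved here; the file fixes the interface between

* (V)   the coefficient ring (`h0_Coeff`),
* (A+Q) the analytic side (`h0_EmbData`: the `ψ(N)` cusp embeddings of the function field
        `F = ℚ(j(q^d) : d ∣ N)` into `ℂ((u))`, `u = q^{1/N}`, integrality of the conjugates of
        `θ = j(q^N)`, and the q-expansion principle modulo `π`),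
* (B)   the algebra side (`h0_ChartRed`: reduction of the three chart algebras modulo `ℓ`),
* (C2)  `IsDomain (chartAlgX ⊗ K)` and the scheme glue.
-/

set_option autoImplicit false

noncomputable section

namespace Fermat.Agent.Lib.S28

open ModularCurve ModularCurve.IgusaScheme

/-- A discrete valuation ring `O ⊂ ℂ` with uniformizer `π`, dominating `ℤ_(ℓ)`. -/
structure h0_Coeff (ℓ : ℕ) where
  /-- the ring -/
  O : Subring ℂ
  /-- the uniformizer -/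
  pi : ℂ
  pi_mem : pi ∈ O
  /-- `ℤ_(ℓ) ⊆ O` -/
  rat_mem : ∀ r : ℚ, r ∈ GaloisRep.ratLocalizedAt ℓ → (r : ℂ) ∈ O
  /-- `O ∩ ℚ ⊆ ℤ_(ℓ)` -/
  rat_of_mem : ∀ r : ℚ, (r : ℂ) ∈ O → r ∈ GaloisRep.ratLocalizedAt ℓ
  /-- `π ∣ ℓ` -/
  pi_dvd_ell : ∃ a ∈ O, (ℓ : ℂ) = pi * a
  /-- `O` is local with maximal ideal `(π)` -/
  unit_or_dvd : ∀ a ∈ O, (∃ b ∈ O, a * b = 1) ∨ (∃ b ∈ O, a = pi * b)
  pi_not_unit : ∀ b ∈ O, pi * b ≠ 1
  /-- Krull intersection -/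
  krull : ∀ a ∈ O, (∀ t : ℕ, ∃ b ∈ O, a = pi ^ t * b) → a = 0

/-- The series all of whose coefficients lie in `O`. -/
def h0_IsInt {ℓ : ℕ} (C : h0_Coeff ℓ) (f : LaurentSeries ℂ) : Prop :=
  ∀ n : ℤ, f.coeff n ∈ C.O

/-- `a ∣ f` coefficientwise in `O` (used with `a = π` and `a = ℓ`). -/
def h0_Dvd {ℓ : ℕ} (C : h0_Coeff ℓ) (a : ℂ) (f : LaurentSeries ℂ) : Prop :=
  ∀ n : ℤ, ∃ b ∈ C.O, f.coeff n = a * b

/-- `a` is a unit of `O`. -/
def h0_IsUnit {ℓ : ℕ} (C : h0_Coeff ℓ) (a : ℂ) : Prop :=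
  a ∈ C.O ∧ ∃ b ∈ C.O, a * b = 1

section Emb

variable (N : ℕ) [NeZero N] (ℓ : ℕ) [Fact ℓ.Prime]

/-- **Contract between the analytic side (A+Q) and the algebra side (B).** -/
structure h0_EmbData (C : h0_Coeff ℓ) where
  /-- index set (cosets of `Γ₀(N)`) -/
  ι : Type
  fin : Fintype ι
  /-- the conjugate expansions -/
  σ : ι → (↥(modularFunctionFieldFull N) →+* LaurentSeries ℂ)
  /-- the cusp `∞` -/
  i0 : ι
  /-- width at `∞`: `σ i0 x = x(u^s)` -/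
  s : ℕ
  s_pos : 0 < s
  base : ∀ (x : ↥(modularFunctionFieldFull N)) (n : ℤ),
    (σ i0 x).coeff n =
      if (s : ℤ) ∣ n then (((x : LaurentSeries ℚ).coeff (n / (s : ℤ)) : ℚ) : ℂ) else 0
  agree : ∀ i, σ i (jFull N) = σ i0 (jFull N)
  card : Module.finrank ↥(IntermediateField.adjoin ℚ ({jFull N} : Set ↥(modularFunctionFieldFull N)))
      ↥(modularFunctionFieldFull N) = @Fintype.card ι fin
  /-- the generator `θ = j(q^N)` -/
  θ : ↥(modularFunctionFieldFull N)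
  θ_int : ∀ i, h0_IsInt C (σ i θ)
  θ_diff : ∀ i k, i ≠ k → h0_IsUnit C (σ i θ - σ k θ).leadingCoeff
  /-- the q-expansion principle modulo `π` on `ℤ_(ℓ)[j, θ]` -/
  qep : ∀ y ∈ Algebra.adjoin ↥(GaloisRep.ratLocalizedAt ℓ)
      ({jFull N, θ} : Set ↥(modularFunctionFieldFull N)),
    h0_Dvd C C.pi (σ i0 y) → ∀ i, h0_Dvd C C.pi (σ i y)

/-- **Output of the algebra side (B)** for a `ℤ_(ℓ)`-subalgebra `B` of `F`: coefficientwise
reduction of the `q`-expansion is defined on `B` and its kernel is `ℓ B`. -/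
def h0_ChartRed (B : Subalgebra ↥(GaloisRep.ratLocalizedAt ℓ) ↥(modularFunctionFieldFull N)) :
    Prop :=
  (∀ x ∈ B, ∀ n : ℤ, ((x : ↥(modularFunctionFieldFull N)) : LaurentSeries ℚ).coeff n ∈
      GaloisRep.ratLocalizedAt ℓ) ∧
  (∀ x ∈ B, (∀ n : ℤ, ∃ r ∈ GaloisRep.ratLocalizedAt ℓ,
      ((x : ↥(modularFunctionFieldFull N)) : LaurentSeries ℚ).coeff n = (ℓ : ℚ) * r) →
    ∃ y ∈ B, x = (ℓ : ℚ) • y)

/-- (V) target. -/
def h0_CoeffStatement : Prop :=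
  ¬ ℓ ∣ N → ∃ C : h0_Coeff ℓ, ∀ ζ : ℂ, ζ ^ N = 1 → ζ ∈ C.O

/-- (A+Q) target. -/
def h0_EmbStatement : Prop :=
  ¬ ℓ ∣ N → ∀ C : h0_Coeff ℓ, (∀ ζ : ℂ, ζ ^ N = 1 → ζ ∈ C.O) → Nonempty (h0_EmbData N ℓ C)

/-- (B) target. -/
def h0_ChartStatement : Prop :=
  ∀ C : h0_Coeff ℓ, h0_EmbData N ℓ C →
    h0_ChartRed N ℓ (chartAlgFin N ℓ) ∧ h0_ChartRed N ℓ (chartAlgInf N ℓ) ∧
      h0_ChartRed N ℓ (chartAlgMid N ℓ)

end Emb

end Fermat.Agent.Lib.S28
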