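/-
S28 project (q-expansion principle core), helper2.

`𝒪 ⊆ ℂ` a subring.  The ring `h2q_ring N 𝒪` of `Γ₀(N)`-invariant holomorphic functions on `ℍ` all
of whose `SL(2,ℤ)`-translates have a `q_N`-expansion with coefficients in `𝒪`, and the expansion
ring homomorphisms `h2q_exp N 𝒪 g : h2q_ring N 𝒪 →+* LaurentSeries 𝒪` (`F ↦` expansion of `F ∘ g`).
-/
import Mathlib
import Fermat.Agent.Lib.X0.CuspFamily
import Fermat.Agent.Lib.X0.NormPolyCor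

set_option autoImplicit false

noncomputable section

namespace Fermat.Agent.Lib.S28

open UpperHalfPlane ModularCurve Fermat.Agent.Lib.X0
open scoped MatrixGroups Manifold

/-- `θ` has the `q_N`-expansion `s`, with coefficients in `𝒪`. -/
def h2q_Exp (N : ℕ) (𝒪 : Subring ℂ) (θ : ℍ → ℂ) (s : LaurentSeries 𝒪) : Prop :=
  h9_ExpandsInfty N θ (coeffMap 𝒪.subtype s)

theorem h2q_coeffMap_subtype_injective (𝒪 : Subring ℂ) :
    Function.Injective (coeffMap 𝒪.subtype : LaurentSeries 𝒪 → LaurentSeries ℂ) := by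
  intro x y hxy
  ext k
  have h := congrArg (fun z => z.coeff k) hxy
  simpa [coeffMap_coeff] using h

section Calculus

variable {N : ℕ} {𝒪 : Subring ℂ}

theorem h2q_Exp.unique [NeZero N] {θ : ℍ → ℂ} {s s' : LaurentSeries 𝒪}
    (h : h2q_Exp N 𝒪 θ s) (h' : h2q_Exp N 𝒪 θ s') : s = s' :=
  h2q_coeffMap_subtype_injective 𝒪 (h5_expandsInfty_unique N h h')

theorem h2q_Exp.congr {θ θ' : ℍ → ℂ} {s : LaurentSeries 𝒪} (hθ : ∀ z, θ z = θ' z)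
    (h : h2q_Exp N 𝒪 θ s) : h2q_Exp N 𝒪 θ' s :=
  h5_expandsInfty_congr hθ h

theorem h2q_Exp.add {θ θ' : ℍ → ℂ} {s s' : LaurentSeries 𝒪} (h : h2q_Exp N 𝒪 θ s)
    (h' : h2q_Exp N 𝒪 θ' s') : h2q_Exp N 𝒪 (fun z => θ z + θ' z) (s + s') := by
  intro z
  rw [map_add]
  exact h9_LSum_add (h z) (h' z)

theorem h2q_Exp.mul {θ θ' : ℍ → ℂ} {s s' : LaurentSeries 𝒪} (h : h2q_Exp N 𝒪 θ s)
    (h' : h2q_Exp N 𝒪 θ' s') : h2q_Exp N 𝒪 (fun z => θ z * θ' z) (s * s') := by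
  intro z
  rw [map_mul]
  exact h9_LSum_mul (Function.Periodic.qParam_ne_zero _) (h z) (h' z)

theorem h2q_Exp.neg {θ : ℍ → ℂ} {s : LaurentSeries 𝒪} (h : h2q_Exp N 𝒪 θ s) :
    h2q_Exp N 𝒪 (fun z => -θ z) (-s) := by
  intro z
  rw [map_neg]
  exact h9_LSum_neg (h z)

theorem h2q_Exp.const (N : ℕ) (c : 𝒪) : h2q_Exp N 𝒪 (fun _ => (c : ℂ)) (HahnSeries.C c) := by
  intro z
  have : coeffMap 𝒪.subtype (HahnSeries.C c) = HahnSeries.C (c : ℂ) := by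
    rw [HahnSeries.C_apply, coeffMap_single]
    rfl
  rw [this]
  exact h9_LSum_C _ _

theorem h2q_Exp.zero (N : ℕ) : h2q_Exp N 𝒪 (fun _ => (0 : ℂ)) 0 := by
  intro z
  rw [map_zero]
  exact h9_LSum_zero _

theorem h2q_Exp.one (N : ℕ) : h2q_Exp N 𝒪 (fun _ => (1 : ℂ)) 1 := by
  intro z
  rw [map_one]
  exact h9_LSum_one _

end Calculus

/-- The subring of `Γ₀(N)`-invariant holomorphic functions all of whose `SL(2,ℤ)`-translates have a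
`q_N`-expansion with coefficients in `𝒪`. -/
def h2q_ring (N : ℕ) (𝒪 : Subring ℂ) : Subring h2_holo where
  carrier := {F | F ∈ h2_holoInv N ∧
    ∀ g : SL(2, ℤ), ∃ s : LaurentSeries 𝒪, h2q_Exp N 𝒪 (fun z => F.1 (g • z)) s}
  mul_mem' := by
    rintro F G ⟨hF, hF'⟩ ⟨hG, hG'⟩
    refine ⟨(h2_holoInv N).mul_mem hF hG, fun g => ?_⟩
    obtain ⟨s, hs⟩ := hF' g
    obtain ⟨t, ht⟩ := hG' g
    exact ⟨s * t, hs.mul ht⟩
  one_mem' := ⟨(h2_holoInv N).one_mem, fun g => ⟨1, h2q_Exp.one N⟩⟩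
  add_mem' := by
    rintro F G ⟨hF, hF'⟩ ⟨hG, hG'⟩
    refine ⟨(h2_holoInv N).add_mem hF hG, fun g => ?_⟩
    obtain ⟨s, hs⟩ := hF' g
    obtain ⟨t, ht⟩ := hG' g
    exact ⟨s + t, hs.add ht⟩
  zero_mem' := ⟨(h2_holoInv N).zero_mem, fun g => ⟨0, h2q_Exp.zero N⟩⟩
  neg_mem' := by
    rintro F ⟨hF, hF'⟩
    refine ⟨(h2_holoInv N).neg_mem hF, fun g => ?_⟩
    obtain ⟨s, hs⟩ := hF' g
    exact ⟨-s, hs.neg⟩

theorem h2q_mem_ring {N : ℕ} {𝒪 : Subring ℂ} {F : h2_holo} :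
    F ∈ h2q_ring N 𝒪 ↔ F ∈ h2_holoInv N ∧
      ∀ g : SL(2, ℤ), ∃ s : LaurentSeries 𝒪, h2q_Exp N 𝒪 (fun z => F.1 (g • z)) s := Iff.rfl

variable (N : ℕ) [NeZero N] (𝒪 : Subring ℂ)

/-- The expansion of `F ∘ g`, coefficients in `𝒪`. -/
def h2q_expFun (g : SL(2, ℤ)) (F : h2q_ring N 𝒪) : LaurentSeries 𝒪 :=
  Classical.choose (F.2.2 g)

theorem h2q_expFun_spec (g : SL(2, ℤ)) (F : h2q_ring N 𝒪) :
    h2q_Exp N 𝒪 (fun z => F.1.1 (g • z)) (h2q_expFun N 𝒪 g F) :=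
  Classical.choose_spec (F.2.2 g)

theorem h2q_expFun_eq {g : SL(2, ℤ)} {F : h2q_ring N 𝒪} {s : LaurentSeries 𝒪}
    (h : h2q_Exp N 𝒪 (fun z => F.1.1 (g • z)) s) : h2q_expFun N 𝒪 g F = s :=
  (h2q_expFun_spec N 𝒪 g F).unique h

/-- The expansion of `F ∘ g`, as a ring homomorphism. -/
def h2q_exp (g : SL(2, ℤ)) : h2q_ring N 𝒪 →+* LaurentSeries 𝒪 where
  toFun := h2q_expFun N 𝒪 g
  map_one' := h2q_expFun_eq N 𝒪 (h2q_Exp.one N)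
  map_mul' F G := h2q_expFun_eq N 𝒪 ((h2q_expFun_spec N 𝒪 g F).mul (h2q_expFun_spec N 𝒪 g G))
  map_zero' := h2q_expFun_eq N 𝒪 (h2q_Exp.zero N)
  map_add' F G := h2q_expFun_eq N 𝒪 ((h2q_expFun_spec N 𝒪 g F).add (h2q_expFun_spec N 𝒪 g G))

theorem h2q_exp_spec (g : SL(2, ℤ)) (F : h2q_ring N 𝒪) :
    h2q_Exp N 𝒪 (fun z => F.1.1 (g • z)) (h2q_exp N 𝒪 g F) :=
  h2q_expFun_spec N 𝒪 g F

theorem h2q_exp_eq {g : SL(2, ℤ)} {F : h2q_ring N 𝒪} {s : LaurentSeries 𝒪}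
    (h : h2q_Exp N 𝒪 (fun z => F.1.1 (g • z)) s) : h2q_exp N 𝒪 g F = s :=
  h2q_expFun_eq N 𝒪 h

/-- Left multiplication by `Γ₀(N)` does not change the expansion. -/
theorem h2q_exp_mul_left (δ g : SL(2, ℤ)) (hδ : δ ∈ CongruenceSubgroup.Gamma0 N)
    (F : h2q_ring N 𝒪) : h2q_exp N 𝒪 (δ * g) F = h2q_exp N 𝒪 g F := by
  refine h2q_exp_eq N 𝒪 ((h2q_exp_spec N 𝒪 g F).congr fun z => ?_)
  have h := congrArg (fun G : h2_holo => G.1 (g • z)) (F.2.1 δ hδ)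
  simp only [h2_holoSmul_apply] at h
  rw [mul_smul]
  exact h.symm

/-- Constants. -/
def h2q_const : 𝒪 →+* h2q_ring N 𝒪 where
  toFun c := ⟨h2_holoConst (c : ℂ), h2_const_mem_holoInv N _, fun _ => ⟨HahnSeries.C c, h2q_Exp.const N c⟩⟩
  map_one' := Subtype.ext (map_one h2_holoConst)
  map_mul' _ _ := Subtype.ext (map_mul h2_holoConst _ _)
  map_zero' := Subtype.ext (map_zero h2_holoConst)
  map_add' _ _ := Subtype.ext (map_add h2_holoConst _ _)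

theorem h2q_exp_const (g : SL(2, ℤ)) (c : 𝒪) :
    h2q_exp N 𝒪 g (h2q_const N 𝒪 c) = HahnSeries.C c :=
  h2q_exp_eq N 𝒪 (h2q_Exp.const N c)

end Fermat.Agent.Lib.S28
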