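/-
S28 project, analytic side (A+Q): internal definitions and contracts.  Owner: helper2.
Nothing deep is proved here; the file fixes the objects and the exact statements (`def … : Prop`)
exchanged inside the analytic team.  Target: `h0_EmbStatement N ℓ` of `Defs.lean`.

Notation: `𝒪 ⊆ ℂ` a subring containing the `N`-th roots of unity and `1/N`; `φ : 𝒪 →+* k`, `k` a
field.  `h2q_ring N 𝒪`, `h2q_exp N 𝒪 g` are in `H2QExp.lean`.
-/
import Mathlib
import Fermat.Agent.Lib.S28.Defs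
import Fermat.Agent.Lib.S28.H2QExp
import Fermat.Agent.Lib.X0.CInftyCusp
import Fermat.Agent.Lib.X0.CoordFinal
import Fermat.Prelude.Def_ModularCurve_X0ModL

set_option autoImplicit false

noncomputable section

namespace Fermat.Agent.Lib.S28

open UpperHalfPlane ModularCurve ModularCurve.IgusaScheme Fermat.Agent.Lib.X0
open scoped MatrixGroups Manifold

/-! ## Formal objects over an arbitrary commutative ring -/

/-- The formal series `j(ζ X^s)` over `R`. -/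
def h2q_cuspSer (R : Type*) [CommRing R] (s : ℕ) [NeZero s] (ζ : Rˣ) : LaurentSeries R :=
  qExpand R s (h5_twist ζ (jqModC R))

/-! ## Contracts for the q-expansion principle -/

/-- **(K1) the modular unit** `U = ∏_{δ ∣ N} (Δ(δ z)/Δ(z))^{-δ μ(N/δ)}`: an element of
`h2q_ring N 𝒪` whose expansion at every `g` has a unit leading coefficient, and positive order at
every `g ∉ Γ₀(N)`.  To be proved for `𝒪 ∋ ζ_N, 1/N`. -/
def h2q_UnitStatement (N : ℕ) [NeZero N] (𝒪 : Subring ℂ) : Prop :=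
  ∃ U : h2q_ring N 𝒪, ∀ g : SL(2, ℤ), ∃ (m : ℤ) (c : 𝒪ˣ),
    (h2q_exp N 𝒪 g U).coeff m = c ∧ (∀ n < m, (h2q_exp N 𝒪 g U).coeff n = 0) ∧
    (g ∉ CongruenceSubgroup.Gamma0 N → 0 < m)

/-- **(K2a) triangularity**: a complex polynomial in `j` whose `q_N`-expansion has coefficients in
`𝒪` has coefficients in `𝒪`. -/
def h2q_TriStatement : Prop :=
  ∀ (N : ℕ) [NeZero N] (𝒪 : Subring ℂ) (P : Polynomial ℂ) (σ : LaurentSeries 𝒪),
    coeffMap 𝒪.subtype σ = Polynomial.aeval (qExpand ℂ N (jqModC ℂ)) P →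
    ∃ P' : Polynomial 𝒪, σ = Polynomial.aeval (qExpand 𝒪 N (jqModC 𝒪)) P'

/-- **(K2b)** a nonzero polynomial in `j(q^N)` over a field is nonzero of order `≤ 0`. -/
def h2q_OrderStatement : Prop :=
  ∀ (N : ℕ) [NeZero N] (k : Type) [Field k] (p : Polynomial k), p ≠ 0 →
    Polynomial.aeval (qExpand k N (jqModC k)) p ≠ 0 ∧
    (Polynomial.aeval (qExpand k N (jqModC k)) p).order ≤ 0

/-- **(K3) growth**: a function with a `q_N`-expansion (finitely many negative terms, valid on all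
of `ℍ`) has moderate growth at `i∞`. -/
def h2q_GrowthStatement : Prop :=
  ∀ (N : ℕ) [NeZero N] (h : ℍ → ℂ) (s : LaurentSeries ℂ), h9_ExpandsInfty N h s → h2_ModGrowth h

/-- **(K4) generators**: the `J_d`, `d ∣ N`, lie in `h2q_ring N 𝒪`, with explicit expansions
`j(ζ_e^b q_N^s)` at every `g`.  To be proved for `𝒪 ∋ ζ_N`. -/
def h2q_GenStatement (N : ℕ) [NeZero N] (𝒪 : Subring ℂ) : Prop :=
  ∀ d : h9_DivN N, ∃ hmem : h2_JdHolo d.1 ∈ h2q_ring N 𝒪, ∀ g : SL(2, ℤ),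
    ∃ (γ' : SL(2, ℤ)) (a b e s : ℕ) (_ : NeZero s) (ζ : 𝒪ˣ), 0 < a ∧ 0 < e ∧ a * e = d.1 ∧ b < e ∧
      s * e = a * N ∧ (g 1 0 = γ' 1 0 * a ∧ g 1 1 = γ' 1 0 * b + γ' 1 1 * e) ∧
      ((ζ : 𝒪) : ℂ) = ((h5_zeta e ^ b : ℂˣ) : ℂ) ∧
      h2q_exp N 𝒪 g ⟨h2_JdHolo d.1, hmem⟩ = h2q_cuspSer 𝒪 s ζ

/-- **(K5) the (weak) q-expansion principle** for `Γ₀(N)`, weight `0`: if the reduction of the
expansion at `∞` vanishes, the reductions of the expansions at all cusps vanish. -/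
def h2q_QEPStatement (N : ℕ) [NeZero N] (𝒪 : Subring ℂ) : Prop :=
  ∀ (k : Type) [Field k] (φ : 𝒪 →+* k) (F : h2q_ring N 𝒪),
    coeffMap φ (h2q_exp N 𝒪 1 F) = 0 → ∀ g : SL(2, ℤ), coeffMap φ (h2q_exp N 𝒪 g F) = 0

/-- **(K5')** by-product of the proof of (K5): the coefficients of the norm polynomial of
`F ∈ h2q_ring N 𝒪` are polynomials in `j(q_N^N)` with coefficients in `𝒪`. -/
def h2q_NormStatement (N : ℕ) [NeZero N] (𝒪 : Subring ℂ) : Prop :=
  ∀ (F : h2q_ring N 𝒪) (m : ℕ), ∃ P : Polynomial 𝒪,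
    (∏ q : QN N, (Polynomial.X - Polynomial.C (h2q_exp N 𝒪 (q.out)⁻¹ F))).coeff m =
      Polynomial.aeval (qExpand 𝒪 N (jqModC 𝒪)) P

/-! ## The embeddings of `F = ℚ(j(q^d) : d ∣ N)` -/

/-- The inclusion `F = ℚ(j(q^d)) → F_N = ℚ̄(j(q^d))`. -/
def h2e_incl (N : ℕ) [NeZero N] : ↥(modularFunctionFieldFull N) →+* FN N where
  toFun x := ⟨coeffEmb Kbar (x : LaurentSeries ℚ), coeffEmb_mem_laurentBaseChange Kbar x.2⟩
  map_one' := Subtype.ext (map_one (coeffEmb Kbar))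
  map_mul' x y := Subtype.ext (map_mul (coeffEmb Kbar) _ _)
  map_zero' := Subtype.ext (map_zero (coeffEmb Kbar))
  map_add' x y := Subtype.ext (map_add (coeffEmb Kbar) _ _)

/-- The cusp family of Lib/X0. -/
def h2e_fam (N : ℕ) [NeZero N] : h9_EmbFamily N := h5_cuspFamily N (h1_kernel N)

/-- The conjugate expansions `σ_q : F →+* ℂ((u))`, `u = q_N`: `σ_q x` is the `q_N`-expansion of
`x ∘ g⁻¹`, `q = g Γ₀(N)`. -/
def h2e_sigma (N : ℕ) [NeZero N] (q : QN N) : ↥(modularFunctionFieldFull N) →+* LaurentSeries ℂ :=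
  ((h2e_fam N).tau q).comp (h2e_incl N)

/-- The generator `θ = j(q^N)` of `F`. -/
def h2e_theta (N : ℕ) [NeZero N] : ↥(modularFunctionFieldFull N) :=
  ⟨qExpand ℚ N jq, jqd_mem_full N dvd_rfl⟩

/-- **(E1a)** `σ_1 x = x(u^N)`. -/
def h2e_BaseStatement (N : ℕ) [NeZero N] : Prop :=
  ∀ (x : ↥(modularFunctionFieldFull N)) (n : ℤ),
    (h2e_sigma N ((1 : SL(2, ℤ)) : QN N) x).coeff n =
      if (N : ℤ) ∣ n then (((x : LaurentSeries ℚ).coeff (n / (N : ℤ)) : ℚ) : ℂ) else 0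

/-- **(E1b)** all `σ_q` agree at `j`. -/
def h2e_AgreeStatement (N : ℕ) [NeZero N] : Prop :=
  ∀ q : QN N, h2e_sigma N q (jFull N) = h2e_sigma N ((1 : SL(2, ℤ)) : QN N) (jFull N)

/-- **(E1c)** `q ↦ σ_q` is injective. -/
def h2e_InjStatement (N : ℕ) [NeZero N] : Prop :=
  Function.Injective (h2e_sigma N)

/-- **(E2)** `[F : ℚ(j)] = [SL₂(ℤ) : Γ₀(N)]` (descent of `h2_coordStatement` from `ℚ̄` to `ℚ`). -/
def h2e_CardStatement (N : ℕ) [NeZero N] : Prop :=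
  Module.finrank ↥(IntermediateField.adjoin ℚ ({jFull N} : Set ↥(modularFunctionFieldFull N)))
    ↥(modularFunctionFieldFull N) = Nat.card (QN N)

/-- **(E3a)** the conjugates of `θ` have coefficients in `𝒪` (`𝒪 ∋` the `N`-th roots of unity). -/
def h2e_ThetaIntStatement (N : ℕ) [NeZero N] (𝒪 : Subring ℂ) : Prop :=
  ∀ (q : QN N) (n : ℤ), (h2e_sigma N q (h2e_theta N)).coeff n ∈ 𝒪

/-- **(E3b)** the differences of the conjugates of `θ` have unit leading coefficients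
(`𝒪 ∋` the `N`-th roots of unity and `1/N`). -/
def h2e_ThetaDiffStatement (N : ℕ) [NeZero N] (𝒪 : Subring ℂ) : Prop :=
  ∀ q q' : QN N, q ≠ q' →
    (h2e_sigma N q (h2e_theta N) - h2e_sigma N q' (h2e_theta N)).leadingCoeff ∈ 𝒪 ∧
    ∃ b ∈ 𝒪, (h2e_sigma N q (h2e_theta N) - h2e_sigma N q' (h2e_theta N)).leadingCoeff * b = 1

/-- **(E4)** elementary symmetric functions of the conjugates of `θ` are polynomials in `J`. -/
def h2e_EsymmStatement (N : ℕ) [NeZero N] : Prop :=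
  ∀ m : ℕ, ∃ p : Polynomial ℂ,
    ((Finset.univ : Finset (QN N)).val.map fun q => h2e_sigma N q (h2e_theta N)).esymm m =
      Polynomial.aeval (h2e_sigma N ((1 : SL(2, ℤ)) : QN N) (jFull N)) p

/-- **(E5)** the bridge between `σ_q` and `h2q_exp`: for `P ∈ 𝒪[X, Y]`... stated for polynomials
with coefficients in `ℚ ∩ 𝒪`: every `y ∈ ℤ_(ℓ)[j, θ]` is realised by an element of `h2q_ring`. -/
def h2e_BridgeStatement (N : ℕ) [NeZero N] (ℓ : ℕ) [Fact ℓ.Prime] (𝒪 : Subring ℂ) : Prop :=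
  ∀ y ∈ Algebra.adjoin ↥(GaloisRep.ratLocalizedAt ℓ)
      ({jFull N, h2e_theta N} : Set ↥(modularFunctionFieldFull N)),
    ∃ F : h2q_ring N 𝒪, ∀ g : SL(2, ℤ),
      h2e_sigma N (g : QN N) y = coeffMap 𝒪.subtype (h2q_exp N 𝒪 g⁻¹ F)

end Fermat.Agent.Lib.S28
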