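import Fermat.Agent.Lib.S28.Defs

/-!
# Project S28, algebra side (B): internal contracts

Owner: helper1.  Target: `h0_ChartStatement N ℓ`.  All statements are `Prop`-valued contracts;
each package proves one of them, `H1ChartFinal` assembles.

Notation: `F = modularFunctionFieldFull N`, `L = LaurentSeries ℂ`, `Int = {f : L | h0_IsInt C f}`,
`σ i : F →+* L` the conjugate expansions of `D : h0_EmbData N ℓ C`, `J = σ i (jFull N)`.
-/

set_option autoImplicit false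

noncomputable section

namespace Fermat.Agent.Lib.S28

open ModularCurve ModularCurve.IgusaScheme

/-- **(P1) coefficient calculus** in `Int = O((u)) ⊂ ℂ((u))` (depends only on `C`). -/
structure h1b_IntCalc {ℓ : ℕ} (C : h0_Coeff ℓ) : Prop where
  zero : h0_IsInt C 0
  one : h0_IsInt C 1
  add : ∀ f g, h0_IsInt C f → h0_IsInt C g → h0_IsInt C (f + g)
  neg : ∀ f, h0_IsInt C f → h0_IsInt C (-f)
  mul : ∀ f g, h0_IsInt C f → h0_IsInt C g → h0_IsInt C (f * g)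
  const : ∀ a ∈ C.O, h0_IsInt C (HahnSeries.C a)
  /-- a series with unit leading coefficient is invertible in `Int` -/
  inv_of_unit : ∀ f, h0_IsInt C f → h0_IsUnit C f.leadingCoeff → h0_IsInt C f⁻¹
  /-- coefficientwise divisibility = divisibility in `Int` -/
  dvd_iff : ∀ a ∈ C.O, ∀ f, h0_Dvd C a f ↔ ∃ g, h0_IsInt C g ∧ f = HahnSeries.C a * g
  /-- Gauss lemma: `π Int` is a prime ideal -/
  gauss : ∀ f g, h0_IsInt C f → h0_IsInt C g → h0_Dvd C C.pi (f * g) →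
    h0_Dvd C C.pi f ∨ h0_Dvd C C.pi g
  /-- Gauss valuation exists -/
  val : ∀ f, h0_IsInt C f → f ≠ 0 → ∃ (t : ℕ) (g : LaurentSeries ℂ),
    h0_IsInt C g ∧ ¬ h0_Dvd C C.pi g ∧ f = HahnSeries.C (C.pi ^ t) * g
  /-- `ℓ = π^e · unit` -/
  ell : ∃ (e : ℕ) (v : ℂ), 0 < e ∧ h0_IsUnit C v ∧ (ℓ : ℂ) = C.pi ^ e * v
  /-- `Int` is completely integrally closed in `ℂ((u))` -/
  cic : ∀ x s : LaurentSeries ℂ, h0_IsInt C s → s ≠ 0 →
    (∀ k : ℕ, h0_IsInt C (s * x ^ k)) → h0_IsInt C x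
  /-- `πO ∩ ℚ = ℓ ℤ_(ℓ)` -/
  rat : ∀ r : ℚ, (∃ b ∈ C.O, (r : ℂ) = C.pi * b) →
    ∃ r' ∈ GaloisRep.ratLocalizedAt ℓ, r = (ℓ : ℚ) * r'

/-- (P1) target. -/
def h1b_IntCalcStatement (ℓ : ℕ) : Prop := ∀ C : h0_Coeff ℓ, h1b_IntCalc C

/-- **(P2) saturation** of `ℤ_(ℓ)[t]` in `ℚ[t]` w.r.t. `q`-expansions, `t = j` or `t = 1/j`. -/
def h1b_SatStatement (ℓ : ℕ) : Prop :=
  ∀ t : LaurentSeries ℚ, (t = jq ∨ t = jq⁻¹) → ∀ p : Polynomial ℚ,
    (∀ n : ℤ, (Polynomial.aeval t p).coeff n ∈ GaloisRep.ratLocalizedAt ℓ) →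
      ∀ k : ℕ, p.coeff k ∈ GaloisRep.ratLocalizedAt ℓ

section Emb

variable {N : ℕ} [NeZero N] {ℓ : ℕ} [Fact ℓ.Prime] {C : h0_Coeff ℓ} (D : h0_EmbData N ℓ C)

/-- **(P3a)** `F = Frac ℤ[j, θ]`. -/
def h1b_FracRepr : Prop :=
  ∀ x : ↥(modularFunctionFieldFull N), ∃ a w : ↥(modularFunctionFieldFull N),
    a ∈ Subring.closure ({jFull N, D.θ} : Set ↥(modularFunctionFieldFull N)) ∧
    w ∈ Subring.closure ({jFull N, D.θ} : Set ↥(modularFunctionFieldFull N)) ∧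
    w ≠ 0 ∧ x * w = a

/-- **(P3b)** an element all of whose conjugates are integral has a denominator in `ℤ_(ℓ)[j]`
prime to `π`. -/
def h1b_Coord : Prop :=
  ∀ x : ↥(modularFunctionFieldFull N), (∀ i, h0_IsInt C (D.σ i x)) →
    ∃ q : ↥(modularFunctionFieldFull N),
      q ∈ Algebra.adjoin ↥(GaloisRep.ratLocalizedAt ℓ)
        ({jFull N} : Set ↥(modularFunctionFieldFull N)) ∧
      ¬ h0_Dvd C C.pi (D.σ D.i0 q) ∧
      x * q ∈ Algebra.adjoin ↥(GaloisRep.ratLocalizedAt ℓ)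
        ({jFull N, D.θ} : Set ↥(modularFunctionFieldFull N))

/-- **(P3c)** the characteristic polynomial over `ℚ(j)` and its conjugate factorisation. -/
def h1b_Charpoly : Prop :=
  ∀ z : ↥(modularFunctionFieldFull N), ∃ χ : Polynomial ↥(modularFunctionFieldFull N),
    χ.Monic ∧
    (∀ k, χ.coeff k ∈
      IntermediateField.adjoin ℚ ({jFull N} : Set ↥(modularFunctionFieldFull N))) ∧
    χ.eval z = 0 ∧
    χ.map (D.σ D.i0) =
      ((@Finset.univ D.ι D.fin).val.map fun i => Polynomial.X - Polynomial.C (D.σ i z)).prod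

/-- **(P4)** conjugates of elements of the charts are integral. -/
def h1b_ConjInt : Prop :=
  ∀ x ∈ chartAlgMid N ℓ, ∀ i, h0_IsInt C (D.σ i x)

/-- **(P5)** q-expansion principle modulo `π` on `F_Int`. -/
def h1b_QepPi : Prop :=
  ∀ x : ↥(modularFunctionFieldFull N), (∀ i, h0_IsInt C (D.σ i x)) →
    h0_Dvd C C.pi (D.σ D.i0 x) → ∀ i, h0_Dvd C C.pi (D.σ i x)

/-- **(P6)** q-expansion principle modulo `ℓ` on `F_Int`. -/
def h1b_QepEll : Prop :=
  ∀ x : ↥(modularFunctionFieldFull N), (∀ i, h0_IsInt C (D.σ i x)) →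
    h0_Dvd C (ℓ : ℂ) (D.σ D.i0 x) → ∀ i, h0_Dvd C (ℓ : ℂ) (D.σ i x)

/-- **(P7)** integral conjugates + integral over `ℚ[t]` ⇒ integral over `ℤ_(ℓ)[t]`,
`t = j` or `t = 1/j`. -/
def h1b_AL : Prop :=
  ∀ t : ↥(modularFunctionFieldFull N), (t = jFull N ∨ t = (jFull N)⁻¹) →
    ∀ z : ↥(modularFunctionFieldFull N), (∀ i, h0_IsInt C (D.σ i z)) →
      IsIntegral (Algebra.adjoin ℚ ({t} : Set ↥(modularFunctionFieldFull N))) z →
      IsIntegral (Algebra.adjoin ↥(GaloisRep.ratLocalizedAt ℓ)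
        ({t} : Set ↥(modularFunctionFieldFull N))) z

end Emb

end Fermat.Agent.Lib.S28
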