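/-
S28 project, analytic side, contract (E2) `h2e_CardStatement N` (lead):
`[F : ℚ(j)] = [SL₂(ℤ) : Γ₀(N)]` for `F = ℚ(j(q^d) : d ∣ N)`, by descent of the degree bound of
Lib/X0 (over `ℚ̄`) to `ℚ` and restriction of the cusp embeddings to `F`.
-/
import Mathlib
import Fermat.Agent.Lib.S28.DefsAn
import Fermat.Agent.Lib.X0.Descent
import Fermat.Agent.Lib.X0.CoordAssembly
import Fermat.Agent.Lib.X0.CoordRel
import Fermat.Agent.Lib.X0.CInftyCusp
import Fermat.Agent.Lib.X0.Transc

set_option autoImplicit false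

noncomputable section

namespace Fermat.Agent.Lib.S28

open ModularCurve ModularCurve.IgusaScheme Fermat.Agent.Lib.X0 Polynomial IntermediateField
open scoped MatrixGroups

variable (N : ℕ) [NeZero N]

/-- the generator `j(q^d)` of `F`. -/
def h0c_gen (d : h9_DivN N) : ↥(modularFunctionFieldFull N) :=
  haveI : NeZero d.1 := ⟨h9_DivN_ne_zero N d⟩
  ⟨qExpand ℚ d.1 jq, jqd_mem_full N d.2⟩

/-- polynomials in the generators, over `ℚ`. -/
def h0c_evQ : MvPolynomial (h9_DivN N) ℚ →+* ↥(modularFunctionFieldFull N) :=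
  MvPolynomial.eval₂Hom (algebraMap ℚ ↥(modularFunctionFieldFull N)) (h0c_gen N)

theorem h0c_incl_algebraMap (a : ℚ) :
    h2e_incl N (algebraMap ℚ ↥(modularFunctionFieldFull N) a) =
      algebraMap Kbar (FN N) (algebraMap ℚ Kbar a) := by
  apply Subtype.ext
  rw [h3_algebraMap_FN_coe]
  show coeffEmb Kbar ((algebraMap ℚ ↥(modularFunctionFieldFull N) a :
    ↥(modularFunctionFieldFull N)) : LaurentSeries ℚ) = _
  have : ((algebraMap ℚ ↥(modularFunctionFieldFull N) a : ↥(modularFunctionFieldFull N)) :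
      LaurentSeries ℚ) = algebraMap ℚ (LaurentSeries ℚ) a := by
    rw [eq_ratCast, eq_ratCast]
    norm_cast
  rw [this, ModularCurve.algebraMap_laurentSeries_eq_single, coeffEmb, coeffMap_single]

theorem h0c_incl_gen (d : h9_DivN N) : h2e_incl N (h0c_gen N d) = h9_gen N d := rfl

theorem h0c_incl_jFull : h2e_incl N (jFull N) = xJ N := rfl

theorem h0c_incl_evQ (P : MvPolynomial (h9_DivN N) ℚ) :
    h2e_incl N (h0c_evQ N P) = h9_evF N (MvPolynomial.map (algebraMap ℚ Kbar) P) := by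
  have h : (h2e_incl N).comp (h0c_evQ N) =
      (h9_evF N).comp (MvPolynomial.map (algebraMap ℚ Kbar)) := by
    apply MvPolynomial.ringHom_ext
    · intro a
      simp only [RingHom.comp_apply, h0c_evQ, MvPolynomial.coe_eval₂Hom, MvPolynomial.eval₂_C,
        MvPolynomial.map_C, h9_evF_C]
      exact h0c_incl_algebraMap N a
    · intro d
      simp only [RingHom.comp_apply, h0c_evQ, MvPolynomial.coe_eval₂Hom, MvPolynomial.eval₂_X,
        MvPolynomial.map_X, h9_evF_X]
      rfl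
  exact congrArg (fun f => f P) h

theorem h0c_incl_injective : Function.Injective (h2e_incl N) :=
  (h2e_incl N).injective

/-- `j` is transcendental over `ℚ`. -/
theorem h0c_transcendental : Transcendental ℚ (jFull N) := by
  rw [transcendental_iff]
  intro p hp
  have htr := h3_transcendental_xJ N
  rw [transcendental_iff] at htr
  have h1 : Polynomial.aeval (xJ N) (p.map (algebraMap ℚ Kbar)) = 0 := by
    rw [Polynomial.aeval_def, Polynomial.eval₂_map]
    have h2 := Polynomial.hom_eval₂ p (algebraMap ℚ ↥(modularFunctionFieldFull N)) (h2e_incl N)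
      (jFull N)
    rw [← Polynomial.aeval_def, hp, map_zero, h0c_incl_jFull] at h2
    rw [h2]
    congr 1
    refine RingHom.ext fun a => ?_
    simp only [RingHom.comp_apply]
    exact (h0c_incl_algebraMap N a).symm
  have h3 := htr _ h1
  exact Polynomial.map_injective _ (algebraMap ℚ Kbar).injective (by rw [h3, Polynomial.map_zero])

/-- the finite set of generators. -/
def h0c_genSet : Finset ↥(modularFunctionFieldFull N) :=
  (Set.toFinite (Set.range (h0c_gen N))).toFinset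

theorem h0c_mem_genSet (f : ↥(modularFunctionFieldFull N)) :
    f ∈ h0c_genSet N ↔ ∃ d, h0c_gen N d = f := by
  simp [h0c_genSet]

theorem h0c_jFull_mem_genSet : jFull N ∈ h0c_genSet N := by
  refine (h0c_mem_genSet N _).mpr ⟨⟨1, one_dvd N⟩, ?_⟩
  apply Subtype.ext
  show qExpand ℚ 1 jq = jq
  rw [qExpand_one_apply]

theorem h0c_adjoin_eq_top :
    adjoin ℚ (insert (jFull N) (↑(h0c_genSet N) : Set ↥(modularFunctionFieldFull N))) = ⊤ := by
  rw [eq_top_iff]
  rintro ⟨y, hy⟩ -
  generalize hK : adjoin ℚ (insert (jFull N)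
    (↑(h0c_genSet N) : Set ↥(modularFunctionFieldFull N))) = K'
  have hgen : ∀ d : h9_DivN N, h0c_gen N d ∈ K' := by
    intro d
    rw [← hK]
    refine subset_adjoin ℚ _ (Set.mem_insert_of_mem _ ?_)
    exact Finset.mem_coe.mpr ((h0c_mem_genSet N _).mpr ⟨d, rfl⟩)
  have key : ∀ (x : LaurentSeries ℚ) (hx : x ∈ adjoin ℚ (divisorExpansions N)),
      ∃ z : ↥(modularFunctionFieldFull N), z ∈ K' ∧ (z : LaurentSeries ℚ) = x := by
    intro x hx
    induction hx using IntermediateField.adjoin_induction with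
    | mem x hx =>
      obtain ⟨d, hd, hdN, rfl⟩ := hx
      exact ⟨h0c_gen N ⟨d, hdN⟩, hgen _, rfl⟩
    | algebraMap q =>
      refine ⟨algebraMap ℚ ↥(modularFunctionFieldFull N) q, K'.algebraMap_mem q, ?_⟩
      rw [eq_ratCast, eq_ratCast]
      norm_cast
    | add x y hx hy hx' hy' =>
      obtain ⟨z, hz, rfl⟩ := hx'
      obtain ⟨w, hw, rfl⟩ := hy'
      exact ⟨z + w, K'.add_mem hz hw, rfl⟩
    | inv x hx hx' =>
      obtain ⟨z, hz, rfl⟩ := hx'
      exact ⟨z⁻¹, K'.inv_mem hz, rfl⟩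
    | mul x y hx hy hx' hy' =>
      obtain ⟨z, hz, rfl⟩ := hx'
      obtain ⟨w, hw, rfl⟩ := hy'
      exact ⟨z * w, K'.mul_mem hz hw, rfl⟩
  obtain ⟨z, hz, hzy⟩ := key y hy
  have : z = ⟨y, hy⟩ := Subtype.ext hzy
  rw [← this]
  exact hz

theorem h0c_exists_evQ_of_mem_adjoin (θ : ↥(modularFunctionFieldFull N))
    (hθ : θ ∈ Algebra.adjoin ℚ
      (insert (jFull N) (↑(h0c_genSet N) : Set ↥(modularFunctionFieldFull N)))) :
    ∃ P, h0c_evQ N P = θ := by
  induction hθ using Algebra.adjoin_induction with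
  | mem s hs =>
    have hs' : s ∈ h0c_genSet N := by
      rcases hs with rfl | hs
      · exact h0c_jFull_mem_genSet N
      · exact Finset.mem_coe.mp hs
    obtain ⟨d, rfl⟩ := (h0c_mem_genSet N s).mp hs'
    exact ⟨MvPolynomial.X d, by simp [h0c_evQ]⟩
  | algebraMap a => exact ⟨MvPolynomial.C a, by simp [h0c_evQ]⟩
  | add y z _ _ hy hz =>
    obtain ⟨P, rfl⟩ := hy
    obtain ⟨Q, rfl⟩ := hz
    exact ⟨P + Q, map_add _ _ _⟩
  | mul y z _ _ hy hz =>
    obtain ⟨P, rfl⟩ := hy
    obtain ⟨Q, rfl⟩ := hz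
    exact ⟨P * Q, map_mul _ _ _⟩

end Fermat.Agent.Lib.S28

namespace Fermat.Agent.Lib.S28

open ModularCurve ModularCurve.IgusaScheme Fermat.Agent.Lib.X0 Polynomial IntermediateField
open scoped MatrixGroups

variable (N : ℕ) [NeZero N]

theorem h0c_coe_smul (a : Kbar) (z : FN N) :
    ((a • z : FN N) : LaurentSeries Kbar) = a • (z : LaurentSeries Kbar) := by
  rw [Algebra.smul_def, MulMemClass.coe_mul, h3_algebraMap_FN_coe, ← HahnSeries.C_mul_eq_smul]
  rfl

theorem h0c_coe_incl (x : ↥(modularFunctionFieldFull N)) :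
    ((h2e_incl N x : FN N) : LaurentSeries Kbar) =
      coeffMap (algebraMap ℚ Kbar) (x : LaurentSeries ℚ) := rfl

/-- the relation of degree `≤ [SL₂(ℤ) : Γ₀(N)]` over `ℚ[j]`, by descent from `ℚ̄`. -/
theorem h0c_rel (P : MvPolynomial (h9_DivN N) ℚ) :
    ∃ b : Fin (Nat.card (QN N) + 1) → Polynomial ℚ, b ≠ 0 ∧
      ∑ i, Polynomial.aeval (jFull N) (b i) * (h0c_evQ N P) ^ (i : ℕ) = 0 := by
  classical
  obtain ⟨b, hb, hrel⟩ := h2_coordRel N (MvPolynomial.map (algebraMap ℚ Kbar) P)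
  set D := (Finset.univ : Finset (Fin (Nat.card (QN N) + 1))).sup
    (fun i => (b i).natDegree) with hD
  have hDle : ∀ i, (b i).natDegree < D + 1 := fun i =>
    Nat.lt_succ_of_le (Finset.le_sup (f := fun i => (b i).natDegree) (Finset.mem_univ i))
  let c : Fin (Nat.card (QN N) + 1) × Fin (D + 1) → Kbar := fun p => (b p.1).coeff (p.2 : ℕ)
  have hc : c ≠ 0 := by
    intro h
    apply hb
    funext i
    ext a
    by_cases ha : a < D + 1
    · have := congrFun h (i, ⟨a, ha⟩)
      simpa [c] using this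
    · simp only [Pi.zero_apply, Polynomial.coeff_zero]
      exact Polynomial.coeff_eq_zero_of_natDegree_lt (lt_of_lt_of_le (hDle i) (not_lt.mp ha))
  set θ := h0c_evQ N P with hθ
  let s : Fin (Nat.card (QN N) + 1) × Fin (D + 1) → LaurentSeries ℚ :=
    fun p => jq ^ (p.2 : ℕ) * (θ : LaurentSeries ℚ) ^ (p.1 : ℕ)
  have hrel' : ∑ p, c p • coeffMap (algebraMap ℚ Kbar) (s p) = 0 := by
    have h1 : ((∑ i, Polynomial.aeval (xJ N) (b i) *
        (h9_evF N (MvPolynomial.map (algebraMap ℚ Kbar) P)) ^ (i : ℕ) : FN N) :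
          LaurentSeries Kbar) = 0 := by
      rw [hrel]; rfl
    simp only [← h0c_incl_evQ, ← hθ] at h1
    rw [← h1, Fintype.sum_prod_type]
    simp only [AddSubmonoidClass.coe_finsetSum, MulMemClass.coe_mul, SubmonoidClass.coe_pow]
    refine Finset.sum_congr rfl fun i _ => ?_
    rw [Polynomial.aeval_eq_sum_range' (hDle i), AddSubmonoidClass.coe_finsetSum,
      Finset.sum_mul, Finset.sum_range]
    refine Finset.sum_congr rfl fun a _ => ?_
    simp only [s, c, map_mul, map_pow, h0c_coe_smul, h0c_coe_incl, SubmonoidClass.coe_pow]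
    have hxJ : ((xJ N : FN N) : LaurentSeries Kbar) = coeffMap (algebraMap ℚ Kbar) jq := rfl
    rw [hxJ, ← HahnSeries.C_mul_eq_smul, ← HahnSeries.C_mul_eq_smul, mul_assoc]
  obtain ⟨b', hb', hbrel⟩ := h8_descent (algebraMap ℚ Kbar) s c hc hrel'
  apply h8_rel_of_coeffs (jFull N) θ (Nat.card (QN N)) D b' hb'
  apply Subtype.val_injective
  have h2 : ∀ p : Fin (Nat.card (QN N) + 1) × Fin (D + 1),
      ((algebraMap ℚ ↥(modularFunctionFieldFull N) (b' p) *
        (jFull N ^ (p.2 : ℕ) * θ ^ (p.1 : ℕ)) : ↥(modularFunctionFieldFull N)) :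
          LaurentSeries ℚ) = b' p • s p := by
    intro p
    have h3 : ((algebraMap ℚ ↥(modularFunctionFieldFull N) (b' p) :
        ↥(modularFunctionFieldFull N)) : LaurentSeries ℚ) =
          algebraMap ℚ (LaurentSeries ℚ) (b' p) := by
      rw [eq_ratCast, eq_ratCast]
      norm_cast
    simp only [MulMemClass.coe_mul, SubmonoidClass.coe_pow, h3, s, coe_jFull]
    rw [ModularCurve.algebraMap_laurentSeries_eq_single]
    exact HahnSeries.C_mul_eq_smul
  show ((∑ p, algebraMap ℚ ↥(modularFunctionFieldFull N) (b' p) *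
    (jFull N ^ (p.2 : ℕ) * θ ^ (p.1 : ℕ)) : ↥(modularFunctionFieldFull N)) : LaurentSeries ℚ) =
      ((0 : ↥(modularFunctionFieldFull N)) : LaurentSeries ℚ)
  rw [AddSubmonoidClass.coe_finsetSum, ZeroMemClass.coe_zero, ← hbrel]
  exact Finset.sum_congr rfl fun p _ => h2 p

end Fermat.Agent.Lib.S28

namespace Fermat.Agent.Lib.S28

open ModularCurve ModularCurve.IgusaScheme Fermat.Agent.Lib.X0 Polynomial IntermediateField
open scoped MatrixGroups

variable (N : ℕ) [NeZero N]

/-- (upper bound) `j` is a coordinate of `F/ℚ` and `[F : ℚ(j)] ≤ [SL₂(ℤ) : Γ₀(N)]`. -/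
theorem h0c_isCoord : IsCoord ℚ (jFull N) ∧ coordDegree ℚ (jFull N) ≤ Nat.card (QN N) :=
  h8_isCoord_of_relations (jFull N) (h0c_transcendental N) (Nat.card (QN N)) (h0c_genSet N)
    (h0c_adjoin_eq_top N) (fun θ hθ => by
      obtain ⟨P, rfl⟩ := h0c_exists_evQ_of_mem_adjoin N θ hθ
      exact h0c_rel N P)

/-- two ring homomorphisms out of `F_N = ℚ̄·F` agreeing on `ℚ̄` and on `F` agree. -/
theorem h0c_agree_of {L : Type*} [Field L] (φ ψ : FN N →+* L)
    (hK : ∀ a : Kbar, φ (algebraMap Kbar (FN N) a) = ψ (algebraMap Kbar (FN N) a))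
    (hF : ∀ x : ↥(modularFunctionFieldFull N), φ (h2e_incl N x) = ψ (h2e_incl N x)) : φ = ψ := by
  have key : ∀ (y : LaurentSeries Kbar)
      (hy : y ∈ adjoin Kbar (⇑(coeffEmb Kbar) '' ((modularFunctionFieldFull N : Set (LaurentSeries ℚ))))),
      ∃ z : FN N, (z : LaurentSeries Kbar) = y ∧ φ z = ψ z := by
    intro y hy
    induction hy using IntermediateField.adjoin_induction with
    | mem y hy =>
      obtain ⟨x, hx, rfl⟩ := hy
      exact ⟨h2e_incl N ⟨x, hx⟩, rfl, hF _⟩
    | algebraMap a => exact ⟨algebraMap Kbar (FN N) a, rfl, hK a⟩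
    | add x y hx hy hx' hy' =>
      obtain ⟨z, rfl, hz⟩ := hx'
      obtain ⟨w, rfl, hw⟩ := hy'
      exact ⟨z + w, rfl, by rw [map_add, map_add, hz, hw]⟩
    | inv x hx hx' =>
      obtain ⟨z, rfl, hz⟩ := hx'
      exact ⟨z⁻¹, rfl, by rw [map_inv₀, map_inv₀, hz]⟩
    | mul x y hx hy hx' hy' =>
      obtain ⟨z, rfl, hz⟩ := hx'
      obtain ⟨w, rfl, hw⟩ := hy'
      exact ⟨z * w, rfl, by rw [map_mul, map_mul, hz, hw]⟩
  refine RingHom.ext fun y => ?_
  obtain ⟨z, hz, hzφ⟩ := key (y : LaurentSeries Kbar) y.2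
  have : z = y := Subtype.ext hz
  rw [← this]
  exact hzφ

/-- restriction of a family of local embeddings of `F_N` at `∞` to `F`. -/
def h0c_localEmb (E : LocalEmb iotaC (xJ N) (xJ N)⁻¹ (QN N) N) :
    LocalEmb (algebraMap ℚ ℂ) (jFull N) (jFull N)⁻¹ (QN N) N where
  τ q := (E.τ q).comp (h2e_incl N)
  inj := by
    intro q q' h
    apply E.inj
    apply h0c_agree_of N
    · intro a
      rw [E.const, E.const]
    · intro x
      exact congrArg (fun f : ↥(modularFunctionFieldFull N) →+* LaurentSeries ℂ => f x) h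
  const q a := by
    show E.τ q (h2e_incl N (algebraMap ℚ _ a)) = _
    rw [h0c_incl_algebraMap, E.const]
    congr 1
    rw [eq_ratCast, eq_ratCast, map_ratCast]
  agree q q' := E.agree q q'
  ord_t q := by
    show (E.τ q (h2e_incl N (jFull N)⁻¹)).order = _
    rw [map_inv₀, h0c_incl_jFull]
    exact E.ord_t q
  M_pos := E.M_pos

/-- **(E2)** `[F : ℚ(j)] = [SL₂(ℤ) : Γ₀(N)]`. -/
theorem h0c_cardStatement : h2e_CardStatement N := by
  obtain ⟨hcoord, hle⟩ := h0c_isCoord N
  obtain ⟨E, _⟩ := h5_cInfty N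
  letI : Fintype (QN N) := Fintype.ofFinite _
  have hge := h8_card_le_coordDegree (algebraMap ℚ ℂ) (jFull N) _ hcoord (QN N) N
    (h0c_localEmb N E)
  rw [← Nat.card_eq_fintype_card] at hge
  exact le_antisymm hle hge

end Fermat.Agent.Lib.S28
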