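import Fermat.Agent.Lib.S28.DefsB

/-!
# S28 (B), package P3: linear algebra of the conjugate expansions
-/

set_option autoImplicit false
set_option linter.unusedSectionVars false

noncomputable section

namespace Fermat.Agent.Lib.S28

open ModularCurve ModularCurve.IgusaScheme Polynomial

variable {N : ℕ} [NeZero N] {ℓ : ℕ} [Fact ℓ.Prime] {C : h0_Coeff ℓ} (D : h0_EmbData N ℓ C)

/-- the base field `ℚ(j) ⊂ F`. -/
abbrev h1l_K (N : ℕ) [NeZero N] : IntermediateField ℚ ↥(modularFunctionFieldFull N) :=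
  IntermediateField.adjoin ℚ ({jFull N} : Set ↥(modularFunctionFieldFull N))

/-- all conjugate expansions agree on `ℚ(j)`. -/
theorem h1l_agree_K (i : D.ι) (c : ↥(modularFunctionFieldFull N)) (hc : c ∈ h1l_K N) :
    D.σ i c = D.σ D.i0 c := by
  have hle : h1l_K N ≤ (RingHom.eqLocusField (D.σ i) (D.σ D.i0)).toIntermediateField
      (fun r => by
        show D.σ i (algebraMap ℚ _ r) = D.σ D.i0 (algebraMap ℚ _ r)
        rw [eq_ratCast, map_ratCast, map_ratCast]) := by
    rw [IntermediateField.adjoin_le_iff]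
    rintro x (rfl : x = jFull N)
    exact D.agree i
  exact hle hc

/-- the nodes `σ_i θ` are pairwise distinct. -/
theorem h1l_theta_inj : Function.Injective fun i => D.σ i D.θ := by
  intro i k hik
  by_contra hne
  have h := D.θ_diff i k hne
  have h0 : D.σ i D.θ - D.σ k D.θ = 0 := sub_eq_zero.mpr hik
  rw [h0] at h
  obtain ⟨-, b, -, hb⟩ := h
  simp at hb


/-- number of conjugates. -/
abbrev h1l_n : ℕ := @Fintype.card D.ι D.fin

/-- enumeration of the conjugates. -/
def h1l_e : Fin (h1l_n D) ≃ D.ι := (@Fintype.equivFin D.ι D.fin).symm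

/-- the nodes of the Vandermonde matrix. -/
def h1l_v (a : Fin (h1l_n D)) : LaurentSeries ℂ := D.σ (h1l_e D a) D.θ

theorem h1l_v_inj : Function.Injective (h1l_v D) := fun _ _ h =>
  (h1l_e D).injective (h1l_theta_inj D h)

/-- the Vandermonde matrix `V a m = (σ_a θ)^m`. -/
def h1l_V : Matrix (Fin (h1l_n D)) (Fin (h1l_n D)) (LaurentSeries ℂ) :=
  Matrix.vandermonde (h1l_v D)

theorem h1l_V_det_ne_zero : (h1l_V D).det ≠ 0 :=
  Matrix.det_vandermonde_ne_zero_iff.mpr (h1l_v_inj D)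

/-- `σ_{i0}` restricted to `K`. -/
def h1l_s0 : ↥(h1l_K N) →+* LaurentSeries ℂ := (D.σ D.i0).comp (algebraMap ↥(h1l_K N) _)

theorem h1l_s0_inj : Function.Injective (h1l_s0 D) := (h1l_s0 D).injective

/-- applying `σ_a` to a `K`-linear combination of powers of `θ`. -/
theorem h1l_sigma_sum (a : Fin (h1l_n D)) (c : Fin (h1l_n D) → ↥(h1l_K N)) :
    D.σ (h1l_e D a) (∑ m, c m • D.θ ^ (m : ℕ)) =
      ((h1l_V D).mulVec fun m => h1l_s0 D (c m)) a := by
  rw [map_sum, Matrix.mulVec, dotProduct]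
  refine Finset.sum_congr rfl fun m _ => ?_
  rw [Algebra.smul_def, map_mul, map_pow]
  have h1 : D.σ (h1l_e D a) (algebraMap ↥(h1l_K N) ↥(modularFunctionFieldFull N) (c m)) =
      h1l_s0 D (c m) := h1l_agree_K D _ _ (c m).2
  rw [h1, mul_comm]
  rfl

theorem h1l_pow_linearIndependent :
    LinearIndependent ↥(h1l_K N) fun m : Fin (h1l_n D) => D.θ ^ (m : ℕ) := by
  rw [Fintype.linearIndependent_iff]
  intro c hc m
  have h0 : (h1l_V D).mulVec (fun m => h1l_s0 D (c m)) = 0 := by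
    funext a
    rw [← h1l_sigma_sum, hc, map_zero]
    rfl
  have := Matrix.eq_zero_of_mulVec_eq_zero (h1l_V_det_ne_zero D) h0
  have hm : h1l_s0 D (c m) = 0 := congrFun this m
  exact (map_eq_zero_iff _ (h1l_s0_inj D)).mp hm


instance h1l_nonempty : Nonempty (Fin (h1l_n D)) := ⟨(h1l_e D).symm D.i0⟩

/-- the power basis `1, θ, …, θ^{n-1}` of `F` over `ℚ(j)`. -/
def h1l_basis : Module.Basis (Fin (h1l_n D)) ↥(h1l_K N) ↥(modularFunctionFieldFull N) :=
  basisOfLinearIndependentOfCardEqFinrank (h1l_pow_linearIndependent D)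
    (by rw [Fintype.card_fin]; exact D.card.symm)

theorem h1l_basis_apply (m : Fin (h1l_n D)) : h1l_basis D m = D.θ ^ (m : ℕ) := by
  rw [h1l_basis, coe_basisOfLinearIndependentOfCardEqFinrank]

include D in
theorem h1l_finiteDimensional : FiniteDimensional ↥(h1l_K N) ↥(modularFunctionFieldFull N) :=
  Module.Finite.of_basis (h1l_basis D)

/-- `σ_a x = Σ_m σ_{i0}(c_m) (σ_a θ)^m` for the coordinates `c = repr x`. -/
theorem h1l_sigma_repr (x : ↥(modularFunctionFieldFull N)) (a : Fin (h1l_n D)) :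
    D.σ (h1l_e D a) x =
      ((h1l_V D).mulVec fun m => h1l_s0 D ((h1l_basis D).repr x m)) a := by
  rw [← h1l_sigma_sum]
  congr 1
  conv_lhs => rw [← (h1l_basis D).sum_repr x]
  refine Finset.sum_congr rfl fun m _ => ?_
  rw [h1l_basis_apply]


/-- the matrix of multiplication by `x` in the power basis. -/
def h1l_M (x : ↥(modularFunctionFieldFull N)) :
    Matrix (Fin (h1l_n D)) (Fin (h1l_n D)) ↥(h1l_K N) :=
  Algebra.leftMulMatrix (h1l_basis D) x

/-- the Vandermonde matrix diagonalises multiplication by `x`. -/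
theorem h1l_VM (x : ↥(modularFunctionFieldFull N)) :
    h1l_V D * (h1l_M D x).map (h1l_s0 D) =
      Matrix.diagonal (fun a => D.σ (h1l_e D a) x) * h1l_V D := by
  ext a j
  rw [Matrix.diagonal_mul, Matrix.mul_apply]
  have h1 : ∑ i, h1l_V D a i * ((h1l_M D x).map (h1l_s0 D)) i j =
      ((h1l_V D).mulVec fun i => h1l_s0 D ((h1l_basis D).repr (x * h1l_basis D j) i)) a := by
    rw [Matrix.mulVec, dotProduct]
    refine Finset.sum_congr rfl fun i _ => ?_
    rw [Matrix.map_apply, h1l_M, Algebra.leftMulMatrix_eq_repr_mul]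
  rw [h1, ← h1l_sigma_repr, map_mul, h1l_basis_apply, map_pow]
  rfl

theorem h1l_V_isUnit : IsUnit (h1l_V D) :=
  (Matrix.isUnit_iff_isUnit_det _).mpr (isUnit_iff_ne_zero.mpr (h1l_V_det_ne_zero D))



theorem h1l_charpoly_conj {n : Type*} [Fintype n] [DecidableEq n] {R : Type*} [CommRing R]
    (V M' Dg : Matrix n n R) (hV : IsUnit V) (h : V * M' = Dg * V) :
    M'.charpoly = Dg.charpoly := by
  obtain ⟨U, rfl⟩ := hV
  have hdet : IsUnit U.val.det := (Matrix.isUnit_iff_isUnit_det _).mp U.isUnit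
  have h2 : M' = U.val⁻¹ * Dg * U.val := by
    calc M' = (U.val⁻¹ * U.val) * M' := by rw [Matrix.nonsing_inv_mul _ hdet, one_mul]
     _ = U.val⁻¹ * (U.val * M') := mul_assoc _ _ _
     _ = U.val⁻¹ * (Dg * U.val) := by rw [h]
     _ = _ := (mul_assoc _ _ _).symm
  rw [h2]
  exact Matrix.charpoly_units_conj' U _

/-- the characteristic polynomial of `x` over `ℚ(j)`, mapped by `σ_{i0}`, is `Π (X - σ_a x)`. -/
theorem h1l_charpoly_map (x : ↥(modularFunctionFieldFull N)) :
    (h1l_M D x).charpoly.map (h1l_s0 D) = ∏ a, (X - Polynomial.C (D.σ (h1l_e D a) x)) := by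
  have e1 : (h1l_M D x).charpoly.map (h1l_s0 D) = ((h1l_M D x).map (h1l_s0 D)).charpoly :=
    (Matrix.charpoly_map (h1l_M D x) (h1l_s0 D)).symm
  have e2 : ∏ a, (X - Polynomial.C (D.σ (h1l_e D a) x)) =
      (Matrix.diagonal (fun a => D.σ (h1l_e D a) x)).charpoly :=
    (Matrix.charpoly_diagonal _).symm
  rw [e1, e2]
  exact h1l_charpoly_conj _ _ _ (h1l_V_isUnit D) (h1l_VM D x)

/-- Cayley–Hamilton for the multiplication matrix. -/
theorem h1l_aeval_charpoly (x : ↥(modularFunctionFieldFull N)) :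
    Polynomial.aeval x (h1l_M D x).charpoly = 0 := by
  have h := Matrix.aeval_self_charpoly (h1l_M D x)
  have h2 : Algebra.leftMulMatrix (h1l_basis D) (Polynomial.aeval x (h1l_M D x).charpoly) = 0 := by
    rw [← Polynomial.aeval_algHom_apply]
    exact h
  exact (Algebra.leftMulMatrix_injective (h1l_basis D)) (h2.trans (map_zero _).symm)


/-- **(P3c)** -/
theorem h1l_charpoly : h1b_Charpoly D := by
  intro z
  refine ⟨(h1l_M D z).charpoly.map (algebraMap ↥(h1l_K N) ↥(modularFunctionFieldFull N)),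
    (Matrix.charpoly_monic _).map _, fun k => ?_, ?_, ?_⟩
  · rw [Polynomial.coeff_map]
    exact SetLike.coe_mem _
  · rw [Polynomial.eval_map, ← Polynomial.aeval_def]
    exact h1l_aeval_charpoly D z
  · rw [Polynomial.map_map]
    have h := h1l_charpoly_map D z
    have h1 : (D.σ D.i0).comp (algebraMap ↥(h1l_K N) ↥(modularFunctionFieldFull N)) = h1l_s0 D := rfl
    rw [h1, h]
    letI := D.fin
    have h2 : ∏ a, (X - Polynomial.C (D.σ (h1l_e D a) z)) =
        ∏ i : D.ι, (X - Polynomial.C (D.σ i z)) :=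
      Equiv.prod_comp (h1l_e D) fun i => (X - Polynomial.C (D.σ i z))
    rw [h2]
    rfl


/-- the subfield of quotients of elements of `ℤ[j, θ]`. -/
def h1l_Q : Subfield ↥(modularFunctionFieldFull N) where
  carrier := {x | ∃ a w : ↥(modularFunctionFieldFull N),
    a ∈ Subring.closure ({jFull N, D.θ} : Set ↥(modularFunctionFieldFull N)) ∧
    w ∈ Subring.closure ({jFull N, D.θ} : Set ↥(modularFunctionFieldFull N)) ∧
    w ≠ 0 ∧ x * w = a}
  zero_mem' := ⟨0, 1, zero_mem _, one_mem _, one_ne_zero, by ring⟩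
  one_mem' := ⟨1, 1, one_mem _, one_mem _, one_ne_zero, by ring⟩
  add_mem' := by
    rintro x x' ⟨a, w, ha, hw, hw0, h⟩ ⟨a', w', ha', hw', hw0', h'⟩
    exact ⟨a * w' + a' * w, w * w', add_mem (mul_mem ha hw') (mul_mem ha' hw), mul_mem hw hw',
      mul_ne_zero hw0 hw0', by rw [← h, ← h']; ring⟩
  neg_mem' := by
    rintro x ⟨a, w, ha, hw, hw0, h⟩
    exact ⟨-a, w, neg_mem ha, hw, hw0, by rw [← h]; ring⟩
  mul_mem' := by
    rintro x x' ⟨a, w, ha, hw, hw0, h⟩ ⟨a', w', ha', hw', hw0', h'⟩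
    exact ⟨a * a', w * w', mul_mem ha ha', mul_mem hw hw', mul_ne_zero hw0 hw0',
      by rw [← h, ← h']; ring⟩
  inv_mem' := by
    rintro x ⟨a, w, ha, hw, hw0, h⟩
    by_cases hx : x = 0
    · subst hx
      exact ⟨0, 1, zero_mem _, one_mem _, one_ne_zero, by simp⟩
    · refine ⟨w, a, hw, ha, ?_, ?_⟩
      · rw [← h]; exact mul_ne_zero hx hw0
      · rw [← h, ← mul_assoc, inv_mul_cancel₀ hx, one_mul]

theorem h1l_mem_Q_of_mem_closure {x : ↥(modularFunctionFieldFull N)}
    (hx : x ∈ Subring.closure ({jFull N, D.θ} : Set ↥(modularFunctionFieldFull N))) :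
    x ∈ h1l_Q D :=
  ⟨x, 1, hx, one_mem _, one_ne_zero, mul_one x⟩

theorem h1l_K_le_Q {c : ↥(modularFunctionFieldFull N)} (hc : c ∈ h1l_K N) : c ∈ h1l_Q D := by
  have hle : h1l_K N ≤ (h1l_Q D).toIntermediateField (fun r => by
      show algebraMap ℚ _ r ∈ h1l_Q D
      rw [eq_ratCast]
      exact SubfieldClass.ratCast_mem _ r) := by
    rw [IntermediateField.adjoin_le_iff]
    rintro x (rfl : x = jFull N)
    exact h1l_mem_Q_of_mem_closure D (Subring.subset_closure (by simp))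
  exact hle hc

/-- **(P3a)** -/
theorem h1l_fracRepr : h1b_FracRepr D := by
  intro x
  have hx : x ∈ h1l_Q D := by
    rw [← (h1l_basis D).sum_repr x]
    refine sum_mem fun m _ => ?_
    rw [Algebra.smul_def, h1l_basis_apply]
    refine mul_mem (h1l_K_le_Q D (SetLike.coe_mem _)) (pow_mem ?_ _)
    exact h1l_mem_Q_of_mem_closure D (Subring.subset_closure (by simp))
  exact hx

end Fermat.Agent.Lib.S28
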