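/-
S28 project, analytic side, helper2: the arithmetic identities behind the orders of the modular
unit `U = ∏_{δ ∣ N} (Δ(δ z)/Δ(z))^{-δ μ(N/δ)}`:

* `h2a_sum_mu_gcd` : `∑_{δ ∣ N} μ(N/δ) gcd(δ,c)² = 0` for `N ∤ c`;
* `h2a_sum_mu_id`  : `∑_{δ ∣ N} μ(N/δ) δ = φ(N)`;
* `h2a_order_pos`  : the order of `U` at a cusp with lower-left entry `c`, `N ∤ c`, is positive.
Pure Mathlib.
-/
import Mathlib

set_option autoImplicit false

namespace Fermat.Agent.Lib.S28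

open ArithmeticFunction Finset
open scoped ArithmeticFunction.Moebius

/-- `f c n = ∑_{δ ∣ n} μ(n/δ) gcd(δ,c)²`. -/
def h2a_f (c : ℕ) (n : ℕ) : ℤ :=
  ∑ x ∈ n.divisorsAntidiagonal, (μ x.1 : ℤ) * ((Nat.gcd x.2 c : ℤ)) ^ 2

/-- Möbius inversion: `gcd(n,c)² = ∑_{t ∣ n} f c t`. -/
theorem h2a_sum_f (c : ℕ) (n : ℕ) (hn : 0 < n) :
    ∑ t ∈ n.divisors, h2a_f c t = ((Nat.gcd n c : ℤ)) ^ 2 := by
  have h := (sum_eq_iff_sum_mul_moebius_eq (R := ℤ) (f := h2a_f c)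
    (g := fun n => ((Nat.gcd n c : ℤ)) ^ 2)).mpr (fun n _ => rfl)
  exact h n hn

/-- `f c n = 0` when `n ∤ c`. -/
theorem h2a_f_eq_zero (c : ℕ) : ∀ n : ℕ, 0 < n → ¬ n ∣ c → h2a_f c n = 0 := by
  intro n
  induction n using Nat.strong_induction_on with
  | _ n ih =>
    intro hn hnc
    set m := Nat.gcd n c with hm
    have hmn : m ∣ n := Nat.gcd_dvd_left n c
    have hmc : m ∣ c := Nat.gcd_dvd_right n c
    have hmpos : 0 < m := Nat.gcd_pos_of_pos_left c hn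
    have hmne : m ≠ n := fun h => hnc (h ▸ hmc)
    have h1 := h2a_sum_f c n hn
    have h2 := h2a_sum_f c m hmpos
    have hgm : Nat.gcd m c = m := Nat.gcd_eq_left hmc
    rw [hgm] at h2
    -- split off `t = n`
    have hnmem : n ∈ n.divisors := Nat.mem_divisors_self n hn.ne'
    rw [← Finset.add_sum_erase _ _ hnmem] at h1
    -- the remaining sum is the sum over the divisors of `m`
    have h3 : ∑ t ∈ n.divisors.erase n, h2a_f c t = ∑ t ∈ m.divisors, h2a_f c t := by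
      symm
      apply Finset.sum_subset
      · intro t ht
        have htm : t ∣ m := Nat.dvd_of_mem_divisors ht
        rw [Finset.mem_erase, Nat.mem_divisors]
        refine ⟨fun h => ?_, htm.trans hmn, hn.ne'⟩
        subst h
        exact hmne (Nat.dvd_antisymm hmn htm)
      · intro t ht htm
        rw [Finset.mem_erase, Nat.mem_divisors] at ht
        obtain ⟨htn, htdvd, -⟩ := ht
        have htpos : 0 < t := Nat.pos_of_dvd_of_pos htdvd hn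
        have htlt : t < n := lt_of_le_of_ne (Nat.le_of_dvd hn htdvd) htn
        apply ih t htlt htpos
        intro htc
        apply htm
        rw [Nat.mem_divisors]
        exact ⟨Nat.dvd_gcd htdvd htc, hmpos.ne'⟩
    rw [h3, h2] at h1
    linarith

/-- `∑_{δ ∣ N} μ(N/δ) gcd(δ,c)² = 0` for `N ∤ c`. -/
theorem h2a_sum_mu_gcd (N c : ℕ) (hN : 0 < N) (h : ¬ N ∣ c) :
    ∑ δ ∈ N.divisors, (μ (N / δ) : ℤ) * ((Nat.gcd δ c : ℤ)) ^ 2 = 0 := by
  have h1 := h2a_f_eq_zero c N hN h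
  unfold h2a_f at h1
  rw [Nat.sum_divisorsAntidiagonal' (fun a b => (μ a : ℤ) * ((Nat.gcd b c : ℤ)) ^ 2)] at h1
  exact h1

/-- `∑_{δ ∣ N} μ(N/δ) δ = φ(N)`. -/
theorem h2a_sum_mu_id (N : ℕ) (hN : 0 < N) :
    ∑ δ ∈ N.divisors, (μ (N / δ) : ℤ) * (δ : ℤ) = (Nat.totient N : ℤ) := by
  have h := (sum_eq_iff_sum_mul_moebius_eq (R := ℤ) (f := fun n => (Nat.totient n : ℤ))
    (g := fun n => (n : ℤ))).mp (fun n _ => by
      have := Nat.sum_totient n
      have h2 : ((∑ i ∈ n.divisors, Nat.totient i : ℕ) : ℤ) = (n : ℤ) := by rw [this]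
      rw [← h2]
      push_cast
      rfl) N hN
  simp only [Int.cast_id] at h
  rw [Nat.sum_divisorsAntidiagonal' (fun a b => (μ a : ℤ) * (b : ℤ))] at h
  exact h

/-- **The order of the unit at a cusp with lower-left entry `c`, `N ∤ c`, is positive.**
`a δ = gcd(δ,c)`, `s δ · δ = (a δ)² N` (so that `s δ - N` is the order of `Δ(δ·)/Δ` in `q_N`),
exponents `n_δ = -δ μ(N/δ)`. -/
theorem h2a_order_pos (N c : ℕ) (hN : 0 < N) (h : ¬ N ∣ c) (s : ℕ → ℕ)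
    (hs : ∀ δ ∈ N.divisors, s δ * δ = (Nat.gcd δ c) ^ 2 * N) :
    0 < ∑ δ ∈ N.divisors, (-(δ : ℤ) * (μ (N / δ) : ℤ)) * ((s δ : ℤ) - (N : ℤ)) := by
  have h1 : ∀ δ ∈ N.divisors, (-(δ : ℤ) * (μ (N / δ) : ℤ)) * ((s δ : ℤ) - (N : ℤ)) =
      (N : ℤ) * ((μ (N / δ) : ℤ) * (δ : ℤ)) -
        (N : ℤ) * ((μ (N / δ) : ℤ) * ((Nat.gcd δ c : ℤ)) ^ 2) := by
    intro δ hδ
    have h2 : ((s δ : ℤ)) * (δ : ℤ) = ((Nat.gcd δ c : ℤ)) ^ 2 * (N : ℤ) := by
      exact_mod_cast hs δ hδ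
    linear_combination (-(μ (N / δ) : ℤ)) * h2
  rw [Finset.sum_congr rfl h1, Finset.sum_sub_distrib, ← Finset.mul_sum, ← Finset.mul_sum,
    h2a_sum_mu_gcd N c hN h, h2a_sum_mu_id N hN, mul_zero, sub_zero]
  have : 0 < Nat.totient N := Nat.totient_pos.mpr hN
  positivity

end Fermat.Agent.Lib.S28
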