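/-
S28 project (Igusa), helper2: the modular units `Δ(d z)/Δ(z)` and their `q_N`-expansions at all
cusps.

* `h2u_Delta R`, `h2u_DeltaInv R` : the formal series `X ∏(1-Xⁿ)^24` and its inverse over any
  commutative ring `R`; compatible with `coeffMap`.
* `h2u_ratio R N s ζ c = c · Δ(ζ X^s) / Δ(X^N)`.
* `h2u_expands_ratio` : for `d ∣ N` and `γ ∈ SL(2,ℤ)`,
  `z ↦ Δ(d·γz)/Δ(γz)` has the `q_N`-expansion `h2u_ratio ℂ N s ζ_e^b e⁻¹²` with
  `a e = d`, `s e = a N`, `a = gcd(γ₁₀, d)`.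
-/
import Mathlib
import Fermat.Agent.Lib.X0.CuspExp
import Fermat.Agent.Lib.X0.LevelOnePoly

set_option autoImplicit false

noncomputable section

namespace Fermat.Agent.Lib.S28

open Matrix MatrixGroups ModularCurve HahnSeries Fermat.Agent.Lib.X0
open UpperHalfPlane hiding I
open Complex ModularForm

local notation "𝕢" => Function.Periodic.qParam
local notation "Δ" => ModularForm.discriminant

section formal

variable (R : Type*) [CommRing R]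

/-- the formal `Δ = X ∏ (1 - Xⁿ)^24` over `R`. -/
def h2u_Delta : LaurentSeries R :=
  HahnSeries.single (1 : ℤ) (1 : R) *
    HahnSeries.ofPowerSeries ℤ R (dedekindEtaUnit.map (Int.castRingHom R))

/-- the formal `Δ⁻¹` over `R`. -/
def h2u_DeltaInv : LaurentSeries R :=
  HahnSeries.single (-1 : ℤ) (1 : R) *
    HahnSeries.ofPowerSeries ℤ R (dedekindEtaUnitInv.map (Int.castRingHom R))

theorem h2u_Delta_mul_inv : h2u_Delta R * h2u_DeltaInv R = 1 := by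
  unfold h2u_Delta h2u_DeltaInv
  have h1 : HahnSeries.ofPowerSeries ℤ R (dedekindEtaUnit.map (Int.castRingHom R)) *
      HahnSeries.ofPowerSeries ℤ R (dedekindEtaUnitInv.map (Int.castRingHom R)) = 1 := by
    rw [← map_mul, ← map_mul, dedekindEtaUnit_mul_inv, map_one, map_one]
  have h2 : (HahnSeries.single (1 : ℤ) (1 : R)) * HahnSeries.single (-1 : ℤ) (1 : R) = 1 := by
    rw [HahnSeries.single_mul_single]
    simp
  calc _ = (HahnSeries.single (1 : ℤ) (1 : R) * HahnSeries.single (-1 : ℤ) (1 : R)) *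
        (HahnSeries.ofPowerSeries ℤ R (dedekindEtaUnit.map (Int.castRingHom R)) *
          HahnSeries.ofPowerSeries ℤ R (dedekindEtaUnitInv.map (Int.castRingHom R))) := by ring
    _ = 1 := by rw [h1, h2, mul_one]

variable {R} in
theorem h2u_coeffMap_Delta {S : Type*} [CommRing S] (f : R →+* S) :
    coeffMap f (h2u_Delta R) = h2u_Delta S := by
  unfold h2u_Delta
  rw [map_mul, coeffMap_single, map_one, h5_coeffMap_ofPowerSeries,
    ← RingHom.comp_apply (PowerSeries.map f) (PowerSeries.map (Int.castRingHom R)),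
    ← PowerSeries.map_comp, RingHom.ext_int (f.comp (Int.castRingHom R)) (Int.castRingHom S)]

variable {R} in
theorem h2u_coeffMap_DeltaInv {S : Type*} [CommRing S] (f : R →+* S) :
    coeffMap f (h2u_DeltaInv R) = h2u_DeltaInv S := by
  unfold h2u_DeltaInv
  rw [map_mul, coeffMap_single, map_one, h5_coeffMap_ofPowerSeries,
    ← RingHom.comp_apply (PowerSeries.map f) (PowerSeries.map (Int.castRingHom R)),
    ← PowerSeries.map_comp, RingHom.ext_int (f.comp (Int.castRingHom R)) (Int.castRingHom S)]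

/-- `c · Δ(ζ X^s) / Δ(X^N)`. -/
def h2u_ratio (N s : ℕ) [NeZero N] [NeZero s] (ζ : Rˣ) (c : R) : LaurentSeries R :=
  HahnSeries.C c * qExpand R s (h5_twist ζ (h2u_Delta R)) * qExpand R N (h2u_DeltaInv R)

/-- `c⁻¹ · Δ(X^N) / Δ(ζ X^s)`. -/
def h2u_ratioInv (N s : ℕ) [NeZero N] [NeZero s] (ζ : Rˣ) (c' : R) : LaurentSeries R :=
  HahnSeries.C c' * qExpand R s (h5_twist ζ (h2u_DeltaInv R)) * qExpand R N (h2u_Delta R)

theorem h2u_ratio_mul_inv (N s : ℕ) [NeZero N] [NeZero s] (ζ : Rˣ) (c c' : R) (hc : c * c' = 1) :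
    h2u_ratio R N s ζ c * h2u_ratioInv R N s ζ c' = 1 := by
  unfold h2u_ratio h2u_ratioInv
  have h1 : qExpand R s (h5_twist ζ (h2u_Delta R)) * qExpand R s (h5_twist ζ (h2u_DeltaInv R))
      = 1 := by
    rw [← map_mul, ← map_mul, h2u_Delta_mul_inv, map_one, map_one]
  have h2 : qExpand R N (h2u_DeltaInv R) * qExpand R N (h2u_Delta R) = 1 := by
    rw [← map_mul, mul_comm, h2u_Delta_mul_inv, map_one]
  have h3 : (HahnSeries.C c : LaurentSeries R) * HahnSeries.C c' = 1 := by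
    rw [← map_mul, hc, map_one]
  calc _ = (HahnSeries.C c * HahnSeries.C c') *
        (qExpand R s (h5_twist ζ (h2u_Delta R)) * qExpand R s (h5_twist ζ (h2u_DeltaInv R))) *
        (qExpand R N (h2u_DeltaInv R) * qExpand R N (h2u_Delta R)) := by ring
    _ = 1 := by rw [h1, h2, h3, mul_one, mul_one]

end formal

/-! ### analytic side -/

theorem h2u_LSum_Delta (τ : ℍ) : h9_LSum (h2u_Delta ℂ) (𝕢 1 (τ : ℂ)) (Δ τ) := by
  have hq : ‖𝕢 1 (τ : ℂ)‖ < 1 := Function.Periodic.norm_qParam_lt_one one_pos τ.im_pos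
  have hq0 : 𝕢 1 (τ : ℂ) ≠ 0 := Function.Periodic.qParam_ne_zero _
  have hη := (h1_isTaylor_etaFun.pow 24) _ hq
  have hΔ : ModularForm.discriminant τ = 𝕢 1 τ * h1_etaFun (𝕢 1 τ) ^ 24 := by
    rw [ModularForm.discriminant_eq_q_prod, h1_etaFun,
      ← (ModularForm.multipliable_one_sub_pow hq).tprod_pow]
  have h1 : h9_LSum (HahnSeries.single (1 : ℤ) (1 : ℂ)) (𝕢 1 (τ : ℂ)) (𝕢 1 (τ : ℂ)) := by
    have := h9_LSum_single 1 1 (𝕢 1 (τ : ℂ))
    simpa using this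
  have h2 : h9_LSum (HahnSeries.ofPowerSeries ℤ ℂ (dedekindEtaUnit.map (Int.castRingHom ℂ)))
      (𝕢 1 (τ : ℂ)) (h1_etaFun (𝕢 1 τ) ^ 24) := by
    rw [h9_LSum_ofPowerSeries_iff]
    have e : dedekindEtaUnit.map (Int.castRingHom ℂ) = (etaProd.map (Int.castRingHom ℂ)) ^ 24 := by
      rw [dedekindEtaUnit, map_pow]
    rw [e]
    exact hη
  have h3 := h9_LSum_mul hq0 h1 h2
  rw [← hΔ] at h3
  exact h3

theorem h2u_LSum_DeltaInv (τ : ℍ) : h9_LSum (h2u_DeltaInv ℂ) (𝕢 1 (τ : ℂ)) (Δ τ)⁻¹ := by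
  have hq : ‖𝕢 1 (τ : ℂ)‖ < 1 := Function.Periodic.norm_qParam_lt_one one_pos τ.im_pos
  have hq0 : 𝕢 1 (τ : ℂ) ≠ 0 := Function.Periodic.qParam_ne_zero _
  have hη := h1_isTaylor_etaFun.pow 24
  have hinv : h1_IsTaylor (fun q => (h1_etaFun q ^ 24)⁻¹)
      (ModularCurve.dedekindEtaUnitInv.map (Int.castRingHom ℂ)) := by
    refine hη.inv (h1_differentiableOn_etaFun.pow 24)
      (fun q hq => pow_ne_zero _ (h1_etaFun_ne_zero hq)) ?_
    rw [← map_pow, ← map_mul]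
    show PowerSeries.map _ (ModularCurve.dedekindEtaUnit * ModularCurve.dedekindEtaUnitInv) = 1
    rw [ModularCurve.dedekindEtaUnit_mul_inv, map_one]
  have hΔ : ModularForm.discriminant τ = 𝕢 1 τ * h1_etaFun (𝕢 1 τ) ^ 24 := by
    rw [ModularForm.discriminant_eq_q_prod, h1_etaFun,
      ← (ModularForm.multipliable_one_sub_pow hq).tprod_pow]
  have h1 : h9_LSum (HahnSeries.single (-1 : ℤ) (1 : ℂ)) (𝕢 1 (τ : ℂ)) (𝕢 1 (τ : ℂ))⁻¹ := by
    have := h9_LSum_single (-1) 1 (𝕢 1 (τ : ℂ))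
    simpa using this
  have h2 : h9_LSum (HahnSeries.ofPowerSeries ℤ ℂ (dedekindEtaUnitInv.map (Int.castRingHom ℂ)))
      (𝕢 1 (τ : ℂ)) (h1_etaFun (𝕢 1 τ) ^ 24)⁻¹ := by
    rw [h9_LSum_ofPowerSeries_iff]
    exact hinv _ hq
  have h3 := h9_LSum_mul hq0 h1 h2
  rw [hΔ, mul_inv]
  exact h3

/-- `Δ((a z + b)/e)` in `q_N`, `s e = a N`. -/
theorem h2u_LSum_Delta_hermite (N a b e s : ℕ) [NeZero s] (hN : 0 < N) (he : 0 < e)
    (hs : s * e = a * N) (z τ' : ℍ) (hτ' : (τ' : ℂ) = ((a : ℂ) * z + b) / e) :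
    h9_LSum (qExpand ℂ s (h5_twist (h5_zeta e ^ b) (h2u_Delta ℂ))) (𝕢 (N : ℝ) (z : ℂ)) (Δ τ') := by
  rw [h5_LSum_qExpand_iff, h5_LSum_twist_iff, ← h5_qParam_hermite N a b e s hN he hs z τ' hτ']
  exact h2u_LSum_Delta τ'

theorem h2u_LSum_DeltaInv_hermite (N a b e s : ℕ) [NeZero s] (hN : 0 < N) (he : 0 < e)
    (hs : s * e = a * N) (z τ' : ℍ) (hτ' : (τ' : ℂ) = ((a : ℂ) * z + b) / e) :
    h9_LSum (qExpand ℂ s (h5_twist (h5_zeta e ^ b) (h2u_DeltaInv ℂ))) (𝕢 (N : ℝ) (z : ℂ))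
      (Δ τ')⁻¹ := by
  rw [h5_LSum_qExpand_iff, h5_LSum_twist_iff, ← h5_qParam_hermite N a b e s hN he hs z τ' hτ']
  exact h2u_LSum_DeltaInv τ'

/-- `Δ(z)` in `q_N`. -/
theorem h2u_LSum_Delta_N (N : ℕ) [NeZero N] (z : ℍ) :
    h9_LSum (qExpand ℂ N (h2u_Delta ℂ)) (𝕢 (N : ℝ) (z : ℂ)) (Δ z) := by
  have hN : 0 < N := Nat.pos_of_ne_zero (NeZero.ne N)
  rw [h5_LSum_qExpand_iff]
  have h := h5_qParam_hermite N 1 0 1 N hN one_pos (by ring) z z (by push_cast; ring)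
  have h1 : ((h5_zeta 1 ^ 0 : ℂˣ) : ℂ) = 1 := by simp
  rw [h1, one_mul] at h
  rw [← h]
  exact h2u_LSum_Delta z

theorem h2u_LSum_DeltaInv_N (N : ℕ) [NeZero N] (z : ℍ) :
    h9_LSum (qExpand ℂ N (h2u_DeltaInv ℂ)) (𝕢 (N : ℝ) (z : ℂ)) (Δ z)⁻¹ := by
  have hN : 0 < N := Nat.pos_of_ne_zero (NeZero.ne N)
  rw [h5_LSum_qExpand_iff]
  have h := h5_qParam_hermite N 1 0 1 N hN one_pos (by ring) z z (by push_cast; ring)
  have h1 : ((h5_zeta 1 ^ 0 : ℂˣ) : ℂ) = 1 := by simp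
  rw [h1, one_mul] at h
  rw [← h]
  exact h2u_LSum_DeltaInv z

/-- The modular unit `u_d(τ) = Δ(dτ)/Δ(τ)`. -/
def h2u_unit (d : ℕ) (τ : ℍ) : ℂ := Δ (h9_dmul d τ) / Δ τ

/-- `u_d(γ z) = e⁻¹² Δ((a z + b)/e) / Δ(z)` by the Hermite decomposition. -/
theorem h2u_unit_smul_of_hermite (d : ℕ) (hd0 : 0 < d) (γ g : SL(2, ℤ)) (a b e : ℕ) (he : 0 < e)
    (h3 : γ 1 0 = g 1 0 * a) (h4 : γ 1 1 = g 1 0 * b + g 1 1 * e)
    (z τ' : ℍ) (hτ' : (τ' : ℂ) = ((a : ℂ) * z + b) / e)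
    (hg : (d : ℂ) * ((γ • z : ℍ) : ℂ) = ((g • τ' : ℍ) : ℂ)) :
    h2u_unit d (γ • z) = ((e : ℂ)⁻¹) ^ 12 * (Δ τ' * (Δ z)⁻¹) := by
  have h1 : h9_dmul d (γ • z) = g • τ' := by
    apply UpperHalfPlane.ext
    rw [h9_dmul_coe hd0, hg]
  have heC : (e : ℂ) ≠ 0 := by exact_mod_cast he.ne'
  rw [h2u_unit, h1, h6_disc_smul, h6_disc_smul]
  have hden : denom γ z = (e : ℂ) * denom g τ' := by
    have e1 : denom γ z = (γ 1 0 : ℂ) * z + (γ 1 1 : ℂ) := by simp [denom]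
    have e2 : denom g τ' = (g 1 0 : ℂ) * τ' + (g 1 1 : ℂ) := by simp [denom]
    rw [e1, e2, hτ', h3, h4]
    push_cast
    field_simp
    ring
  have hd1 : denom g τ' ≠ 0 := denom_ne_zero _ _
  have hΔz : Δ z ≠ 0 := ModularForm.discriminant_ne_zero z
  rw [hden]
  rw [show (12 : ℤ) = ((12 : ℕ) : ℤ) from rfl, zpow_natCast, zpow_natCast]
  field_simp

/-- **Expansion of the modular unit `u_d` at every cusp.** -/
theorem h2u_expands_ratio (N d : ℕ) [NeZero N] (hd : d ∣ N) (γ : SL(2, ℤ)) :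
    ∃ (a b e s : ℕ) (_ : NeZero s), 0 < a ∧ 0 < e ∧ a * e = d ∧ b < e ∧ s * e = a * N ∧
      (∃ g : SL(2, ℤ), γ 1 0 = g 1 0 * a ∧ γ 1 1 = g 1 0 * b + g 1 1 * e) ∧
      h9_ExpandsInfty N (fun z => h2u_unit d (γ • z))
        (h2u_ratio ℂ N s (h5_zeta e ^ b) (((e : ℂ)⁻¹) ^ 12)) := by
  have hN : 0 < N := Nat.pos_of_ne_zero (NeZero.ne N)
  have hd0 : 0 < d := Nat.pos_of_dvd_of_pos hd hN
  obtain ⟨g, a, b, e, ha, he, hae, hbe, ⟨-, -, h3, h4⟩, hτ⟩ := h5_hermite_smul d hd0 γ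
  have heN : e ∣ N := (Dvd.intro_left a hae).trans hd
  have hs : a * (N / e) * e = a * N := by rw [mul_assoc, Nat.div_mul_cancel heN]
  have hs0 : a * (N / e) ≠ 0 :=
    Nat.mul_ne_zero ha.ne' (Nat.div_pos (Nat.le_of_dvd hN heN) he).ne'
  haveI : NeZero (a * (N / e)) := ⟨hs0⟩
  refine ⟨a, b, e, a * (N / e), inferInstance, ha, he, hae, hbe, hs, ⟨g, h3, h4⟩, ?_⟩
  intro z
  obtain ⟨τ', hτ', hg⟩ := hτ z
  show h9_LSum _ _ (h2u_unit d (γ • z))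
  rw [h2u_unit_smul_of_hermite d hd0 γ g a b e he h3 h4 z τ' hτ' hg]
  have hq0 : 𝕢 (N : ℝ) (z : ℂ) ≠ 0 := Function.Periodic.qParam_ne_zero _
  unfold h2u_ratio
  rw [mul_assoc]
  refine h9_LSum_mul hq0 (h9_LSum_C _ _) ?_
  exact h9_LSum_mul hq0 (h2u_LSum_Delta_hermite N a b e _ hN he hs z τ' hτ')
    (h2u_LSum_DeltaInv_N N z)

end Fermat.Agent.Lib.S28
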