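import Mathlib
import Fermat.Agent.Lib.S28.H2DeltaUnit

set_option autoImplicit false

noncomputable section

namespace Fermat.Agent.Lib.S28

open ModularCurve HahnSeries Fermat.Agent.Lib.X0

section Leads

variable {R : Type*} [CommRing R]

/-- `x = c X^m + (higher terms)` (no nonvanishing requirement on `c`). -/
def h6l_Leads (x : LaurentSeries R) (m : ℤ) (c : R) : Prop :=
  x.coeff m = c ∧ ∀ n < m, x.coeff n = 0

theorem h6l_Leads.mul {x y : LaurentSeries R} {m m' : ℤ} {c c' : R}
    (hx : h6l_Leads x m c) (hy : h6l_Leads y m' c') : h6l_Leads (x * y) (m + m') (c * c') := by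
  have key : ∀ (i j : ℤ), (i, j) ≠ (m, m') → i + j ≤ m + m' → x.coeff i * y.coeff j = 0 := by
    intro i j hne hsum
    rcases lt_trichotomy i m with hi | hi | hi
    · rw [hx.2 i hi, zero_mul]
    · by_cases hj : j < m'
      · rw [hy.2 j hj, mul_zero]
      · exfalso; apply hne
        have : j = m' := by omega
        rw [hi, this]
    · have hj : j < m' := by omega
      rw [hy.2 j hj, mul_zero]
  constructor
  · rw [HahnSeries.coeff_mul, Finset.sum_eq_single (m, m')]
    · rw [hx.1, hy.1]
    · rintro ⟨i, j⟩ hij hne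
      rw [Finset.mem_antidiagonal] at hij
      exact key i j hne (le_of_eq hij.2.2)
    · intro hmem
      rw [Finset.mem_antidiagonal] at hmem
      simp only [HahnSeries.mem_support, ne_eq, and_true, not_and, not_not] at hmem
      by_cases h1 : x.coeff m = 0
      · rw [h1, zero_mul]
      · rw [hmem h1, mul_zero]
  · intro n hn
    rw [HahnSeries.coeff_mul]
    refine Finset.sum_eq_zero ?_
    rintro ⟨i, j⟩ hij
    rw [Finset.mem_antidiagonal] at hij
    have hsum : i + j = n := hij.2.2
    refine key i j ?_ (by omega)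
    intro h
    have h1 : i = m := congrArg Prod.fst h
    have h2 : j = m' := congrArg Prod.snd h
    omega

theorem h6l_Leads_one : h6l_Leads (1 : LaurentSeries R) 0 1 := by
  constructor
  · simp
  · intro n hn
    rw [HahnSeries.coeff_one, if_neg hn.ne]

theorem h6l_Leads_C (c : R) : h6l_Leads (HahnSeries.C c : LaurentSeries R) 0 c := by
  constructor
  · rw [HahnSeries.C_apply, HahnSeries.coeff_single_same]
  · intro n hn
    rw [HahnSeries.C_apply, HahnSeries.coeff_single_of_ne hn.ne]

theorem h6l_Leads_single (m : ℤ) (c : R) : h6l_Leads (HahnSeries.single m c : LaurentSeries R) m c := by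
  constructor
  · rw [HahnSeries.coeff_single_same]
  · intro n hn
    rw [HahnSeries.coeff_single_of_ne hn.ne]

theorem h6l_Leads.pow {x : LaurentSeries R} {m : ℤ} {c : R} (hx : h6l_Leads x m c) (k : ℕ) :
    h6l_Leads (x ^ k) (k * m) (c ^ k) := by
  induction k with
  | zero => simpa using h6l_Leads_one (R := R)
  | succ k ih =>
    have := ih.mul hx
    rw [pow_succ, pow_succ]
    convert this using 1
    push_cast; ring

theorem h6l_Leads.prod {ι : Type*} (s : Finset ι) (x : ι → LaurentSeries R) (m : ι → ℤ)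
    (c : ι → R) (h : ∀ i ∈ s, h6l_Leads (x i) (m i) (c i)) :
    h6l_Leads (∏ i ∈ s, x i) (∑ i ∈ s, m i) (∏ i ∈ s, c i) := by
  classical
  induction s using Finset.induction_on with
  | empty => simpa using h6l_Leads_one (R := R)
  | insert a s ha ih =>
    rw [Finset.prod_insert ha, Finset.sum_insert ha, Finset.prod_insert ha]
    exact (h a (Finset.mem_insert_self a s)).mul
      (ih (fun i hi => h i (Finset.mem_insert_of_mem hi)))

theorem h6l_Leads_ofPowerSeries (p : PowerSeries R) :
    h6l_Leads (HahnSeries.ofPowerSeries ℤ R p) 0 (PowerSeries.constantCoeff p) := by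
  constructor
  · have := HahnSeries.ofPowerSeries_apply_coeff (Γ := ℤ) p 0
    simpa using this
  · intro n hn
    exact ofPowerSeries_coeff_of_neg p hn

theorem h6l_Leads.twist {x : LaurentSeries R} {m : ℤ} {c : R} (hx : h6l_Leads x m c) (ζ : Rˣ) :
    h6l_Leads (h5_twist ζ x) m (((ζ ^ m : Rˣ) : R) * c) := by
  constructor
  · rw [h5_twist_coeff, hx.1]
  · intro n hn
    rw [h5_twist_coeff, hx.2 n hn, mul_zero]

theorem h6l_Leads.qExpand {x : LaurentSeries R} {m : ℤ} {c : R} (hx : h6l_Leads x m c)
    (s : ℕ) [NeZero s] : h6l_Leads (qExpand R s x) (s * m) c := by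
  constructor
  · rw [qExpand_coeff_mul, hx.1]
  · intro n hn
    by_cases hdvd : (s : ℤ) ∣ n
    · obtain ⟨k, rfl⟩ := hdvd
      rw [qExpand_coeff_mul]
      apply hx.2
      have hs : (0 : ℤ) < s := by exact_mod_cast Nat.pos_of_ne_zero (NeZero.ne s)
      exact lt_of_mul_lt_mul_left hn hs.le
    · exact qExpand_coeff_of_not_dvd s x hdvd

theorem h6l_Delta : h6l_Leads (h2u_Delta R) 1 1 := by
  have h1 := h6l_Leads_single (R := R) 1 1
  have h2 := h6l_Leads_ofPowerSeries (dedekindEtaUnit.map (Int.castRingHom R))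
  have h3 := h1.mul h2
  have hc : PowerSeries.constantCoeff (dedekindEtaUnit.map (Int.castRingHom R)) = 1 := by
    rw [← PowerSeries.coeff_zero_eq_constantCoeff, PowerSeries.coeff_map,
      PowerSeries.coeff_zero_eq_constantCoeff, constantCoeff_dedekindEtaUnit]
    simp
  rw [hc] at h3
  simpa [h2u_Delta] using h3

theorem h6l_DeltaInv : h6l_Leads (h2u_DeltaInv R) (-1) 1 := by
  have h1 := h6l_Leads_single (R := R) (-1) 1
  have h2 := h6l_Leads_ofPowerSeries (dedekindEtaUnitInv.map (Int.castRingHom R))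
  have h3 := h1.mul h2
  have hc : PowerSeries.constantCoeff (dedekindEtaUnitInv.map (Int.castRingHom R)) = 1 := by
    rw [← PowerSeries.coeff_zero_eq_constantCoeff, PowerSeries.coeff_map,
      PowerSeries.coeff_zero_eq_constantCoeff, constantCoeff_dedekindEtaUnitInv]
    simp
  rw [hc] at h3
  simpa [h2u_DeltaInv] using h3

/-- leading term of `c · Δ(ζ X^s) / Δ(X^N)`. -/
theorem h6l_ratio_leads (N s : ℕ) [NeZero N] [NeZero s] (ζ : Rˣ) (c : R) :
    h6l_Leads (h2u_ratio R N s ζ c) ((s : ℤ) - N) (c * (ζ : R)) := by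
  have h1 := ((h6l_Delta (R := R)).twist ζ).qExpand s
  have h2 := (h6l_DeltaInv (R := R)).qExpand N
  have h3 := ((h6l_Leads_C c).mul h1).mul h2
  unfold h2u_ratio
  convert h3 using 1
  · ring
  · simp

/-- leading term of `c' · Δ(X^N) / Δ(ζ X^s)`. -/
theorem h6l_ratioInv_leads (N s : ℕ) [NeZero N] [NeZero s] (ζ : Rˣ) (c' : R) :
    h6l_Leads (h2u_ratioInv R N s ζ c') ((N : ℤ) - s) (c' * ((ζ⁻¹ : Rˣ) : R)) := by
  have h1 := ((h6l_DeltaInv (R := R)).twist ζ).qExpand s
  have h2 := (h6l_Delta (R := R)).qExpand N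
  have h3 := ((h6l_Leads_C c').mul h1).mul h2
  unfold h2u_ratioInv
  convert h3 using 1
  · ring
  · simp

end Leads

end Fermat.Agent.Lib.S28
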