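/-
S28 project (Igusa), helper1: **(K1), assembly**: the modular unit
`U = ∏_{δ ∣ N} (Δ(δ z)/Δ(z))^{-δ μ(N/δ)}` as an element of `h2q_ring N 𝒪`, with unit leading
coefficients at all cusps and positive order away from `∞`.

`h1u_unit_of` is the abstract assembly: from two families `uP δ`, `uM δ` of elements of
`h2q_ring N 𝒪` whose expansions at every `g` are `h2u_ratio`, `h2u_ratioInv` with the right
arithmetic of the exponents, produce `h2q_UnitStatement N 𝒪`.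
-/
import Mathlib
import Fermat.Agent.Lib.S28.DefsAn
import Fermat.Agent.Lib.S28.H2DeltaUnit
import Fermat.Agent.Lib.S28.H2Arith
import Fermat.Agent.Lib.S28.H6Leads

set_option autoImplicit false

noncomputable section

namespace Fermat.Agent.Lib.S28

open UpperHalfPlane ModularCurve Fermat.Agent.Lib.X0
open ArithmeticFunction
open scoped MatrixGroups Manifold ArithmeticFunction.Moebius

/-- The exponent `n_δ = -δ μ(N/δ)` of `Δ(δ z)/Δ(z)` in the modular unit. -/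
def h1u_expo (N δ : ℕ) : ℤ := -(δ : ℤ) * (μ (N / δ) : ℤ)

/-- The factor `u_δ^{n_δ}`, written with the inverse `uM δ` when the exponent is negative. -/
def h1u_factor {A : Type*} [Monoid A] (uP uM : ℕ → A) (N δ : ℕ) : A :=
  if 0 ≤ h1u_expo N δ then uP δ ^ (h1u_expo N δ).toNat else uM δ ^ (-(h1u_expo N δ)).toNat

theorem h1u_not_dvd_of_not_mem (N : ℕ) (g : SL(2, ℤ)) (hg : g ∉ CongruenceSubgroup.Gamma0 N) :
    ¬ N ∣ (g 1 0).natAbs := by
  intro h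
  apply hg
  rw [CongruenceSubgroup.Gamma0_mem, ZMod.intCast_zmod_eq_zero_iff_dvd]
  exact Int.natCast_dvd.mpr h

/-- **(K1.c), abstract assembly.** -/
theorem h1u_unit_of (N : ℕ) [NeZero N] (𝒪 : Subring ℂ) (uP uM : ℕ → h2q_ring N 𝒪)
    (hexp : ∀ d ∈ N.divisors, ∀ g : SL(2, ℤ), ∃ (s : ℕ) (_ : NeZero s) (ζ : 𝒪ˣ) (c c' : 𝒪),
      c * c' = 1 ∧ s * d = (Nat.gcd d (g 1 0).natAbs) ^ 2 * N ∧
      h2q_exp N 𝒪 g (uP d) = h2u_ratio 𝒪 N s ζ c ∧
      h2q_exp N 𝒪 g (uM d) = h2u_ratioInv 𝒪 N s ζ c') :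
    h2q_UnitStatement N 𝒪 := by
  have hN : 0 < N := Nat.pos_of_ne_zero (NeZero.ne N)
  refine ⟨∏ δ ∈ N.divisors, h1u_factor uP uM N δ, fun g => ?_⟩
  -- per-divisor leading data
  have key : ∀ δ ∈ N.divisors, ∃ (s : ℕ) (c : 𝒪ˣ),
      s * δ = (Nat.gcd δ (g 1 0).natAbs) ^ 2 * N ∧
      h6l_Leads (h2q_exp N 𝒪 g (h1u_factor uP uM N δ))
        (h1u_expo N δ * ((s : ℤ) - (N : ℤ))) (c : 𝒪) := by
    intro δ hδ
    obtain ⟨s, hs0, ζ, c, c', hcc, hs, hP, hM⟩ := hexp δ hδ g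
    have hcc' : c' * c = 1 := by rw [mul_comm]; exact hcc
    let cu : 𝒪ˣ := ⟨c, c', hcc, hcc'⟩
    let cu' : 𝒪ˣ := ⟨c', c, hcc', hcc⟩
    by_cases hn : 0 ≤ h1u_expo N δ
    · refine ⟨s, (cu * ζ) ^ (h1u_expo N δ).toNat, hs, ?_⟩
      have hL := (h6l_ratio_leads (R := 𝒪) N s ζ c).pow (h1u_expo N δ).toNat
      rw [h1u_factor, if_pos hn, map_pow, hP]
      have e1 : (((h1u_expo N δ).toNat : ℕ) : ℤ) = h1u_expo N δ := Int.toNat_of_nonneg hn
      rw [e1] at hL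
      have e2 : (((cu * ζ) ^ (h1u_expo N δ).toNat : 𝒪ˣ) : 𝒪) =
          (c * (ζ : 𝒪)) ^ (h1u_expo N δ).toNat := by
        rw [Units.val_pow_eq_pow_val, Units.val_mul]
      rw [e2]
      exact hL
    · have hn' : 0 ≤ -(h1u_expo N δ) := by omega
      refine ⟨s, (cu' * ζ⁻¹) ^ (-(h1u_expo N δ)).toNat, hs, ?_⟩
      have hL := (h6l_ratioInv_leads (R := 𝒪) N s ζ c').pow (-(h1u_expo N δ)).toNat
      rw [h1u_factor, if_neg hn, map_pow, hM]
      have e1 : (((-(h1u_expo N δ)).toNat : ℕ) : ℤ) = -(h1u_expo N δ) := Int.toNat_of_nonneg hn'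
      rw [e1] at hL
      have e2 : (((cu' * ζ⁻¹) ^ (-(h1u_expo N δ)).toNat : 𝒪ˣ) : 𝒪) =
          (c' * ((ζ⁻¹ : 𝒪ˣ) : 𝒪)) ^ (-(h1u_expo N δ)).toNat := by
        rw [Units.val_pow_eq_pow_val, Units.val_mul]
      rw [e2]
      have e3 : h1u_expo N δ * ((s : ℤ) - (N : ℤ)) = -(h1u_expo N δ) * ((N : ℤ) - (s : ℤ)) := by
        ring
      rw [e3]
      exact hL
  choose! s c hs hL using key
  have hprod := h6l_Leads.prod N.divisors
    (fun δ => h2q_exp N 𝒪 g (h1u_factor uP uM N δ))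
    (fun δ => h1u_expo N δ * ((s δ : ℤ) - (N : ℤ))) (fun δ => (c δ : 𝒪)) hL
  rw [← map_prod] at hprod
  refine ⟨∑ δ ∈ N.divisors, h1u_expo N δ * ((s δ : ℤ) - (N : ℤ)), ∏ δ ∈ N.divisors, c δ, ?_,
    hprod.2, fun hg => ?_⟩
  · rw [hprod.1, Units.coe_prod]
  · exact h2a_order_pos N (g 1 0).natAbs hN (h1u_not_dvd_of_not_mem N g hg) s hs

end Fermat.Agent.Lib.S28
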