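/-
S28 project, analytic side, helper2: **(K4, membership part)** the generators `J_d`, `d ∣ N`, lie
in `h2q_ring N 𝒪` as soon as `𝒪` contains the `N`-th roots of unity.
-/
import Mathlib
import Fermat.Agent.Lib.S28.DefsAn

set_option autoImplicit false

noncomputable section

namespace Fermat.Agent.Lib.S28

open UpperHalfPlane ModularCurve Fermat.Agent.Lib.X0
open scoped MatrixGroups Manifold

/-- `coeffMap` commutes with the twist. -/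
theorem h2q_coeffMap_twist {R S : Type*} [CommRing R] [CommRing S] (f : R →+* S) (ζ : Rˣ)
    (x : LaurentSeries R) :
    coeffMap f (h5_twist ζ x) = h5_twist (Units.map (f : R →* S) ζ) (coeffMap f x) := by
  ext n
  rw [coeffMap_coeff, h5_twist_coeff, h5_twist_coeff, coeffMap_coeff, map_mul]
  congr 1
  rw [← map_zpow]
  rfl

theorem h2q_jqC_eq : h5_jqC = jqModC ℂ := by
  have h : (jq : LaurentSeries ℚ) = jqModC ℚ := rfl
  rw [h5_jqC, h, coeffMap_jqModC]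

/-- `coeffMap` of the formal cusp series. -/
theorem h2q_coeffMap_cuspSer {R S : Type*} [CommRing R] [CommRing S] (f : R →+* S) (s : ℕ)
    [NeZero s] (ζ : Rˣ) :
    coeffMap f (h2q_cuspSer R s ζ) = h2q_cuspSer S s (Units.map (f : R →* S) ζ) := by
  rw [h2q_cuspSer, h2q_cuspSer, coeffMap_qExpand, h2q_coeffMap_twist, coeffMap_jqModC]

theorem h2q_cuspSer_complex (s : ℕ) [NeZero s] (ζ : ℂˣ) :
    h2q_cuspSer ℂ s ζ = h5_cuspSeries s ζ := by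
  rw [h2q_cuspSer, h5_cuspSeries, h2q_jqC_eq]

/-- A root of unity of order dividing `N` in `ℂ`, as a unit of `𝒪`. -/
def h2q_unitOf (𝒪 : Subring ℂ) (ζ : ℂˣ) (h : (ζ : ℂ) ∈ 𝒪) (h' : ((ζ⁻¹ : ℂˣ) : ℂ) ∈ 𝒪) : 𝒪ˣ where
  val := ⟨ζ, h⟩
  inv := ⟨((ζ⁻¹ : ℂˣ) : ℂ), h'⟩
  val_inv := Subtype.ext (by simp)
  inv_val := Subtype.ext (by simp)

theorem h2q_unitOf_map (𝒪 : Subring ℂ) (ζ : ℂˣ) (h : (ζ : ℂ) ∈ 𝒪) (h' : ((ζ⁻¹ : ℂˣ) : ℂ) ∈ 𝒪) :
    Units.map (𝒪.subtype : 𝒪 →* ℂ) (h2q_unitOf 𝒪 ζ h h') = ζ :=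
  Units.ext rfl

/-- **(K4, membership)**. -/
theorem h2q_Jd_mem (N : ℕ) [NeZero N] (d : ℕ) (hd : d ∣ N) (𝒪 : Subring ℂ)
    (hζ : ∀ ζ : ℂ, ζ ^ N = 1 → ζ ∈ 𝒪) : h2_JdHolo d ∈ h2q_ring N 𝒪 := by
  refine ⟨fun δ hδ => ?_, fun g => ?_⟩
  · apply Subtype.ext
    funext z
    rw [h2_holoSmul_apply]
    exact h5_Jd_invariant N d hd δ hδ z
  · obtain ⟨γ', a, b, e, s, hs0, ha, he, hae, hbe, hs, -, hexp⟩ := h5_exists_cuspSeries N d hd g
    have heN : e ∣ N := (Dvd.intro_left a hae).trans hd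
    set ζ : ℂˣ := h5_zeta e ^ b with hζdef
    have hpow : ζ ^ N = 1 := by
      obtain ⟨c, rfl⟩ := heN
      rw [hζdef, ← pow_mul, ← mul_assoc, mul_comm (b * e) c, mul_comm b e, ← mul_assoc, pow_mul,
        mul_comm c e, pow_mul, (h5_zeta_isPrimitiveRoot e he.ne').pow_eq_one, one_pow, one_pow]
    have h1 : (ζ : ℂ) ∈ 𝒪 := hζ _ (by rw [← Units.val_pow_eq_pow_val, hpow]; rfl)
    have h2 : ((ζ⁻¹ : ℂˣ) : ℂ) ∈ 𝒪 :=
      hζ _ (by rw [← Units.val_pow_eq_pow_val, inv_pow, hpow]; simp)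
    refine ⟨h2q_cuspSer 𝒪 s (h2q_unitOf 𝒪 ζ h1 h2), ?_⟩
    show h9_ExpandsInfty N _ _
    rw [h2q_coeffMap_cuspSer, h2q_unitOf_map, h2q_cuspSer_complex]
    exact hexp

end Fermat.Agent.Lib.S28
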