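/-
S28 project (Igusa), helper1: **(K1), expansions**: the `q_N`-expansions of `u_d ∘ γ` and of its inverse
with shared Hermite data, and compatibility of `h2u_ratio`, `h2u_ratioInv` with `coeffMap`.
-/
import Mathlib
import Fermat.Agent.Lib.S28.DefsAn
import Fermat.Agent.Lib.S28.H2DeltaUnit
import Fermat.Agent.Lib.S28.H2Arith
import Fermat.Agent.Lib.S28.H2Gen

set_option autoImplicit false

noncomputable section

namespace Fermat.Agent.Lib.S28

open UpperHalfPlane ModularCurve Fermat.Agent.Lib.X0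
open scoped MatrixGroups Manifold

local notation "𝕢" => Function.Periodic.qParam
local notation "Δ" => ModularForm.discriminant

/-! ### Expansions of `u_d ∘ γ` and of its inverse, with the same Hermite data -/

/-- Expansion of `u_d ∘ γ` and of `(u_d ∘ γ)⁻¹` at `∞`, sharing the Hermite data. -/
theorem h1u_expands_both (N d : ℕ) [NeZero N] (hd : d ∣ N) (γ : SL(2, ℤ)) :
    ∃ (a b e s : ℕ) (_ : NeZero s), 0 < a ∧ 0 < e ∧ a * e = d ∧ b < e ∧ s * e = a * N ∧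
      (∃ g : SL(2, ℤ), γ 1 0 = g 1 0 * a ∧ γ 1 1 = g 1 0 * b + g 1 1 * e) ∧
      h9_ExpandsInfty N (fun z => h2u_unit d (γ • z))
        (h2u_ratio ℂ N s (h5_zeta e ^ b) (((e : ℂ)⁻¹) ^ 12)) ∧
      h9_ExpandsInfty N (fun z => (h2u_unit d (γ • z))⁻¹)
        (h2u_ratioInv ℂ N s (h5_zeta e ^ b) ((e : ℂ) ^ 12)) := by
  have hN : 0 < N := Nat.pos_of_ne_zero (NeZero.ne N)
  have hd0 : 0 < d := Nat.pos_of_dvd_of_pos hd hN
  obtain ⟨g, a, b, e, ha, he, hae, hbe, ⟨-, -, h3, h4⟩, hτ⟩ := h5_hermite_smul d hd0 γ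
  have heN : e ∣ N := (Dvd.intro_left a hae).trans hd
  have hs : a * (N / e) * e = a * N := by rw [mul_assoc, Nat.div_mul_cancel heN]
  have hs0 : a * (N / e) ≠ 0 :=
    Nat.mul_ne_zero ha.ne' (Nat.div_pos (Nat.le_of_dvd hN heN) he).ne'
  have : NeZero (a * (N / e)) := ⟨hs0⟩
  refine ⟨a, b, e, a * (N / e), inferInstance, ha, he, hae, hbe, hs, ⟨g, h3, h4⟩, ?_, ?_⟩
  · intro z
    obtain ⟨τ', hτ', hg⟩ := hτ z
    show h9_LSum _ _ (h2u_unit d (γ • z))
    rw [h2u_unit_smul_of_hermite d hd0 γ g a b e he h3 h4 z τ' hτ' hg]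
    have hq0 : 𝕢 (N : ℝ) (z : ℂ) ≠ 0 := Function.Periodic.qParam_ne_zero _
    unfold h2u_ratio
    rw [mul_assoc]
    refine h9_LSum_mul hq0 (h9_LSum_C _ _) ?_
    exact h9_LSum_mul hq0 (h2u_LSum_Delta_hermite N a b e _ hN he hs z τ' hτ')
      (h2u_LSum_DeltaInv_N N z)
  · intro z
    obtain ⟨τ', hτ', hg⟩ := hτ z
    show h9_LSum _ _ (h2u_unit d (γ • z))⁻¹
    rw [h2u_unit_smul_of_hermite d hd0 γ g a b e he h3 h4 z τ' hτ' hg]
    have hq0 : 𝕢 (N : ℝ) (z : ℂ) ≠ 0 := Function.Periodic.qParam_ne_zero _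
    have heC : (e : ℂ) ≠ 0 := by exact_mod_cast he.ne'
    have hrw : (((e : ℂ)⁻¹) ^ 12 * (Δ τ' * (Δ z)⁻¹))⁻¹ = (e : ℂ) ^ 12 * ((Δ τ')⁻¹ * Δ z) := by
      rw [mul_inv, mul_inv, inv_inv, inv_pow, inv_inv]
    rw [hrw]
    unfold h2u_ratioInv
    rw [mul_assoc]
    refine h9_LSum_mul hq0 (h9_LSum_C _ _) ?_
    exact h9_LSum_mul hq0 (h2u_LSum_DeltaInv_hermite N a b e _ hN he hs z τ' hτ')
      (h2u_LSum_Delta_N N z)

/-! ### Descent of the ratio series to a subring -/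

theorem h1u_coeffMap_C {R S : Type*} [CommRing R] [CommRing S] (f : R →+* S) (c : R) :
    coeffMap f (HahnSeries.C c : LaurentSeries R) = HahnSeries.C (f c) := by
  rw [HahnSeries.C_apply, coeffMap_single, HahnSeries.C_apply]

theorem h1u_coeffMap_ratio {R S : Type*} [CommRing R] [CommRing S] (f : R →+* S) (N s : ℕ)
    [NeZero N] [NeZero s] (ζ : Rˣ) (c : R) :
    coeffMap f (h2u_ratio R N s ζ c) = h2u_ratio S N s (Units.map (f : R →* S) ζ) (f c) := by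
  unfold h2u_ratio
  rw [map_mul, map_mul, h1u_coeffMap_C, coeffMap_qExpand, coeffMap_qExpand, h2q_coeffMap_twist,
    h2u_coeffMap_Delta, h2u_coeffMap_DeltaInv]

theorem h1u_coeffMap_ratioInv {R S : Type*} [CommRing R] [CommRing S] (f : R →+* S) (N s : ℕ)
    [NeZero N] [NeZero s] (ζ : Rˣ) (c : R) :
    coeffMap f (h2u_ratioInv R N s ζ c) =
      h2u_ratioInv S N s (Units.map (f : R →* S) ζ) (f c) := by
  unfold h2u_ratioInv
  rw [map_mul, map_mul, h1u_coeffMap_C, coeffMap_qExpand, coeffMap_qExpand, h2q_coeffMap_twist,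
    h2u_coeffMap_Delta, h2u_coeffMap_DeltaInv]

end Fermat.Agent.Lib.S28
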