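/-
S28 project, analytic side, helper2: (K1.a1+a2) holomorphy and `Γ₀(N)`-invariance of the modular
units `u_d(τ) = Δ(dτ)/Δ(τ)` and of their inverses.
-/
import Mathlib
import Fermat.Agent.Lib.S28.H2DeltaUnit
import Fermat.Agent.Lib.X0.FinFamily
import Fermat.Agent.Lib.X0.JdInv

set_option autoImplicit false

noncomputable section

namespace Fermat.Agent.Lib.S28

open UpperHalfPlane ModularCurve Fermat.Agent.Lib.X0
open scoped MatrixGroups Manifold

local notation "Δ" => ModularForm.discriminant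

theorem h2u_mdiff_Delta : MDiff (fun τ : ℍ => Δ τ) := CuspForm.discriminant.holo'

/-- `τ ↦ Δ(dτ)` is holomorphic. -/
theorem h2u_mdiff_Delta_dmul (d : ℕ) : MDiff (fun τ : ℍ => Δ (h9_dmul d τ)) := by
  rcases Nat.eq_zero_or_pos d with rfl | hd
  · have : (fun τ : ℍ => Δ (h9_dmul 0 τ)) = fun τ : ℍ => Δ τ := by
      funext τ
      simp [h9_dmul]
    rw [this]
    exact h2u_mdiff_Delta
  · rw [UpperHalfPlane.mdifferentiable_iff]
    have hj := UpperHalfPlane.mdifferentiable_iff.mp h2u_mdiff_Delta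
    have hmap : Set.MapsTo (fun z : ℂ => (d : ℂ) * z) {z : ℂ | 0 < z.im} {z : ℂ | 0 < z.im} := by
      intro z hz
      have h1 : (0 : ℝ) < d := by exact_mod_cast hd
      simp only [Set.mem_ofPred_eq, Complex.mul_im, Complex.natCast_re, Complex.natCast_im,
        zero_mul, add_zero]
      exact mul_pos h1 hz
    have hcomp : DifferentiableOn ℂ (((fun τ : ℍ => Δ τ) ∘ ofComplex) ∘ fun z : ℂ => (d : ℂ) * z)
        {z : ℂ | 0 < z.im} :=
      hj.comp (by fun_prop) hmap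
    refine hcomp.congr ?_
    intro z hz
    have hz' : 0 < z.im := hz
    simp only [Function.comp_apply]
    congr 1
    apply UpperHalfPlane.ext
    rw [h9_dmul_coe hd, ofComplex_apply_of_im_pos hz', ofComplex_apply_of_im_pos (hmap hz)]

/-- The quotient of two holomorphic functions on `ℍ`, the denominator without zeros, is
holomorphic. -/
theorem h2u_mdiff_div {f g : ℍ → ℂ} (hf : MDiff f) (hg : MDiff g) (hg0 : ∀ τ, g τ ≠ 0) :
    MDiff (fun τ : ℍ => f τ / g τ) := by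
  rw [UpperHalfPlane.mdifferentiable_iff] at hf hg ⊢
  have h : DifferentiableOn ℂ (fun z : ℂ => (f ∘ ofComplex) z / (g ∘ ofComplex) z)
      {z : ℂ | 0 < z.im} :=
    hf.div hg (fun z _ => hg0 _)
  exact h

theorem h2u_mdiff_unit (d : ℕ) : MDiff (h2u_unit d) :=
  h2u_mdiff_div (h2u_mdiff_Delta_dmul d) h2u_mdiff_Delta ModularForm.discriminant_ne_zero

theorem h2u_mdiff_unitInv (d : ℕ) : MDiff (fun τ : ℍ => (h2u_unit d τ)⁻¹) := by
  have h : (fun τ : ℍ => (h2u_unit d τ)⁻¹) = fun τ : ℍ => Δ τ / Δ (h9_dmul d τ) := by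
    funext τ
    rw [h2u_unit, inv_div]
  rw [h]
  exact h2u_mdiff_div h2u_mdiff_Delta (h2u_mdiff_Delta_dmul d)
    (fun τ => ModularForm.discriminant_ne_zero _)

/-- `d (δ z) = δ' (d z)` for `δ ∈ Γ₀(N)`, `d ∣ N`, with the entries of `δ'`. -/
theorem h2u_dmul_smul_Gamma0 (N d : ℕ) (hd : d ∣ N) (hd0 : 0 < d) (δ : SL(2, ℤ))
    (hδ : δ ∈ CongruenceSubgroup.Gamma0 N) :
    ∃ δ' : SL(2, ℤ), δ 1 0 = (d : ℤ) * δ' 1 0 ∧ δ' 1 1 = δ 1 1 ∧
      ∀ z : ℍ, h9_dmul d (δ • z) = δ' • h9_dmul d z := by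
  rw [CongruenceSubgroup.Gamma0_mem] at hδ
  have hdvd : (d : ℤ) ∣ δ 1 0 := by
    have h1 : (N : ℤ) ∣ δ 1 0 := (ZMod.intCast_zmod_eq_zero_iff_dvd _ _).mp hδ
    exact (Int.natCast_dvd_natCast.mpr hd).trans h1
  obtain ⟨c', hc'⟩ := hdvd
  have hdet : δ 0 0 * δ 1 1 - δ 0 1 * δ 1 0 = 1 := by
    have := δ.2
    rw [Matrix.det_fin_two] at this
    exact this
  have hdet' : (!![δ 0 0, (d : ℤ) * δ 0 1; c', δ 1 1] : Matrix (Fin 2) (Fin 2) ℤ).det = 1 := by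
    rw [Matrix.det_fin_two_of]
    rw [hc'] at hdet
    linear_combination hdet
  let δ' : SL(2, ℤ) := ⟨!![δ 0 0, (d : ℤ) * δ 0 1; c', δ 1 1], hdet'⟩
  have e00 : δ' 0 0 = δ 0 0 := rfl
  have e01 : δ' 0 1 = (d : ℤ) * δ 0 1 := rfl
  have e10 : δ' 1 0 = c' := rfl
  have e11 : δ' 1 1 = δ 1 1 := rfl
  refine ⟨δ', by rw [e10, hc'], e11, fun z => ?_⟩
  apply UpperHalfPlane.ext
  rw [h9_dmul_coe hd0, coe_specialLinearGroup_apply, coe_specialLinearGroup_apply,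
    h9_dmul_coe hd0, e00, e01, e10, e11]
  simp only [algebraMap_int_eq, eq_intCast, Complex.ofReal_intCast]
  have hc'C : ((δ 1 0 : ℤ) : ℂ) = (d : ℂ) * (c' : ℂ) := by exact_mod_cast hc'
  rw [hc'C]
  push_cast
  rw [mul_div_assoc']
  congr 1 <;> ring

/-- `u_d` is `Γ₀(N)`-invariant for `d ∣ N`. -/
theorem h2u_unit_invariant (N d : ℕ) [NeZero N] (hd : d ∣ N) (δ : SL(2, ℤ))
    (hδ : δ ∈ CongruenceSubgroup.Gamma0 N) (z : ℍ) : h2u_unit d (δ • z) = h2u_unit d z := by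
  have hN : 0 < N := Nat.pos_of_ne_zero (NeZero.ne N)
  have hd0 : 0 < d := Nat.pos_of_dvd_of_pos hd hN
  obtain ⟨δ', h10, h11, hsm⟩ := h2u_dmul_smul_Gamma0 N d hd hd0 δ hδ
  rw [h2u_unit, h2u_unit, hsm, h6_disc_smul, h6_disc_smul]
  have hden : denom δ' (h9_dmul d z) = denom δ z := by
    have e1 : denom δ z = (δ 1 0 : ℂ) * z + (δ 1 1 : ℂ) := by simp [denom]
    have e2 : denom δ' (h9_dmul d z) = (δ' 1 0 : ℂ) * (h9_dmul d z : ℂ) + (δ' 1 1 : ℂ) := by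
      simp [denom]
    rw [e1, e2, h9_dmul_coe hd0, h10, h11]
    push_cast
    ring
  rw [hden]
  have h1 : denom δ z ≠ 0 := denom_ne_zero _ _
  have h2 : Δ z ≠ 0 := ModularForm.discriminant_ne_zero z
  have h3 : denom δ z ^ (12 : ℤ) ≠ 0 := zpow_ne_zero _ h1
  field_simp

end Fermat.Agent.Lib.S28
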