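/-
S28 project (Igusa), helper1: **(K1), final**: the elements `u_d`, `u_d⁻¹` of `h2q_ring N 𝒪`, their
expansions with coefficients in `𝒪`, and `h1u_unit : h2q_UnitStatement N 𝒪`.
-/
import Mathlib
import Fermat.Agent.Lib.S28.H1Unit
import Fermat.Agent.Lib.S28.H1UnitExp
import Fermat.Agent.Lib.S28.H2UnitHolo

set_option autoImplicit false

noncomputable section

namespace Fermat.Agent.Lib.S28

open UpperHalfPlane ModularCurve Fermat.Agent.Lib.X0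
open scoped MatrixGroups Manifold

/-- Arithmetic of the Hermite data: `a = gcd(d, |γ₁₀|)`. -/
theorem h1u_gcd_eq (γ g : SL(2, ℤ)) (a b e d : ℕ) (hae : a * e = d)
    (h3 : γ 1 0 = g 1 0 * a) (h4 : γ 1 1 = g 1 0 * b + g 1 1 * e) :
    Nat.gcd d (γ 1 0).natAbs = a := by
  have hdet : γ 0 0 * γ 1 1 - γ 0 1 * γ 1 0 = 1 := by
    have := γ.det_coe
    rw [Matrix.det_fin_two] at this
    exact this
  have hcop : IsCoprime (g 1 0) (e : ℤ) := by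
    refine ⟨γ 0 0 * b - γ 0 1 * a, γ 0 0 * g 1 1, ?_⟩
    rw [h3, h4] at hdet
    linear_combination hdet
  have hcop' : Nat.Coprime (g 1 0).natAbs e := by
    have := Int.isCoprime_iff_gcd_eq_one.mp hcop
    rw [Int.gcd_def] at this
    simpa using this
  rw [h3, Int.natAbs_mul, Int.natAbs_natCast, ← hae, mul_comm (g 1 0).natAbs a,
    Nat.gcd_mul_left, Nat.Coprime.gcd_eq_one hcop'.symm, mul_one]

section elts

variable (N : ℕ) [NeZero N] (𝒪 : Subring ℂ) (hζ : ∀ ζ : ℂ, ζ ^ N = 1 → ζ ∈ 𝒪)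
  (hN : ((N : ℂ))⁻¹ ∈ 𝒪)

include hζ hN in
/-- The `𝒪`-expansions of `u_d ∘ γ` and `(u_d ∘ γ)⁻¹`. -/
theorem h1u_exp_data (d : ℕ) (hd : d ∣ N) (γ : SL(2, ℤ)) :
    ∃ (s : ℕ) (_ : NeZero s) (ζ : 𝒪ˣ) (c c' : 𝒪),
      c * c' = 1 ∧ s * d = (Nat.gcd d (γ 1 0).natAbs) ^ 2 * N ∧
      h2q_Exp N 𝒪 (fun z => h2u_unit d (γ • z)) (h2u_ratio 𝒪 N s ζ c) ∧
      h2q_Exp N 𝒪 (fun z => (h2u_unit d (γ • z))⁻¹) (h2u_ratioInv 𝒪 N s ζ c') := by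
  obtain ⟨a, b, e, s, hs0, ha, he, hae, hbe, hs, ⟨g, h3, h4⟩, hP, hM⟩ :=
    h1u_expands_both N d hd γ
  have heN : e ∣ N := (Dvd.intro_left a hae).trans hd
  have hNC : (N : ℂ) ≠ 0 := by exact_mod_cast NeZero.ne N
  have heC : (e : ℂ) ≠ 0 := by exact_mod_cast he.ne'
  set ζ : ℂˣ := h5_zeta e ^ b with hζdef
  have hpow : ζ ^ N = 1 := by
    obtain ⟨c, rfl⟩ := heN
    rw [hζdef, ← pow_mul, ← mul_assoc, mul_comm (b * e) c, mul_comm b e, ← mul_assoc, pow_mul,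
      mul_comm c e, pow_mul, (h5_zeta_isPrimitiveRoot e he.ne').pow_eq_one, one_pow, one_pow]
  have h1 : (ζ : ℂ) ∈ 𝒪 := hζ _ (by rw [← Units.val_pow_eq_pow_val, hpow]; rfl)
  have h2 : ((ζ⁻¹ : ℂˣ) : ℂ) ∈ 𝒪 :=
    hζ _ (by rw [← Units.val_pow_eq_pow_val, inv_pow, hpow]; simp)
  have heO : (e : ℂ) ∈ 𝒪 := natCast_mem 𝒪 e
  have heinvO : ((e : ℂ))⁻¹ ∈ 𝒪 := by
    obtain ⟨c, hc⟩ := heN
    have hcC : (c : ℂ) ≠ 0 := by
      intro h0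
      apply hNC
      rw [hc]
      push_cast
      rw [h0, mul_zero]
    have : ((e : ℂ))⁻¹ = (c : ℂ) * ((N : ℂ))⁻¹ := by
      rw [hc]
      push_cast
      field_simp
    rw [this]
    exact 𝒪.mul_mem (natCast_mem 𝒪 c) hN
  refine ⟨s, hs0, h2q_unitOf 𝒪 ζ h1 h2, ⟨((e : ℂ))⁻¹ ^ 12, 𝒪.pow_mem heinvO 12⟩,
    ⟨(e : ℂ) ^ 12, 𝒪.pow_mem heO 12⟩, ?_, ?_, ?_, ?_⟩
  · apply Subtype.ext
    show ((e : ℂ))⁻¹ ^ 12 * (e : ℂ) ^ 12 = 1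
    rw [← mul_pow, inv_mul_cancel₀ heC, one_pow]
  · rw [h1u_gcd_eq γ g a b e d hae h3 h4, ← hae]
    calc s * (a * e) = a * (s * e) := by ring
      _ = a * (a * N) := by rw [hs]
      _ = a ^ 2 * N := by ring
  · show h9_ExpandsInfty N _ _
    rw [h1u_coeffMap_ratio, h2q_unitOf_map]
    exact hP
  · show h9_ExpandsInfty N _ _
    rw [h1u_coeffMap_ratioInv, h2q_unitOf_map]
    exact hM

include hζ hN in
/-- `u_d ∈ h2q_ring N 𝒪` (and `1` for `d ∤ N`). -/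
theorem h1u_unit_mem (d : ℕ) (hd : d ∣ N) :
    (⟨h2u_unit d, h2u_mdiff_unit d⟩ : h2_holo) ∈ h2q_ring N 𝒪 := by
  refine ⟨fun δ hδ => ?_, fun g => ?_⟩
  · apply Subtype.ext
    funext z
    rw [h2_holoSmul_apply]
    exact h2u_unit_invariant N d hd δ hδ z
  · obtain ⟨s, hs0, ζ, c, c', -, -, hP, -⟩ := h1u_exp_data N 𝒪 hζ hN d hd g
    exact ⟨_, hP⟩

include hζ hN in
theorem h1u_unitInv_mem (d : ℕ) (hd : d ∣ N) :
    (⟨fun τ => (h2u_unit d τ)⁻¹, h2u_mdiff_unitInv d⟩ : h2_holo) ∈ h2q_ring N 𝒪 := by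
  refine ⟨fun δ hδ => ?_, fun g => ?_⟩
  · apply Subtype.ext
    funext z
    rw [h2_holoSmul_apply]
    show (h2u_unit d (δ • z))⁻¹ = (h2u_unit d z)⁻¹
    rw [h2u_unit_invariant N d hd δ hδ z]
  · obtain ⟨s, hs0, ζ, c, c', -, -, -, hM⟩ := h1u_exp_data N 𝒪 hζ hN d hd g
    exact ⟨_, hM⟩

open Classical in
/-- `u_d` as an element of `h2q_ring N 𝒪` (`1` if `d ∤ N`). -/
def h1u_uP (d : ℕ) : h2q_ring N 𝒪 :=
  if hd : d ∣ N then ⟨_, h1u_unit_mem N 𝒪 hζ hN d hd⟩ else 1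

open Classical in
/-- `u_d⁻¹` as an element of `h2q_ring N 𝒪` (`1` if `d ∤ N`). -/
def h1u_uM (d : ℕ) : h2q_ring N 𝒪 :=
  if hd : d ∣ N then ⟨_, h1u_unitInv_mem N 𝒪 hζ hN d hd⟩ else 1

include hζ hN in
/-- **(K1)** the modular unit. -/
theorem h1u_unit : h2q_UnitStatement N 𝒪 := by
  refine h1u_unit_of N 𝒪 (h1u_uP N 𝒪 hζ hN) (h1u_uM N 𝒪 hζ hN) ?_
  intro d hd g
  have hdN : d ∣ N := Nat.dvd_of_mem_divisors hd
  obtain ⟨s, hs0, ζ, c, c', hcc, hs, hP, hM⟩ := h1u_exp_data N 𝒪 hζ hN d hdN g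
  refine ⟨s, hs0, ζ, c, c', hcc, hs, ?_, ?_⟩
  · refine h2q_exp_eq N 𝒪 ?_
    rw [h1u_uP, dif_pos hdN]
    exact hP
  · refine h2q_exp_eq N 𝒪 ?_
    rw [h1u_uM, dif_pos hdN]
    exact hM

end elts

end Fermat.Agent.Lib.S28
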