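/-
S28 project, analytic side, helper2: **(K5) the weak q-expansion principle** for `Γ₀(N)`,
weight `0`, from the modular unit (K1), the integrality of the norm polynomial (K5') and the
order statement (K2b).
-/
import Mathlib
import Fermat.Agent.Lib.S28.DefsAn

set_option autoImplicit false

noncomputable section

namespace Fermat.Agent.Lib.S28

open UpperHalfPlane ModularCurve Fermat.Agent.Lib.X0 Polynomial
open scoped MatrixGroups Manifold

/-! ### Generalities -/

open scoped Classical in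
/-- The coefficient of `X ^ #{i | y i = 0}` in `∏ (X - y i)`. -/
theorem h2q_coeff_card_zero {ι : Type*} [Fintype ι] {K : Type*} [Field K] (y : ι → K) :
    (∏ i, (X - C (y i))).coeff (Finset.univ.filter (fun i => y i = 0)).card =
      ∏ i ∈ Finset.univ.filter (fun i => ¬ y i = 0), (- y i) := by
  classical
  rw [← Finset.prod_filter_mul_prod_filter_not Finset.univ (fun i => y i = 0)]
  have h1 : ∏ i ∈ Finset.univ.filter (fun i => y i = 0), (X - C (y i))
      = (X : K[X]) ^ (Finset.univ.filter (fun i => y i = 0)).card := by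
    rw [← Finset.prod_const]
    refine Finset.prod_congr rfl fun i hi => ?_
    rw [(Finset.mem_filter.mp hi).2, map_zero, sub_zero]
  rw [h1]
  have h2 := Polynomial.coeff_X_pow_mul
    (∏ i ∈ Finset.univ.filter (fun i => ¬ y i = 0), (X - C (y i)))
    (Finset.univ.filter (fun i => y i = 0)).card 0
  rw [zero_add] at h2
  rw [h2, Polynomial.coeff_zero_eq_eval_zero, Polynomial.eval_prod]
  refine Finset.prod_congr rfl fun i _ => ?_
  simp

theorem h2q_order_prod {k : Type*} [Field k] {ι : Type*} (s : Finset ι)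
    (f : ι → LaurentSeries k) (hf : ∀ i ∈ s, f i ≠ 0) :
    (∏ i ∈ s, f i).order = ∑ i ∈ s, (f i).order := by
  classical
  induction s using Finset.induction_on with
  | empty => simp
  | insert a s ha ih =>
    rw [Finset.prod_insert ha, Finset.sum_insert ha]
    have h1 : f a ≠ 0 := hf a (Finset.mem_insert_self a s)
    have h2 : ∏ i ∈ s, f i ≠ 0 :=
      Finset.prod_ne_zero_iff.mpr fun i hi => hf i (Finset.mem_insert_of_mem hi)
    rw [HahnSeries.order_mul h1 h2, ih fun i hi => hf i (Finset.mem_insert_of_mem hi)]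

theorem h2q_order_pow {k : Type*} [Field k] (x : LaurentSeries k) (n : ℕ) :
    (x ^ n).order = n • x.order := by
  by_cases hx : x = 0
  · subst hx
    rcases Nat.eq_zero_or_pos n with rfl | hn
    · simp
    · rw [zero_pow hn.ne', HahnSeries.order_zero, smul_zero]
  · induction n with
    | zero => simp
    | succ n ih =>
      rw [pow_succ, HahnSeries.order_mul (pow_ne_zero n hx) hx, ih, succ_nsmul]

/-- A series with a unit leading coefficient at `m` reduces to a series of order `m`. -/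
theorem h2q_reduce_leading {R : Type*} [CommRing R] {k : Type*} [Field k] (φ : R →+* k)
    (x : LaurentSeries R) (m : ℤ) (c : Rˣ) (hc : x.coeff m = c)
    (hlt : ∀ n < m, x.coeff n = 0) :
    coeffMap φ x ≠ 0 ∧ (coeffMap φ x).order = m := by
  have hcm : (coeffMap φ x).coeff m ≠ 0 := by
    rw [coeffMap_coeff, hc]
    exact (Units.map (φ : R →* k) c).ne_zero
  have hne : coeffMap φ x ≠ 0 := by
    intro h
    rw [h] at hcm
    exact hcm rfl
  refine ⟨hne, le_antisymm (HahnSeries.order_le_of_coeff_ne_zero hcm) ?_⟩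
  by_contra hcon
  have hcon := not_le.mp hcon
  have h0 : (coeffMap φ x).coeff (coeffMap φ x).order = 0 := by
    rw [coeffMap_coeff, hlt _ hcon, map_zero]
  exact hne (HahnSeries.coeff_order_eq_zero.mp h0)

theorem h2q_algebraMap_eq_C {R : Type*} [CommRing R] (c : R) :
    algebraMap R (LaurentSeries R) c = HahnSeries.C c := by
  have h1 : algebraMap R (PowerSeries R) c = PowerSeries.C c := by
    simp
  rw [HahnSeries.algebraMap_apply', h1, HahnSeries.ofPowerSeries_C]

/-- `coeffMap` commutes with the evaluation of polynomials at `j(q^N)`. -/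
theorem h2q_coeffMap_aeval {R S : Type*} [CommRing R] [CommRing S] (φ : R →+* S) (N : ℕ)
    [NeZero N] (P : R[X]) :
    coeffMap φ (aeval (qExpand R N (jqModC R)) P) = aeval (qExpand S N (jqModC S)) (P.map φ) := by
  induction P using Polynomial.induction_on' with
  | add p q hp hq => rw [map_add, map_add, hp, hq, Polynomial.map_add, map_add]
  | monomial n a =>
    rw [Polynomial.map_monomial, aeval_monomial, aeval_monomial, map_mul, map_pow,
      coeffMap_qExpand, coeffMap_jqModC]
    congr 1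
    rw [h2q_algebraMap_eq_C, h2q_algebraMap_eq_C, HahnSeries.C_apply, HahnSeries.C_apply,
      coeffMap_single]

/-! ### The main argument -/

section Main

variable (N : ℕ) [NeZero N] (𝒪 : Subring ℂ) {k : Type} [Field k] (φ : 𝒪 →+* k)

/-- The reductions of the conjugate expansions. -/
def h2q_y (G : h2q_ring N 𝒪) (q : QN N) : LaurentSeries k :=
  coeffMap φ (h2q_exp N 𝒪 (q.out)⁻¹ G)

theorem h2q_y_mul (G G' : h2q_ring N 𝒪) (q : QN N) :
    h2q_y N 𝒪 φ (G * G') q = h2q_y N 𝒪 φ G q * h2q_y N 𝒪 φ G' q := by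
  unfold h2q_y
  rw [map_mul, map_mul]

theorem h2q_y_pow (G : h2q_ring N 𝒪) (n : ℕ) (q : QN N) :
    h2q_y N 𝒪 φ (G ^ n) q = h2q_y N 𝒪 φ G q ^ n := by
  unfold h2q_y
  rw [map_pow, map_pow]

/-- `y` at the coset of `g⁻¹` is the reduction of the expansion at `g`. -/
theorem h2q_y_mk (G : h2q_ring N 𝒪) (g : SL(2, ℤ)) :
    h2q_y N 𝒪 φ G ((g⁻¹ : SL(2, ℤ)) : QN N) = coeffMap φ (h2q_exp N 𝒪 g G) := by
  unfold h2q_y
  congr 1
  set o := ((g⁻¹ : SL(2, ℤ)) : QN N).out with ho
  have h : (g⁻¹)⁻¹ * o ∈ CongruenceSubgroup.Gamma0 N := by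
    rw [← QuotientGroup.eq]
    exact (QuotientGroup.out_eq' _).symm
  rw [inv_inv] at h
  have h1 : o⁻¹ = (g * o)⁻¹ * g := by group
  rw [h1]
  exact h2q_exp_mul_left N 𝒪 _ g (inv_mem h) G

open scoped Classical in
/-- **The main inequality**: the orders of the nonzero reduced conjugates sum to `≤ 0`. -/
theorem h2q_sum_order_le (hNorm : h2q_NormStatement N 𝒪) (hOrd : h2q_OrderStatement)
    (G : h2q_ring N 𝒪) :
    ∑ q ∈ Finset.univ.filter (fun q => ¬ h2q_y N 𝒪 φ G q = 0), (h2q_y N 𝒪 φ G q).order ≤ 0 := by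
  classical
  set y := h2q_y N 𝒪 φ G with hy
  set S := Finset.univ.filter (fun q => ¬ y q = 0) with hS
  obtain ⟨P, hP⟩ := hNorm G (Finset.univ.filter (fun q => y q = 0)).card
  have h1 : (∏ q : QN N, (X - C (y q))) =
      (∏ q : QN N, (X - C (h2q_exp N 𝒪 (q.out)⁻¹ G))).map (coeffMap φ) := by
    rw [Polynomial.map_prod]
    refine Finset.prod_congr rfl fun q _ => ?_
    rw [Polynomial.map_sub, Polynomial.map_X, Polynomial.map_C]
    rfl
  have h2 := h2q_coeff_card_zero y
  rw [h1, Polynomial.coeff_map, hP, h2q_coeffMap_aeval] at h2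
  have hne : ∏ q ∈ S, (- y q) ≠ 0 :=
    Finset.prod_ne_zero_iff.mpr fun q hq => neg_ne_zero.mpr (Finset.mem_filter.mp hq).2
  have hp : P.map φ ≠ 0 := by
    intro h0
    rw [h0, map_zero] at h2
    exact hne h2.symm
  have h3 := (hOrd N k (P.map φ) hp).2
  rw [h2, h2q_order_prod S _ (fun q hq => neg_ne_zero.mpr (Finset.mem_filter.mp hq).2)] at h3
  simpa [HahnSeries.order_neg] using h3

/-- **(K5)** the weak q-expansion principle. -/
theorem h2q_qep (hU : h2q_UnitStatement N 𝒪) (hNorm : h2q_NormStatement N 𝒪)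
    (hOrd : h2q_OrderStatement) : h2q_QEPStatement N 𝒪 := by
  classical
  intro k _ φ F hF g
  obtain ⟨U, hUg⟩ := hU
  -- the reduced conjugates of `U`: nonzero, of positive order away from the trivial coset
  have hUy : ∀ q : QN N, h2q_y N 𝒪 φ U q ≠ 0 ∧
      (q ≠ ((1 : SL(2, ℤ)) : QN N) → 0 < (h2q_y N 𝒪 φ U q).order) := by
    intro q
    obtain ⟨m, c, hc, hlt, hpos⟩ := hUg (q.out)⁻¹
    obtain ⟨hne, hord⟩ := h2q_reduce_leading φ _ m c hc hlt
    refine ⟨hne, fun hq => ?_⟩
    have : (h2q_y N 𝒪 φ U q).order = m := hord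
    rw [this]
    apply hpos
    intro hmem
    apply hq
    have h1 : q.out ∈ CongruenceSubgroup.Gamma0 N := by
      have := inv_mem hmem
      rwa [inv_inv] at this
    have h2 : ((q.out : SL(2, ℤ)) : QN N) = ((1 : SL(2, ℤ)) : QN N) := by
      rw [QuotientGroup.eq, mul_one]
      exact inv_mem h1
    rw [← h2]
    exact (QuotientGroup.out_eq' q).symm
  set S := Finset.univ.filter (fun q => ¬ h2q_y N 𝒪 φ F q = 0) with hS
  -- the trivial coset is not in `S`
  have h1S : ((1 : SL(2, ℤ)) : QN N) ∉ S := by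
    intro hmem
    apply (Finset.mem_filter.mp hmem).2
    have := h2q_y_mk N 𝒪 φ F 1
    rw [inv_one] at this
    rw [this, hF]
  -- the inequality for `F * U ^ n`
  have hineq : ∀ n : ℕ, ∑ q ∈ S, ((h2q_y N 𝒪 φ F q).order + n • (1 : ℤ)) ≤ 0 := by
    intro n
    have h := h2q_sum_order_le N 𝒪 φ hNorm hOrd (F * U ^ n)
    have hfilter : Finset.univ.filter (fun q => ¬ h2q_y N 𝒪 φ (F * U ^ n) q = 0) = S := by
      rw [hS]
      refine Finset.filter_congr fun q _ => ?_
      rw [h2q_y_mul, h2q_y_pow, mul_eq_zero, not_or]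
      constructor
      · exact fun h => h.1
      · exact fun h => ⟨h, pow_ne_zero n (hUy q).1⟩
    rw [hfilter] at h
    refine le_trans (Finset.sum_le_sum fun q hq => ?_) h
    have hq0 : h2q_y N 𝒪 φ F q ≠ 0 := (Finset.mem_filter.mp hq).2
    have hq1 : q ≠ ((1 : SL(2, ℤ)) : QN N) := fun h => h1S (h ▸ hq)
    rw [h2q_y_mul, h2q_y_pow, HahnSeries.order_mul hq0 (pow_ne_zero n (hUy q).1), h2q_order_pow]
    have := (hUy q).2 hq1
    have h5 : n • (1 : ℤ) ≤ n • (h2q_y N 𝒪 φ U q).order := by
      apply nsmul_le_nsmul_right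
      omega
    linarith
  -- hence `S` is empty
  have hSempty : S = ∅ := by
    by_contra hne
    have hcard : 0 < S.card := Finset.card_pos.mpr (Finset.nonempty_iff_ne_empty.mpr hne)
    set A := ∑ q ∈ S, (h2q_y N 𝒪 φ F q).order with hA
    have h := hineq (A.natAbs + 1)
    rw [Finset.sum_add_distrib, Finset.sum_const] at h
    have h2 : (S.card : ℤ) * ((A.natAbs : ℤ) + 1) ≥ (A.natAbs : ℤ) + 1 := by
      have : (1 : ℤ) ≤ S.card := by exact_mod_cast hcard
      nlinarith [Int.natCast_nonneg A.natAbs]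
    have h3 : S.card • ((A.natAbs + 1) • (1 : ℤ)) = (S.card : ℤ) * ((A.natAbs : ℤ) + 1) := by
      simp
    rw [h3] at h
    have h4 : -(A.natAbs : ℤ) ≤ A := by
      omega
    linarith
  have hall : ∀ q : QN N, h2q_y N 𝒪 φ F q = 0 := by
    intro q
    by_contra hq
    have : q ∈ S := Finset.mem_filter.mpr ⟨Finset.mem_univ q, hq⟩
    rw [hSempty] at this
    exact absurd this (Finset.notMem_empty q)
  rw [← h2q_y_mk N 𝒪 φ F g]
  exact hall _

end Main

end Fermat.Agent.Lib.S28
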