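/-
S28 project, analytic side, helper2: **(E5)** the bridge between the conjugate expansions `σ_q` of
`F = ℚ(j(q^d))` and the expansion homomorphisms `h2q_exp` on `ℤ_(ℓ)[j, θ]`, and the **assembly of
`h0_EmbStatement N ℓ`** from the internal contracts of `DefsAn.lean`.
-/
import Mathlib
import Fermat.Agent.Lib.S28.H2QEP
import Fermat.Agent.Lib.S28.H2Gen

set_option autoImplicit false

noncomputable section

namespace Fermat.Agent.Lib.S28

open UpperHalfPlane ModularCurve ModularCurve.IgusaScheme Fermat.Agent.Lib.X0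
open scoped MatrixGroups Manifold

variable (N : ℕ) [NeZero N]

/-! ### `σ` on the generators and the constants -/

theorem h2e_sigma_mk (g : SL(2, ℤ)) (x : ↥(modularFunctionFieldFull N)) :
    h2e_sigma N (g : QN N) x = (h2e_fam N).lift g (h2e_incl N x) := by
  rw [h2e_sigma, RingHom.comp_apply, h9_EmbFamily.tau_mk]

theorem h2e_incl_jFull : h2e_incl N (jFull N) = h9_gen N ⟨1, one_dvd N⟩ := by
  rw [h9_gen_one]
  rfl

theorem h2e_incl_theta : h2e_incl N (h2e_theta N) = h9_gen N ⟨N, dvd_rfl⟩ := rfl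

theorem h2e_lift_gen (g : SL(2, ℤ)) (d : h9_DivN N) :
    (h2e_fam N).lift g (h9_gen N d) = h5_JdSeries N d g⁻¹ := by
  rw [← h9_evF_X, h9_EmbFamily.lift_evF]
  exact h5_cuspPsi_X N g d

theorem h2e_sigma_jFull (g : SL(2, ℤ)) :
    h2e_sigma N (g : QN N) (jFull N) = h5_JdSeries N ⟨1, one_dvd N⟩ g⁻¹ := by
  rw [h2e_sigma_mk, h2e_incl_jFull, h2e_lift_gen]

theorem h2e_sigma_theta (g : SL(2, ℤ)) :
    h2e_sigma N (g : QN N) (h2e_theta N) = h5_JdSeries N ⟨N, dvd_rfl⟩ g⁻¹ := by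
  rw [h2e_sigma_mk, h2e_incl_theta, h2e_lift_gen]

theorem h2e_sigma_rat (q : QN N) (r : ℚ) :
    h2e_sigma N q (algebraMap ℚ ↥(modularFunctionFieldFull N) r) = HahnSeries.C (r : ℂ) := by
  have h : (h2e_sigma N q).comp (algebraMap ℚ ↥(modularFunctionFieldFull N)) =
      (HahnSeries.C : ℂ →+* LaurentSeries ℂ).comp (algebraMap ℚ ℂ) := Subsingleton.elim _ _
  have := congrArg (fun f : ℚ →+* LaurentSeries ℂ => f r) h
  simpa using this

theorem h2q_coeffMap_subtype_C (𝒪 : Subring ℂ) (c : 𝒪) :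
    coeffMap 𝒪.subtype (HahnSeries.C c) = HahnSeries.C (c : ℂ) := by
  rw [HahnSeries.C_apply, coeffMap_single]
  rfl

/-! ### (E5) the bridge -/

/-- If the translates of `F ∈ h2q_ring N 𝒪` are expanded by the `σ_q y`, then
`σ_q y` is the image of `h2q_exp`. -/
theorem h2e_sigma_eq_of_expands (𝒪 : Subring ℂ) (F : h2q_ring N 𝒪)
    (y : ↥(modularFunctionFieldFull N)) (g : SL(2, ℤ))
    (h : h9_ExpandsInfty N (fun z => F.1.1 (g⁻¹ • z)) (h2e_sigma N (g : QN N) y)) :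
    h2e_sigma N (g : QN N) y = coeffMap 𝒪.subtype (h2q_exp N 𝒪 g⁻¹ F) :=
  h5_expandsInfty_unique N h (h2q_exp_spec N 𝒪 g⁻¹ F)

/-- **(E5)**. -/
theorem h2e_bridge (ℓ : ℕ) [Fact ℓ.Prime] (𝒪 : Subring ℂ)
    (hζ : ∀ ζ : ℂ, ζ ^ N = 1 → ζ ∈ 𝒪)
    (hrat : ∀ r : ℚ, r ∈ GaloisRep.ratLocalizedAt ℓ → (r : ℂ) ∈ 𝒪) :
    h2e_BridgeStatement N ℓ 𝒪 := by
  intro y hy
  induction hy using Algebra.adjoin_induction with
  | mem x hx =>
    rcases hx with rfl | hx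
    · refine ⟨⟨h2_JdHolo 1, h2q_Jd_mem N 1 (one_dvd N) 𝒪 hζ⟩, fun g => ?_⟩
      refine h2e_sigma_eq_of_expands N 𝒪 _ _ g ?_
      rw [h2e_sigma_jFull]
      exact h5_JdSeries_spec N ⟨1, one_dvd N⟩ g⁻¹
    · rw [Set.mem_singleton_iff] at hx
      subst hx
      refine ⟨⟨h2_JdHolo N, h2q_Jd_mem N N dvd_rfl 𝒪 hζ⟩, fun g => ?_⟩
      refine h2e_sigma_eq_of_expands N 𝒪 _ _ g ?_
      rw [h2e_sigma_theta]
      exact h5_JdSeries_spec N ⟨N, dvd_rfl⟩ g⁻¹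
  | algebraMap r =>
    refine ⟨h2q_const N 𝒪 ⟨((r : ℚ) : ℂ), hrat r r.2⟩, fun g => ?_⟩
    rw [h2q_exp_const, h2q_coeffMap_subtype_C]
    exact h2e_sigma_rat N _ (r : ℚ)
  | add x y _ _ hx hy =>
    obtain ⟨F, hF⟩ := hx
    obtain ⟨G, hG⟩ := hy
    exact ⟨F + G, fun g => by rw [map_add, map_add, map_add, hF g, hG g]⟩
  | mul x y _ _ hx hy =>
    obtain ⟨F, hF⟩ := hx
    obtain ⟨G, hG⟩ := hy
    exact ⟨F * G, fun g => by rw [map_mul, map_mul, map_mul, hF g, hG g]⟩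

/-! ### The residue field of a coefficient ring -/

section Residue

variable {ℓ : ℕ} (C : h0_Coeff ℓ)

/-- The uniformizer as an element of `O`. -/
def h2e_pi : C.O := ⟨C.pi, C.pi_mem⟩

theorem h2e_span_pi_isMaximal : (Ideal.span ({h2e_pi C} : Set C.O)).IsMaximal := by
  rw [Ideal.isMaximal_iff]
  refine ⟨fun h1 => ?_, fun J x _ hx hxJ => ?_⟩
  · obtain ⟨b, hb⟩ := Ideal.mem_span_singleton'.mp h1
    have := congrArg (fun t : C.O => (t : ℂ)) hb
    simp only [Subring.coe_mul, Subring.coe_one] at this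
    exact C.pi_not_unit b b.2 (by rw [mul_comm]; exact this)
  · rcases C.unit_or_dvd x x.2 with ⟨b, hb, hxb⟩ | ⟨b, hb, hxb⟩
    · have : (1 : C.O) = x * ⟨b, hb⟩ := Subtype.ext (by simpa using hxb.symm)
      rw [this]
      exact J.mul_mem_right _ hxJ
    · exfalso
      apply hx
      rw [Ideal.mem_span_singleton']
      exact ⟨⟨b, hb⟩, Subtype.ext (by rw [Subring.coe_mul, mul_comm]; exact hxb.symm)⟩

/-- `π ∣ coeffMap subtype s` coefficientwise iff the reduction of `s` modulo `π` vanishes. -/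
theorem h2e_dvd_iff (s : LaurentSeries C.O) :
    h0_Dvd C C.pi (coeffMap C.O.subtype s) ↔
      coeffMap (Ideal.Quotient.mk (Ideal.span ({h2e_pi C} : Set C.O))) s = 0 := by
  constructor
  · intro h
    ext n
    rw [coeffMap_coeff, HahnSeries.coeff_zero, Ideal.Quotient.eq_zero_iff_mem,
      Ideal.mem_span_singleton']
    obtain ⟨b, hb, hnb⟩ := h n
    refine ⟨⟨b, hb⟩, Subtype.ext ?_⟩
    rw [coeffMap_coeff] at hnb
    rw [Subring.coe_mul, mul_comm]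
    exact hnb.symm
  · intro h n
    have h1 := congrArg (fun t => t.coeff n) h
    simp only [coeffMap_coeff, HahnSeries.coeff_zero] at h1
    rw [Ideal.Quotient.eq_zero_iff_mem, Ideal.mem_span_singleton'] at h1
    obtain ⟨b, hb⟩ := h1
    refine ⟨b, b.2, ?_⟩
    rw [coeffMap_coeff, ← hb, mul_comm]
    rfl

end Residue

/-! ### Assembly -/

/-- **(A+Q)** `h0_EmbStatement N ℓ` from the internal contracts. -/
theorem h2e_embStatement (ℓ : ℕ) [Fact ℓ.Prime]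
    (hU : ∀ 𝒪 : Subring ℂ, (∀ ζ : ℂ, ζ ^ N = 1 → ζ ∈ 𝒪) → ((N : ℂ)⁻¹ ∈ 𝒪) →
      h2q_UnitStatement N 𝒪)
    (hNorm : ∀ 𝒪 : Subring ℂ, h2q_NormStatement N 𝒪) (hOrd : h2q_OrderStatement)
    (hBase : h2e_BaseStatement N) (hAgree : h2e_AgreeStatement N) (hCard : h2e_CardStatement N)
    (hInt : ∀ 𝒪 : Subring ℂ, (∀ ζ : ℂ, ζ ^ N = 1 → ζ ∈ 𝒪) → h2e_ThetaIntStatement N 𝒪)
    (hDiff : ∀ 𝒪 : Subring ℂ, (∀ ζ : ℂ, ζ ^ N = 1 → ζ ∈ 𝒪) → ((N : ℂ)⁻¹ ∈ 𝒪) →
      h2e_ThetaDiffStatement N 𝒪) :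
    h0_EmbStatement N ℓ := by
  intro hℓN C hζ
  have hNpos : 0 < N := Nat.pos_of_ne_zero (NeZero.ne N)
  -- `1/N ∈ O`
  have hNinv : ((N : ℂ)⁻¹) ∈ C.O := by
    have h1 : ((N : ℚ)⁻¹) ∈ GaloisRep.ratLocalizedAt ℓ := by
      show ((N : ℚ)⁻¹).den.Coprime ℓ
      have hden : ((N : ℚ)⁻¹).den = N := by
        rw [Rat.inv_natCast_den]
        simp [hNpos.ne']
      rw [hden]
      exact ((Nat.Prime.coprime_iff_not_dvd (Fact.out : ℓ.Prime)).mpr hℓN).symm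
    have := C.rat_mem _ h1
    simpa using this
  have hQEP : h2q_QEPStatement N C.O :=
    h2q_qep N C.O (hU C.O hζ hNinv) (hNorm C.O) hOrd
  haveI := h2e_span_pi_isMaximal C
  letI := Ideal.Quotient.field (Ideal.span ({h2e_pi C} : Set C.O))
  refine ⟨{
    ι := QN N
    fin := h2_fintypeQN N
    σ := h2e_sigma N
    i0 := ((1 : SL(2, ℤ)) : QN N)
    s := N
    s_pos := hNpos
    base := hBase
    agree := hAgree
    card := by rw [hCard, Nat.card_eq_fintype_card]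
    θ := h2e_theta N
    θ_int := fun q n => hInt C.O hζ q n
    θ_diff := fun q q' hqq' => hDiff C.O hζ hNinv q q' hqq'
    qep := ?_ }⟩
  intro y hy hdvd i
  obtain ⟨F, hF⟩ := h2e_bridge N ℓ C.O hζ C.rat_mem y hy
  have h1 := hF 1
  rw [inv_one] at h1
  rw [h1, h2e_dvd_iff] at hdvd
  have h2 := hQEP _ (Ideal.Quotient.mk (Ideal.span ({h2e_pi C} : Set C.O))) F hdvd
  obtain ⟨g, rfl⟩ := QuotientGroup.mk_surjective i
  rw [hF g, h2e_dvd_iff]
  exact h2 g⁻¹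

end Fermat.Agent.Lib.S28
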