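import Mathlib
import Fermat.Agent.Lib.S28.DefsAn
import Fermat.Agent.Lib.S28.H2DeltaUnit
import Fermat.Agent.Lib.S28.H2Gen
import Fermat.Agent.Lib.X0.JdInv

/-!
# S28 (K1.a): the modular units `u_d = Δ(dτ)/Δ(τ)`, `d ∣ N`, and their inverses are elements of
`h2q_ring N 𝒪`, with explicit expansions at every `g ∈ SL(2,ℤ)`.
-/

set_option autoImplicit false

noncomputable section

namespace Fermat.Agent.Lib.S28

open Matrix MatrixGroups ModularCurve HahnSeries Fermat.Agent.Lib.X0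
open UpperHalfPlane hiding I
open Complex ModularForm
open scoped Manifold

local notation "𝕢" => Function.Periodic.qParam
local notation "Δ" => ModularForm.discriminant

/-! ### holomorphy -/

theorem h5u_mdiff_disc_dmul (d : ℕ) : MDiff (fun τ : ℍ => Δ (h9_dmul d τ)) := by
  rcases Nat.eq_zero_or_pos d with rfl | hd
  · have : (fun τ : ℍ => Δ (h9_dmul 0 τ)) = Δ := by
      funext τ
      simp [h9_dmul]
    rw [this]
    exact h3_discriminant_mdiff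
  · rw [UpperHalfPlane.mdifferentiable_iff]
    have hj := UpperHalfPlane.mdifferentiable_iff.mp h3_discriminant_mdiff
    have hmap : Set.MapsTo (fun z : ℂ => (d : ℂ) * z) {z : ℂ | 0 < z.im} {z : ℂ | 0 < z.im} := by
      intro z hz
      have h1 : (0 : ℝ) < d := by exact_mod_cast hd
      simp only [Set.mem_ofPred_eq, Complex.mul_im, Complex.natCast_re, Complex.natCast_im,
        zero_mul, add_zero]
      exact mul_pos h1 hz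
    have hcomp : DifferentiableOn ℂ (((Δ : ℍ → ℂ) ∘ ofComplex) ∘ fun z : ℂ => (d : ℂ) * z)
        {z : ℂ | 0 < z.im} :=
      hj.comp (by fun_prop) hmap
    refine hcomp.congr ?_
    intro z hz
    have hz' : 0 < z.im := hz
    simp only [Function.comp_apply]
    congr 1
    apply UpperHalfPlane.ext
    rw [h9_dmul_coe hd, ofComplex_apply_of_im_pos hz', ofComplex_apply_of_im_pos (hmap hz)]

theorem h5u_mdiff_div {f g : ℍ → ℂ} (hf : MDiff f) (hg : MDiff g) (hg0 : ∀ τ, g τ ≠ 0) :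
    MDiff (fun τ => f τ / g τ) := by
  rw [UpperHalfPlane.mdifferentiable_iff] at hf hg ⊢
  have h : DifferentiableOn ℂ (fun z => (f ∘ ofComplex) z / (g ∘ ofComplex) z)
      {z : ℂ | 0 < z.im} := hf.div hg (fun z _ => hg0 _)
  exact h

theorem h5u_mdiff_unit (d : ℕ) : MDiff (h2u_unit d) :=
  h5u_mdiff_div (h5u_mdiff_disc_dmul d) h3_discriminant_mdiff
    (fun _ => ModularForm.discriminant_ne_zero _)

theorem h5u_mdiff_unitInv (d : ℕ) : MDiff (fun τ : ℍ => Δ τ / Δ (h9_dmul d τ)) :=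
  h5u_mdiff_div h3_discriminant_mdiff (h5u_mdiff_disc_dmul d)
    (fun _ => ModularForm.discriminant_ne_zero _)

/-- `u_d` as a holomorphic function. -/
def h5u_unitHolo (d : ℕ) : h2_holo := ⟨h2u_unit d, h5u_mdiff_unit d⟩

/-- `u_d⁻¹` as a holomorphic function. -/
def h5u_unitInvHolo (d : ℕ) : h2_holo := ⟨fun τ : ℍ => Δ τ / Δ (h9_dmul d τ), h5u_mdiff_unitInv d⟩

theorem h5u_unitHolo_mul_inv (d : ℕ) : h5u_unitHolo d * h5u_unitInvHolo d = 1 := by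
  apply Subtype.ext
  funext τ
  show h2u_unit d τ * (Δ τ / Δ (h9_dmul d τ)) = 1
  have h1 : Δ τ ≠ 0 := ModularForm.discriminant_ne_zero τ
  have h2 : Δ (h9_dmul d τ) ≠ 0 := ModularForm.discriminant_ne_zero _
  rw [h2u_unit]
  field_simp

theorem h5u_unitInvHolo_apply (d : ℕ) (τ : ℍ) : (h5u_unitInvHolo d).1 τ = (h2u_unit d τ)⁻¹ := by
  show Δ τ / Δ (h9_dmul d τ) = (h2u_unit d τ)⁻¹
  rw [h2u_unit, inv_div]

/-! ### `Γ₀(N)`-invariance -/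

/-- refinement of `h5_dmul_smul_Gamma0` exposing the bottom row of `δ'`. -/
theorem h5u_dmul_smul_Gamma0 (N d : ℕ) (hd : d ∣ N) (hd0 : 0 < d) (δ : SL(2, ℤ))
    (hδ : δ ∈ CongruenceSubgroup.Gamma0 N) :
    ∃ δ' : SL(2, ℤ), δ 1 0 = δ' 1 0 * (d : ℤ) ∧ δ' 1 1 = δ 1 1 ∧
      ∀ z : ℍ, h9_dmul d (δ • z) = δ' • h9_dmul d z := by
  rw [CongruenceSubgroup.Gamma0_mem] at hδ
  have hdvd : (d : ℤ) ∣ δ 1 0 := by
    have h1 : (N : ℤ) ∣ δ 1 0 := (ZMod.intCast_zmod_eq_zero_iff_dvd _ _).mp hδ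
    exact (Int.natCast_dvd_natCast.mpr hd).trans h1
  obtain ⟨c', hc'⟩ := hdvd
  have hdet : δ 0 0 * δ 1 1 - δ 0 1 * δ 1 0 = 1 := by
    have := δ.2
    rw [Matrix.det_fin_two] at this
    exact this
  have hdet' : (!![δ 0 0, (d : ℤ) * δ 0 1; c', δ 1 1] : Matrix (Fin 2) (Fin 2) ℤ).det = 1 := by
    rw [Matrix.det_fin_two_of]
    rw [hc'] at hdet
    linear_combination hdet
  let δ' : SL(2, ℤ) := ⟨!![δ 0 0, (d : ℤ) * δ 0 1; c', δ 1 1], hdet'⟩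
  have e00 : δ' 0 0 = δ 0 0 := rfl
  have e01 : δ' 0 1 = (d : ℤ) * δ 0 1 := rfl
  have e10 : δ' 1 0 = c' := rfl
  have e11 : δ' 1 1 = δ 1 1 := rfl
  refine ⟨δ', by rw [e10, hc', mul_comm], e11, fun z => ?_⟩
  apply UpperHalfPlane.ext
  rw [h9_dmul_coe hd0, coe_specialLinearGroup_apply, coe_specialLinearGroup_apply,
    h9_dmul_coe hd0, e00, e01, e10, e11]
  simp only [algebraMap_int_eq, eq_intCast, Complex.ofReal_intCast]
  have hc'C : ((δ 1 0 : ℤ) : ℂ) = (d : ℂ) * (c' : ℂ) := by exact_mod_cast hc'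
  rw [hc'C]
  push_cast
  rw [mul_div_assoc']
  congr 1 <;> ring

theorem h5u_unit_invariant (N d : ℕ) (hd : d ∣ N) (hd0 : 0 < d) (δ : SL(2, ℤ))
    (hδ : δ ∈ CongruenceSubgroup.Gamma0 N) (z : ℍ) : h2u_unit d (δ • z) = h2u_unit d z := by
  obtain ⟨δ', h10, h11, hz⟩ := h5u_dmul_smul_Gamma0 N d hd hd0 δ hδ
  have hτ' : ((h9_dmul d z : ℍ) : ℂ) = ((d : ℂ) * z + ((0 : ℕ) : ℂ)) / ((1 : ℕ) : ℂ) := by
    rw [h9_dmul_coe hd0]
    simp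
  have hg : (d : ℂ) * ((δ • z : ℍ) : ℂ) = ((δ' • h9_dmul d z : ℍ) : ℂ) := by
    rw [← hz, h9_dmul_coe hd0]
  have h := h2u_unit_smul_of_hermite d hd0 δ δ' d 0 1 one_pos h10
    (by rw [h11]; push_cast; ring) z (h9_dmul d z) hτ' hg
  rw [h, h2u_unit]
  simp [div_eq_mul_inv]

theorem h5u_unitHolo_mem_holoInv (N d : ℕ) (hd : d ∣ N) (hd0 : 0 < d) :
    h5u_unitHolo d ∈ h2_holoInv N := by
  intro δ hδ
  apply Subtype.ext
  funext z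
  rw [h2_holoSmul_apply]
  exact h5u_unit_invariant N d hd hd0 δ hδ z

theorem h5u_unitInvHolo_mem_holoInv (N d : ℕ) (hd : d ∣ N) (hd0 : 0 < d) :
    h5u_unitInvHolo d ∈ h2_holoInv N := by
  intro δ hδ
  apply Subtype.ext
  funext z
  rw [h2_holoSmul_apply, h5u_unitInvHolo_apply, h5u_unitInvHolo_apply,
    h5u_unit_invariant N d hd hd0 δ hδ z]

/-! ### formal: `coeffMap` of the ratio series -/

theorem h5u_coeffMap_C {R S : Type*} [CommRing R] [CommRing S] (f : R →+* S) (c : R) :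
    coeffMap f (HahnSeries.C c : LaurentSeries R) = HahnSeries.C (f c) := by
  rw [HahnSeries.C_apply, coeffMap_single, HahnSeries.C_apply]

theorem h5u_coeffMap_ratio {R S : Type*} [CommRing R] [CommRing S] (f : R →+* S) (N s : ℕ)
    [NeZero N] [NeZero s] (ζ : Rˣ) (c : R) :
    coeffMap f (h2u_ratio R N s ζ c) = h2u_ratio S N s (Units.map (f : R →* S) ζ) (f c) := by
  unfold h2u_ratio
  rw [map_mul, map_mul, h5u_coeffMap_C, coeffMap_qExpand, coeffMap_qExpand, h2q_coeffMap_twist,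
    h2u_coeffMap_Delta, h2u_coeffMap_DeltaInv]

theorem h5u_coeffMap_ratioInv {R S : Type*} [CommRing R] [CommRing S] (f : R →+* S) (N s : ℕ)
    [NeZero N] [NeZero s] (ζ : Rˣ) (c : R) :
    coeffMap f (h2u_ratioInv R N s ζ c) = h2u_ratioInv S N s (Units.map (f : R →* S) ζ) (f c) := by
  unfold h2u_ratioInv
  rw [map_mul, map_mul, h5u_coeffMap_C, coeffMap_qExpand, coeffMap_qExpand, h2q_coeffMap_twist,
    h2u_coeffMap_Delta, h2u_coeffMap_DeltaInv]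

/-! ### analytic: both expansions with the same Hermite data -/

/-- `u_d(γ z)⁻¹ = e¹² Δ((a z + b)/e)⁻¹ Δ(z)`. -/
theorem h5u_unit_inv_smul_of_hermite (d : ℕ) (hd0 : 0 < d) (γ g : SL(2, ℤ)) (a b e : ℕ)
    (he : 0 < e) (h3 : γ 1 0 = g 1 0 * a) (h4 : γ 1 1 = g 1 0 * b + g 1 1 * e)
    (z τ' : ℍ) (hτ' : (τ' : ℂ) = ((a : ℂ) * z + b) / e)
    (hg : (d : ℂ) * ((γ • z : ℍ) : ℂ) = ((g • τ' : ℍ) : ℂ)) :
    (h2u_unit d (γ • z))⁻¹ = (e : ℂ) ^ 12 * ((Δ τ')⁻¹ * Δ z) := by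
  rw [h2u_unit_smul_of_hermite d hd0 γ g a b e he h3 h4 z τ' hτ' hg]
  have heC : (e : ℂ) ≠ 0 := by exact_mod_cast he.ne'
  have h1 : Δ τ' ≠ 0 := ModularForm.discriminant_ne_zero _
  have h2 : Δ z ≠ 0 := ModularForm.discriminant_ne_zero _
  field_simp

/-- **Expansions of `u_d` and `u_d⁻¹` at every cusp**, with the same Hermite data. -/
theorem h5u_expands_both (N d : ℕ) [NeZero N] (hd : d ∣ N) (γ : SL(2, ℤ)) :
    ∃ (a b e s : ℕ) (_ : NeZero s), 0 < a ∧ 0 < e ∧ a * e = d ∧ b < e ∧ s * e = a * N ∧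
      (∃ g : SL(2, ℤ), γ 1 0 = g 1 0 * a ∧ γ 1 1 = g 1 0 * b + g 1 1 * e) ∧
      h9_ExpandsInfty N (fun z => h2u_unit d (γ • z))
        (h2u_ratio ℂ N s (h5_zeta e ^ b) (((e : ℂ)⁻¹) ^ 12)) ∧
      h9_ExpandsInfty N (fun z => (h2u_unit d (γ • z))⁻¹)
        (h2u_ratioInv ℂ N s (h5_zeta e ^ b) ((e : ℂ) ^ 12)) := by
  have hN : 0 < N := Nat.pos_of_ne_zero (NeZero.ne N)
  have hd0 : 0 < d := Nat.pos_of_dvd_of_pos hd hN
  obtain ⟨g, a, b, e, ha, he, hae, hbe, ⟨-, -, h3, h4⟩, hτ⟩ := h5_hermite_smul d hd0 γ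
  have heN : e ∣ N := (Dvd.intro_left a hae).trans hd
  have hs : a * (N / e) * e = a * N := by rw [mul_assoc, Nat.div_mul_cancel heN]
  have hs0 : a * (N / e) ≠ 0 :=
    Nat.mul_ne_zero ha.ne' (Nat.div_pos (Nat.le_of_dvd hN heN) he).ne'
  have : NeZero (a * (N / e)) := ⟨hs0⟩
  refine ⟨a, b, e, a * (N / e), inferInstance, ha, he, hae, hbe, hs, ⟨g, h3, h4⟩, ?_, ?_⟩
  · intro z
    obtain ⟨τ', hτ', hg⟩ := hτ z
    show h9_LSum _ _ (h2u_unit d (γ • z))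
    rw [h2u_unit_smul_of_hermite d hd0 γ g a b e he h3 h4 z τ' hτ' hg]
    have hq0 : 𝕢 (N : ℝ) (z : ℂ) ≠ 0 := Function.Periodic.qParam_ne_zero _
    unfold h2u_ratio
    rw [mul_assoc]
    refine h9_LSum_mul hq0 (h9_LSum_C _ _) ?_
    exact h9_LSum_mul hq0 (h2u_LSum_Delta_hermite N a b e _ hN he hs z τ' hτ')
      (h2u_LSum_DeltaInv_N N z)
  · intro z
    obtain ⟨τ', hτ', hg⟩ := hτ z
    show h9_LSum _ _ (h2u_unit d (γ • z))⁻¹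
    rw [h5u_unit_inv_smul_of_hermite d hd0 γ g a b e he h3 h4 z τ' hτ' hg]
    have hq0 : 𝕢 (N : ℝ) (z : ℂ) ≠ 0 := Function.Periodic.qParam_ne_zero _
    unfold h2u_ratioInv
    rw [mul_assoc]
    refine h9_LSum_mul hq0 (h9_LSum_C _ _) ?_
    exact h9_LSum_mul hq0 (h2u_LSum_DeltaInv_hermite N a b e _ hN he hs z τ' hτ')
      (h2u_LSum_Delta_N N z)

/-! ### arithmetic of the Hermite data -/

/-- In the Hermite data, `a = gcd(d, γ₁₀)`. -/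
theorem h5u_gcd_eq (d a b e : ℕ) (g g' : SL(2, ℤ)) (hae : a * e = d)
    (h3 : g 1 0 = g' 1 0 * a) (h4 : g 1 1 = g' 1 0 * b + g' 1 1 * e) :
    a = Nat.gcd d (g 1 0).natAbs := by
  have hdet : g 0 0 * g 1 1 - g 0 1 * g 1 0 = 1 := by
    have := g.2
    rw [Matrix.det_fin_two] at this
    exact this
  have hcop : Nat.gcd e (g' 1 0).natAbs = 1 := by
    set p := Nat.gcd e (g' 1 0).natAbs with hp
    have h1 : (p : ℤ) ∣ (e : ℤ) := Int.natCast_dvd_natCast.mpr (Nat.gcd_dvd_left _ _)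
    have h2 : (p : ℤ) ∣ g' 1 0 := Int.natCast_dvd.mpr (Nat.gcd_dvd_right _ _)
    have h5 : (p : ℤ) ∣ g 1 0 := by rw [h3]; exact Dvd.dvd.mul_right h2 _
    have h6 : (p : ℤ) ∣ g 1 1 := by
      rw [h4]
      exact dvd_add (Dvd.dvd.mul_right h2 _) (Dvd.dvd.mul_left h1 _)
    have h7 : (p : ℤ) ∣ 1 := by
      rw [← hdet]
      exact dvd_sub (Dvd.dvd.mul_left h6 _) (Dvd.dvd.mul_left h5 _)
    have h8 : p ∣ 1 := by exact_mod_cast h7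
    exact Nat.dvd_one.mp h8
  have h9 : (g 1 0).natAbs = a * (g' 1 0).natAbs := by
    rw [h3, Int.natAbs_mul, Int.natAbs_natCast, mul_comm]
  rw [h9, ← hae, Nat.gcd_mul_left, hcop, mul_one]

/-! ### coefficients in `𝒪` -/

section Coeff

variable (N : ℕ) [NeZero N] (𝒪 : Subring ℂ)

theorem h5u_inv_natCast_mem (hN : ((N : ℂ))⁻¹ ∈ 𝒪) {e : ℕ} (he : e ∣ N) (he0 : 0 < e) :
    ((e : ℂ))⁻¹ ∈ 𝒪 := by
  obtain ⟨c, hc⟩ := he
  have hN0 : (N : ℂ) ≠ 0 := Nat.cast_ne_zero.mpr (NeZero.ne N)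
  have he0' : (e : ℂ) ≠ 0 := Nat.cast_ne_zero.mpr he0.ne'
  have h : ((e : ℂ))⁻¹ = (c : ℂ) * ((N : ℂ))⁻¹ := by
    rw [hc]
    push_cast
    have hc0 : (c : ℂ) ≠ 0 := by
      intro h0
      apply hN0
      rw [hc]
      push_cast
      rw [h0, mul_zero]
    field_simp
  rw [h]
  exact Subring.mul_mem _ (natCast_mem _ _) hN

/-- **Expansions of `u_d`, `u_d⁻¹` with coefficients in `𝒪`.** -/
theorem h5u_exp_data (hζ : ∀ ζ : ℂ, ζ ^ N = 1 → ζ ∈ 𝒪) (hN : ((N : ℂ))⁻¹ ∈ 𝒪) (d : ℕ)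
    (hd : d ∣ N) (γ : SL(2, ℤ)) :
    ∃ (a b e s : ℕ) (_ : NeZero s) (ζ : 𝒪ˣ) (c c' : 𝒪), 0 < a ∧ 0 < e ∧ a * e = d ∧ b < e ∧
      s * e = a * N ∧
      (∃ g : SL(2, ℤ), γ 1 0 = g 1 0 * a ∧ γ 1 1 = g 1 0 * b + g 1 1 * e) ∧ c * c' = 1 ∧
      h2q_Exp N 𝒪 (fun z => h2u_unit d (γ • z)) (h2u_ratio 𝒪 N s ζ c) ∧
      h2q_Exp N 𝒪 (fun z => (h2u_unit d (γ • z))⁻¹) (h2u_ratioInv 𝒪 N s ζ c') := by
  obtain ⟨a, b, e, s, hs0, ha, he, hae, hbe, hs, hg, hexp, hexpInv⟩ := h5u_expands_both N d hd γ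
  have heN : e ∣ N := (Dvd.intro_left a hae).trans hd
  set ζ : ℂˣ := h5_zeta e ^ b with hζdef
  have hpow : ζ ^ N = 1 := by
    obtain ⟨c, rfl⟩ := heN
    rw [hζdef, ← pow_mul, ← mul_assoc, mul_comm (b * e) c, mul_comm b e, ← mul_assoc, pow_mul,
      mul_comm c e, pow_mul, (h5_zeta_isPrimitiveRoot e he.ne').pow_eq_one, one_pow, one_pow]
  have h1 : (ζ : ℂ) ∈ 𝒪 := hζ _ (by rw [← Units.val_pow_eq_pow_val, hpow]; rfl)
  have h2 : ((ζ⁻¹ : ℂˣ) : ℂ) ∈ 𝒪 :=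
    hζ _ (by rw [← Units.val_pow_eq_pow_val, inv_pow, hpow]; simp)
  have he0' : (e : ℂ) ≠ 0 := Nat.cast_ne_zero.mpr he.ne'
  have hc : ((e : ℂ))⁻¹ ^ 12 ∈ 𝒪 := Subring.pow_mem _ (h5u_inv_natCast_mem N 𝒪 hN heN he) _
  have hc' : (e : ℂ) ^ 12 ∈ 𝒪 := Subring.pow_mem _ (natCast_mem _ _) _
  refine ⟨a, b, e, s, hs0, h2q_unitOf 𝒪 ζ h1 h2, ⟨_, hc⟩, ⟨_, hc'⟩, ha, he, hae, hbe, hs, hg,
    ?_, ?_, ?_⟩
  · apply Subtype.ext
    show ((e : ℂ))⁻¹ ^ 12 * (e : ℂ) ^ 12 = 1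
    rw [← mul_pow, inv_mul_cancel₀ he0', one_pow]
  · show h9_ExpandsInfty N _ _
    rw [h5u_coeffMap_ratio, h2q_unitOf_map]
    exact hexp
  · show h9_ExpandsInfty N _ _
    rw [h5u_coeffMap_ratioInv, h2q_unitOf_map]
    exact hexpInv

variable (hζ : ∀ ζ : ℂ, ζ ^ N = 1 → ζ ∈ 𝒪) (hN : ((N : ℂ))⁻¹ ∈ 𝒪) (d : ℕ) (hd : d ∣ N)

/-- `u_d` as an element of `h2q_ring N 𝒪`. -/
def h5u_unitElt : h2q_ring N 𝒪 :=
  ⟨h5u_unitHolo d,
    h5u_unitHolo_mem_holoInv N d hd (Nat.pos_of_dvd_of_pos hd (Nat.pos_of_ne_zero (NeZero.ne N))),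
    fun g => by
      obtain ⟨a, b, e, s, hs0, ζ, c, c', -, -, -, -, -, -, -, h, -⟩ := h5u_exp_data N 𝒪 hζ hN d hd g
      exact ⟨_, h⟩⟩

/-- `u_d⁻¹` as an element of `h2q_ring N 𝒪`. -/
def h5u_unitInvElt : h2q_ring N 𝒪 :=
  ⟨h5u_unitInvHolo d,
    h5u_unitInvHolo_mem_holoInv N d hd
      (Nat.pos_of_dvd_of_pos hd (Nat.pos_of_ne_zero (NeZero.ne N))),
    fun g => by
      obtain ⟨a, b, e, s, hs0, ζ, c, c', -, -, -, -, -, -, -, -, h⟩ := h5u_exp_data N 𝒪 hζ hN d hd g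
      refine ⟨_, h.congr fun z => ?_⟩
      rw [h5u_unitInvHolo_apply]⟩

theorem h5u_unitElt_mul_inv :
    h5u_unitElt N 𝒪 hζ hN d hd * h5u_unitInvElt N 𝒪 hζ hN d hd = 1 := by
  apply Subtype.ext
  exact h5u_unitHolo_mul_inv d

/-- **(K1.a)** expansions of `u_d` and `u_d⁻¹` at every `g`, as values of `h2q_exp`. -/
theorem h5u_unit_exp (g : SL(2, ℤ)) :
    ∃ (a b e s : ℕ) (_ : NeZero s) (ζ : 𝒪ˣ) (c c' : 𝒪), 0 < a ∧ 0 < e ∧ a * e = d ∧ b < e ∧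
      s * e = a * N ∧
      (∃ g' : SL(2, ℤ), g 1 0 = g' 1 0 * a ∧ g 1 1 = g' 1 0 * b + g' 1 1 * e) ∧ c * c' = 1 ∧
      h2q_exp N 𝒪 g (h5u_unitElt N 𝒪 hζ hN d hd) = h2u_ratio 𝒪 N s ζ c ∧
      h2q_exp N 𝒪 g (h5u_unitInvElt N 𝒪 hζ hN d hd) = h2u_ratioInv 𝒪 N s ζ c' := by
  obtain ⟨a, b, e, s, hs0, ζ, c, c', ha, he, hae, hbe, hs, hg, hcc, h1, h2⟩ :=
    h5u_exp_data N 𝒪 hζ hN d hd g
  refine ⟨a, b, e, s, hs0, ζ, c, c', ha, he, hae, hbe, hs, hg, hcc, ?_, ?_⟩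
  · exact h2q_exp_eq N 𝒪 h1
  · refine h2q_exp_eq N 𝒪 (h2.congr fun z => ?_)
    show _ = (h5u_unitInvHolo d).1 (g • z)
    rw [h5u_unitInvHolo_apply]

/-- **(K1.a)**, variant exposing `s * d = gcd(d, g₁₀)² * N` (input shape of `h2a_order_pos`). -/
theorem h5u_unit_exp_gcd (g : SL(2, ℤ)) :
    ∃ (a b e s : ℕ) (_ : NeZero s) (ζ : 𝒪ˣ) (c c' : 𝒪), 0 < a ∧ 0 < e ∧ a * e = d ∧ b < e ∧
      s * e = a * N ∧
      (∃ g' : SL(2, ℤ), g 1 0 = g' 1 0 * a ∧ g 1 1 = g' 1 0 * b + g' 1 1 * e) ∧ c * c' = 1 ∧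
      s * d = (Nat.gcd d (g 1 0).natAbs) ^ 2 * N ∧
      h2q_exp N 𝒪 g (h5u_unitElt N 𝒪 hζ hN d hd) = h2u_ratio 𝒪 N s ζ c ∧
      h2q_exp N 𝒪 g (h5u_unitInvElt N 𝒪 hζ hN d hd) = h2u_ratioInv 𝒪 N s ζ c' := by
  obtain ⟨a, b, e, s, hs0, ζ, c, c', ha, he, hae, hbe, hs, ⟨g', h3, h4⟩, hcc, h1, h2⟩ :=
    h5u_unit_exp N 𝒪 hζ hN d hd g
  refine ⟨a, b, e, s, hs0, ζ, c, c', ha, he, hae, hbe, hs, ⟨g', h3, h4⟩, hcc, ?_, h1, h2⟩
  rw [← h5u_gcd_eq d a b e g g' hae h3 h4, ← hae]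
  calc s * (a * e) = a * (s * e) := by ring
    _ = a * (a * N) := by rw [hs]
    _ = a ^ 2 * N := by ring

/-- short form: only what the order computation needs. -/
theorem h5u_unit_exp_short (g : SL(2, ℤ)) :
    ∃ (s : ℕ) (_ : NeZero s) (ζ : 𝒪ˣ) (c c' : 𝒪), c * c' = 1 ∧
      s * d = (Nat.gcd d (g 1 0).natAbs) ^ 2 * N ∧
      h2q_exp N 𝒪 g (h5u_unitElt N 𝒪 hζ hN d hd) = h2u_ratio 𝒪 N s ζ c ∧
      h2q_exp N 𝒪 g (h5u_unitInvElt N 𝒪 hζ hN d hd) = h2u_ratioInv 𝒪 N s ζ c' := by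
  obtain ⟨a, b, e, s, hs0, ζ, c, c', -, -, -, -, -, -, hcc, hsd, h1, h2⟩ :=
    h5u_unit_exp_gcd N 𝒪 hζ hN d hd g
  exact ⟨s, hs0, ζ, c, c', hcc, hsd, h1, h2⟩

end Coeff

end Fermat.Agent.Lib.S28
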