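/-
S28 project, analytic side, helper2: **(K1.c)** the modular unit
`U = ∏_{δ ∣ N} u_δ^{-δ μ(N/δ)}` as an element of `h2q_ring N 𝒪`, its leading terms at every `g`,
and the positivity of its order at every `g ∉ Γ₀(N)`; hence `h2q_UnitStatement N 𝒪`.
-/
import Mathlib
import Fermat.Agent.Lib.S28.H5Unit
import Fermat.Agent.Lib.S28.H6Leads
import Fermat.Agent.Lib.S28.H2Arith

set_option autoImplicit false

noncomputable section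

namespace Fermat.Agent.Lib.S28

open UpperHalfPlane ModularCurve Fermat.Agent.Lib.X0
open scoped MatrixGroups Manifold ArithmeticFunction.Moebius

/-- The exponent `n_δ = -δ μ(N/δ)`. -/
def h2u_expo (N δ : ℕ) : ℤ := -(δ : ℤ) * (μ (N / δ) : ℤ)

section Unit

variable (N : ℕ) [NeZero N] (𝒪 : Subring ℂ)
variable (hζ : ∀ ζ : ℂ, ζ ^ N = 1 → ζ ∈ 𝒪) (hN : ((N : ℂ))⁻¹ ∈ 𝒪)

/-- The factor `u_δ^{n_δ}`. -/
def h2u_factor (δ : {x // x ∈ N.divisors}) : h2q_ring N 𝒪 :=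
  if 0 ≤ h2u_expo N δ.1 then
    (h5u_unitElt N 𝒪 hζ hN δ.1 (Nat.dvd_of_mem_divisors δ.2)) ^ (h2u_expo N δ.1).toNat
  else
    (h5u_unitInvElt N 𝒪 hζ hN δ.1 (Nat.dvd_of_mem_divisors δ.2)) ^ (-(h2u_expo N δ.1)).toNat

/-- The modular unit `U`. -/
def h2u_U : h2q_ring N 𝒪 := ∏ δ ∈ N.divisors.attach, h2u_factor N 𝒪 hζ hN δ

theorem h2u_factor_leads (δ : {x // x ∈ N.divisors}) (g : SL(2, ℤ)) :
    ∃ (s : ℕ) (v : 𝒪ˣ), s * δ.1 = (Nat.gcd δ.1 (g 1 0).natAbs) ^ 2 * N ∧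
      h6l_Leads (h2q_exp N 𝒪 g (h2u_factor N 𝒪 hζ hN δ))
        (h2u_expo N δ.1 * ((s : ℤ) - N)) (v : 𝒪) := by
  obtain ⟨s, hs0, ζ, c, c', hcc, hsd, h1, h2⟩ :=
    h5u_unit_exp_short N 𝒪 hζ hN δ.1 (Nat.dvd_of_mem_divisors δ.2) g
  -- the unit `c ζ`
  let w : 𝒪ˣ := ⟨c * (ζ : 𝒪), c' * ((ζ⁻¹ : 𝒪ˣ) : 𝒪), by
      have : c * (ζ : 𝒪) * (c' * ((ζ⁻¹ : 𝒪ˣ) : 𝒪)) = (c * c') * ((ζ : 𝒪) * ((ζ⁻¹ : 𝒪ˣ) : 𝒪)) := by
        ring
      rw [this, hcc, Units.mul_inv, one_mul], by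
      have : c' * ((ζ⁻¹ : 𝒪ˣ) : 𝒪) * (c * (ζ : 𝒪)) = (c * c') * (((ζ⁻¹ : 𝒪ˣ) : 𝒪) * (ζ : 𝒪)) := by
        ring
      rw [this, hcc, Units.inv_mul, one_mul]⟩
  have hw : (w : 𝒪) = c * (ζ : 𝒪) := rfl
  have hwinv : ((w⁻¹ : 𝒪ˣ) : 𝒪) = c' * ((ζ⁻¹ : 𝒪ˣ) : 𝒪) := rfl
  by_cases h : 0 ≤ h2u_expo N δ.1
  · refine ⟨s, w ^ (h2u_expo N δ.1).toNat, hsd, ?_⟩
    have hk : (((h2u_expo N δ.1).toNat : ℕ) : ℤ) = h2u_expo N δ.1 := Int.toNat_of_nonneg h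
    have hL := (h6l_ratio_leads (R := 𝒪) N s ζ c).pow (h2u_expo N δ.1).toNat
    rw [hk] at hL
    unfold h2u_factor
    rw [if_pos h, map_pow, h1, Units.val_pow_eq_pow_val, hw]
    exact hL
  · refine ⟨s, (w⁻¹) ^ (-(h2u_expo N δ.1)).toNat, hsd, ?_⟩
    have h' : 0 ≤ -(h2u_expo N δ.1) := by omega
    have hk : (((-(h2u_expo N δ.1)).toNat : ℕ) : ℤ) = -(h2u_expo N δ.1) := Int.toNat_of_nonneg h'
    have hL := (h6l_ratioInv_leads (R := 𝒪) N s ζ c').pow (-(h2u_expo N δ.1)).toNat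
    rw [hk] at hL
    unfold h2u_factor
    rw [if_neg h, map_pow, h2, Units.val_pow_eq_pow_val, hwinv]
    have e : h2u_expo N δ.1 * ((s : ℤ) - N) = -(h2u_expo N δ.1) * ((N : ℤ) - s) := by ring
    rw [e]
    exact hL

include hζ hN in
/-- **(K1)** the unit statement. -/
theorem h2u_unitStatement : h2q_UnitStatement N 𝒪 := by
  classical
  have hNpos : 0 < N := Nat.pos_of_ne_zero (NeZero.ne N)
  refine ⟨h2u_U N 𝒪 hζ hN, fun g => ?_⟩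
  choose s v hs hL using fun δ : {x // x ∈ N.divisors} => h2u_factor_leads N 𝒪 hζ hN δ g
  have hprod := h6l_Leads.prod N.divisors.attach
    (fun δ => h2q_exp N 𝒪 g (h2u_factor N 𝒪 hζ hN δ))
    (fun δ => h2u_expo N δ.1 * ((s δ : ℤ) - N)) (fun δ => (v δ : 𝒪)) (fun δ _ => hL δ)
  have hexp : h2q_exp N 𝒪 g (h2u_U N 𝒪 hζ hN) =
      ∏ δ ∈ N.divisors.attach, h2q_exp N 𝒪 g (h2u_factor N 𝒪 hζ hN δ) := by
    unfold h2u_U
    rw [map_prod]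
  refine ⟨∑ δ ∈ N.divisors.attach, h2u_expo N δ.1 * ((s δ : ℤ) - N),
    ∏ δ ∈ N.divisors.attach, v δ, ?_, ?_, ?_⟩
  · rw [hexp, hprod.1, Units.coe_prod]
  · intro n hn
    rw [hexp]
    exact hprod.2 n hn
  · intro hg
    -- `N ∤ |g₁₀|`
    have hc : ¬ N ∣ (g 1 0).natAbs := by
      intro hdvd
      apply hg
      rw [CongruenceSubgroup.Gamma0_mem, ZMod.intCast_zmod_eq_zero_iff_dvd]
      exact Int.natCast_dvd.mpr hdvd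
    -- extend `s` to all of `ℕ`
    let s' : ℕ → ℕ := fun δ => if h : δ ∈ N.divisors then s ⟨δ, h⟩ else 0
    have hs' : ∀ δ ∈ N.divisors, s' δ * δ = (Nat.gcd δ (g 1 0).natAbs) ^ 2 * N := by
      intro δ hδ
      show (if h : δ ∈ N.divisors then s ⟨δ, h⟩ else 0) * δ = _
      rw [dif_pos hδ]
      exact hs ⟨δ, hδ⟩
    have hpos := h2a_order_pos N (g 1 0).natAbs hNpos hc s' hs'
    have hsum : ∑ δ ∈ N.divisors.attach, h2u_expo N δ.1 * ((s δ : ℤ) - N) =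
        ∑ δ ∈ N.divisors, (-(δ : ℤ) * (μ (N / δ) : ℤ)) * ((s' δ : ℤ) - (N : ℤ)) := by
      rw [← Finset.sum_attach N.divisors
        (fun δ => (-(δ : ℤ) * (μ (N / δ) : ℤ)) * ((s' δ : ℤ) - (N : ℤ)))]
      refine Finset.sum_congr rfl fun δ _ => ?_
      show h2u_expo N δ.1 * ((s δ : ℤ) - N) = _
      have : s' δ.1 = s δ := by
        show (if h : δ.1 ∈ N.divisors then s ⟨δ.1, h⟩ else 0) = s δ
        rw [dif_pos δ.2]
      rw [this]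
      rfl
    rw [hsum]
    exact hpos

end Unit

end Fermat.Agent.Lib.S28
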