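/-
S28 project, analytic side, helper3.

(K3) `h3n_growth : h2q_GrowthStatement`: a function on `ℍ` with a `q_N`-expansion (finitely many
negative terms) has moderate growth at `i∞`.
-/
import Mathlib
import Fermat.Agent.Lib.S28.DefsAn
import Fermat.Agent.Lib.X0.GrowthJd

set_option autoImplicit false

noncomputable section

namespace Fermat.Agent.Lib.S28

open UpperHalfPlane ModularCurve Fermat.Agent.Lib.X0 Filter Asymptotics
open scoped MatrixGroups Manifold Real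

/-- The basic estimate: if `s` has no terms below `-k` and converges absolutely at radius `r₀`,
then `‖s(w)‖ ≤ M r₀^k ‖w‖^{-k}` for `0 < ‖w‖ ≤ r₀`. -/
theorem h3n_growth_aux (s : LaurentSeries ℂ) (k : ℕ) (hk : ∀ n : ℤ, n < -(k : ℤ) → s.coeff n = 0)
    (r₀ : ℝ) (hr₀ : 0 < r₀) (M : ℝ) (hM : HasSum (fun n : ℤ => ‖s.coeff n‖ * r₀ ^ n) M)
    (w v : ℂ) (hw : w ≠ 0) (hwr : ‖w‖ ≤ r₀) (hv : h9_LSum s w v) :
    ‖v‖ ≤ M * (r₀ ^ k * (‖w‖ ^ k)⁻¹) := by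
  have hw0 : 0 < ‖w‖ := norm_pos_iff.mpr hw
  rw [← hv.tsum_eq]
  refine tsum_of_norm_bounded (hM.mul_right (r₀ ^ k * (‖w‖ ^ k)⁻¹)) (fun n => ?_)
  rw [norm_mul, norm_zpow]
  by_cases hn : n < -(k : ℤ)
  · rw [hk n hn, norm_zero, zero_mul, zero_mul, zero_mul]
  · push Not at hn
    obtain ⟨j, hj⟩ : ∃ j : ℕ, n = (j : ℤ) - k := ⟨(n + k).toNat, by omega⟩
    have h1 : ‖w‖ ^ n = ‖w‖ ^ j * (‖w‖ ^ k)⁻¹ := by
      rw [hj, zpow_sub₀ hw0.ne', zpow_natCast, zpow_natCast, div_eq_mul_inv]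
    have h2 : r₀ ^ n * r₀ ^ k = r₀ ^ j := by
      rw [hj, zpow_sub₀ hr₀.ne', zpow_natCast, zpow_natCast, div_mul_cancel₀ _ (pow_ne_zero _ hr₀.ne')]
    have h3 : ‖w‖ ^ j ≤ r₀ ^ j := pow_le_pow_left₀ hw0.le hwr j
    calc ‖s.coeff n‖ * ‖w‖ ^ n = ‖s.coeff n‖ * (‖w‖ ^ j * (‖w‖ ^ k)⁻¹) := by rw [h1]
      _ ≤ ‖s.coeff n‖ * (r₀ ^ j * (‖w‖ ^ k)⁻¹) := by gcongr
      _ = ‖s.coeff n‖ * r₀ ^ n * (r₀ ^ k * (‖w‖ ^ k)⁻¹) := by rw [← h2]; ring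

/-- **(K3) growth**. -/
theorem h3n_growth : h2q_GrowthStatement := by
  intro N _ h s hs
  have hN : (0 : ℝ) < N := by exact_mod_cast Nat.pos_of_ne_zero (NeZero.ne N)
  have hN1 : (1 : ℝ) ≤ N := by exact_mod_cast Nat.pos_of_ne_zero (NeZero.ne N)
  obtain ⟨k, hk⟩ : ∃ k : ℕ, ∀ n : ℤ, n < -(k : ℤ) → s.coeff n = 0 :=
    ⟨(-s.order).toNat, fun n hn => HahnSeries.coeff_eq_zero_of_lt_order (by omega)⟩
  set z₀ : ℍ := ⟨Complex.I, by simp⟩ with hz₀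
  set r₀ : ℝ := Real.exp (-2 * π / N) with hr₀
  have hr₀pos : 0 < r₀ := Real.exp_pos _
  have hnorm : ∀ z : ℍ, ‖Function.Periodic.qParam (N : ℝ) (z : ℂ)‖ = Real.exp (-2 * π * z.im / N) := by
    intro z
    rw [Function.Periodic.norm_qParam]
    rfl
  have hsum0 : Summable (fun n : ℤ => ‖s.coeff n‖ * r₀ ^ n) := by
    have h1 := (hs z₀).summable.norm
    refine h1.congr (fun n => ?_)
    rw [norm_mul, norm_zpow, hnorm z₀]
    have : z₀.im = 1 := by simp [hz₀, UpperHalfPlane.im]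
    rw [this, mul_one]
  obtain ⟨C, A, hC, hΔ⟩ := h3_discriminant_decay
  refine ⟨k, ?_⟩
  rw [IsBoundedAtImInfty, BoundedAtFilter]
  refine IsBigO.of_bound ((∑' n : ℤ, ‖s.coeff n‖ * r₀ ^ n) * r₀ ^ k * C ^ k) ?_
  rw [Filter.Eventually, atImInfty_mem]
  refine ⟨max A 1, fun τ hτ => ?_⟩
  simp only [Set.mem_ofPred_eq, Pi.one_apply, norm_one, mul_one]
  have hτA : A ≤ τ.im := le_trans (le_max_left _ _) hτ
  have hτ1 : 1 ≤ τ.im := le_trans (le_max_right _ _) hτ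
  set w := Function.Periodic.qParam (N : ℝ) (τ : ℂ) with hw
  have hwne : w ≠ 0 := Function.Periodic.qParam_ne_zero _
  have hw0 : 0 < ‖w‖ := norm_pos_iff.mpr hwne
  have hwr : ‖w‖ ≤ r₀ := by
    rw [hw, hnorm τ, hr₀]
    apply Real.exp_le_exp.mpr
    rw [div_le_div_iff_of_pos_right hN]
    have : 0 < π := Real.pi_pos
    nlinarith
  have hM0 : 0 ≤ ∑' n : ℤ, ‖s.coeff n‖ * r₀ ^ n :=
    tsum_nonneg fun n => mul_nonneg (norm_nonneg _) (zpow_nonneg hr₀pos.le _)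
  have hb1 := h3n_growth_aux s k hk r₀ hr₀pos _ hsum0.hasSum w (h τ) hwne hwr (hs τ)
  have hb2 := hΔ τ hτA
  have hexp : Real.exp (-2 * π * τ.im) ≤ ‖w‖ := by
    rw [hw, hnorm τ]
    apply Real.exp_le_exp.mpr
    rw [le_div_iff₀ hN]
    have hpos : 0 < 2 * π * τ.im := by
      have : 0 < π := Real.pi_pos
      have := τ.im_pos
      positivity
    nlinarith
  have hkey : (‖w‖ ^ k)⁻¹ * Real.exp (-2 * π * τ.im) ^ k ≤ 1 := by
    rw [← inv_pow, ← mul_pow]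
    apply pow_le_one₀
    · positivity
    · rw [inv_mul_le_iff₀ hw0, mul_one]
      exact hexp
  rw [norm_mul, norm_pow]
  calc ‖h τ‖ * ‖ModularForm.discriminant τ‖ ^ k
      ≤ ((∑' n : ℤ, ‖s.coeff n‖ * r₀ ^ n) * (r₀ ^ k * (‖w‖ ^ k)⁻¹)) *
          (C * Real.exp (-2 * π * τ.im)) ^ k := by
        gcongr
    _ = (∑' n : ℤ, ‖s.coeff n‖ * r₀ ^ n) * r₀ ^ k * C ^ k *
          ((‖w‖ ^ k)⁻¹ * Real.exp (-2 * π * τ.im) ^ k) := by
        rw [mul_pow]; ring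
    _ ≤ (∑' n : ℤ, ‖s.coeff n‖ * r₀ ^ n) * r₀ ^ k * C ^ k * 1 := by
        gcongr
    _ = _ := mul_one _

end Fermat.Agent.Lib.S28
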