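/-
S28 project, analytic side: the formal `e_m`-calculus, helper3.

(K2a) `h3n_tri : h2q_TriStatement` and (K2b) `h3n_order : h2q_OrderStatement`: triangularity of
polynomials in `J = j(q^N)` with respect to the pole order.
-/
import Mathlib
import Fermat.Agent.Lib.S28.DefsAn

set_option autoImplicit false

noncomputable section

namespace Fermat.Agent.Lib.S28

open UpperHalfPlane ModularCurve Fermat.Agent.Lib.X0
open scoped MatrixGroups Manifold

section Formal

variable (R : Type*) [CommRing R] (N : ℕ) [NeZero N]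

omit [NeZero N] in
theorem h3n_algebraMap_eq_C (c : R) :
    algebraMap R (LaurentSeries R) c = HahnSeries.C c := by
  have h1 : algebraMap R (PowerSeries R) c = PowerSeries.C c := by simp
  rw [HahnSeries.algebraMap_apply', h1, HahnSeries.ofPowerSeries_C]

omit [NeZero N] in
theorem h3n_algebraMap_mul_coeff (c : R) (x : LaurentSeries R) (m : ℤ) :
    (algebraMap R (LaurentSeries R) c * x).coeff m = c * x.coeff m := by
  rw [h3n_algebraMap_eq_C, HahnSeries.C_mul_eq_smul, HahnSeries.coeff_smul, smul_eq_mul]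

theorem h3n_J_pow_coeff_of_lt {i d : ℕ} (hid : i ≤ d) {m : ℤ} (hm : m < -((N : ℤ) * d)) :
    ((qExpand R N (jqModC R)) ^ i).coeff m = 0 := by
  rw [← map_pow]
  by_cases hdvd : (N : ℤ) ∣ m
  · obtain ⟨k, rfl⟩ := hdvd
    rw [qExpand_coeff_mul]
    apply coeff_jqModC_pow_of_lt
    have hN : (0 : ℤ) < N := by exact_mod_cast Nat.pos_of_ne_zero (NeZero.ne N)
    have h1 : k < -(d : ℤ) := by
      by_contra h
      push Not at h
      have := mul_le_mul_of_nonneg_left h hN.le
      linarith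
    have h2 : (i : ℤ) ≤ d := by exact_mod_cast hid
    linarith
  · exact qExpand_coeff_of_not_dvd N _ hdvd

theorem h3n_J_pow_coeff_self (d : ℕ) :
    ((qExpand R N (jqModC R)) ^ d).coeff (-((N : ℤ) * d)) = 1 := by
  rw [← map_pow, show -((N : ℤ) * d) = (N : ℤ) * (-(d : ℤ)) by ring, qExpand_coeff_mul]
  exact coeff_jqModC_pow_self R d

/-- Coefficients of `P(J)` below the expected pole order vanish. -/
theorem h3n_aeval_coeff_of_lt (P : Polynomial R) {d : ℕ} (hd : P.natDegree ≤ d) {m : ℤ}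
    (hm : m < -((N : ℤ) * d)) :
    (Polynomial.aeval (qExpand R N (jqModC R)) P).coeff m = 0 := by
  rw [Polynomial.aeval_eq_sum_range, HahnSeries.coeff_sum]
  refine Finset.sum_eq_zero fun i hi => ?_
  rw [Finset.mem_range] at hi
  rw [Algebra.smul_def, h3n_algebraMap_mul_coeff, h3n_J_pow_coeff_of_lt R N (by omega) hm,
    mul_zero]

/-- The coefficient of `P(J)` at the expected pole order. -/
theorem h3n_aeval_coeff_top (P : Polynomial R) {d : ℕ} (hd : P.natDegree ≤ d) :
    (Polynomial.aeval (qExpand R N (jqModC R)) P).coeff (-((N : ℤ) * d)) = P.coeff d := by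
  rw [Polynomial.aeval_eq_sum_range' (Nat.lt_succ_of_le hd), HahnSeries.coeff_sum,
    Finset.sum_range_succ, Finset.sum_eq_zero, zero_add, Algebra.smul_def,
    h3n_algebraMap_mul_coeff, h3n_J_pow_coeff_self, mul_one]
  intro i hi
  rw [Finset.mem_range] at hi
  have hN : (0 : ℤ) < N := by exact_mod_cast Nat.pos_of_ne_zero (NeZero.ne N)
  have h2 : (i : ℤ) < d := by exact_mod_cast hi
  rw [Algebra.smul_def, h3n_algebraMap_mul_coeff, h3n_J_pow_coeff_of_lt R N le_rfl (d := i),
    mul_zero]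
  have := mul_lt_mul_of_pos_left h2 hN
  linarith

end Formal

/-- **(K2b)** a nonzero polynomial in `j(q^N)` over a field is nonzero of order `≤ 0`. -/
theorem h3n_order : h2q_OrderStatement := by
  intro N _ k _ p hp
  have hN : (0 : ℤ) < N := by exact_mod_cast Nat.pos_of_ne_zero (NeZero.ne N)
  have hc : (Polynomial.aeval (qExpand k N (jqModC k)) p).coeff (-((N : ℤ) * p.natDegree)) ≠ 0 := by
    rw [h3n_aeval_coeff_top k N p le_rfl]
    exact Polynomial.leadingCoeff_ne_zero.mpr hp
  refine ⟨fun h => hc (by rw [h]; rfl), ?_⟩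
  refine le_trans (HahnSeries.order_le_of_coeff_ne_zero hc) ?_
  have : (0 : ℤ) ≤ (N : ℤ) * p.natDegree := by positivity
  linarith

theorem h3n_coeffMap_J_pow (N : ℕ) [NeZero N] (𝒪 : Subring ℂ) (d : ℕ) (a : 𝒪) :
    coeffMap 𝒪.subtype (HahnSeries.C a * (qExpand 𝒪 N (jqModC 𝒪)) ^ d) =
      HahnSeries.C (a : ℂ) * (qExpand ℂ N (jqModC ℂ)) ^ d := by
  rw [map_mul, map_pow, coeffMap_qExpand, coeffMap_jqModC, HahnSeries.C_apply, coeffMap_single]
  rfl

theorem h3n_tri_aux (N : ℕ) [NeZero N] (𝒪 : Subring ℂ) :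
    ∀ (d : ℕ) (P : Polynomial ℂ) (σ : LaurentSeries 𝒪), P.degree < d →
      coeffMap 𝒪.subtype σ = Polynomial.aeval (qExpand ℂ N (jqModC ℂ)) P →
      ∃ P' : Polynomial 𝒪, σ = Polynomial.aeval (qExpand 𝒪 N (jqModC 𝒪)) P' := by
  intro d
  induction d with
  | zero =>
    intro P σ hP hσ
    have hP0 : P = 0 := by
      rw [← Polynomial.degree_eq_bot]
      rw [Nat.cast_zero] at hP
      exact (Nat.WithBot.lt_zero_iff).mp hP
    refine ⟨0, ?_⟩
    rw [hP0, map_zero] at hσ
    rw [map_zero]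
    exact h2q_coeffMap_subtype_injective 𝒪 (by rw [hσ, map_zero])
  | succ d ih =>
    intro P σ hP hσ
    have hnat : P.natDegree ≤ d := by
      by_cases hP0 : P = 0
      · rw [hP0]; simp
      · rw [Polynomial.degree_eq_natDegree hP0] at hP
        have : P.natDegree < d + 1 := by exact_mod_cast hP
        omega
    -- the top coefficient lies in `𝒪`
    have htop : ((σ.coeff (-((N : ℤ) * d)) : 𝒪) : ℂ) = P.coeff d := by
      rw [← h3n_aeval_coeff_top ℂ N P hnat, ← hσ]
      rfl
    set a : 𝒪 := σ.coeff (-((N : ℤ) * d)) with ha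
    set Q : Polynomial ℂ := P - Polynomial.C (P.coeff d) * Polynomial.X ^ d with hQ
    have hQdeg : Q.degree < d := by
      rw [Polynomial.degree_lt_iff_coeff_zero]
      intro m hm
      rw [hQ, Polynomial.coeff_sub, Polynomial.coeff_C_mul, Polynomial.coeff_X_pow]
      rcases Nat.eq_or_lt_of_le hm with h | h
      · subst h; simp
      · have : P.coeff m = 0 := Polynomial.coeff_eq_zero_of_natDegree_lt (by omega)
        rw [this, if_neg (by omega)]; simp
    have hσ' : coeffMap 𝒪.subtype (σ - HahnSeries.C a * (qExpand 𝒪 N (jqModC 𝒪)) ^ d) =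
        Polynomial.aeval (qExpand ℂ N (jqModC ℂ)) Q := by
      rw [map_sub, h3n_coeffMap_J_pow, hσ, hQ, map_sub, map_mul, map_pow, Polynomial.aeval_X,
        Polynomial.aeval_C, htop, h3n_algebraMap_eq_C]
    obtain ⟨P'', hP''⟩ := ih Q _ hQdeg hσ'
    refine ⟨P'' + Polynomial.C a * Polynomial.X ^ d, ?_⟩
    rw [map_add, ← hP'', map_mul, map_pow, Polynomial.aeval_X, Polynomial.aeval_C,
      h3n_algebraMap_eq_C]
    ring

/-- **(K2a) triangularity**. -/
theorem h3n_tri : h2q_TriStatement := by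
  intro N _ 𝒪 P σ hσ
  by_cases hP : P = 0
  · exact h3n_tri_aux N 𝒪 0 P σ (by rw [hP]; simp) hσ
  · exact h3n_tri_aux N 𝒪 (P.natDegree + 1) P σ
      (by rw [Polynomial.degree_eq_natDegree hP]; exact_mod_cast Nat.lt_succ_self _) hσ

end Fermat.Agent.Lib.S28
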