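/-
S28 project, analytic side, helper3.

(K5') `h3n_norm : h2q_NormStatement N 𝒪`: the coefficients of the (formal) norm polynomial
`∏_q (X - exp_q F)` of `F ∈ h2q_ring N 𝒪` are polynomials in `J = j(q_N^N)` with coefficients
in `𝒪`.

Route: the pairs (holomorphic function, its `𝒪`-expansion at `∞`) form a subring `h3n_pairs` of
`h2_holo × LaurentSeries 𝒪`; the norm polynomial over that subring projects to the analytic norm
polynomial `h2_normPolyH` and to the formal one.  The analytic coefficients are level one,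
of moderate growth (K3), hence polynomials in `j` (level one polynomiality); uniqueness of
expansions and triangularity (K2a) give the claim.
-/
import Mathlib
import Fermat.Agent.Lib.S28.DefsAn
import Fermat.Agent.Lib.S28.H2Gen
import Fermat.Agent.Lib.S28.H3Tri
import Fermat.Agent.Lib.S28.H3Growth

set_option autoImplicit false

noncomputable section

namespace Fermat.Agent.Lib.S28

open UpperHalfPlane ModularCurve Fermat.Agent.Lib.X0 Polynomial
open scoped MatrixGroups Manifold

/-! ### Polynomials in a function with an expansion -/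

theorem h3n_expands_eval (N : ℕ) {f : ℍ → ℂ} {s : LaurentSeries ℂ}
    (hf : h9_ExpandsInfty N f s) (p : Polynomial ℂ) :
    h9_ExpandsInfty N (fun τ => p.eval (f τ)) (Polynomial.aeval s p) := by
  intro z
  have hw : Function.Periodic.qParam (N : ℝ) (z : ℂ) ≠ 0 := Function.Periodic.qParam_ne_zero _
  show h9_LSum (Polynomial.aeval s p) _ (p.eval (f z))
  induction p using Polynomial.induction_on' with
  | add p q hp hq =>
    rw [map_add, Polynomial.eval_add]
    exact h9_LSum_add hp hq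
  | monomial n a =>
    rw [Polynomial.aeval_monomial, Polynomial.eval_monomial, h3n_algebraMap_eq_C]
    exact h9_LSum_mul hw (h9_LSum_C a _) (h9_LSum_pow hw (hf z) n)

/-- `j` has the `q_N`-expansion `j(q_N^N)`. -/
theorem h3n_expands_jFun (N : ℕ) [NeZero N] :
    h9_ExpandsInfty N jFun (qExpand ℂ N (jqModC ℂ)) := by
  have h := h5_expands_jFun N
  have e : h5_cuspSeries N (h5_zeta 1 ^ 0) = qExpand ℂ N (jqModC ℂ) := by
    rw [h5_cuspSeries, h2q_jqC_eq]
    congr 1
    ext n
    rw [h5_twist_coeff, pow_zero, one_zpow, Units.val_one, one_mul]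
  rwa [e] at h

/-! ### The ring of pairs -/

/-- Pairs (holomorphic function, its `q_N`-expansion with coefficients in `𝒪`). -/
def h3n_pairs (N : ℕ) (𝒪 : Subring ℂ) : Subring (h2_holo × LaurentSeries 𝒪) where
  carrier := {p | h2q_Exp N 𝒪 p.1.1 p.2}
  mul_mem' := fun ha hb => h2q_Exp.mul ha hb
  one_mem' := h2q_Exp.one N
  add_mem' := fun ha hb => h2q_Exp.add ha hb
  zero_mem' := h2q_Exp.zero N
  neg_mem' := fun ha => h2q_Exp.neg ha

variable (N : ℕ) [NeZero N] (𝒪 : Subring ℂ)

/-- The conjugate of `F` at `q`, with its expansion. -/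
def h3n_conjPair (F : h2q_ring N 𝒪) (q : QN N) : h3n_pairs N 𝒪 :=
  ⟨(h2_conj N ⟨F.1, F.2.1⟩ q, h2q_exp N 𝒪 (q.out)⁻¹ F), h2q_exp_spec N 𝒪 (q.out)⁻¹ F⟩

/-- The norm polynomial over the ring of pairs. -/
def h3n_normPair (F : h2q_ring N 𝒪) : Polynomial (h3n_pairs N 𝒪) :=
  ∏ q : QN N, (X - C (h3n_conjPair N 𝒪 F q))

theorem h3n_normPair_fst (F : h2q_ring N 𝒪) :
    (h3n_normPair N 𝒪 F).map ((RingHom.fst _ _).comp (h3n_pairs N 𝒪).subtype) =
      h2_normPolyH N ⟨F.1, F.2.1⟩ := by
  unfold h3n_normPair h2_normPolyH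
  rw [Polynomial.map_prod]
  simp only [Polynomial.map_sub, Polynomial.map_X, Polynomial.map_C]
  rfl

theorem h3n_normPair_snd (F : h2q_ring N 𝒪) :
    (h3n_normPair N 𝒪 F).map ((RingHom.snd _ _).comp (h3n_pairs N 𝒪).subtype) =
      ∏ q : QN N, (X - C (h2q_exp N 𝒪 (q.out)⁻¹ F)) := by
  unfold h3n_normPair
  rw [Polynomial.map_prod]
  simp only [Polynomial.map_sub, Polynomial.map_X, Polynomial.map_C]
  rfl

/-- The analytic coefficient has the formal coefficient as its expansion. -/
theorem h3n_coeff_expands (F : h2q_ring N 𝒪) (m : ℕ) :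
    h2q_Exp N 𝒪 ((h2_normPolyH N ⟨F.1, F.2.1⟩).coeff m).1
      ((∏ q : QN N, (X - C (h2q_exp N 𝒪 (q.out)⁻¹ F))).coeff m) := by
  have h := ((h3n_normPair N 𝒪 F).coeff m).2
  rw [← h3n_normPair_fst, ← h3n_normPair_snd, Polynomial.coeff_map, Polynomial.coeff_map]
  exact h

/-- **(K5')**. -/
theorem h3n_norm : h2q_NormStatement N 𝒪 := by
  intro F m
  set θ : h2_holoInv N := ⟨F.1, F.2.1⟩ with hθ
  set c : h2_holo := (h2_normPolyH N θ).coeff m with hc
  -- growth of the conjugates, from (K3)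
  have hgrowth : ∀ g : SL(2, ℤ), h2_ModGrowth (fun τ : ℍ => θ.1.1 (g • τ)) := fun g =>
    h3n_growth N _ _ (h2q_exp_spec N 𝒪 g F)
  obtain ⟨k, hk⟩ := h2_normPolyH_coeff_growth N θ hgrowth m
  -- level one polynomiality
  obtain ⟨p, -, hp⟩ := h2_levelOnePolyStatement c.1 c.2
    (fun γ τ => by
      have := congrArg (fun G : h2_holo => G.1 τ) (h2_normPolyH_coeff_invariant N θ m γ)
      simpa [h2_holoSmul_apply] using this) k hk
  -- two expansions of `c`
  have h1 : h9_ExpandsInfty N c.1 (Polynomial.aeval (qExpand ℂ N (jqModC ℂ)) p) :=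
    h5_expandsInfty_congr (fun τ => (hp τ).symm) (h3n_expands_eval N (h3n_expands_jFun N) p)
  have h2 := h3n_coeff_expands N 𝒪 F m
  have h3 := h5_expandsInfty_unique N h2 h1
  exact h3n_tri N 𝒪 p _ h3

end Fermat.Agent.Lib.S28
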