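import Mathlib
import Fermat.Prelude.Thm_ModularCurve_coeffMap_qExpand
import Fermat.Agent.Lib.S28.DefsAn
import Fermat.Agent.Lib.S28.H0Card

set_option autoImplicit false

noncomputable section

namespace Fermat.Agent.Lib.S28

open Matrix MatrixGroups ModularCurve HahnSeries Fermat.Agent.Lib.X0 IntermediateField
open UpperHalfPlane hiding I
open Complex ModularCurve.IgusaScheme

local notation "𝕢" => Function.Periodic.qParam

variable (N : ℕ) [NeZero N]

/-- Two ring homs out of `F = ℚ(j(q^d) : d ∣ N)` into a field that agree on the generators agree. -/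
theorem h6b_hom_ext {L : Type*} [Field L] (φ ψ : ↥(modularFunctionFieldFull N) →+* L)
    (h : ∀ d, φ (h0c_gen N d) = ψ (h0c_gen N d)) : φ = ψ := by
  ext x
  have hx : x ∈ adjoin ℚ (insert (jFull N)
      (↑(h0c_genSet N) : Set ↥(modularFunctionFieldFull N))) := by
    rw [h0c_adjoin_eq_top]; trivial
  induction hx using IntermediateField.adjoin_induction with
  | mem s hs =>
    have hs' : s ∈ h0c_genSet N := by
      rcases hs with rfl | hs
      · exact h0c_jFull_mem_genSet N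
      · exact hs
    obtain ⟨d, rfl⟩ := (h0c_mem_genSet N s).mp hs'
    exact h d
  | algebraMap a =>
    rw [eq_ratCast, map_ratCast, map_ratCast]
  | add x y _ _ hx hy => rw [map_add, map_add, hx, hy]
  | inv x _ hx => rw [map_inv₀, map_inv₀, hx]
  | mul x y _ _ hx hy => rw [map_mul, map_mul, hx, hy]

/-- (E1b) -/
theorem h6b_agree : h2e_AgreeStatement N := by
  intro q
  show (h2e_fam N).tau q (h2e_incl N (jFull N)) = (h2e_fam N).tau _ (h2e_incl N (jFull N))
  rw [h0c_incl_jFull]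
  show (h2e_fam N).lift _ (xJ N) = (h2e_fam N).lift _ (xJ N)
  rw [h9_EmbFamily.lift_xJ, h9_EmbFamily.lift_xJ]
  exact (h2e_fam N).agree _ _

/-- the "naive" embedding `x ↦ x(u^N)` with coefficients cast to `ℂ`. -/
def h6b_beta : ↥(modularFunctionFieldFull N) →+* LaurentSeries ℂ :=
  (qExpand ℂ N).comp ((coeffMap (algebraMap ℚ ℂ)).comp
    (modularFunctionFieldFull N).toSubfield.subtype)

theorem h6b_beta_apply (x : ↥(modularFunctionFieldFull N)) :
    h6b_beta N x = qExpand ℂ N (coeffMap (algebraMap ℚ ℂ) (x : LaurentSeries ℚ)) := rfl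

theorem h6b_beta_coeff (x : ↥(modularFunctionFieldFull N)) (n : ℤ) :
    (h6b_beta N x).coeff n =
      if (N : ℤ) ∣ n then (((x : LaurentSeries ℚ).coeff (n / (N : ℤ)) : ℚ) : ℂ) else 0 := by
  rw [h6b_beta_apply]
  split_ifs with h
  · obtain ⟨m, rfl⟩ := h
    have hN : (N : ℤ) ≠ 0 := by exact_mod_cast NeZero.ne N
    rw [qExpand_coeff_mul, Int.mul_ediv_cancel_left _ hN, coeffMap_coeff]
    rfl
  · exact qExpand_coeff_of_not_dvd N _ h

/-- the `q_N`-expansion of `J_d = j(d z)` at the identity. -/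
theorem h6b_expands_Jd (d : ℕ) [NeZero d] :
    h9_ExpandsInfty N (fun z => h9_Jd d z) (h5_cuspSeries (d * N) (h5_zeta 1 ^ 0)) := by
  have hd : 0 < d := Nat.pos_of_ne_zero (NeZero.ne d)
  intro z
  rw [h5_LSum_cuspSeries_iff,
    ← h5_qParam_hermite N d 0 1 (d * N) (Nat.pos_of_ne_zero (NeZero.ne N)) one_pos (by ring) z
      (h9_dmul d z) (by rw [h9_dmul_coe hd]; push_cast; ring)]
  exact h5_LSum_jqC _

theorem h6b_JdSeries_one (d : h9_DivN N) :
    haveI : NeZero d.1 := ⟨h9_DivN_ne_zero N d⟩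
    h5_JdSeries N d 1 = h5_cuspSeries (d.1 * N) (h5_zeta 1 ^ 0) := by
  have : NeZero d.1 := ⟨h9_DivN_ne_zero N d⟩
  refine h5_expandsInfty_unique N (h5_JdSeries_spec N d 1)
    (h5_expandsInfty_congr (fun z => ?_) (h6b_expands_Jd N d.1))
  rw [one_smul]

theorem h6b_sigma_one_gen (d : h9_DivN N) :
    h2e_sigma N ((1 : SL(2, ℤ)) : QN N) (h0c_gen N d) = h6b_beta N (h0c_gen N d) := by
  have : NeZero d.1 := ⟨h9_DivN_ne_zero N d⟩
  show (h2e_fam N).tau _ (h2e_incl N (h0c_gen N d)) = _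
  rw [h9_EmbFamily.tau_mk, h0c_incl_gen, ← h9_evF_X, h9_EmbFamily.lift_evF]
  show h5_cuspPsi N 1 (MvPolynomial.X d) = _
  rw [h5_cuspPsi_X, inv_one, h6b_JdSeries_one, h6b_beta_apply]
  show _ = qExpand ℂ N (coeffMap (algebraMap ℚ ℂ) (qExpand ℚ d.1 jq))
  rw [coeffMap_qExpand, qExpand_qExpand, h5_cuspSeries, pow_zero, h5_twist_one_apply]
  exact qExpand_congr (mul_comm _ _) _

/-- (E1a) -/
theorem h6b_base : h2e_BaseStatement N := by
  intro x n
  have h : h2e_sigma N ((1 : SL(2, ℤ)) : QN N) = h6b_beta N :=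
    h6b_hom_ext N _ _ (h6b_sigma_one_gen N)
  rw [h, h6b_beta_coeff]

end Fermat.Agent.Lib.S28
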