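import Mathlib
import Fermat.Agent.Lib.S28.DefsAn

/-!
# S28 analytic side: (E3b) `h2e_ThetaDiffStatement` (+ (E3a) `h2e_ThetaIntStatement`)

* `h8d_sigma_theta`: `σ_q θ` (`q = g Γ₀(N)`, `θ = j(q^N)`) is the cusp series
  `h5_cuspSeries s (ζ_e^b)` (`= j(ζ_e^b u^s)`), the `q_N`-expansion of `J_N ∘ g⁻¹`.
* `h8d_one_sub_root_isUnit`: `1 - z` is a unit of `𝒪 ∋ μ_N, 1/N` for `z ∈ μ_N`, `z ≠ 1`.
* `h8d_thetaDiff : h2e_ThetaDiffStatement N 𝒪`, `h8d_thetaInt : h2e_ThetaIntStatement N 𝒪`.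
-/

namespace Fermat.Agent.Lib.S28

open UpperHalfPlane ModularCurve ModularCurve.IgusaScheme Fermat.Agent.Lib.X0
open scoped MatrixGroups

/-- leading coefficient from "first nonzero coefficient" data -/
theorem h8d_leadingCoeff_eq {x : LaurentSeries ℂ} {n : ℤ} {c : ℂ} (hc : c ≠ 0)
    (hn : x.coeff n = c) (hlt : ∀ k < n, x.coeff k = 0) : x.leadingCoeff = c := by
  have hx : x ≠ 0 := by
    intro h; rw [h, HahnSeries.coeff_zero] at hn; exact hc hn.symm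
  have hle : x.order ≤ n := HahnSeries.order_le_of_coeff_ne_zero (by rw [hn]; exact hc)
  have hge : n ≤ x.order := by
    by_contra hcon
    exact hx (HahnSeries.coeff_order_eq_zero.mp (hlt _ (not_le.mp hcon)))
  rw [HahnSeries.leadingCoeff_eq, le_antisymm hle hge, hn]

/-- `1 - z` is a unit in any subring of `ℂ` containing `μ_N` and `1/N`. -/
theorem h8d_one_sub_root_isUnit (N : ℕ) [NeZero N]
    (O : Subring ℂ) (hroots : ∀ z : ℂ, z ^ N = 1 → z ∈ O) (hN : ((N : ℂ))⁻¹ ∈ O)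
    (z : ℂ) (hz : z ^ N = 1) (hz1 : z ≠ 1) : ∃ b ∈ O, (1 - z) * b = 1 := by
  classical
  have hζ : IsPrimitiveRoot (Complex.exp (2 * Real.pi * Complex.I / N)) N :=
    Complex.isPrimitiveRoot_exp N (NeZero.ne N)
  set ζ := Complex.exp (2 * Real.pi * Complex.I / N) with hζdef
  obtain ⟨i, hiN, rfl⟩ := hζ.eq_pow_of_pow_eq_one hz
  have hi0 : i ≠ 0 := by
    rintro rfl
    exact hz1 (pow_zero ζ)
  obtain ⟨n, hn⟩ : ∃ n, N = n + 1 := ⟨N - 1, by have := NeZero.pos N; omega⟩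
  have hζ' : IsPrimitiveRoot ζ (n + 1) := hn ▸ hζ
  have hprod := hζ'.prod_one_sub_pow_eq_order
  have hmem : i - 1 ∈ Finset.range n := by
    rw [Finset.mem_range]; omega
  rw [← Finset.mul_prod_erase _ _ hmem] at hprod
  have hi1 : i - 1 + 1 = i := by omega
  rw [hi1] at hprod
  have hN0 : (N : ℂ) ≠ 0 := by exact_mod_cast NeZero.ne N
  refine ⟨(∏ k ∈ (Finset.range n).erase (i - 1), (1 - ζ ^ (k + 1))) * ((N : ℂ))⁻¹,
    O.mul_mem (O.prod_mem fun k _ => O.sub_mem O.one_mem (hroots _ ?_)) hN, ?_⟩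
  · rw [← pow_mul, mul_comm, pow_mul, hζ.pow_eq_one, one_pow]
  · rw [← mul_assoc, hprod]
    have hn' : ((n : ℂ) + 1) = (N : ℂ) := by rw [hn]; push_cast; rfl
    rw [hn']
    exact mul_inv_cancel₀ hN0

/-- `σ_q θ` is the `q_N`-expansion of `J_N ∘ g⁻¹`, a cusp series. -/
theorem h8d_sigma_theta (N : ℕ) [NeZero N] (g : SL(2, ℤ)) :
    ∃ (a b e s : ℕ) (_ : NeZero s), 0 < a ∧ 0 < e ∧ a * e = N ∧ b < e ∧ s * e = a * N ∧
      h9_ExpandsInfty N (fun z => h9_Jd N (g⁻¹ • z)) (h5_cuspSeries s (h5_zeta e ^ b)) ∧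
      h2e_sigma N (g : QN N) (h2e_theta N) = h5_cuspSeries s (h5_zeta e ^ b) := by
  obtain ⟨g', a, b, e, s, hs0, ha, he, hae, hbe, hs, -, hS⟩ :=
    h5_exists_cuspSeries N N dvd_rfl g⁻¹
  refine ⟨a, b, e, s, hs0, ha, he, hae, hbe, hs, hS, ?_⟩
  have h1 : h2e_incl N (h2e_theta N) = h9_evF N (MvPolynomial.X ⟨N, dvd_rfl⟩) := by
    rw [h9_evF_X]
    apply Subtype.ext
    rw [h9_gen_coe]
    rfl
  show ((h2e_fam N).tau (g : QN N)) (h2e_incl N (h2e_theta N)) = _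
  rw [h9_EmbFamily.tau_mk, h1, h9_EmbFamily.lift_evF]
  show h5_cuspPsi N g (MvPolynomial.X ⟨N, dvd_rfl⟩) = _
  rw [h5_cuspPsi_X]
  exact h5_expandsInfty_unique N (h5_JdSeries_spec N ⟨N, dvd_rfl⟩ g⁻¹) hS

/-- a power of `ζ_e`, `e ∣ N`, is an `N`-th root of unity -/
theorem h8d_zeta_pow_pow (N e b : ℕ) (he0 : e ≠ 0) (heN : e ∣ N) :
    (((h5_zeta e ^ b : ℂˣ) : ℂ)) ^ N = 1 := by
  obtain ⟨m, rfl⟩ := heN
  have h := (h5_zeta_isPrimitiveRoot e he0).pow_eq_one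
  have : (h5_zeta e ^ b) ^ (e * m) = 1 := by
    rw [← pow_mul, mul_comm b, mul_assoc, pow_mul, h, one_pow]
  rw [← Units.val_pow_eq_pow_val, this, Units.val_one]

/-- **(E3b)**. -/
theorem h8d_thetaDiff (N : ℕ) [NeZero N] (𝒪 : Subring ℂ)
    (hζ : ∀ ζ : ℂ, ζ ^ N = 1 → ζ ∈ 𝒪) (hN : ((N : ℂ))⁻¹ ∈ 𝒪) :
    h2e_ThetaDiffStatement N 𝒪 := by
  intro q q' hqq'
  obtain ⟨g, rfl⟩ := QuotientGroup.mk_surjective q
  obtain ⟨g', rfl⟩ := QuotientGroup.mk_surjective q'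
  obtain ⟨a, b, e, s, hs0, ha, he, hae, hbe, hs, hS, hσ⟩ := h8d_sigma_theta N g
  obtain ⟨a', b', e', s', hs0', ha', he', hae', hbe', hs', hS', hσ'⟩ := h8d_sigma_theta N g'
  rw [hσ, hσ']
  set ζ : ℂˣ := h5_zeta e ^ b with hζdef
  set ζ' : ℂˣ := h5_zeta e' ^ b' with hζ'def
  have hζN : ((ζ : ℂˣ) : ℂ) ^ N = 1 := h8d_zeta_pow_pow N e b he.ne' (Dvd.intro_left a hae)
  have hζ'N : ((ζ' : ℂˣ) : ℂ) ^ N = 1 := h8d_zeta_pow_pow N e' b' he'.ne' (Dvd.intro_left a' hae')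
  have hinvN : ∀ u : ℂˣ, ((u : ℂˣ) : ℂ) ^ N = 1 → (((u⁻¹ : ℂˣ)) : ℂ) ^ N = 1 := by
    intro u hu
    rw [Units.val_inv_eq_inv_val, inv_pow, hu, inv_one]
  -- the two series differ
  have hne : ¬ (s = s' ∧ ζ = ζ') := by
    rintro ⟨hss, hzz⟩
    apply hqq'
    subst hss
    rw [← hzz] at hS'
    have hfun : ∀ z : ℍ, h9_Jd N (g⁻¹ • z) = h9_Jd N (g'⁻¹ • z) := fun z =>
      h9_LSum_val_unique (hS z) (hS' z)
    exact QuotientGroup.eq.mpr (h5_distinct N g g' hfun)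
  have hunit_of_root : ∀ u : ℂˣ, ((u : ℂˣ) : ℂ) ^ N = 1 →
      ((u : ℂˣ) : ℂ) ∈ 𝒪 ∧ ∃ b ∈ 𝒪, ((u : ℂˣ) : ℂ) * b = 1 := by
    intro u hu
    refine ⟨hζ _ hu, ((u⁻¹ : ℂˣ) : ℂ), hζ _ (hinvN u hu), ?_⟩
    rw [← Units.val_mul, mul_inv_cancel, Units.val_one]
  rcases lt_trichotomy s s' with hlt | heq | hgt
  · -- order -s', leading coefficient -ζ'⁻¹
    have hs'z : (s : ℤ) < s' := by exact_mod_cast hlt
    have hlc : (h5_cuspSeries s ζ - h5_cuspSeries s' ζ').leadingCoeff = -((ζ'⁻¹ : ℂˣ) : ℂ) := by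
      refine h8d_leadingCoeff_eq (n := -(s' : ℤ)) (neg_ne_zero.mpr (Units.ne_zero _)) ?_ ?_
      · rw [HahnSeries.coeff_sub, h5_cuspSeries_coeff_neg,
          h5_cuspSeries_coeff_of_lt s ζ (by linarith), zero_sub]
      · intro k hk
        rw [HahnSeries.coeff_sub, h5_cuspSeries_coeff_of_lt s' ζ' hk,
          h5_cuspSeries_coeff_of_lt s ζ (by linarith), sub_zero]
    rw [hlc]
    obtain ⟨hm, c, hc, hc1⟩ := hunit_of_root ζ'⁻¹ (hinvN ζ' hζ'N)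
    exact ⟨𝒪.neg_mem hm, -c, 𝒪.neg_mem hc, by rw [neg_mul_neg, hc1]⟩
  · -- same order, ζ ≠ ζ'
    subst heq
    have hzz : ζ ≠ ζ' := fun h => hne ⟨rfl, h⟩
    have hdiff : ((ζ⁻¹ : ℂˣ) : ℂ) - ((ζ'⁻¹ : ℂˣ) : ℂ) ≠ 0 := by
      intro h
      apply hzz
      have := Units.ext (sub_eq_zero.mp h)
      exact inv_injective this
    have hlc : (h5_cuspSeries s ζ - h5_cuspSeries s ζ').leadingCoeff =
        ((ζ⁻¹ : ℂˣ) : ℂ) - ((ζ'⁻¹ : ℂˣ) : ℂ) := by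
      refine h8d_leadingCoeff_eq (n := -(s : ℤ)) hdiff ?_ ?_
      · rw [HahnSeries.coeff_sub, h5_cuspSeries_coeff_neg, h5_cuspSeries_coeff_neg]
      · intro k hk
        rw [HahnSeries.coeff_sub, h5_cuspSeries_coeff_of_lt s ζ hk,
          h5_cuspSeries_coeff_of_lt s ζ' hk, sub_zero]
    rw [hlc]
    -- ζ⁻¹ - ζ'⁻¹ = ζ⁻¹ (1 - ζ ζ'⁻¹)
    set z : ℂ := ((ζ * ζ'⁻¹ : ℂˣ) : ℂ) with hz
    have hzN : z ^ N = 1 := by
      rw [hz, Units.val_mul, mul_pow, hζN, hinvN ζ' hζ'N, one_mul]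
    have hz1 : z ≠ 1 := by
      intro h
      apply hzz
      have h1 : ζ * ζ'⁻¹ = 1 := Units.ext (by rw [← hz, h, Units.val_one])
      exact mul_inv_eq_one.mp h1
    obtain ⟨c, hc, hc1⟩ := h8d_one_sub_root_isUnit N 𝒪 hζ hN z hzN hz1
    have hfac : ((ζ⁻¹ : ℂˣ) : ℂ) - ((ζ'⁻¹ : ℂˣ) : ℂ) = ((ζ⁻¹ : ℂˣ) : ℂ) * (1 - z) := by
      rw [hz, mul_sub, mul_one, ← Units.val_mul, ← mul_assoc, inv_mul_cancel, one_mul]
    refine ⟨𝒪.sub_mem (hζ _ (hinvN ζ hζN)) (hζ _ (hinvN ζ' hζ'N)), ((ζ : ℂˣ) : ℂ) * c,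
      𝒪.mul_mem (hζ _ hζN) hc, ?_⟩
    rw [hfac]
    calc ((ζ⁻¹ : ℂˣ) : ℂ) * (1 - z) * (((ζ : ℂˣ) : ℂ) * c)
        = (((ζ⁻¹ : ℂˣ) : ℂ) * ((ζ : ℂˣ) : ℂ)) * ((1 - z) * c) := by ring
      _ = 1 := by rw [← Units.val_mul, inv_mul_cancel, Units.val_one, one_mul, hc1]
  · -- order -s, leading coefficient ζ⁻¹
    have hs'z : (s' : ℤ) < s := by exact_mod_cast hgt
    have hlc : (h5_cuspSeries s ζ - h5_cuspSeries s' ζ').leadingCoeff = ((ζ⁻¹ : ℂˣ) : ℂ) := by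
      refine h8d_leadingCoeff_eq (n := -(s : ℤ)) (Units.ne_zero _) ?_ ?_
      · rw [HahnSeries.coeff_sub, h5_cuspSeries_coeff_neg,
          h5_cuspSeries_coeff_of_lt s' ζ' (by linarith), sub_zero]
      · intro k hk
        rw [HahnSeries.coeff_sub, h5_cuspSeries_coeff_of_lt s ζ hk,
          h5_cuspSeries_coeff_of_lt s' ζ' (by linarith), sub_zero]
    rw [hlc]
    exact hunit_of_root ζ⁻¹ (hinvN ζ hζN)

/-- **(E3a)**. -/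
theorem h8d_thetaInt (N : ℕ) [NeZero N] (𝒪 : Subring ℂ)
    (hζ : ∀ ζ : ℂ, ζ ^ N = 1 → ζ ∈ 𝒪) : h2e_ThetaIntStatement N 𝒪 := by
  intro q n
  obtain ⟨g, rfl⟩ := QuotientGroup.mk_surjective q
  obtain ⟨a, b, e, s, hs0, ha, he, hae, hbe, hs, hS, hσ⟩ := h8d_sigma_theta N g
  rw [hσ]
  by_cases hd : (s : ℤ) ∣ n
  · obtain ⟨m, rfl⟩ := hd
    rw [h5_cuspSeries_coeff_mul]
    refine 𝒪.mul_mem (hζ _ ?_) ?_
    · have h1 := h8d_zeta_pow_pow N e b he.ne' (Dvd.intro_left a hae)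
      rw [Units.val_zpow_eq_zpow_val, ← zpow_natCast, ← zpow_mul, mul_comm, zpow_mul, zpow_natCast,
        h1, one_zpow]
    · have hj : (jq.coeff m : ℚ) = (((jqModC ℤ).coeff m : ℤ) : ℚ) := by
        rw [← jqModC_rat]; exact coeff_jqModC_eq_intCast m
      rw [hj]
      push_cast
      exact intCast_mem 𝒪 _
  · rw [h5_cuspSeries_coeff_of_not_dvd s _ hd]
    exact 𝒪.zero_mem

end Fermat.Agent.Lib.S28
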