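/-
S28 project, analytic side, helper2: **`h0_EmbStatement N ℓ`** (the analytic deliverable (A+Q)),
wired from the landed contracts: (K1) `h2u_unitStatement` (H2Unit, on helper5's H5Unit and helper6's
H6Leads), (K5') `h3n_norm`, (K2b) `h3n_order` (helper3), (E1) `h6b_base`, `h6b_agree` (helper6),
(E2) `h0c_cardStatement` (lead), (E3) `h8d_thetaInt`, `h8d_thetaDiff` (helper8), and the QEP main
argument / bridge / assembly `h2e_embStatement` (H2QEP, H2Emb).
-/
import Mathlib
import Fermat.Agent.Lib.S28.H2Emb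
import Fermat.Agent.Lib.S28.H2Unit
import Fermat.Agent.Lib.S28.H3Tri
import Fermat.Agent.Lib.S28.H3Norm
import Fermat.Agent.Lib.S28.H0Card
import Fermat.Agent.Lib.S28.H6Base
import Fermat.Agent.Lib.S28.H8ThetaDiff

set_option autoImplicit false

noncomputable section

namespace Fermat.Agent.Lib.S28

open UpperHalfPlane ModularCurve ModularCurve.IgusaScheme Fermat.Agent.Lib.X0
open scoped MatrixGroups Manifold

/-- **(A+Q)** the analytic side of S28. -/
theorem h2f_embStatement (N : ℕ) [NeZero N] (ℓ : ℕ) [Fact ℓ.Prime] : h0_EmbStatement N ℓ :=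
  h2e_embStatement N ℓ (fun 𝒪 hζ hN => h2u_unitStatement N 𝒪 hζ hN) (fun 𝒪 => h3n_norm N 𝒪)
    h3n_order (h6b_base N) (h6b_agree N) (h0c_cardStatement N)
    (fun 𝒪 hζ => h8d_thetaInt N 𝒪 hζ) (fun 𝒪 hζ hN => h8d_thetaDiff N 𝒪 hζ hN)

end Fermat.Agent.Lib.S28
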