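import Mathlib
import Fermat.Prelude.Def_ModularCurve_IgusaScheme
import Fermat.Prelude.Def_ModularCurve_X0ModL

/-!
# S28, node (C1): elements of the Igusa charts have `ℓ`-integral `q`-expansions

`h5r_int ℓ` is the subring of `ℚ((q))` of Laurent series with coefficients in
`ℤ_(ℓ) = GaloisRep.ratLocalizedAt ℓ`.  We prove that every element of
`chartAlg N ℓ S`, `S ⊆ {j, j⁻¹}`, lies in it, and build the reduction map
`h5r_rho : chartAlg N ℓ S →+* LaurentSeries (ZMod ℓ)`.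
-/

set_option autoImplicit false

noncomputable section

open ModularCurve ModularCurve.IgusaScheme

namespace Fermat.Agent.Lib.S28

/-- The subring of Laurent series over `ℚ` with all coefficients in `ℤ_(ℓ)`. -/
def h5r_int (ℓ : ℕ) : Subring (LaurentSeries ℚ) :=
  (coeffMap (GaloisRep.ratLocalizedAt ℓ).subtype).range

theorem h5r_mem_int_iff {ℓ : ℕ} {x : LaurentSeries ℚ} :
    x ∈ h5r_int ℓ ↔ ∀ n : ℤ, x.coeff n ∈ GaloisRep.ratLocalizedAt ℓ := by
  constructor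
  · rintro ⟨y, rfl⟩ n
    rw [coeffMap_coeff]
    exact (y.coeff n).2
  · intro h
    have hsupp : (Function.support fun n : ℤ =>
        (⟨x.coeff n, h n⟩ : ↥(GaloisRep.ratLocalizedAt ℓ))) = x.support := by
      ext n
      simp only [Function.mem_support, ne_eq, HahnSeries.mem_support]
      constructor
      · intro hn h0
        apply hn
        exact Subtype.ext h0
      · intro hn h0
        apply hn
        exact congrArg Subtype.val h0
    refine ⟨⟨fun n => ⟨x.coeff n, h n⟩, ?_⟩, ?_⟩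
    · rw [hsupp]
      exact x.isPWO_support
    · ext n
      rw [coeffMap_coeff]
      rfl

theorem h5r_padic_nonneg {ℓ : ℕ} [Fact ℓ.Prime] {q : ℚ}
    (hq : q ∈ GaloisRep.ratLocalizedAt ℓ) : 0 ≤ padicValRat ℓ q := by
  have hden : padicValNat ℓ q.den = 0 := by
    apply padicValNat.eq_zero_of_not_dvd
    intro hdvd
    have hcop : q.den.Coprime ℓ := hq
    have := Nat.Coprime.eq_one_of_dvd hcop.symm hdvd
    exact (Fact.out : ℓ.Prime).one_lt.ne' this
  unfold padicValRat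
  rw [hden]
  simp

theorem h5r_padic_neg {ℓ : ℕ} [Fact ℓ.Prime] {q : ℚ}
    (hq : q ∉ GaloisRep.ratLocalizedAt ℓ) : padicValRat ℓ q < 0 := by
  have hp : ℓ.Prime := Fact.out
  have hdvd : ℓ ∣ q.den := by
    by_contra hnd
    apply hq
    show q.den.Coprime ℓ
    exact ((Nat.Prime.coprime_iff_not_dvd hp).mpr hnd).symm
  have hnum : ¬ (ℓ : ℤ) ∣ q.num := by
    intro hn
    have h1 : ℓ ∣ q.num.natAbs := Int.natCast_dvd.mp hn
    have h2 : ℓ ∣ Nat.gcd q.num.natAbs q.den := Nat.dvd_gcd h1 hdvd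
    rw [q.reduced] at h2
    exact hp.one_lt.ne' (Nat.dvd_one.mp h2)
  have hnum0 : padicValInt ℓ q.num = 0 := padicValInt.eq_zero_of_not_dvd hnum
  have hden : 1 ≤ padicValNat ℓ q.den :=
    one_le_padicValNat_of_dvd (Nat.pos_of_ne_zero q.den_ne_zero).ne' hdvd
  unfold padicValRat
  rw [hnum0]
  have : (1 : ℤ) ≤ (padicValNat ℓ q.den : ℤ) := by exact_mod_cast hden
  simp only [Nat.cast_zero]
  omega

theorem h5r_leadingCoeff_pow (x : LaurentSeries ℚ) (k : ℕ) :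
    (x ^ k).leadingCoeff = x.leadingCoeff ^ k := by
  induction k with
  | zero => simp
  | succ k ih => rw [pow_succ, HahnSeries.leadingCoeff_mul, ih, pow_succ]

/-- The "almost integral" criterion: if `t * x ^ k` is `ℓ`-integral for all `k`, with `t ≠ 0`,
then `x` is `ℓ`-integral. -/
theorem h5r_key {ℓ : ℕ} [Fact ℓ.Prime] (t x : LaurentSeries ℚ) (ht : t ≠ 0)
    (h : ∀ k : ℕ, t * x ^ k ∈ h5r_int ℓ) : x ∈ h5r_int ℓ := by
  by_contra hx
  rw [h5r_mem_int_iff] at hx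
  push Not at hx
  set B : Set ℤ := {n | x.coeff n ∉ GaloisRep.ratLocalizedAt ℓ} with hB
  have hBsub : B ⊆ x.support := by
    intro n hn
    rw [HahnSeries.mem_support]
    intro h0
    apply hn
    rw [h0]
    exact zero_mem _
  have hBwf : B.IsWF := x.isWF_support.mono hBsub
  have hBne : B.Nonempty := hx
  set m0 := hBwf.min hBne with hm0def
  have hm0 : x.coeff m0 ∉ GaloisRep.ratLocalizedAt ℓ := hBwf.min_mem hBne
  have hlt : ∀ n < m0, x.coeff n ∈ GaloisRep.ratLocalizedAt ℓ := fun n hn => by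
    by_contra hcon
    exact hBwf.not_lt_min hBne hcon hn
  set x0 := HahnSeries.truncLT m0 x with hx0def
  have hx0 : x0 ∈ h5r_int ℓ := by
    rw [h5r_mem_int_iff]
    intro n
    rw [HahnSeries.coeff_truncLT]
    split_ifs with hn
    · exact hlt n hn
    · exact zero_mem _
  set x1 := x - x0 with hx1def
  have hx1coeff_lt : ∀ n < m0, x1.coeff n = 0 := by
    intro n hn
    rw [hx1def, HahnSeries.coeff_sub, hx0def, HahnSeries.coeff_truncLT_of_lt hn, sub_self]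
  have hx1coeff : x1.coeff m0 = x.coeff m0 := by
    rw [hx1def, HahnSeries.coeff_sub, hx0def, HahnSeries.coeff_truncLT_of_le le_rfl, sub_zero]
  have hc : x.coeff m0 ≠ 0 := by
    intro h0
    apply hm0
    rw [h0]
    exact zero_mem _
  have hx1ne : x1 ≠ 0 := by
    intro h0
    apply hc
    rw [← hx1coeff, h0, HahnSeries.coeff_zero]
  have hord : x1.order = m0 := by
    apply le_antisymm
    · exact HahnSeries.order_le_of_coeff_ne_zero (by rw [hx1coeff]; exact hc)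
    · by_contra hcon
      push Not at hcon
      have := hx1coeff_lt _ hcon
      exact hx1ne (HahnSeries.coeff_order_eq_zero.mp this)
  have hlead : x1.leadingCoeff = x.coeff m0 := by
    rw [HahnSeries.leadingCoeff_eq, hord, hx1coeff]
  have hk : ∀ k : ℕ, t * x1 ^ k ∈ h5r_int ℓ := by
    intro k
    have h1 : x1 ^ k = ∑ i ∈ Finset.range (k + 1),
        x ^ i * (-x0) ^ (k - i) * ((k.choose i : ℕ) : LaurentSeries ℚ) := by
      rw [hx1def, sub_eq_add_neg, add_pow]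
    rw [h1, Finset.mul_sum]
    refine Subring.sum_mem _ fun i _ => ?_
    have h2 : t * (x ^ i * (-x0) ^ (k - i) * ((k.choose i : ℕ) : LaurentSeries ℚ))
        = (t * x ^ i) * (-x0) ^ (k - i) * ((k.choose i : ℕ) : LaurentSeries ℚ) := by ring
    rw [h2]
    exact Subring.mul_mem _ (Subring.mul_mem _ (h i)
      (Subring.pow_mem _ (Subring.neg_mem _ hx0) _)) (natCast_mem _ _)
  have hlc : ∀ k : ℕ, t.leadingCoeff * (x.coeff m0) ^ k ∈ GaloisRep.ratLocalizedAt ℓ := by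
    intro k
    have h1 : (t * x1 ^ k).leadingCoeff = t.leadingCoeff * (x.coeff m0) ^ k := by
      rw [HahnSeries.leadingCoeff_mul, h5r_leadingCoeff_pow, hlead]
    rw [← h1, HahnSeries.leadingCoeff_eq]
    exact h5r_mem_int_iff.mp (hk k) _
  have hu : t.leadingCoeff ≠ 0 := HahnSeries.leadingCoeff_ne_zero.mpr ht
  have hvc : padicValRat ℓ (x.coeff m0) < 0 := h5r_padic_neg hm0
  have hfin := h5r_padic_nonneg (hlc ((padicValRat ℓ t.leadingCoeff).toNat + 1))
  rw [padicValRat.mul hu (pow_ne_zero _ hc), padicValRat.pow] at hfin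
  have h3 : padicValRat ℓ t.leadingCoeff ≤ ((padicValRat ℓ t.leadingCoeff).toNat : ℤ) :=
    Int.self_le_toNat _
  push_cast at hfin
  nlinarith

/-- The field of fractions of `ℓ`-integral Laurent series inside `ℚ((q))`. -/
def h5r_frac (ℓ : ℕ) : IntermediateField ℚ (LaurentSeries ℚ) where
  carrier := {x | ∃ t ∈ h5r_int ℓ, t ≠ 0 ∧ t * x ∈ h5r_int ℓ}
  mul_mem' := by
    rintro x y ⟨t, ht, ht0, htx⟩ ⟨u, hu, hu0, huy⟩
    refine ⟨t * u, Subring.mul_mem _ ht hu, mul_ne_zero ht0 hu0, ?_⟩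
    have : t * u * (x * y) = (t * x) * (u * y) := by ring
    rw [this]
    exact Subring.mul_mem _ htx huy
  add_mem' := by
    rintro x y ⟨t, ht, ht0, htx⟩ ⟨u, hu, hu0, huy⟩
    refine ⟨t * u, Subring.mul_mem _ ht hu, mul_ne_zero ht0 hu0, ?_⟩
    have : t * u * (x + y) = u * (t * x) + t * (u * y) := by ring
    rw [this]
    exact Subring.add_mem _ (Subring.mul_mem _ hu htx) (Subring.mul_mem _ ht huy)
  algebraMap_mem' := by
    intro c
    refine ⟨(c.den : LaurentSeries ℚ), natCast_mem _ _, ?_, ?_⟩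
    · rw [← map_natCast (algebraMap ℚ (LaurentSeries ℚ))]
      exact (map_ne_zero _).mpr (Nat.cast_ne_zero.mpr c.den_ne_zero)
    · have : (c.den : LaurentSeries ℚ) * algebraMap ℚ (LaurentSeries ℚ) c
          = ((c.num : ℤ) : LaurentSeries ℚ) := by
        rw [← map_natCast (algebraMap ℚ (LaurentSeries ℚ)), ← map_mul, Rat.den_mul_eq_num,
          map_intCast]
      rw [this]
      exact intCast_mem _ _
  inv_mem' := by
    rintro x ⟨t, ht, ht0, htx⟩
    rcases eq_or_ne x 0 with rfl | hx0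
    · refine ⟨1, one_mem _, one_ne_zero, ?_⟩
      rw [inv_zero, mul_zero]
      exact zero_mem _
    · refine ⟨t * x, htx, mul_ne_zero ht0 hx0, ?_⟩
      rw [mul_assoc, mul_inv_cancel₀ hx0, mul_one]
      exact ht

theorem h5r_mem_frac_iff {ℓ : ℕ} {x : LaurentSeries ℚ} :
    x ∈ h5r_frac ℓ ↔ ∃ t ∈ h5r_int ℓ, t ≠ 0 ∧ t * x ∈ h5r_int ℓ := Iff.rfl

theorem h5r_int_le_frac {ℓ : ℕ} {x : LaurentSeries ℚ} (hx : x ∈ h5r_int ℓ) : x ∈ h5r_frac ℓ :=
  ⟨1, one_mem _, one_ne_zero, by rwa [one_mul]⟩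

theorem h5r_jqN_mem_int (ℓ d : ℕ) [NeZero d] : qExpand ℚ d jq ∈ h5r_int ℓ := by
  refine ⟨jqNModC ↥(GaloisRep.ratLocalizedAt ℓ) d, ?_⟩
  rw [coeffMap_jqNModC]
  rfl

theorem h5r_full_le_frac (N ℓ : ℕ) [NeZero N] : modularFunctionFieldFull N ≤ h5r_frac ℓ := by
  rw [modularFunctionFieldFull, IntermediateField.adjoin_le_iff]
  rintro x ⟨d, hne, -, rfl⟩
  have := hne
  exact h5r_int_le_frac (h5r_jqN_mem_int ℓ d)

theorem h5r_ofPowerSeries_int_mem (ℓ : ℕ) (p : PowerSeries ℤ) :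
    HahnSeries.ofPowerSeries ℤ ℚ (p.map (Int.castRingHom ℚ)) ∈ h5r_int ℓ := by
  rw [h5r_mem_int_iff]
  intro n
  rcases le_or_gt 0 n with hn | hn
  · lift n to ℕ using hn
    rw [HahnSeries.ofPowerSeries_apply_coeff, PowerSeries.coeff_map]
    exact intCast_mem _ _
  · rw [ofPowerSeries_coeff_of_neg _ hn]
    exact zero_mem _

theorem h5r_single_one_mem (ℓ : ℕ) (k : ℤ) :
    (HahnSeries.single k (1 : ℚ) : LaurentSeries ℚ) ∈ h5r_int ℓ := by
  rw [h5r_mem_int_iff]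
  intro n
  rcases eq_or_ne n k with rfl | hn
  · rw [HahnSeries.coeff_single_same]
    exact one_mem _
  · rw [HahnSeries.coeff_single_of_ne hn]
    exact zero_mem _

theorem h5r_jq_mem_int (ℓ : ℕ) : jq ∈ h5r_int ℓ := by
  have h := h5r_jqN_mem_int ℓ 1
  rwa [qExpand_one_apply] at h

/-- the inverse power series of `jNum`. -/
def h5r_jNumInv : PowerSeries ℤ := jNum.invOfUnit 1

theorem h5r_jNum_mul_inv : jNum * h5r_jNumInv = 1 :=
  PowerSeries.mul_invOfUnit _ _ (by rw [constantCoeff_jNum]; rfl)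

theorem h5r_jq_inv_eq : jq⁻¹ = HahnSeries.single (1 : ℤ) (1 : ℚ) *
    HahnSeries.ofPowerSeries ℤ ℚ (h5r_jNumInv.map (Int.castRingHom ℚ)) := by
  symm
  apply eq_inv_of_mul_eq_one_right
  have h2 : HahnSeries.ofPowerSeries ℤ ℚ (jNum.map (Int.castRingHom ℚ)) *
      HahnSeries.ofPowerSeries ℤ ℚ (h5r_jNumInv.map (Int.castRingHom ℚ)) = 1 := by
    rw [← map_mul (HahnSeries.ofPowerSeries ℤ ℚ), ← map_mul (PowerSeries.map _),
      h5r_jNum_mul_inv, map_one, map_one]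
  have h3 : (HahnSeries.single (-1 : ℤ) (1 : ℚ) : LaurentSeries ℚ) *
      HahnSeries.single (1 : ℤ) (1 : ℚ) = 1 := by
    rw [HahnSeries.single_mul_single]
    simp
  rw [jq, jNumQ]
  calc HahnSeries.single (-1 : ℤ) (1 : ℚ) * HahnSeries.ofPowerSeries ℤ ℚ
        (jNum.map (Int.castRingHom ℚ)) *
      (HahnSeries.single (1 : ℤ) (1 : ℚ) *
        HahnSeries.ofPowerSeries ℤ ℚ (h5r_jNumInv.map (Int.castRingHom ℚ)))
      = (HahnSeries.single (-1 : ℤ) (1 : ℚ) * HahnSeries.single (1 : ℤ) (1 : ℚ)) *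
        (HahnSeries.ofPowerSeries ℤ ℚ (jNum.map (Int.castRingHom ℚ)) *
          HahnSeries.ofPowerSeries ℤ ℚ (h5r_jNumInv.map (Int.castRingHom ℚ))) := by ring
    _ = 1 := by rw [h2, h3, mul_one]

theorem h5r_jq_inv_mem_int (ℓ : ℕ) : jq⁻¹ ∈ h5r_int ℓ := by
  rw [h5r_jq_inv_eq]
  exact Subring.mul_mem _ (h5r_single_one_mem ℓ 1) (h5r_ofPowerSeries_int_mem ℓ _)

theorem h5r_algebraMap_mem_int (ℓ : ℕ) (r : ↥(GaloisRep.ratLocalizedAt ℓ)) :
    algebraMap ℚ (LaurentSeries ℚ) (r : ℚ) ∈ h5r_int ℓ := by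
  rw [algebraMap_laurentSeries_eq_single, h5r_mem_int_iff]
  intro n
  rcases eq_or_ne n 0 with rfl | hn
  · rw [HahnSeries.coeff_single_same]
    exact r.2
  · rw [HahnSeries.coeff_single_of_ne hn]
    exact zero_mem _

section Residue

variable (ℓ : ℕ) [Fact ℓ.Prime]

theorem h5r_den_ne_zero (r : ↥(GaloisRep.ratLocalizedAt ℓ)) :
    (((r : ℚ).den : ℕ) : ZMod ℓ) ≠ 0 := by
  rw [Ne, ZMod.natCast_eq_zero_iff]
  intro hdvd
  have hcop : (r : ℚ).den.Coprime ℓ := r.2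
  have := Nat.Coprime.eq_one_of_dvd hcop.symm hdvd
  exact (Fact.out : ℓ.Prime).one_lt.ne' this

/-- The residue map `ℤ_(ℓ) → 𝔽_ℓ`. -/
def h5r_res : ↥(GaloisRep.ratLocalizedAt ℓ) →+* ZMod ℓ where
  toFun r := ((r : ℚ) : ZMod ℓ)
  map_one' := by simp
  map_zero' := by simp
  map_mul' a b := by
    show (((a * b : ↥(GaloisRep.ratLocalizedAt ℓ)) : ℚ) : ZMod ℓ) = _
    rw [Subring.coe_mul]
    exact Rat.cast_mul_of_ne_zero (h5r_den_ne_zero ℓ a) (h5r_den_ne_zero ℓ b)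
  map_add' a b := by
    show (((a + b : ↥(GaloisRep.ratLocalizedAt ℓ)) : ℚ) : ZMod ℓ) = _
    rw [Subring.coe_add]
    exact Rat.cast_add_of_ne_zero (h5r_den_ne_zero ℓ a) (h5r_den_ne_zero ℓ b)

theorem h5r_res_apply (r : ↥(GaloisRep.ratLocalizedAt ℓ)) :
    h5r_res ℓ r = ((r : ℚ) : ZMod ℓ) := rfl

theorem h5r_res_eq_zero_iff (r : ↥(GaloisRep.ratLocalizedAt ℓ)) :
    h5r_res ℓ r = 0 ↔ (r : ℚ) / (ℓ : ℚ) ∈ GaloisRep.ratLocalizedAt ℓ := by
  have hp : ℓ.Prime := Fact.out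
  have hℓ0 : (ℓ : ℚ) ≠ 0 := Nat.cast_ne_zero.mpr hp.ne_zero
  constructor
  · intro h
    rw [h5r_res_apply, Rat.cast_def, div_eq_zero_iff] at h
    rcases h with h | h
    · rw [ZMod.intCast_zmod_eq_zero_iff_dvd] at h
      obtain ⟨m, hm⟩ := h
      have h1 : (r : ℚ) / (ℓ : ℚ) = (m : ℚ) / ((r : ℚ).den : ℚ) := by
        have hden : (((r : ℚ).den : ℕ) : ℚ) ≠ 0 := Nat.cast_ne_zero.mpr (r : ℚ).den_ne_zero
        rw [div_eq_div_iff hℓ0 hden]
        have h2 : (r : ℚ) * ((r : ℚ).den : ℚ) = ((r : ℚ).num : ℚ) := Rat.mul_den_eq_num _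
        rw [h2, hm]
        push_cast
        ring
      rw [h1]
      show (((m : ℚ) / ((r : ℚ).den : ℚ) : ℚ)).den.Coprime ℓ
      have h3 : ((m : ℚ) / ((r : ℚ).den : ℚ) : ℚ).den ∣ (r : ℚ).den := by
        have h4 := Rat.den_dvd m ((r : ℚ).den : ℤ)
        rw [Rat.divInt_eq_div] at h4
        exact_mod_cast h4
      exact Nat.Coprime.coprime_dvd_left h3 r.2
    · exact absurd h (h5r_den_ne_zero ℓ r)
  · intro h
    have h1 : r = (⟨(ℓ : ℚ), by
        show ((ℓ : ℚ)).den.Coprime ℓ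
        simp⟩ : ↥(GaloisRep.ratLocalizedAt ℓ)) * ⟨(r : ℚ) / (ℓ : ℚ), h⟩ := by
      apply Subtype.ext
      rw [Subring.coe_mul]
      show (r : ℚ) = (ℓ : ℚ) * ((r : ℚ) / (ℓ : ℚ))
      field_simp
    rw [h1, map_mul]
    have h2 : h5r_res ℓ ⟨(ℓ : ℚ), by
        show ((ℓ : ℚ)).den.Coprime ℓ
        simp⟩ = 0 := by
      rw [h5r_res_apply]
      simp
    rw [h2, zero_mul]

omit [Fact ℓ.Prime] in
theorem h5r_coeffMap_subtype_injective :
    Function.Injective (coeffMap (GaloisRep.ratLocalizedAt ℓ).subtype) := by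
  intro a b hab
  ext n
  have := congrArg (fun z : LaurentSeries ℚ => z.coeff n) hab
  simpa using this

/-- `LaurentSeries ℤ_(ℓ)` is isomorphic to the subring of integral Laurent series. -/
def h5r_equiv : LaurentSeries ↥(GaloisRep.ratLocalizedAt ℓ) ≃+* ↥(h5r_int ℓ) :=
  RingEquiv.ofBijective (coeffMap (GaloisRep.ratLocalizedAt ℓ).subtype).rangeRestrict
    ⟨fun _ _ hab => h5r_coeffMap_subtype_injective ℓ (congrArg Subtype.val hab),
      RingHom.rangeRestrict_surjective _⟩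

/-- The inverse of `coeffMap subtype` on integral Laurent series. -/
def h5r_lift : ↥(h5r_int ℓ) →+* LaurentSeries ↥(GaloisRep.ratLocalizedAt ℓ) :=
  ((h5r_equiv ℓ).symm : ↥(h5r_int ℓ) →+* LaurentSeries ↥(GaloisRep.ratLocalizedAt ℓ))

omit [Fact ℓ.Prime] in
theorem h5r_coeffMap_lift (x : ↥(h5r_int ℓ)) :
    coeffMap (GaloisRep.ratLocalizedAt ℓ).subtype (h5r_lift ℓ x) = x := by
  have h := (h5r_equiv ℓ).apply_symm_apply x
  exact congrArg Subtype.val h

theorem h5r_lift_coeff (x : ↥(h5r_int ℓ)) (n : ℤ) :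
    (((h5r_lift ℓ x).coeff n : ↥(GaloisRep.ratLocalizedAt ℓ)) : ℚ) = (x : LaurentSeries ℚ).coeff n := by
  have h := congrArg (fun z : LaurentSeries ℚ => z.coeff n) (h5r_coeffMap_lift ℓ x)
  simpa using h

/-- Reduction mod `ℓ` of an integral Laurent series. -/
def h5r_red : ↥(h5r_int ℓ) →+* LaurentSeries (ZMod ℓ) :=
  (coeffMap (h5r_res ℓ)).comp (h5r_lift ℓ)

theorem h5r_red_coeff (x : ↥(h5r_int ℓ)) (n : ℤ) :
    (h5r_red ℓ x).coeff n = (((x : LaurentSeries ℚ).coeff n : ℚ) : ZMod ℓ) := by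
  rw [h5r_red, RingHom.comp_apply, coeffMap_coeff, h5r_res_apply, h5r_lift_coeff]

theorem h5r_red_eq_zero_iff (x : ↥(h5r_int ℓ)) :
    h5r_red ℓ x = 0 ↔ ∀ n : ℤ, (x : LaurentSeries ℚ).coeff n / (ℓ : ℚ) ∈ GaloisRep.ratLocalizedAt ℓ := by
  constructor
  · intro h n
    have h1 : (h5r_red ℓ x).coeff n = 0 := by rw [h]; rfl
    rw [h5r_red, RingHom.comp_apply, coeffMap_coeff, h5r_res_eq_zero_iff, h5r_lift_coeff] at h1
    exact h1
  · intro h
    ext n
    rw [h5r_red, RingHom.comp_apply, coeffMap_coeff, HahnSeries.coeff_zero, h5r_res_eq_zero_iff,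
      h5r_lift_coeff]
    exact h n

end Residue

section Chart

variable (N : ℕ) [NeZero N] (ℓ : ℕ) [Fact ℓ.Prime]

omit [Fact ℓ.Prime] in
theorem h5r_adjoin_mem_int {S : Set ↥(modularFunctionFieldFull N)}
    (hS : S ⊆ {jFull N, (jFull N)⁻¹}) {y : ↥(modularFunctionFieldFull N)}
    (hy : y ∈ Algebra.adjoin ↥(GaloisRep.ratLocalizedAt ℓ) S) :
    (y : LaurentSeries ℚ) ∈ h5r_int ℓ := by
  induction hy using Algebra.adjoin_induction with
  | mem z hz =>
    rcases hS hz with rfl | rfl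
    · exact h5r_jq_mem_int ℓ
    · show ((jFull N)⁻¹ : ↥(modularFunctionFieldFull N)).1 ∈ h5r_int ℓ
      rw [IntermediateField.coe_inv, coe_jFull]
      exact h5r_jq_inv_mem_int ℓ
  | algebraMap r =>
    have h1 : (algebraMap ↥(GaloisRep.ratLocalizedAt ℓ) ↥(modularFunctionFieldFull N) r)
        = algebraMap ℚ ↥(modularFunctionFieldFull N) (r : ℚ) := rfl
    have h2 : ((algebraMap ℚ ↥(modularFunctionFieldFull N) (r : ℚ) :
        ↥(modularFunctionFieldFull N)) : LaurentSeries ℚ)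
        = algebraMap ℚ (LaurentSeries ℚ) (r : ℚ) := by simp
    rw [h1, h2]
    exact h5r_algebraMap_mem_int ℓ r
  | add y z _ _ hy hz => exact Subring.add_mem _ hy hz
  | mul y z _ _ hy hz => exact Subring.mul_mem _ hy hz

/-- (C1): every element of an Igusa chart algebra has `ℓ`-integral `q`-expansion. -/
theorem h5r_chart_mem_int {S : Set ↥(modularFunctionFieldFull N)}
    (hS : S ⊆ {jFull N, (jFull N)⁻¹}) {x : ↥(modularFunctionFieldFull N)}
    (hx : x ∈ chartAlg N ℓ S) : (x : LaurentSeries ℚ) ∈ h5r_int ℓ := by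
  obtain ⟨p, hmonic, hroot⟩ := (mem_chartAlg_iff N ℓ).mp hx
  obtain ⟨t, ht, ht0, htx⟩ := h5r_full_le_frac N ℓ x.2
  set f := algebraMap (Algebra.adjoin ↥(GaloisRep.ratLocalizedAt ℓ) S)
    ↥(modularFunctionFieldFull N) with hf
  have hp1 : p ≠ 1 := by
    rintro rfl
    rw [Polynomial.eval₂_one] at hroot
    exact one_ne_zero hroot
  set n := p.natDegree with hn
  -- small powers
  have hsmall : ∀ i : ℕ, i ≤ n → t ^ n * (x : LaurentSeries ℚ) ^ i ∈ h5r_int ℓ := by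
    intro i hi
    have : t ^ n * (x : LaurentSeries ℚ) ^ i = t ^ (n - i) * (t * (x : LaurentSeries ℚ)) ^ i := by
      rw [mul_pow, ← mul_assoc, ← pow_add, Nat.sub_add_cancel hi]
    rw [this]
    exact Subring.mul_mem _ (Subring.pow_mem _ ht _) (Subring.pow_mem _ htx _)
  refine h5r_key (t ^ n) _ (pow_ne_zero _ ht0) fun k => ?_
  -- reduce `X ^ k` modulo `p`
  set r := (Polynomial.X ^ k : Polynomial (Algebra.adjoin ↥(GaloisRep.ratLocalizedAt ℓ) S)) %ₘ p
    with hr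
  have hrdeg : r.natDegree < n := Polynomial.natDegree_modByMonic_lt _ hmonic hp1
  have hxk : x ^ k = ∑ i ∈ Finset.range n, f (r.coeff i) * x ^ i := by
    have h1 : Polynomial.eval₂ f x r = Polynomial.eval₂ f x (Polynomial.X ^ k) :=
      Polynomial.eval₂_modByMonic_eq_self_of_root hroot
    rw [Polynomial.eval₂_pow, Polynomial.eval₂_X] at h1
    rw [← h1, Polynomial.eval₂_eq_sum_range' f hrdeg]
  have hxk' : (x : LaurentSeries ℚ) ^ k
      = ∑ i ∈ Finset.range n, ((f (r.coeff i) : ↥(modularFunctionFieldFull N)) : LaurentSeries ℚ)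
          * (x : LaurentSeries ℚ) ^ i := by
    have := congrArg (fun z : ↥(modularFunctionFieldFull N) => (z : LaurentSeries ℚ)) hxk
    simpa using this
  rw [hxk', Finset.mul_sum]
  refine Subring.sum_mem _ fun i hi => ?_
  have h2 : t ^ n * (((f (r.coeff i) : ↥(modularFunctionFieldFull N)) : LaurentSeries ℚ)
      * (x : LaurentSeries ℚ) ^ i)
      = ((f (r.coeff i) : ↥(modularFunctionFieldFull N)) : LaurentSeries ℚ)
        * (t ^ n * (x : LaurentSeries ℚ) ^ i) := by ring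
  rw [h2]
  exact Subring.mul_mem _ (h5r_adjoin_mem_int N ℓ hS (r.coeff i).2)
    (hsmall i (Finset.mem_range.mp hi).le)

/-- (C1) in the shape of the first half of `h0_ChartRed`. -/
theorem h5r_coeff_mem {S : Set ↥(modularFunctionFieldFull N)}
    (hS : S ⊆ {jFull N, (jFull N)⁻¹}) :
    ∀ x ∈ chartAlg N ℓ S, ∀ n : ℤ,
      ((x : ↥(modularFunctionFieldFull N)) : LaurentSeries ℚ).coeff n ∈
        GaloisRep.ratLocalizedAt ℓ :=
  fun _ hx => h5r_mem_int_iff.mp (h5r_chart_mem_int N ℓ hS hx)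

theorem h5r_coeff_mem_fin : ∀ x ∈ chartAlgFin N ℓ, ∀ n : ℤ,
    ((x : ↥(modularFunctionFieldFull N)) : LaurentSeries ℚ).coeff n ∈
      GaloisRep.ratLocalizedAt ℓ :=
  h5r_coeff_mem N ℓ (sFin_subset N)

theorem h5r_coeff_mem_inf : ∀ x ∈ chartAlgInf N ℓ, ∀ n : ℤ,
    ((x : ↥(modularFunctionFieldFull N)) : LaurentSeries ℚ).coeff n ∈
      GaloisRep.ratLocalizedAt ℓ :=
  h5r_coeff_mem N ℓ (sInf_subset N)

theorem h5r_coeff_mem_mid : ∀ x ∈ chartAlgMid N ℓ, ∀ n : ℤ,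
    ((x : ↥(modularFunctionFieldFull N)) : LaurentSeries ℚ).coeff n ∈
      GaloisRep.ratLocalizedAt ℓ :=
  h5r_coeff_mem N ℓ (le_refl _)

/-- The ring hom from a chart algebra to integral Laurent series. -/
def h5r_chartToInt {S : Set ↥(modularFunctionFieldFull N)}
    (hS : S ⊆ {jFull N, (jFull N)⁻¹}) : ↥(chartAlg N ℓ S) →+* ↥(h5r_int ℓ) :=
  RingHom.codRestrict (((modularFunctionFieldFull N).val : _ →+* LaurentSeries ℚ).comp
    ((chartAlg N ℓ S).val : _ →+* ↥(modularFunctionFieldFull N))) (h5r_int ℓ)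
    (fun x => h5r_chart_mem_int N ℓ hS x.2)

/-- (C1) The reduction map `ρ_S : chartAlg N ℓ S → 𝔽_ℓ((q))`. -/
def h5r_rho {S : Set ↥(modularFunctionFieldFull N)}
    (hS : S ⊆ {jFull N, (jFull N)⁻¹}) : ↥(chartAlg N ℓ S) →+* LaurentSeries (ZMod ℓ) :=
  (h5r_red ℓ).comp (h5r_chartToInt N ℓ hS)

theorem h5r_rho_coeff {S : Set ↥(modularFunctionFieldFull N)}
    (hS : S ⊆ {jFull N, (jFull N)⁻¹}) (x : ↥(chartAlg N ℓ S)) (n : ℤ) :
    (h5r_rho N ℓ hS x).coeff n
      = ((((x : ↥(modularFunctionFieldFull N)) : LaurentSeries ℚ).coeff n : ℚ) : ZMod ℓ) := by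
  rw [h5r_rho, RingHom.comp_apply, h5r_red_coeff]
  rfl

theorem h5r_rho_eq_zero_iff {S : Set ↥(modularFunctionFieldFull N)}
    (hS : S ⊆ {jFull N, (jFull N)⁻¹}) (x : ↥(chartAlg N ℓ S)) :
    h5r_rho N ℓ hS x = 0 ↔ ∀ n : ℤ,
      ((x : ↥(modularFunctionFieldFull N)) : LaurentSeries ℚ).coeff n / (ℓ : ℚ)
        ∈ GaloisRep.ratLocalizedAt ℓ := by
  rw [h5r_rho, RingHom.comp_apply, h5r_red_eq_zero_iff]
  rfl

theorem h5r_rho_algebraMap {S : Set ↥(modularFunctionFieldFull N)}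
    (hS : S ⊆ {jFull N, (jFull N)⁻¹}) (r : ↥(GaloisRep.ratLocalizedAt ℓ)) :
    h5r_rho N ℓ hS (algebraMap ↥(GaloisRep.ratLocalizedAt ℓ) ↥(chartAlg N ℓ S) r)
      = HahnSeries.single (0 : ℤ) (h5r_res ℓ r) := by
  ext n
  rw [h5r_rho_coeff]
  have h1 : (((algebraMap ↥(GaloisRep.ratLocalizedAt ℓ) ↥(chartAlg N ℓ S) r :
      ↥(chartAlg N ℓ S)) : ↥(modularFunctionFieldFull N)) : LaurentSeries ℚ)
      = algebraMap ℚ (LaurentSeries ℚ) (r : ℚ) := by
    have h1 : ((algebraMap ↥(GaloisRep.ratLocalizedAt ℓ) ↥(chartAlg N ℓ S) r :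
        ↥(chartAlg N ℓ S)) : ↥(modularFunctionFieldFull N))
        = algebraMap ℚ ↥(modularFunctionFieldFull N) (r : ℚ) := rfl
    rw [h1]
    simp
  rw [h1, algebraMap_laurentSeries_eq_single]
  rcases eq_or_ne n 0 with rfl | hn
  · rw [HahnSeries.coeff_single_same, HahnSeries.coeff_single_same, h5r_res_apply]
  · rw [HahnSeries.coeff_single_of_ne hn, HahnSeries.coeff_single_of_ne hn, Rat.cast_zero]

end Chart

end Fermat.Agent.Lib.S28
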