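import Mathlib
import Fermat.Agent.Lib.S28.H5Rho

/-!
# S28: saturation of `ℤ_(ℓ)[t]` in `ℚ[t]` with respect to `q`-expansions (`t = j` or `t = 1/j`)
-/

set_option autoImplicit false

noncomputable section

open ModularCurve ModularCurve.IgusaScheme

namespace Fermat.Agent.Lib.S28

theorem h5s_aeval_coeff (t : LaurentSeries ℚ) (p : Polynomial ℚ) (m : ℤ) :
    (Polynomial.aeval t p).coeff m
      = ∑ i ∈ Finset.range (p.natDegree + 1), p.coeff i * (t ^ i).coeff m := by
  rw [Polynomial.aeval_eq_sum_range]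
  have : ∀ (s : Finset ℕ) (f : ℕ → LaurentSeries ℚ), (∑ i ∈ s, f i).coeff m
      = ∑ i ∈ s, (f i).coeff m := by
    intro s f
    induction s using Finset.induction_on with
    | empty => simp
    | insert a s ha ih => rw [Finset.sum_insert ha, Finset.sum_insert ha, HahnSeries.coeff_add, ih]
  rw [this]
  refine Finset.sum_congr rfl fun i _ => ?_
  rw [Algebra.smul_def, algebraMap_laurentSeries_eq_single, HahnSeries.coeff_single_zero_mul]

/-- Saturation for `t = j`. -/
theorem h5s_sat_jq (ℓ : ℕ) (p : Polynomial ℚ)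
    (h : ∀ n : ℤ, (Polynomial.aeval jq p).coeff n ∈ GaloisRep.ratLocalizedAt ℓ) :
    ∀ k : ℕ, p.coeff k ∈ GaloisRep.ratLocalizedAt ℓ := by
  have hjq : ∀ (i : ℕ) (m : ℤ), (jq ^ i).coeff m ∈ GaloisRep.ratLocalizedAt ℓ := fun i m =>
    h5r_mem_int_iff.mp (Subring.pow_mem _ (h5r_jq_mem_int ℓ) i) m
  -- downward induction
  have key : ∀ d k : ℕ, p.natDegree - k ≤ d → p.coeff k ∈ GaloisRep.ratLocalizedAt ℓ := by
    intro d
    induction d using Nat.strong_induction_on with
    | _ d ih =>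
      intro k hk
      rcases lt_or_ge p.natDegree k with hlt | hle
      · rw [Polynomial.coeff_eq_zero_of_natDegree_lt hlt]
        exact zero_mem _
      have hform := h5s_aeval_coeff jq p (-(k : ℤ))
      have hk_mem : k ∈ Finset.range (p.natDegree + 1) := Finset.mem_range.mpr (by omega)
      rw [← Finset.add_sum_erase _ _ hk_mem, coeff_jq_pow_self, mul_one] at hform
      have hrest : ∑ i ∈ (Finset.range (p.natDegree + 1)).erase k,
          p.coeff i * (jq ^ i).coeff (-(k : ℤ)) ∈ GaloisRep.ratLocalizedAt ℓ := by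
        refine Subring.sum_mem _ fun i hi => ?_
        rw [Finset.mem_erase, Finset.mem_range] at hi
        rcases lt_or_gt_of_ne hi.1 with hik | hik
        · rw [coeff_jq_pow_of_lt (by omega), mul_zero]
          exact zero_mem _
        · exact Subring.mul_mem _ (ih (p.natDegree - i) (by omega) i le_rfl) (hjq i _)
      have : p.coeff k = (Polynomial.aeval jq p).coeff (-(k : ℤ))
          - ∑ i ∈ (Finset.range (p.natDegree + 1)).erase k,
            p.coeff i * (jq ^ i).coeff (-(k : ℤ)) := by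
        rw [hform]; ring
      rw [this]
      exact Subring.sub_mem _ (h _) hrest
  intro k
  exact key _ k le_rfl

theorem h5s_constantCoeff_jNumInv : PowerSeries.constantCoeff h5r_jNumInv = 1 := by
  have h := congrArg (PowerSeries.constantCoeff (R := ℤ)) h5r_jNum_mul_inv
  rwa [map_mul, constantCoeff_jNum, one_mul, map_one] at h

theorem h5s_jq_inv_pow (i : ℕ) :
    (jq⁻¹) ^ i = HahnSeries.single (i : ℤ) (1 : ℚ) *
      HahnSeries.ofPowerSeries ℤ ℚ ((h5r_jNumInv.map (Int.castRingHom ℚ)) ^ i) := by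
  have h : i • (1 : ℤ) = (i : ℤ) := by simp
  rw [h5r_jq_inv_eq, mul_pow, HahnSeries.single_pow, one_pow, h, ← map_pow]

theorem h5s_coeff_jq_inv_pow_self (i : ℕ) : ((jq⁻¹) ^ i).coeff (i : ℤ) = 1 := by
  rw [h5s_jq_inv_pow, HahnSeries.coeff_single_mul, one_mul, sub_self,
    show (0 : ℤ) = ((0 : ℕ) : ℤ) from rfl, HahnSeries.ofPowerSeries_apply_coeff,
    PowerSeries.coeff_zero_eq_constantCoeff, map_pow, ← PowerSeries.coeff_zero_eq_constantCoeff,
    PowerSeries.coeff_map, PowerSeries.coeff_zero_eq_constantCoeff, h5s_constantCoeff_jNumInv]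
  simp

theorem h5s_coeff_jq_inv_pow_of_lt {i : ℕ} {m : ℤ} (hm : m < (i : ℤ)) :
    ((jq⁻¹) ^ i).coeff m = 0 := by
  rw [h5s_jq_inv_pow, HahnSeries.coeff_single_mul, one_mul]
  exact ofPowerSeries_coeff_of_neg _ (by omega)

/-- Saturation for `t = 1/j`. -/
theorem h5s_sat_jq_inv (ℓ : ℕ) (p : Polynomial ℚ)
    (h : ∀ n : ℤ, (Polynomial.aeval jq⁻¹ p).coeff n ∈ GaloisRep.ratLocalizedAt ℓ) :
    ∀ k : ℕ, p.coeff k ∈ GaloisRep.ratLocalizedAt ℓ := by
  have hjq : ∀ (i : ℕ) (m : ℤ), ((jq⁻¹) ^ i).coeff m ∈ GaloisRep.ratLocalizedAt ℓ := fun i m =>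
    h5r_mem_int_iff.mp (Subring.pow_mem _ (h5r_jq_inv_mem_int ℓ) i) m
  intro k
  induction k using Nat.strong_induction_on with
  | _ k ih =>
    rcases lt_or_ge p.natDegree k with hlt | hle
    · rw [Polynomial.coeff_eq_zero_of_natDegree_lt hlt]
      exact zero_mem _
    have hform := h5s_aeval_coeff jq⁻¹ p (k : ℤ)
    have hk_mem : k ∈ Finset.range (p.natDegree + 1) := Finset.mem_range.mpr (by omega)
    rw [← Finset.add_sum_erase _ _ hk_mem, h5s_coeff_jq_inv_pow_self, mul_one] at hform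
    have hrest : ∑ i ∈ (Finset.range (p.natDegree + 1)).erase k,
        p.coeff i * ((jq⁻¹) ^ i).coeff (k : ℤ) ∈ GaloisRep.ratLocalizedAt ℓ := by
      refine Subring.sum_mem _ fun i hi => ?_
      rw [Finset.mem_erase, Finset.mem_range] at hi
      rcases lt_or_gt_of_ne hi.1 with hik | hik
      · exact Subring.mul_mem _ (ih i hik) (hjq i _)
      · rw [h5s_coeff_jq_inv_pow_of_lt (by exact_mod_cast hik), mul_zero]
        exact zero_mem _
    have : p.coeff k = (Polynomial.aeval jq⁻¹ p).coeff (k : ℤ)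
        - ∑ i ∈ (Finset.range (p.natDegree + 1)).erase k,
          p.coeff i * ((jq⁻¹) ^ i).coeff (k : ℤ) := by
      rw [hform]; ring
    rw [this]
    exact Subring.sub_mem _ (h _) hrest

/-- (P2)/(S1): saturation of `ℤ_(ℓ)[t]` in `ℚ[t]` w.r.t. `q`-expansions, `t = j` or `1/j`. -/
theorem h5s_sat (ℓ : ℕ) (t : LaurentSeries ℚ) (ht : t = jq ∨ t = jq⁻¹) (p : Polynomial ℚ)
    (h : ∀ n : ℤ, (Polynomial.aeval t p).coeff n ∈ GaloisRep.ratLocalizedAt ℓ) :
    ∀ k : ℕ, p.coeff k ∈ GaloisRep.ratLocalizedAt ℓ := by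
  rcases ht with rfl | rfl
  · exact h5s_sat_jq ℓ p h
  · exact h5s_sat_jq_inv ℓ p h

end Fermat.Agent.Lib.S28
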