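import Mathlib
import Fermat.Prelude.Def_ModularCurve_IgusaScheme

set_option autoImplicit false

open AlgebraicGeometry CategoryTheory CategoryTheory.Limits ModularCurve ModularCurve.IgusaScheme
open scoped TensorProduct

namespace Fermat.Agent.Lib.S28

/-- A space covered by two irreducible open subsets with nonempty intersection is irreducible. -/
theorem h6g_irreducibleSpace_of_two_opens {T : Type*} [TopologicalSpace T] (U V : Set T)
    (hUi : IsIrreducible U) (hVi : IsIrreducible V)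
    (_hV : IsOpen V) (hU : IsOpen U) (hUV : (U ∩ V).Nonempty) (hcov : ∀ x : T, x ∈ U ∨ x ∈ V) :
    IrreducibleSpace T := by
  have key : ∀ w : Set T, IsOpen w → w.Nonempty → (U ∩ w).Nonempty := by
    intro w hw ⟨x, hx⟩
    rcases hcov x with hxU | hxV
    · exact ⟨x, hxU, hx⟩
    · have h1 : (V ∩ w).Nonempty := ⟨x, hxV, hx⟩
      have h2 : (V ∩ U).Nonempty := by rwa [Set.inter_comm]
      obtain ⟨y, _, hyw, hyU⟩ := hVi.2 w U hw hU h1 h2
      exact ⟨y, hyU, hyw⟩
  have hne : Nonempty T := let ⟨x, _⟩ := hUV; ⟨x⟩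
  refine { toPreirreducibleSpace := ⟨?_⟩, toNonempty := hne }
  intro u v hu hv ⟨x, _, hxu⟩ ⟨y, _, hyv⟩
  obtain ⟨z, _, hz⟩ := hUi.2 u v hu hv (key u hu ⟨x, hxu⟩) (key v hv ⟨y, hyv⟩)
  exact ⟨z, Set.mem_univ _, hz⟩

end Fermat.Agent.Lib.S28

namespace Fermat.Agent.Lib.S28

section Glue

variable (N : ℕ) [NeZero N] (ℓ : ℕ) [Fact ℓ.Prime]
  (K : Type) [Field K] [Algebra ↥(GaloisRep.ratLocalizedAt ℓ) K]

/-- the base change morphism. -/
noncomputable abbrev h6g_g : Spec (CommRingCat.of K) ⟶ Spec (CommRingCat.of ↥(GaloisRep.ratLocalizedAt ℓ)) :=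
  Spec.map (CommRingCat.ofHom (algebraMap ↥(GaloisRep.ratLocalizedAt ℓ) K))

/-- the open cover of the Igusa scheme by its three charts. -/
noncomputable abbrev h6g_cover : (ModularCurve.IgusaScheme N ℓ).OpenCover :=
  Scheme.IsLocallyDirected.openCover (span (fFin N ℓ) (fInf N ℓ))

example : (h6g_cover N ℓ).f WalkingSpan.left = ιFin N ℓ := rfl
example : (h6g_cover N ℓ).f WalkingSpan.right = ιInf N ℓ := rfl

/-- the induced open cover of the base change. -/
noncomputable abbrev h6g_cover' :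
    (pullback (igusaTo N ℓ) (h6g_g ℓ K)).OpenCover :=
  Scheme.Pullback.openCoverOfLeft (h6g_cover N ℓ) (igusaTo N ℓ) (h6g_g ℓ K)

theorem h6g_mid_igusaTo :
    (fFin N ℓ ≫ ιFin N ℓ) ≫ igusaTo N ℓ =
      Spec.map (CommRingCat.ofHom (algebraMap ↥(GaloisRep.ratLocalizedAt ℓ) (chartAlgMid N ℓ))) := by
  rw [Category.assoc, ιFin_igusaTo, ← Spec.map_comp, ← CommRingCat.ofHom_comp]
  congr 2

theorem h6g_cover_zero :
    (h6g_cover N ℓ).f WalkingSpan.zero = fFin N ℓ ≫ ιFin N ℓ :=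
  (colimit.w (span (fFin N ℓ) (fInf N ℓ)) WalkingSpan.Hom.fst).symm

/-- a pullback of `Spec B → Spec ℤ_(ℓ) ← Spec K` is integral if `B ⊗ K` is a domain. -/
theorem h6g_isIntegral_pullbackSpec {B : Type} [CommRing B] [Algebra ↥(GaloisRep.ratLocalizedAt ℓ) B]
    (hB : IsDomain (B ⊗[↥(GaloisRep.ratLocalizedAt ℓ)] K)) :
    IsIntegral (pullback
      (Spec.map (CommRingCat.ofHom (algebraMap ↥(GaloisRep.ratLocalizedAt ℓ) B))) (h6g_g ℓ K)) := by
  have h1 : IsIntegral (Spec (CommRingCat.of (B ⊗[↥(GaloisRep.ratLocalizedAt ℓ)] K))) :=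
    inferInstance
  exact IsIntegral.of_isIso (pullbackSpecIso ↥(GaloisRep.ratLocalizedAt ℓ) B K).inv

/-- transport along an equality of the first leg. -/
theorem h6g_isIntegral_pullback_of_eq {B : Type} [CommRing B]
    [Algebra ↥(GaloisRep.ratLocalizedAt ℓ) B]
    (hB : IsDomain (B ⊗[↥(GaloisRep.ratLocalizedAt ℓ)] K))
    (φ : Spec (CommRingCat.of B) ⟶ Spec (CommRingCat.of ↥(GaloisRep.ratLocalizedAt ℓ)))
    (hφ : φ = Spec.map (CommRingCat.ofHom (algebraMap ↥(GaloisRep.ratLocalizedAt ℓ) B))) :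
    IsIntegral (pullback φ (h6g_g ℓ K)) := by
  subst hφ
  exact h6g_isIntegral_pullbackSpec ℓ K hB

/-- **(E) scheme glue**: the base change of the Igusa scheme to `K` is integral as soon as the three
chart algebras stay domains after `⊗ K`. -/
theorem h6g_isIntegral_pullback
    (hFin : IsDomain (chartAlgFin N ℓ ⊗[↥(GaloisRep.ratLocalizedAt ℓ)] K))
    (hInf : IsDomain (chartAlgInf N ℓ ⊗[↥(GaloisRep.ratLocalizedAt ℓ)] K))
    (hMid : IsDomain (chartAlgMid N ℓ ⊗[↥(GaloisRep.ratLocalizedAt ℓ)] K)) :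
    IsIntegral (pullback (igusaTo N ℓ)
      (Spec.map (CommRingCat.ofHom (algebraMap ↥(GaloisRep.ratLocalizedAt ℓ) K)))) := by
  set P := pullback (igusaTo N ℓ) (h6g_g ℓ K) with hP
  -- the three pieces are integral
  have hL : IsIntegral ((h6g_cover' N ℓ K).X WalkingSpan.left) :=
    h6g_isIntegral_pullback_of_eq ℓ K hFin (ιFin N ℓ ≫ igusaTo N ℓ) (ιFin_igusaTo N ℓ)
  have hR : IsIntegral ((h6g_cover' N ℓ K).X WalkingSpan.right) :=
    h6g_isIntegral_pullback_of_eq ℓ K hInf (ιInf N ℓ ≫ igusaTo N ℓ) (ιInf_igusaTo N ℓ)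
  have hZ : IsIntegral ((h6g_cover' N ℓ K).X WalkingSpan.zero) := by
    have := h6g_isIntegral_pullback_of_eq ℓ K hMid ((fFin N ℓ ≫ ιFin N ℓ) ≫ igusaTo N ℓ)
      (h6g_mid_igusaTo N ℓ)
    have h2 : (h6g_cover' N ℓ K).X WalkingSpan.zero =
        pullback ((fFin N ℓ ≫ ιFin N ℓ) ≫ igusaTo N ℓ) (h6g_g ℓ K) := by
      show pullback ((h6g_cover N ℓ).f WalkingSpan.zero ≫ igusaTo N ℓ) (h6g_g ℓ K) = _
      rw [h6g_cover_zero]
      rfl
    rw [h2]
    exact this
  have hall : ∀ i, IsIntegral ((h6g_cover' N ℓ K).X i) := by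
    intro i
    rcases i with (_ | _ | _)
    · exact hZ
    · exact hL
    · exact hR
  have hallr : ∀ i, IsReduced ((h6g_cover' N ℓ K).X i) := fun i => by
    have := hall i
    infer_instance
  have hred : IsReduced P := IsReduced.of_openCover _ (h6g_cover' N ℓ K)
  -- ranges of the two big charts
  have hrange : ∀ i, Set.range ((h6g_cover' N ℓ K).f i) =
      (pullback.fst (igusaTo N ℓ) (h6g_g ℓ K)) ⁻¹' Set.range ((h6g_cover N ℓ).f i) := by
    intro i
    refine (Scheme.Pullback.range_map ((h6g_cover N ℓ).f i ≫ igusaTo N ℓ) (h6g_g ℓ K)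
      (igusaTo N ℓ) (h6g_g ℓ K) ((h6g_cover N ℓ).f i) (𝟙 _) (𝟙 _) (by simp) (by simp)).trans ?_
    simp
  have hmemL : ∀ x : P, x ∈ Set.range ((h6g_cover' N ℓ K).f WalkingSpan.left) ↔
      (pullback.fst (igusaTo N ℓ) (h6g_g ℓ K)) x ∈ Set.range (ιFin N ℓ) :=
    fun x => Set.ext_iff.mp (hrange WalkingSpan.left) x
  have hmemR : ∀ x : P, x ∈ Set.range ((h6g_cover' N ℓ K).f WalkingSpan.right) ↔
      (pullback.fst (igusaTo N ℓ) (h6g_g ℓ K)) x ∈ Set.range (ιInf N ℓ) :=
    fun x => Set.ext_iff.mp (hrange WalkingSpan.right) x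
  have hirr : IrreducibleSpace P := by
    apply h6g_irreducibleSpace_of_two_opens
      (Set.range ((h6g_cover' N ℓ K).f WalkingSpan.left))
      (Set.range ((h6g_cover' N ℓ K).f WalkingSpan.right))
    · rw [← Set.image_univ]
      have : IrreducibleSpace ((h6g_cover' N ℓ K).X WalkingSpan.left) := inferInstance
      exact (IrreducibleSpace.isIrreducible_univ _).image _
        ((h6g_cover' N ℓ K).f WalkingSpan.left).continuous.continuousOn
    · rw [← Set.image_univ]
      have : IrreducibleSpace ((h6g_cover' N ℓ K).X WalkingSpan.right) := inferInstance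
      exact (IrreducibleSpace.isIrreducible_univ _).image _
        ((h6g_cover' N ℓ K).f WalkingSpan.right).continuous.continuousOn
    · have : IsOpenImmersion ((h6g_cover' N ℓ K).f WalkingSpan.right) :=
        (h6g_cover' N ℓ K).map_prop _
      exact ((h6g_cover' N ℓ K).f WalkingSpan.right).isOpenEmbedding.isOpen_range
    · have : IsOpenImmersion ((h6g_cover' N ℓ K).f WalkingSpan.left) :=
        (h6g_cover' N ℓ K).map_prop _
      exact ((h6g_cover' N ℓ K).f WalkingSpan.left).isOpenEmbedding.isOpen_range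
    · -- nonempty intersection
      have hne : Nonempty ((h6g_cover' N ℓ K).X WalkingSpan.zero) := inferInstance
      obtain ⟨y⟩ := hne
      have hz : ((h6g_cover' N ℓ K).f WalkingSpan.zero) y ∈
          Set.range ((h6g_cover' N ℓ K).f WalkingSpan.zero) := ⟨y, rfl⟩
      have hz' := (Set.ext_iff.mp (hrange WalkingSpan.zero) _).mp hz
      obtain ⟨w, hw⟩ := hz'
      refine ⟨((h6g_cover' N ℓ K).f WalkingSpan.zero) y, (hmemL _).mpr ?_, (hmemR _).mpr ?_⟩
      · refine ⟨(fFin N ℓ) w, ?_⟩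
        rw [← hw, h6g_cover_zero]
        rfl
      · refine ⟨(fInf N ℓ) w, ?_⟩
        rw [← hw, h6g_cover_zero, glue_condition]
        rfl
    · intro x
      rcases mem_range_ιFin_or_mem_range_ιInf N ℓ
        ((pullback.fst (igusaTo N ℓ) (h6g_g ℓ K)) x) with h | h
      · exact Or.inl ((hmemL x).mpr h)
      · exact Or.inr ((hmemR x).mpr h)
  exact isIntegral_of_irreducibleSpace_of_isReduced P

end Glue

end Fermat.Agent.Lib.S28
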