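import Mathlib
import Fermat.Prelude.Def_GaloisRep_Flat

set_option autoImplicit false
open scoped TensorProduct

namespace Fermat.Agent.Lib.S28

section

variable (ℓ : ℕ) [Fact ℓ.Prime]

/-- Ring homs out of `ℤ_(ℓ)` into a domain of characteristic `ℓ` are unique. -/
theorem h6d_ringHom_ext {L : Type*} [CommRing L] [IsDomain L] [CharP L ℓ]
    (g₁ g₂ : ↥(GaloisRep.ratLocalizedAt ℓ) →+* L) : g₁ = g₂ := by
  ext r
  have hden : (((r : ℚ).den : ℕ) : L) ≠ 0 := by
    intro h
    have h1 : ℓ ∣ (r : ℚ).den := (CharP.cast_eq_zero_iff L ℓ _).mp h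
    have hc : (r : ℚ).den.Coprime ℓ := r.2
    have h2 : ℓ ∣ 1 := by
      have := Nat.dvd_gcd h1 (dvd_refl ℓ)
      rwa [hc] at this
    exact (Fact.out : ℓ.Prime).one_lt.ne' (Nat.dvd_one.mp h2)
  have key : (((r : ℚ).den : ℕ) : ↥(GaloisRep.ratLocalizedAt ℓ)) * r =
      (((r : ℚ).num : ℤ) : ↥(GaloisRep.ratLocalizedAt ℓ)) := by
    apply Subtype.ext
    push_cast
    exact Rat.den_mul_eq_num _
  have h1 := congrArg g₁ key
  have h2 := congrArg g₂ key
  simp only [map_mul, map_natCast, map_intCast] at h1 h2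
  exact mul_left_cancel₀ hden (h1.trans h2.symm)

end

/-- coefficientwise map of Laurent series along a ring hom, as a ring hom. -/
noncomputable def h6d_mapRH {k K : Type*} [CommRing k] [CommRing K] (f : k →+* K) :
    HahnSeries ℤ k →+* HahnSeries ℤ K where
  toFun x := x.map f
  map_zero' := by ext; simp
  map_one' := HahnSeries.map_one f.toMonoidWithZeroHom
  map_add' x y := by ext; simp
  map_mul' x y := HahnSeries.map_mul f.toNonUnitalRingHom

@[simp] theorem h6d_mapRH_coeff {k K : Type*} [CommRing k] [CommRing K] (f : k →+* K)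
    (x : HahnSeries ℤ k) (n : ℤ) : (h6d_mapRH f x).coeff n = f (x.coeff n) := rfl

end Fermat.Agent.Lib.S28

namespace Fermat.Agent.Lib.S28

section Main

variable (ℓ : ℕ) [Fact ℓ.Prime]
  {B : Type*} [CommRing B] [Algebra ↥(GaloisRep.ratLocalizedAt ℓ) B]
  (K : Type*) [Field K] [CharP K ℓ] [Algebra ↥(GaloisRep.ratLocalizedAt ℓ) K]

theorem h6d_isDomain_tensor
    (ρ : B →+* HahnSeries ℤ (ZMod ℓ))
    (hρ : ∀ b : B, ρ b = 0 → ∃ b' : B, b = (ℓ : B) * b') :
    IsDomain (B ⊗[↥(GaloisRep.ratLocalizedAt ℓ)] K) := by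
  classical
  let f : ZMod ℓ →+* K := ZMod.castHom (dvd_refl ℓ) K
  have : CharP (HahnSeries ℤ K) ℓ :=
    charP_of_injective_ringHom (f := (HahnSeries.C : K →+* HahnSeries ℤ K))
      HahnSeries.C_injective ℓ
  let gB : B →+* HahnSeries ℤ K := (h6d_mapRH f).comp ρ
  let algL : Algebra ↥(GaloisRep.ratLocalizedAt ℓ) (HahnSeries ℤ K) :=
    (gB.comp (algebraMap ↥(GaloisRep.ratLocalizedAt ℓ) B)).toAlgebra
  let aB : B →ₐ[↥(GaloisRep.ratLocalizedAt ℓ)] HahnSeries ℤ K :=
    { gB with commutes' := fun r => rfl }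
  let aK : K →ₐ[↥(GaloisRep.ratLocalizedAt ℓ)] HahnSeries ℤ K :=
    { (HahnSeries.C : K →+* HahnSeries ℤ K) with
      commutes' := fun r => by
        have := h6d_ringHom_ext ℓ
          ((HahnSeries.C : K →+* HahnSeries ℤ K).comp
            (algebraMap ↥(GaloisRep.ratLocalizedAt ℓ) K))
          (gB.comp (algebraMap ↥(GaloisRep.ratLocalizedAt ℓ) B))
        exact RingHom.congr_fun this r }
  let φ : B ⊗[↥(GaloisRep.ratLocalizedAt ℓ)] K →ₐ[↥(GaloisRep.ratLocalizedAt ℓ)] HahnSeries ℤ K :=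
    Algebra.TensorProduct.productMap aB aK
  have hφ : ∀ (b : B) (y : K), φ (b ⊗ₜ y) = gB b * HahnSeries.C y := fun b y =>
    Algebra.TensorProduct.productMap_apply_tmul aB aK b y
  let algK : Algebra (ZMod ℓ) K := f.toAlgebra
  have hsmul : ∀ (c : ZMod ℓ) (y : K), c • y = f c * y := fun c y => rfl
  let e := Module.Basis.ofVectorSpace (ZMod ℓ) K
  -- the additive map `β ↦ Σ β i ⊗ e i`
  let Ψ : (Module.Basis.ofVectorSpaceIndex (ZMod ℓ) K →₀ B) →+
      B ⊗[↥(GaloisRep.ratLocalizedAt ℓ)] K :=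
    Finsupp.liftAddHom (fun i =>
      ((TensorProduct.mk ↥(GaloisRep.ratLocalizedAt ℓ) B K).flip (e i)).toAddMonoidHom)
  have hΨ : ∀ β, Ψ β = ∑ i ∈ β.support, (β i) ⊗ₜ[↥(GaloisRep.ratLocalizedAt ℓ)] (e i) := by
    intro β
    simp only [Ψ, Finsupp.liftAddHom_apply, Finsupp.sum]
    rfl
  have hnat : ∀ (n : ℕ) (b : B) (y : K),
      b ⊗ₜ[↥(GaloisRep.ratLocalizedAt ℓ)] ((n : K) * y) = ((n : B) * b) ⊗ₜ y := by
    intro n b y
    have h1 : ((n : K) * y) = (n : ↥(GaloisRep.ratLocalizedAt ℓ)) • y := by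
      rw [Algebra.smul_def, map_natCast]
    have h2 : ((n : B) * b) = (n : ↥(GaloisRep.ratLocalizedAt ℓ)) • b := by
      rw [Algebra.smul_def, map_natCast]
    rw [h1, h2, TensorProduct.tmul_smul, TensorProduct.smul_tmul']
  -- surjectivity of Ψ
  have hsurj : ∀ t : B ⊗[↥(GaloisRep.ratLocalizedAt ℓ)] K, t ∈ AddMonoidHom.mrange Ψ := by
    intro t
    induction t using TensorProduct.induction_on with
    | zero => exact zero_mem _
    | add t₁ t₂ h₁ h₂ => exact add_mem h₁ h₂
    | tmul b x =>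
      have hx : x = ∑ i ∈ (e.repr x).support, (e.repr x i) • e i := by
        conv_lhs => rw [← e.linearCombination_repr x]
        rw [Finsupp.linearCombination_apply, Finsupp.sum]
      rw [hx, TensorProduct.tmul_sum]
      refine sum_mem (fun i _ => ?_)
      have hc : f (e.repr x i) = (((e.repr x i).val : ℕ) : K) := by
        conv_lhs => rw [← ZMod.natCast_zmod_val (e.repr x i)]
        rw [map_natCast]
      rw [hsmul, hc, hnat]
      refine ⟨Finsupp.single i ((((e.repr x i).val : ℕ) : B) * b), ?_⟩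
      show Finsupp.liftAddHom _ (Finsupp.single i _) = _
      rw [Finsupp.liftAddHom_apply_single]
      rfl
  have hinj : Function.Injective φ := by
    rw [injective_iff_map_eq_zero]
    intro t ht
    obtain ⟨β, rfl⟩ := hsurj t
    rw [hΨ] at ht ⊢
    rw [map_sum] at ht
    have hcoef : ∀ n : ℤ, ∑ i ∈ β.support, ((ρ (β i)).coeff n) • e i = 0 := by
      intro n
      have := congrArg (fun s : HahnSeries ℤ K => s.coeff n) ht
      simp only [HahnSeries.coeff_zero] at this
      rw [← this, HahnSeries.coeff_sum]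
      refine Finset.sum_congr rfl (fun i _ => ?_)
      rw [hφ, mul_comm, HahnSeries.C_mul_eq_smul, HahnSeries.coeff_smul, hsmul, smul_eq_mul,
        mul_comm]
      rfl
    have hli := e.linearIndependent
    rw [linearIndependent_iff'] at hli
    refine Finset.sum_eq_zero (fun i hi => ?_)
    have hzero : ρ (β i) = 0 := by
      ext n
      exact hli β.support (fun i => (ρ (β i)).coeff n) (hcoef n) i hi
    obtain ⟨b', hb'⟩ := hρ _ hzero
    rw [hb', ← hnat, (CharP.cast_eq_zero K ℓ), zero_mul, TensorProduct.tmul_zero]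
  exact Function.Injective.isDomain φ.toRingHom hinj

end Main

end Fermat.Agent.Lib.S28
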