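import Mathlib
import Fermat.Prelude.Def_ModularCurve_IgusaScheme
import Fermat.Agent.Lib.S28.H6IgusaGlue
import Fermat.Agent.Lib.S28.H6TensorDomain

set_option autoImplicit false

open AlgebraicGeometry CategoryTheory CategoryTheory.Limits ModularCurve ModularCurve.IgusaScheme
open scoped TensorProduct

namespace Fermat.Agent.Lib.S28

/-- Assembly: geometric integrality of the Igusa scheme from three "reduction mod `ℓ` of the
`q`-expansion" ring homs on the chart algebras whose kernels are contained in `ℓ • chart`. -/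
theorem h6a_isIntegral_of_rho
    (N : ℕ) [NeZero N] (ℓ : ℕ) [Fact ℓ.Prime]
    (K : Type) [Field K] [CharP K ℓ] [Algebra ↥(GaloisRep.ratLocalizedAt ℓ) K]
    (ρFin : ↥(chartAlgFin N ℓ) →+* HahnSeries ℤ (ZMod ℓ))
    (hFin : ∀ b : ↥(chartAlgFin N ℓ), ρFin b = 0 →
      ∃ b' : ↥(chartAlgFin N ℓ), b = (ℓ : ↥(chartAlgFin N ℓ)) * b')
    (ρInf : ↥(chartAlgInf N ℓ) →+* HahnSeries ℤ (ZMod ℓ))
    (hInf : ∀ b : ↥(chartAlgInf N ℓ), ρInf b = 0 →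
      ∃ b' : ↥(chartAlgInf N ℓ), b = (ℓ : ↥(chartAlgInf N ℓ)) * b')
    (ρMid : ↥(chartAlgMid N ℓ) →+* HahnSeries ℤ (ZMod ℓ))
    (hMid : ∀ b : ↥(chartAlgMid N ℓ), ρMid b = 0 →
      ∃ b' : ↥(chartAlgMid N ℓ), b = (ℓ : ↥(chartAlgMid N ℓ)) * b') :
    IsIntegral ↑(pullback (igusaTo N ℓ)
      (Spec.map (CommRingCat.ofHom (algebraMap ↥(GaloisRep.ratLocalizedAt ℓ) K)))) :=
  h6g_isIntegral_pullback N ℓ K
    (h6d_isDomain_tensor ℓ K ρFin hFin)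
    (h6d_isDomain_tensor ℓ K ρInf hInf)
    (h6d_isDomain_tensor ℓ K ρMid hMid)

/-- Uniform version: one family of ring homs `ρ S` on `chartAlg N ℓ S`. -/
theorem h6a_isIntegral_of_rho_family
    (N : ℕ) [NeZero N] (ℓ : ℕ) [Fact ℓ.Prime]
    (K : Type) [Field K] [CharP K ℓ] [Algebra ↥(GaloisRep.ratLocalizedAt ℓ) K]
    (ρ : ∀ S : Set ↥(modularFunctionFieldFull N),
      ↥(chartAlg N ℓ S) →+* HahnSeries ℤ (ZMod ℓ))
    (hρ : ∀ S : Set ↥(modularFunctionFieldFull N), S ⊆ {jFull N, (jFull N)⁻¹} → S.Nonempty →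
      ∀ b : ↥(chartAlg N ℓ S), ρ S b = 0 →
        ∃ b' : ↥(chartAlg N ℓ S), b = (ℓ : ↥(chartAlg N ℓ S)) * b') :
    IsIntegral ↑(pullback (igusaTo N ℓ)
      (Spec.map (CommRingCat.ofHom (algebraMap ↥(GaloisRep.ratLocalizedAt ℓ) K)))) :=
  h6a_isIntegral_of_rho N ℓ K
    (ρ _) (hρ _ (sFin_subset N) ⟨_, rfl⟩)
    (ρ _) (hρ _ (sInf_subset N) ⟨_, rfl⟩)
    (ρ _) (hρ _ (subset_refl _) ⟨_, Set.mem_insert _ _⟩)

end Fermat.Agent.Lib.S28
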