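import Mathlib
import Fermat.Prelude.Def_ModularCurve_IgusaScheme
import Fermat.Agent.Lib.S28.Defs
import Fermat.Agent.Lib.S28.H6Assemble

set_option autoImplicit false

open AlgebraicGeometry CategoryTheory CategoryTheory.Limits ModularCurve ModularCurve.IgusaScheme
open scoped TensorProduct

namespace Fermat.Agent.Lib.S28

section Res

variable (ℓ : ℕ) [Fact ℓ.Prime]

/-- the residue function `ℚ → 𝔽_ℓ` (meaningful on `ℤ_(ℓ)`). -/
noncomputable def h6r_resFun (r : ℚ) : ZMod ℓ := (r.num : ZMod ℓ) * ((r.den : ZMod ℓ))⁻¹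

theorem h6r_natCast_ne_zero {b : ℕ} (hb : b.Coprime ℓ) : (b : ZMod ℓ) ≠ 0 := by
  intro h
  have h1 : ℓ ∣ b := (ZMod.natCast_eq_zero_iff b ℓ).mp h
  have h2 : ℓ ∣ 1 := by
    have := Nat.dvd_gcd h1 (dvd_refl ℓ)
    rwa [hb] at this
  exact (Fact.out : ℓ.Prime).one_lt.ne' (Nat.dvd_one.mp h2)

theorem h6r_resFun_eq {r : ℚ} (hr : r.den.Coprime ℓ) (a : ℤ) (b : ℕ) (hb : b.Coprime ℓ)
    (h : r * b = a) : h6r_resFun ℓ r = (a : ZMod ℓ) * ((b : ZMod ℓ))⁻¹ := by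
  have hden : (r.den : ZMod ℓ) ≠ 0 := h6r_natCast_ne_zero ℓ hr
  have hb' : (b : ZMod ℓ) ≠ 0 := h6r_natCast_ne_zero ℓ hb
  have hz : r.num * b = a * r.den := by
    have h1 : (r.num : ℚ) = r * r.den := (Rat.mul_den_eq_num r).symm
    have : ((r.num * b : ℤ) : ℚ) = ((a * r.den : ℤ) : ℚ) := by
      push_cast
      rw [h1, ← h]
      ring
    exact_mod_cast this
  have hz' : (r.num : ZMod ℓ) * b = a * r.den := by
    have := congrArg (Int.cast : ℤ → ZMod ℓ) hz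
    push_cast at this
    exact this
  unfold h6r_resFun
  field_simp
  rw [hz']
  ring

/-- the residue ring hom `ℤ_(ℓ) → 𝔽_ℓ`. -/
noncomputable def h6r_res : ↥(GaloisRep.ratLocalizedAt ℓ) →+* ZMod ℓ where
  toFun r := h6r_resFun ℓ (r : ℚ)
  map_one' := by
    show h6r_resFun ℓ ((1 : ↥(GaloisRep.ratLocalizedAt ℓ)) : ℚ) = 1
    rw [h6r_resFun_eq ℓ (r := ((1 : ↥(GaloisRep.ratLocalizedAt ℓ)) : ℚ))
      (1 : ↥(GaloisRep.ratLocalizedAt ℓ)).2 1 1 (Nat.coprime_one_left ℓ) (by simp)]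
    simp
  map_zero' := by
    show h6r_resFun ℓ ((0 : ↥(GaloisRep.ratLocalizedAt ℓ)) : ℚ) = 0
    rw [h6r_resFun_eq ℓ (r := ((0 : ↥(GaloisRep.ratLocalizedAt ℓ)) : ℚ))
      (0 : ↥(GaloisRep.ratLocalizedAt ℓ)).2 0 1 (Nat.coprime_one_left ℓ) (by simp)]
    simp
  map_add' r s := by
    show h6r_resFun ℓ ((r + s : ↥(GaloisRep.ratLocalizedAt ℓ)) : ℚ) =
      h6r_resFun ℓ (r : ℚ) + h6r_resFun ℓ (s : ℚ)
    have hr : (r : ℚ).den.Coprime ℓ := r.2
    have hs : (s : ℚ).den.Coprime ℓ := s.2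
    have hrd : ((r : ℚ).den : ZMod ℓ) ≠ 0 := h6r_natCast_ne_zero ℓ hr
    have hsd : ((s : ℚ).den : ZMod ℓ) ≠ 0 := h6r_natCast_ne_zero ℓ hs
    rw [h6r_resFun_eq ℓ (r + s).2 ((r : ℚ).num * (s : ℚ).den + (s : ℚ).num * (r : ℚ).den)
      ((r : ℚ).den * (s : ℚ).den) (Nat.Coprime.mul_left hr hs) ?_]
    · unfold h6r_resFun
      push_cast
      field_simp
    · push_cast
      have h1 : ((r : ℚ).num : ℚ) = r * (r : ℚ).den := (Rat.mul_den_eq_num _).symm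
      have h2 : ((s : ℚ).num : ℚ) = s * (s : ℚ).den := (Rat.mul_den_eq_num _).symm
      rw [h1, h2]
      ring
  map_mul' r s := by
    show h6r_resFun ℓ ((r * s : ↥(GaloisRep.ratLocalizedAt ℓ)) : ℚ) =
      h6r_resFun ℓ (r : ℚ) * h6r_resFun ℓ (s : ℚ)
    have hr : (r : ℚ).den.Coprime ℓ := r.2
    have hs : (s : ℚ).den.Coprime ℓ := s.2
    have hrd : ((r : ℚ).den : ZMod ℓ) ≠ 0 := h6r_natCast_ne_zero ℓ hr
    have hsd : ((s : ℚ).den : ZMod ℓ) ≠ 0 := h6r_natCast_ne_zero ℓ hs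
    rw [h6r_resFun_eq ℓ (r * s).2 ((r : ℚ).num * (s : ℚ).num)
      ((r : ℚ).den * (s : ℚ).den) (Nat.Coprime.mul_left hr hs) ?_]
    · unfold h6r_resFun
      push_cast
      field_simp
    · push_cast
      have h1 : ((r : ℚ).num : ℚ) = r * (r : ℚ).den := (Rat.mul_den_eq_num _).symm
      have h2 : ((s : ℚ).num : ℚ) = s * (s : ℚ).den := (Rat.mul_den_eq_num _).symm
      rw [h1, h2]
      ring

theorem h6r_res_apply (r : ↥(GaloisRep.ratLocalizedAt ℓ)) :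
    h6r_res ℓ r = h6r_resFun ℓ (r : ℚ) := rfl

/-- kernel of the residue map. -/
theorem h6r_res_eq_zero {r : ↥(GaloisRep.ratLocalizedAt ℓ)} (h : h6r_res ℓ r = 0) :
    ∃ r' ∈ GaloisRep.ratLocalizedAt ℓ, (r : ℚ) = (ℓ : ℚ) * r' := by
  have hr : (r : ℚ).den.Coprime ℓ := r.2
  have hrd : ((r : ℚ).den : ZMod ℓ) ≠ 0 := h6r_natCast_ne_zero ℓ hr
  rw [h6r_res_apply, h6r_resFun] at h
  have h0 : (((r : ℚ).num : ℤ) : ZMod ℓ) = 0 := by
    rcases mul_eq_zero.mp h with h | h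
    · exact h
    · exact absurd (inv_eq_zero.mp h) hrd
  obtain ⟨m, hm⟩ := (ZMod.intCast_zmod_eq_zero_iff_dvd _ ℓ).mp h0
  have hℓ : (ℓ : ℚ) ≠ 0 := by exact_mod_cast (Fact.out : ℓ.Prime).ne_zero
  refine ⟨(m : ℚ) / ((r : ℚ).den : ℚ), ?_, ?_⟩
  · show ((m : ℚ) / ((r : ℚ).den : ℚ)).den.Coprime ℓ
    have hd : ((m : ℚ) / ((r : ℚ).den : ℚ)).den ∣ (r : ℚ).den := by
      have := Rat.den_dvd m ((r : ℚ).den : ℤ)
      rw [Rat.divInt_eq_div] at this
      exact_mod_cast this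
    exact Nat.Coprime.coprime_dvd_left hd hr
  · have h1 : (r : ℚ) = ((r : ℚ).num : ℚ) / ((r : ℚ).den : ℚ) := (Rat.num_div_den _).symm
    conv_lhs => rw [h1]
    rw [hm]
    push_cast
    ring

end Res


section Lift

/-- lifting a ring hom through an injective ring hom whose range contains its range. -/
noncomputable def h6r_liftHom {S T B : Type*} [CommRing S] [CommRing T] [CommRing B]
    (i : S →+* T) (hi : Function.Injective i) (g : B →+* T) (hg : ∀ b, ∃ s, i s = g b) :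
    B →+* S where
  toFun b := Classical.choose (hg b)
  map_one' := hi (by rw [Classical.choose_spec (hg 1), map_one, map_one])
  map_zero' := hi (by rw [Classical.choose_spec (hg 0), map_zero, map_zero])
  map_add' a b := hi (by
    rw [Classical.choose_spec (hg (a + b)), map_add, map_add, Classical.choose_spec (hg a),
      Classical.choose_spec (hg b)])
  map_mul' a b := hi (by
    rw [Classical.choose_spec (hg (a * b)), map_mul, map_mul, Classical.choose_spec (hg a),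
      Classical.choose_spec (hg b)])

theorem h6r_liftHom_spec {S T B : Type*} [CommRing S] [CommRing T] [CommRing B]
    (i : S →+* T) (hi : Function.Injective i) (g : B →+* T) (hg : ∀ b, ∃ s, i s = g b) (b : B) :
    i (h6r_liftHom i hi g hg b) = g b :=
  Classical.choose_spec (hg b)

end Lift



section Rho

variable (N : ℕ) [NeZero N] (ℓ : ℕ) [Fact ℓ.Prime]

/-- coefficient inclusion `ℤ_(ℓ)((q)) → ℚ((q))`. -/
noncomputable def h6r_incl : HahnSeries ℤ ↥(GaloisRep.ratLocalizedAt ℓ) →+* HahnSeries ℤ ℚ :=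
  h6d_mapRH (GaloisRep.ratLocalizedAt ℓ).subtype

theorem h6r_incl_coeff (y : HahnSeries ℤ ↥(GaloisRep.ratLocalizedAt ℓ)) (n : ℤ) :
    (h6r_incl ℓ y).coeff n = ((y.coeff n : ↥(GaloisRep.ratLocalizedAt ℓ)) : ℚ) := rfl

theorem h6r_incl_injective : Function.Injective (h6r_incl ℓ) := by
  intro a b hab
  ext n
  have := congrArg (fun s : HahnSeries ℤ ℚ => s.coeff n) hab
  simpa [h6r_incl_coeff] using this

theorem h6r_exists_lift (x : HahnSeries ℤ ℚ)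
    (hx : ∀ n : ℤ, x.coeff n ∈ GaloisRep.ratLocalizedAt ℓ) : ∃ y, h6r_incl ℓ y = x := by
  refine ⟨⟨fun n => ⟨x.coeff n, hx n⟩, ?_⟩, ?_⟩
  · refine x.isPWO_support.mono ?_
    intro n hn
    simp only [Function.mem_support, ne_eq] at hn ⊢
    intro h0
    apply hn
    exact Subtype.ext h0
  · ext n
    rfl

/-- the inclusion of a chart algebra into `ℚ((q))`. -/
noncomputable def h6r_toSeries
    (B : Subalgebra ↥(GaloisRep.ratLocalizedAt ℓ) ↥(modularFunctionFieldFull N)) :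
    ↥B →+* HahnSeries ℤ ℚ where
  toFun x := ((x : ↥(modularFunctionFieldFull N)) : LaurentSeries ℚ)
  map_one' := rfl
  map_mul' _ _ := rfl
  map_zero' := rfl
  map_add' _ _ := rfl

theorem h6r_toSeries_apply
    (B : Subalgebra ↥(GaloisRep.ratLocalizedAt ℓ) ↥(modularFunctionFieldFull N)) (x : ↥B) :
    h6r_toSeries N ℓ B x = ((x : ↥(modularFunctionFieldFull N)) : LaurentSeries ℚ) := rfl

/-- coefficientwise reduction modulo `ℓ` on a subalgebra of `ℓ`-integral series. -/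
noncomputable def h6r_rho
    (B : Subalgebra ↥(GaloisRep.ratLocalizedAt ℓ) ↥(modularFunctionFieldFull N))
    (h : ∀ x ∈ B, ∀ n : ℤ, ((x : ↥(modularFunctionFieldFull N)) : LaurentSeries ℚ).coeff n ∈
      GaloisRep.ratLocalizedAt ℓ) : ↥B →+* HahnSeries ℤ (ZMod ℓ) :=
  (h6d_mapRH (h6r_res ℓ)).comp
    (h6r_liftHom (h6r_incl ℓ) (h6r_incl_injective ℓ) (h6r_toSeries N ℓ B)
      (fun b => h6r_exists_lift ℓ _ (h b b.2)))

theorem h6r_rho_coeff
    (B : Subalgebra ↥(GaloisRep.ratLocalizedAt ℓ) ↥(modularFunctionFieldFull N))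
    (h : ∀ x ∈ B, ∀ n : ℤ, ((x : ↥(modularFunctionFieldFull N)) : LaurentSeries ℚ).coeff n ∈
      GaloisRep.ratLocalizedAt ℓ) (x : ↥B) (n : ℤ) :
    (h6r_rho N ℓ B h x).coeff n =
      h6r_res ℓ ⟨((x : ↥(modularFunctionFieldFull N)) : LaurentSeries ℚ).coeff n, h x x.2 n⟩ := by
  show h6r_res ℓ _ = h6r_res ℓ _
  congr 1
  apply Subtype.ext
  have := h6r_liftHom_spec (h6r_incl ℓ) (h6r_incl_injective ℓ) (h6r_toSeries N ℓ B)
      (fun b => h6r_exists_lift ℓ _ (h b b.2)) x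
  have h2 := congrArg (fun s : HahnSeries ℤ ℚ => s.coeff n) this
  simpa [h6r_incl_coeff, h6r_toSeries_apply] using h2

theorem h6r_rho_ker
    (B : Subalgebra ↥(GaloisRep.ratLocalizedAt ℓ) ↥(modularFunctionFieldFull N))
    (h : h0_ChartRed N ℓ B) (x : ↥B) (hx : h6r_rho N ℓ B h.1 x = 0) :
    ∃ x' : ↥B, x = (ℓ : ↥B) * x' := by
  have hc : ∀ n : ℤ, ∃ r ∈ GaloisRep.ratLocalizedAt ℓ,
      ((x : ↥(modularFunctionFieldFull N)) : LaurentSeries ℚ).coeff n = (ℓ : ℚ) * r := by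
    intro n
    have h0 : (h6r_rho N ℓ B h.1 x).coeff n = 0 := by rw [hx]; rfl
    rw [h6r_rho_coeff] at h0
    exact h6r_res_eq_zero ℓ h0
  obtain ⟨y, hy, hxy⟩ := h.2 x x.2 hc
  refine ⟨⟨y, hy⟩, Subtype.ext ?_⟩
  rw [hxy]
  show (ℓ : ℚ) • y = ((ℓ : ↥B) : ↥(modularFunctionFieldFull N)) * y
  rw [Algebra.smul_def, map_natCast]
  congr 1

theorem h6r_isDomain_of_chartRed
    (B : Subalgebra ↥(GaloisRep.ratLocalizedAt ℓ) ↥(modularFunctionFieldFull N))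
    (h : h0_ChartRed N ℓ B)
    (K : Type) [Field K] [CharP K ℓ] [Algebra ↥(GaloisRep.ratLocalizedAt ℓ) K] :
    IsDomain (↥B ⊗[↥(GaloisRep.ratLocalizedAt ℓ)] K) :=
  h6d_isDomain_tensor ℓ K (h6r_rho N ℓ B h.1) (h6r_rho_ker N ℓ B h)

/-- **S28 from the three work packages.** -/
theorem h6f_final (hV : h0_CoeffStatement N ℓ) (hA : h0_EmbStatement N ℓ)
    (hB : h0_ChartStatement N ℓ) (hℓN : ¬ ℓ ∣ N)
    (K : Type) [Field K] [CharP K ℓ] [Algebra ↥(GaloisRep.ratLocalizedAt ℓ) K] :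
    IsIntegral ↑(pullback (igusaTo N ℓ)
      (Spec.map (CommRingCat.ofHom (algebraMap ↥(GaloisRep.ratLocalizedAt ℓ) K)))) := by
  obtain ⟨C, hC⟩ := hV hℓN
  obtain ⟨E⟩ := hA hℓN C hC
  obtain ⟨h1, h2, h3⟩ := hB C E
  exact h6g_isIntegral_pullback N ℓ K
    (h6r_isDomain_of_chartRed N ℓ _ h1 K)
    (h6r_isDomain_of_chartRed N ℓ _ h2 K)
    (h6r_isDomain_of_chartRed N ℓ _ h3 K)

end Rho

end Fermat.Agent.Lib.S28
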