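import Mathlib
import Fermat.Prelude.Def_ModularCurve_IgusaScheme
import Fermat.Agent.Lib.S28.Defs
import Fermat.Agent.Lib.S28.H6Final

set_option autoImplicit false

open ModularCurve ModularCurve.IgusaScheme

namespace Fermat.Agent.Lib.S28


section Coeff

variable {ℓ : ℕ} (C : h0_Coeff ℓ)

/-- the uniformizer as an element of `O`. -/
def h6i_pi : ↥C.O := ⟨C.pi, C.pi_mem⟩

theorem h6i_mem_span_pi_iff (a : ↥C.O) :
    a ∈ Ideal.span {h6i_pi C} ↔ ∃ b ∈ C.O, (a : ℂ) = C.pi * b := by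
  rw [Ideal.mem_span_singleton']
  constructor
  · rintro ⟨b, hb⟩
    refine ⟨b, b.2, ?_⟩
    have := congrArg Subtype.val hb
    rw [← this]
    show (b : ℂ) * C.pi = C.pi * b
    ring
  · rintro ⟨b, hb, hab⟩
    refine ⟨⟨b, hb⟩, Subtype.ext ?_⟩
    show b * C.pi = a
    rw [hab]; ring

theorem h6i_span_pi_isMaximal : (Ideal.span {h6i_pi C}).IsMaximal := by
  rw [Ideal.isMaximal_iff]
  refine ⟨?_, ?_⟩
  · intro h
    obtain ⟨b, hb, h1⟩ := (h6i_mem_span_pi_iff C 1).mp h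
    exact C.pi_not_unit b hb h1.symm
  · intro J x hIJ hx hxJ
    rcases C.unit_or_dvd x x.2 with ⟨b, hb, hxb⟩ | ⟨b, hb, hxb⟩
    · have : (1 : ↥C.O) = x * ⟨b, hb⟩ := Subtype.ext hxb.symm
      rw [this]
      exact J.mul_mem_right _ hxJ
    · exact absurd ((h6i_mem_span_pi_iff C x).mpr ⟨b, hb, hxb⟩) hx

/-- the residue field `O/π`. -/
abbrev h6i_k : Type := ↥C.O ⧸ Ideal.span {h6i_pi C}

noncomputable instance h6i_k_field : Field (h6i_k C) :=
  @Ideal.Quotient.field _ _ _ (h6i_span_pi_isMaximal C)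

/-- the residue map. -/
noncomputable def h6i_mk : ↥C.O →+* h6i_k C := Ideal.Quotient.mk _

theorem h6i_mk_eq_zero_iff (a : ↥C.O) :
    h6i_mk C a = 0 ↔ ∃ b ∈ C.O, (a : ℂ) = C.pi * b := by
  rw [h6i_mk, Ideal.Quotient.eq_zero_iff_mem, h6i_mem_span_pi_iff]

/-- coefficient inclusion `O((u)) → ℂ((u))`. -/
noncomputable def h6i_incl : HahnSeries ℤ ↥C.O →+* HahnSeries ℤ ℂ :=
  h6d_mapRH C.O.subtype

theorem h6i_incl_coeff (y : HahnSeries ℤ ↥C.O) (n : ℤ) :
    (h6i_incl C y).coeff n = ((y.coeff n : ↥C.O) : ℂ) := rfl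

theorem h6i_incl_injective : Function.Injective (h6i_incl C) := by
  intro a b hab
  ext n
  have := congrArg (fun s : HahnSeries ℤ ℂ => s.coeff n) hab
  simpa [h6i_incl_coeff] using this

/-- the subring `O((u))` of `ℂ((u))`. -/
noncomputable def h6i_Int : Subring (HahnSeries ℤ ℂ) := (h6i_incl C).range

theorem h6i_mem_Int_iff (f : HahnSeries ℤ ℂ) : f ∈ h6i_Int C ↔ h0_IsInt C f := by
  constructor
  · rintro ⟨y, rfl⟩ n
    rw [h6i_incl_coeff]
    exact (y.coeff n).2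
  · intro hf
    refine ⟨⟨fun n => ⟨f.coeff n, hf n⟩, ?_⟩, ?_⟩
    · refine f.isPWO_support.mono ?_
      intro n hn
      simp only [Function.mem_support, ne_eq] at hn ⊢
      intro h0
      apply hn
      exact Subtype.ext h0
    · ext n
      rfl

/-- lifting an integral series to `O((u))`. -/
noncomputable def h6i_lift : ↥(h6i_Int C) →+* HahnSeries ℤ ↥C.O :=
  h6r_liftHom (h6i_incl C) (h6i_incl_injective C) (h6i_Int C).subtype (fun b => b.2)

theorem h6i_lift_coeff (f : ↥(h6i_Int C)) (n : ℤ) :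
    (((h6i_lift C f).coeff n : ↥C.O) : ℂ) = (f : HahnSeries ℤ ℂ).coeff n := by
  have := h6r_liftHom_spec (h6i_incl C) (h6i_incl_injective C) (h6i_Int C).subtype
    (fun b => b.2) f
  have h2 := congrArg (fun s : HahnSeries ℤ ℂ => s.coeff n) this
  simp only [h6i_incl_coeff, Subring.subtype_apply] at h2
  exact h2

/-- reduction modulo `π` of integral series. -/
noncomputable def h6i_red : ↥(h6i_Int C) →+* HahnSeries ℤ (h6i_k C) :=
  (h6d_mapRH (h6i_mk C)).comp (h6i_lift C)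

theorem h6i_red_coeff (f : ↥(h6i_Int C)) (n : ℤ) :
    (h6i_red C f).coeff n = h6i_mk C ((h6i_lift C f).coeff n) := rfl

theorem h6i_red_eq_zero_iff (f : ↥(h6i_Int C)) :
    h6i_red C f = 0 ↔ h0_Dvd C C.pi (f : HahnSeries ℤ ℂ) := by
  constructor
  · intro h n
    have h0 : (h6i_red C f).coeff n = 0 := by rw [h]; rfl
    rw [h6i_red_coeff, h6i_mk_eq_zero_iff, h6i_lift_coeff] at h0
    exact h0
  · intro h
    ext n
    rw [h6i_red_coeff]
    show _ = (0 : h6i_k C)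
    rw [h6i_mk_eq_zero_iff, h6i_lift_coeff]
    exact h n

end Coeff



/-- a Laurent series with a pole is transcendental over the coefficient field. -/
theorem h6i_transc {k : Type*} [Field k] (w : HahnSeries ℤ k) (hw : w ≠ 0) (ho : w.order < 0)
    (p : Polynomial k) (hp : p.eval₂ (HahnSeries.C : k →+* HahnSeries ℤ k) w = 0) : p = 0 := by
  by_contra hp0
  have hlead : p.leadingCoeff ≠ 0 := Polynomial.leadingCoeff_ne_zero.mpr hp0
  have hcoef := congrArg (fun x : HahnSeries ℤ k => x.coeff (p.natDegree • w.order)) hp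
  simp only [HahnSeries.coeff_zero] at hcoef
  rw [Polynomial.eval₂_eq_sum_range, HahnSeries.coeff_sum] at hcoef
  rw [Finset.sum_eq_single_of_mem p.natDegree (Finset.mem_range.mpr (Nat.lt_succ_self _))] at hcoef
  · rw [HahnSeries.C_mul_eq_smul, HahnSeries.coeff_smul, smul_eq_mul] at hcoef
    rcases mul_eq_zero.mp hcoef with h | h
    · exact hlead h
    · have h1 : (w ^ p.natDegree).order = p.natDegree • w.order := HahnSeries.order_pow w _
      rw [← h1] at h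
      exact pow_ne_zero _ hw (HahnSeries.coeff_order_eq_zero.mp h)
  · intro m hm hne
    have hm' : m < p.natDegree := lt_of_le_of_ne (Nat.lt_succ_iff.mp (Finset.mem_range.mp hm)) hne
    rw [HahnSeries.C_mul_eq_smul, HahnSeries.coeff_smul, smul_eq_mul]
    have h1 : (w ^ m).order = m • w.order := HahnSeries.order_pow w _
    have hlt : p.natDegree • w.order < (w ^ m).order := by
      rw [h1]
      simp only [nsmul_eq_mul]
      have : (m : ℤ) < p.natDegree := by exact_mod_cast hm'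
      nlinarith
    rw [HahnSeries.coeff_eq_zero_of_lt_order hlt, mul_zero]



/-- `jq` has integer coefficients. -/
theorem h6i_jq_coeff_int (n : ℤ) : ∃ m : ℤ, jq.coeff n = (m : ℚ) := by
  rw [jq, HahnSeries.coeff_single_mul, one_mul]
  by_cases hn : n - -1 < 0
  · exact ⟨0, by rw [ofPowerSeries_coeff_of_neg _ hn]; simp⟩
  · obtain ⟨k, hk⟩ := Int.eq_ofNat_of_zero_le (not_lt.mp hn)
    rw [hk, HahnSeries.ofPowerSeries_apply_coeff, jNumQ, PowerSeries.coeff_map]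
    exact ⟨_, rfl⟩

section K

variable {ℓ : ℕ} [Fact ℓ.Prime] (C : h0_Coeff ℓ)

/-- `πO ∩ ℤ_(ℓ) = ℓ ℤ_(ℓ)`. -/
theorem h6i_rat (r : ↥(GaloisRep.ratLocalizedAt ℓ))
    (h : ∃ b ∈ C.O, (((r : ℚ) : ℂ)) = C.pi * b) :
    ∃ r' ∈ GaloisRep.ratLocalizedAt ℓ, (r : ℚ) = (ℓ : ℚ) * r' := by
  by_cases hres : h6r_res ℓ r = 0
  · exact h6r_res_eq_zero ℓ hres
  · exfalso
    obtain ⟨b, hb, hrb⟩ := h
    -- pick t with res (r t) = 1
    set c : ZMod ℓ := (h6r_res ℓ r)⁻¹ with hc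
    have hsurj : ∃ t : ↥(GaloisRep.ratLocalizedAt ℓ), h6r_res ℓ t = c := by
      refine ⟨((c.val : ℕ) : ↥(GaloisRep.ratLocalizedAt ℓ)), ?_⟩
      rw [map_natCast, ZMod.natCast_zmod_val]
    obtain ⟨t, ht⟩ := hsurj
    have h1 : h6r_res ℓ (r * t - 1) = 0 := by
      rw [map_sub, map_mul, ht, hc, mul_inv_cancel₀ hres, map_one, sub_self]
    obtain ⟨r'', hr'', hrt⟩ := h6r_res_eq_zero ℓ h1
    obtain ⟨a, ha, hℓa⟩ := C.pi_dvd_ell
    have htO : (((t : ℚ) : ℂ)) ∈ C.O := C.rat_mem _ t.2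
    have hr''O : ((r'' : ℚ) : ℂ) ∈ C.O := C.rat_mem _ hr''
    have hrt' : (((r : ℚ) : ℂ)) * ((t : ℚ) : ℂ) - 1 = (ℓ : ℂ) * ((r'' : ℚ) : ℂ) := by
      have := congrArg (fun x : ℚ => (x : ℂ)) hrt
      simpa using this
    have hfin : C.pi * (b * ((t : ℚ) : ℂ) - a * ((r'' : ℚ) : ℂ)) = 1 := by
      have e1 : C.pi * (b * ((t : ℚ) : ℂ) - a * ((r'' : ℚ) : ℂ)) =
          (C.pi * b) * ((t : ℚ) : ℂ) - (C.pi * a) * ((r'' : ℚ) : ℂ) := by ring
      rw [e1, ← hrb, ← hℓa, ← hrt']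
      ring
    exact C.pi_not_unit _ (C.O.sub_mem (C.O.mul_mem hb htO) (C.O.mul_mem ha hr''O)) hfin

end K

end Fermat.Agent.Lib.S28
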