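import Mathlib
import Fermat.Prelude.Def_ModularCurve_IgusaScheme
import Fermat.Agent.Lib.S28.Defs
import Fermat.Agent.Lib.S28.H6Final
import Fermat.Agent.Lib.S28.H6IDcA

set_option autoImplicit false

open ModularCurve ModularCurve.IgusaScheme

namespace Fermat.Agent.Lib.S28

section Main

variable {N : ℕ} [NeZero N] {ℓ : ℕ} [Fact ℓ.Prime] {C : h0_Coeff ℓ} (E : h0_EmbData N ℓ C)

/-- `ℤ_(ℓ) → O`. -/
noncomputable def h6i_toO (C : h0_Coeff ℓ) : ↥(GaloisRep.ratLocalizedAt ℓ) →+* ↥C.O :=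
  RingHom.codRestrict ((Rat.castHom ℂ).comp (GaloisRep.ratLocalizedAt ℓ).subtype) C.O
    (fun r => C.rat_mem _ r.2)

theorem h6i_toO_coe (r : ↥(GaloisRep.ratLocalizedAt ℓ)) :
    ((h6i_toO C r : ↥C.O) : ℂ) = ((r : ℚ) : ℂ) := rfl

/-- `ℤ_(ℓ) → O((u))`, constants. -/
noncomputable def h6i_cInt (C : h0_Coeff ℓ) : ↥(GaloisRep.ratLocalizedAt ℓ) →+* ↥(h6i_Int C) :=
  RingHom.codRestrict
    ((HahnSeries.C : ℂ →+* HahnSeries ℤ ℂ).comp
      ((Rat.castHom ℂ).comp (GaloisRep.ratLocalizedAt ℓ).subtype)) (h6i_Int C)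
    (fun r => by
      rw [h6i_mem_Int_iff]
      intro n
      show (HahnSeries.C ((r : ℚ) : ℂ)).coeff n ∈ C.O
      rw [HahnSeries.C_apply, HahnSeries.coeff_single]
      split_ifs
      · exact C.rat_mem _ r.2
      · exact C.O.zero_mem)

theorem h6i_cInt_coe (r : ↥(GaloisRep.ratLocalizedAt ℓ)) :
    ((h6i_cInt C r : ↥(h6i_Int C)) : HahnSeries ℤ ℂ) = HahnSeries.C ((r : ℚ) : ℂ) := rfl

theorem h6i_red_coeff_eq (f : ↥(h6i_Int C)) (n : ℤ) (a : ↥C.O)
    (h : (a : ℂ) = (f : HahnSeries ℤ ℂ).coeff n) : (h6i_red C f).coeff n = h6i_mk C a := by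
  rw [h6i_red_coeff]
  congr 1
  apply Subtype.ext
  rw [h6i_lift_coeff, h]

theorem h6i_red_cInt (r : ↥(GaloisRep.ratLocalizedAt ℓ)) :
    h6i_red C (h6i_cInt C r) = HahnSeries.C (h6i_mk C (h6i_toO C r)) := by
  ext n
  rw [HahnSeries.C_apply, HahnSeries.coeff_single]
  split_ifs with hn
  · refine h6i_red_coeff_eq _ _ _ ?_
    rw [h6i_cInt_coe, HahnSeries.C_apply, HahnSeries.coeff_single, if_pos hn, h6i_toO_coe]
  · rw [h6i_red_coeff_eq (C := C) _ n 0 ?_, map_zero]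
    rw [h6i_cInt_coe, HahnSeries.C_apply, HahnSeries.coeff_single, if_neg hn]
    rfl

/-- `σ_g` on constants. -/
theorem h6i_sigma_const (g : E.ι) (r : ↥(GaloisRep.ratLocalizedAt ℓ)) :
    E.σ g (algebraMap ↥(GaloisRep.ratLocalizedAt ℓ) ↥(modularFunctionFieldFull N) r) =
      HahnSeries.C ((r : ℚ) : ℂ) := by
  have h1 : algebraMap ↥(GaloisRep.ratLocalizedAt ℓ) ↥(modularFunctionFieldFull N) r =
      (((r : ℚ) : ℚ) : ↥(modularFunctionFieldFull N)) := by
    show algebraMap ℚ ↥(modularFunctionFieldFull N) (r : ℚ) = _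
    exact eq_ratCast _ _
  rw [h1, map_ratCast]
  exact (map_ratCast (HahnSeries.C : ℂ →+* HahnSeries ℤ ℂ) (r : ℚ)).symm

theorem h6i_J_isInt : h0_IsInt C (E.σ E.i0 (jFull N)) := by
  intro n
  rw [E.base]
  split_ifs
  · obtain ⟨m, hm⟩ := h6i_jq_coeff_int (n / (E.s : ℤ))
    rw [coe_jFull, hm]
    push_cast
    exact intCast_mem C.O m
  · exact C.O.zero_mem

theorem h6i_J_coeff : (E.σ E.i0 (jFull N)).coeff (-(E.s : ℤ)) = 1 := by
  rw [E.base, if_pos (dvd_neg.mpr (dvd_refl _)), coe_jFull]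
  have hs : (E.s : ℤ) ≠ 0 := by exact_mod_cast E.s_pos.ne'
  rw [Int.neg_ediv_of_dvd (dvd_refl _), Int.ediv_self hs, coeff_jq_neg_one]
  simp

/-- **(ID)(c)**: if `Σ s_i(j) θ^i ≡ 0 mod ℓ` (on `q`-expansions) with fewer than `card ι` terms, then
every `s_i ≡ 0 mod ℓ`. -/
theorem h6i_IDc (D : ℕ) (hD : D ≤ @Fintype.card E.ι E.fin)
    (s : Fin D → Polynomial ↥(GaloisRep.ratLocalizedAt ℓ))
    (hy : ∀ n : ℤ, ∃ r ∈ GaloisRep.ratLocalizedAt ℓ,
      (((∑ i : Fin D, Polynomial.aeval (jFull N) (s i) * E.θ ^ (i : ℕ) :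
        ↥(modularFunctionFieldFull N)) : ↥(modularFunctionFieldFull N)) :
          LaurentSeries ℚ).coeff n = (ℓ : ℚ) * r) :
    ∀ (i : Fin D) (m : ℕ), ∃ r ∈ GaloisRep.ratLocalizedAt ℓ,
      (((s i).coeff m : ↥(GaloisRep.ratLocalizedAt ℓ)) : ℚ) = (ℓ : ℚ) * r := by
  classical
  let _inst : Fintype E.ι := E.fin
  set y : ↥(modularFunctionFieldFull N) :=
    ∑ i : Fin D, Polynomial.aeval (jFull N) (s i) * E.θ ^ (i : ℕ) with hydef
  -- 1. `y ∈ ℤ_(ℓ)[j, θ]`
  have hy_mem : y ∈ Algebra.adjoin ↥(GaloisRep.ratLocalizedAt ℓ)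
      ({jFull N, E.θ} : Set ↥(modularFunctionFieldFull N)) := by
    refine Subalgebra.sum_mem _ (fun i _ => Subalgebra.mul_mem _ ?_ (Subalgebra.pow_mem _ ?_ _))
    · rw [Polynomial.aeval_def, Polynomial.eval₂_eq_sum_range]
      refine Subalgebra.sum_mem _ (fun k _ => Subalgebra.mul_mem _ (Subalgebra.algebraMap_mem _ _)
        (Subalgebra.pow_mem _ (Algebra.subset_adjoin (Set.mem_insert _ _)) _))
    · exact Algebra.subset_adjoin (Set.mem_insert_of_mem _ rfl)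
  -- 2. `π ∣ σ_{i0} y`
  have hdvd0 : h0_Dvd C C.pi (E.σ E.i0 y) := by
    intro n
    rw [E.base]
    obtain ⟨a, ha, hℓa⟩ := C.pi_dvd_ell
    split_ifs
    · obtain ⟨r, hr, hrn⟩ := hy (n / (E.s : ℤ))
      refine ⟨a * ((r : ℚ) : ℂ), C.O.mul_mem ha (C.rat_mem r hr), ?_⟩
      rw [hrn]
      push_cast
      rw [hℓa]; ring
    · exact ⟨0, C.O.zero_mem, by simp⟩
  -- 3. qep
  have hdvd : ∀ g, h0_Dvd C C.pi (E.σ g y) := E.qep y hy_mem hdvd0
  -- integral versions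
  let Jint : ↥(h6i_Int C) := ⟨E.σ E.i0 (jFull N), (h6i_mem_Int_iff C _).mpr (h6i_J_isInt E)⟩
  let θint : E.ι → ↥(h6i_Int C) := fun g => ⟨E.σ g E.θ, (h6i_mem_Int_iff C _).mpr (E.θ_int g)⟩
  let Yint : E.ι → ↥(h6i_Int C) := fun g =>
    ∑ i : Fin D, (s i).eval₂ (h6i_cInt C) Jint * θint g ^ (i : ℕ)
  have hcomp : ∀ g, (E.σ g).comp
      (algebraMap ↥(GaloisRep.ratLocalizedAt ℓ) ↥(modularFunctionFieldFull N)) =
      (h6i_Int C).subtype.comp (h6i_cInt C) := by
    intro g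
    ext r : 1
    exact h6i_sigma_const E g r
  have hYcoe : ∀ g, ((Yint g : ↥(h6i_Int C)) : HahnSeries ℤ ℂ) = E.σ g y := by
    intro g
    show (h6i_Int C).subtype (Yint g) = E.σ g y
    simp only [Yint, hydef, map_sum, map_mul, map_pow]
    refine Finset.sum_congr rfl (fun i _ => ?_)
    congr 1
    rw [Polynomial.aeval_def, Polynomial.hom_eval₂, Polynomial.hom_eval₂, hcomp g, E.agree g]
    rfl
  have hred0 : ∀ g, h6i_red C (Yint g) = 0 := by
    intro g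
    rw [h6i_red_eq_zero_iff, hYcoe]
    exact hdvd g
  -- reduction
  let κ0 : ↥(GaloisRep.ratLocalizedAt ℓ) →+* h6i_k C := (h6i_mk C).comp (h6i_toO C)
  have hκ : (h6i_red C).comp (h6i_cInt C) =
      (HahnSeries.C : h6i_k C →+* HahnSeries ℤ (h6i_k C)).comp κ0 := by
    ext r : 1
    exact h6i_red_cInt r
  let Jbar : HahnSeries ℤ (h6i_k C) := h6i_red C Jint
  let θbar : E.ι → HahnSeries ℤ (h6i_k C) := fun g => h6i_red C (θint g)
  let cf : Fin D → HahnSeries ℤ (h6i_k C) := fun i =>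
    ((s i).map κ0).eval₂ (HahnSeries.C : h6i_k C →+* HahnSeries ℤ (h6i_k C)) Jbar
  let P : Polynomial (HahnSeries ℤ (h6i_k C)) :=
    ∑ i : Fin D, Polynomial.C (cf i) * Polynomial.X ^ (i : ℕ)
  have hPeval : ∀ g, P.eval (θbar g) = 0 := by
    intro g
    rw [← hred0 g]
    simp only [P, Yint, Polynomial.eval_finsetSum, Polynomial.eval_mul, Polynomial.eval_C,
      Polynomial.eval_pow, Polynomial.eval_X, map_sum, map_mul, map_pow]
    refine Finset.sum_congr rfl (fun i _ => ?_)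
    congr 1
    simp only [cf]
    rw [Polynomial.hom_eval₂, hκ, Polynomial.eval₂_map]
  -- distinct roots
  have hθinj : Function.Injective θbar := by
    intro g h hgh
    by_contra hne
    have hsub : h6i_red C (θint g - θint h) = 0 := by
      rw [map_sub]; exact sub_eq_zero.mpr hgh
    rw [h6i_red_eq_zero_iff] at hsub
    obtain ⟨hu1, b, hb, hub⟩ := E.θ_diff g h hne
    have hcoe : ((θint g - θint h : ↥(h6i_Int C)) : HahnSeries ℤ ℂ) = E.σ g E.θ - E.σ h E.θ := rfl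
    rw [hcoe] at hsub
    rw [HahnSeries.leadingCoeff_eq] at hub
    obtain ⟨c, hc, hcc⟩ := hsub (E.σ g E.θ - E.σ h E.θ).order
    rw [hcc] at hub
    exact C.pi_not_unit (c * b) (C.O.mul_mem hc hb) (by rw [← hub]; ring)
  have hP0 : P = 0 := by
    refine Polynomial.eq_zero_of_degree_lt_of_eval_finset_eq_zero
      (Finset.univ.image θbar) ?_ ?_
    · rw [Finset.card_image_of_injective _ hθinj, Finset.card_univ]
      exact lt_of_lt_of_le (Polynomial.degree_sum_fin_lt cf) (by exact_mod_cast hD)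
    · intro x hx
      obtain ⟨g, _, rfl⟩ := Finset.mem_image.mp hx
      exact hPeval g
  have hcf : ∀ i, cf i = 0 := by
    intro i
    have h1 : P.coeff (i : ℕ) = cf i := by
      simp only [P, Polynomial.finsetSum_coeff, Polynomial.coeff_C_mul, Polynomial.coeff_X_pow]
      rw [Finset.sum_eq_single i]
      · simp
      · intro b _ hb
        have : (i : ℕ) ≠ (b : ℕ) := fun h => hb (Fin.ext h.symm)
        simp [this]
      · intro h; exact absurd (Finset.mem_univ i) h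
    rw [← h1, hP0, Polynomial.coeff_zero]
  -- transcendence of `J̄`
  have hJcoef : Jbar.coeff (-(E.s : ℤ)) = 1 := by
    have := h6i_red_coeff_eq (C := C) Jint (-(E.s : ℤ)) 1 (by
      show ((1 : ↥C.O) : ℂ) = (E.σ E.i0 (jFull N)).coeff (-(E.s : ℤ))
      rw [h6i_J_coeff E]; rfl)
    rw [this, map_one]
  have hJne : Jbar ≠ 0 := by
    intro h
    rw [h] at hJcoef
    exact zero_ne_one hJcoef
  have hJord : Jbar.order < 0 := by
    have h1 : Jbar.order ≤ -(E.s : ℤ) :=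
      HahnSeries.order_le_of_coeff_ne_zero (by rw [hJcoef]; exact one_ne_zero)
    have h2 : (0 : ℤ) < E.s := by exact_mod_cast E.s_pos
    omega
  intro i m
  have hmap : (s i).map κ0 = 0 := h6i_transc Jbar hJne hJord _ (hcf i)
  have hκm : κ0 ((s i).coeff m) = 0 := by
    have := congrArg (fun p : Polynomial (h6i_k C) => p.coeff m) hmap
    simpa [Polynomial.coeff_map] using this
  have hmem := (h6i_mk_eq_zero_iff C _).mp hκm
  exact h6i_rat C _ hmem

end Main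

end Fermat.Agent.Lib.S28
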