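/-
S28 project, node (C3) (helper7): saturation of the Igusa chart algebras at `ℓ`.

From the "Igusa degree" contract `h7t_ID` (a family `x i` of `ℓ`-integral elements of the function
field spanning it over `ℚ(t)`, whose combinations with `ℤ_(ℓ)[t]`-coefficients are divisible by `ℓ`
only if all the coefficients are) we prove: an element of `chartAlg N ℓ {t}` all of whose
`q`-expansion coefficients are divisible by `ℓ` is `ℓ` times an element of `chartAlg N ℓ {t}`.
-/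
import Mathlib
import Fermat.Prelude.Def_ModularCurve_IgusaScheme

set_option autoImplicit false

open Polynomial ModularCurve ModularCurve.IgusaScheme

namespace Fermat.Agent.Lib.S28

noncomputable section

section LemmaB

variable {R F : Type*} [CommRing R] [IsDomain R] [IsIntegrallyClosed R] [Field F] [Algebra R F]
  [FaithfulSMul R F]

/-- the "`π`-local span" predicate: some multiple of `z` by an element prime to `π` lies in the
`R`-span of the `x i`. -/
def h7t_Q (π : R) {D : ℕ} (x : Fin D → F) (z : F) : Prop :=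
  ∃ s : R, ¬ π ∣ s ∧ s • z ∈ Submodule.span R (Set.range x)

theorem h7t_lemmaB {π : R} (hπ : Prime π) {D : ℕ} (x : Fin D → F)
    (h1 : h7t_Q π x 1) (hmul : ∀ i k, h7t_Q π x (x i * x k))
    {y : F} (hy : h7t_Q π x y) (k : ℕ) (hint : IsIntegral R (π ^ k • y)) :
    IsIntegral R y := by
  classical
  set P : Ideal R := Ideal.span {π} with hP
  have hPprime : P.IsPrime := (Ideal.span_singleton_prime hπ.ne_zero).mpr hπ
  let A' := Localization.AtPrime P
  let K := FractionRing R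
  let : Algebra K F := FractionRing.liftAlgebra R F
  let : Algebra A' F := ((algebraMap K F).comp (algebraMap A' K)).toAlgebra
  have : IsScalarTower A' K F := IsScalarTower.of_algebraMap_eq' rfl
  have : IsScalarTower R A' F := IsScalarTower.of_algebraMap_eq fun r => by
    show algebraMap R F r = algebraMap K F (algebraMap A' K (algebraMap R A' r))
    rw [← IsScalarTower.algebraMap_apply R A' K, ← IsScalarTower.algebraMap_apply R K F]
  have hM : P.primeCompl ≤ nonZeroDivisors R := by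
    intro s hs
    rw [mem_nonZeroDivisors_iff_ne_zero]
    rintro rfl
    exact hs (zero_mem P)
  have : IsIntegrallyClosed A' := isIntegrallyClosed_of_isLocalization A' P.primeCompl hM
  have : FaithfulSMul A' F := (faithfulSMul_iff_algebraMap_injective A' F).mpr
    ((algebraMap K F).injective.comp (IsFractionRing.injective A' K))
  -- Step 1
  set O : Submodule A' F := Submodule.span A' (Set.range x) with hO
  have hQO : ∀ z, h7t_Q π x z → z ∈ O := by
    rintro z ⟨s, hs, hz⟩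
    have hsM : s ∈ P.primeCompl := by
      show s ∉ P
      rw [hP, Ideal.mem_span_singleton]; exact hs
    have h2 : s • z ∈ O := Submodule.span_le_restrictScalars R A' _ hz
    have h3 := Submodule.smul_mem O (IsLocalization.mk' A' (1:R) ⟨s, hsM⟩) h2
    have h4 : (IsLocalization.mk' A' (1:R) ⟨s, hsM⟩) • (s • z) = z := by
      rw [← algebraMap_smul A' s z, smul_smul]
      have := IsLocalization.mk'_spec A' (1:R) ⟨s, hsM⟩
      rw [this, map_one, one_smul]
    rwa [h4] at h3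
  have hO1 : (1 : F) ∈ O := hQO 1 h1
  have hOmul : ∀ u v, u ∈ O → v ∈ O → u * v ∈ O := by
    intro u v hu hv
    induction hu using Submodule.span_induction with
    | mem u hu =>
      obtain ⟨i, rfl⟩ := hu
      induction hv using Submodule.span_induction with
      | mem v hv => obtain ⟨k, rfl⟩ := hv; exact hQO _ (hmul i k)
      | zero => simp
      | add v w _ _ hv hw => rw [mul_add]; exact add_mem hv hw
      | smul a v _ hv => rw [mul_smul_comm]; exact Submodule.smul_mem _ a hv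
    | zero => simp
    | add u w _ _ hu hw => rw [add_mul]; exact add_mem hu hw
    | smul a u _ hu => rw [smul_mul_assoc]; exact Submodule.smul_mem _ a hu
  have hyA' : IsIntegral A' y := by
    refine IsIntegral.of_mem_of_fg (Submodule.toSubalgebra O hO1 hOmul) ?_ y (hQO y hy)
    rw [Submodule.toSubalgebra_toSubmodule]
    exact Submodule.fg_span (Set.finite_range x)
  -- Step 4 : compare minimal polynomials
  set c : A' := algebraMap R A' (π ^ k) with hc
  have hc0 : c ≠ 0 := by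
    rw [hc]
    intro h0
    have := (IsLocalization.injective A' hM) (h0.trans (map_zero _).symm)
    exact pow_ne_zero k hπ.ne_zero this
  have hcy : c • y = π ^ k • y := by rw [hc, algebraMap_smul]
  have hzA' : IsIntegral A' (π ^ k • y) := hint.tower_top
  have hp1 : minpoly A' (π ^ k • y) = (minpoly A' y).scaleRoots c := by
    rw [← hcy]; exact IsIntegrallyClosed.minpoly_smul hc0 hyA'
  have hK1 : minpoly K (π ^ k • y) = (minpoly R (π ^ k • y)).map (algebraMap R K) :=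
    minpoly.isIntegrallyClosed_eq_field_fractions' K hint
  have hK2 : minpoly K (π ^ k • y) = (minpoly A' (π ^ k • y)).map (algebraMap A' K) :=
    minpoly.isIntegrallyClosed_eq_field_fractions' K hzA'
  have hp2 : (minpoly A' y).scaleRoots c = (minpoly R (π ^ k • y)).map (algebraMap R A') := by
    apply Polynomial.map_injective _ (IsFractionRing.injective A' K)
    rw [← hp1, ← hK2, hK1, Polynomial.map_map, ← IsScalarTower.algebraMap_eq]
  have hcoef : ∀ i, ∃ r : R, (minpoly A' y).coeff i = algebraMap R A' r := by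
    intro i
    have h1 := congrArg (fun f => f.coeff i) hp2
    simp only [Polynomial.coeff_scaleRoots, Polynomial.coeff_map] at h1
    obtain ⟨a, s, ha⟩ := IsLocalization.exists_mk'_eq P.primeCompl ((minpoly A' y).coeff i)
    have hs : ¬ π ∣ (s : R) := by
      have h5 : (s : R) ∉ P := s.2
      intro h6
      exact h5 (Ideal.mem_span_singleton.mpr h6)
    set m := k * ((minpoly A' y).natDegree - i) with hm
    have h2 : a * π ^ m = (minpoly R (π ^ k • y)).coeff i * s := by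
      apply IsLocalization.injective A' hM
      rw [map_mul, map_mul, ← h1, ← ha, hc, ← map_pow, ← pow_mul, ← hm]
      have := IsLocalization.mk'_spec A' a s
      calc algebraMap R A' a * algebraMap R A' (π ^ m)
          = (IsLocalization.mk' A' a s * algebraMap R A' s) * algebraMap R A' (π ^ m) := by
            rw [this]
        _ = _ := by ring
    have h3 : π ^ m ∣ (minpoly R (π ^ k • y)).coeff i :=
      hπ.pow_dvd_of_dvd_mul_right m hs (Dvd.intro_left _ h2)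
    obtain ⟨r, hr⟩ := h3
    refine ⟨r, ?_⟩
    have h4 : a = r * s := by
      have : π ^ m * a = π ^ m * (r * s) := by rw [mul_comm, h2, hr]; ring
      exact mul_left_cancel₀ (pow_ne_zero m hπ.ne_zero) this
    rw [← ha, IsLocalization.mk'_eq_iff_eq_mul, h4, map_mul]
  have hlifts : minpoly A' y ∈ Polynomial.lifts (algebraMap R A') :=
    (Polynomial.lifts_iff_coeff_lifts _).mpr fun i => by
      obtain ⟨r, hr⟩ := hcoef i
      exact ⟨r, hr.symm⟩
  obtain ⟨p', hp'map, -, hp'monic⟩ :=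
    Polynomial.lifts_and_natDegree_eq_and_monic hlifts (minpoly.monic hyA')
  refine ⟨p', hp'monic, ?_⟩
  have := minpoly.aeval A' y
  rw [← hp'map, Polynomial.aeval_map_algebraMap] at this
  exact this

end LemmaB


section Zl

variable (ℓ : ℕ) [Fact ℓ.Prime]

set_option quotPrecheck false in
local notation "ℤℓ" => ↥(GaloisRep.ratLocalizedAt ℓ)

omit [Fact ℓ.Prime] in
theorem h7t_mem_ratLoc {q : ℚ} : q ∈ GaloisRep.ratLocalizedAt ℓ ↔ q.den.Coprime ℓ := Iff.rfl

omit [Fact ℓ.Prime] in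
theorem h7t_intCast_mem (n : ℤ) : (n : ℚ) ∈ GaloisRep.ratLocalizedAt ℓ := by
  rw [h7t_mem_ratLoc]; simp

theorem h7t_prime_ideal : (Ideal.span {(ℓ : ℤ)}).IsPrime :=
  (Ideal.span_singleton_prime (by exact_mod_cast (Fact.out : ℓ.Prime).ne_zero)).mpr
    (Nat.prime_iff_prime_int.mp Fact.out)

instance h7t_isLocalization :
    haveI := h7t_prime_ideal ℓ
    IsLocalization.AtPrime ℤℓ (Ideal.span {(ℓ : ℤ)}) := by
  have := h7t_prime_ideal ℓ
  have hℓ : ℓ.Prime := Fact.out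
  refine ⟨?_, ?_, ?_⟩
  · rintro ⟨n, hn⟩
    have hn' : ¬ (ℓ : ℤ) ∣ n := fun h => hn (Ideal.mem_span_singleton.mpr h)
    have hn0 : n ≠ 0 := by rintro rfl; exact hn' (dvd_zero _)
    have hmem : ((n : ℚ))⁻¹ ∈ GaloisRep.ratLocalizedAt ℓ := by
      rw [h7t_mem_ratLoc, Rat.inv_intCast_den, if_neg hn0]
      rw [Nat.coprime_comm, hℓ.coprime_iff_not_dvd]
      intro h
      exact hn' (Int.natCast_dvd.mpr h)
    refine IsUnit.of_mul_eq_one ⟨(n : ℚ)⁻¹, hmem⟩ (Subtype.ext ?_)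
    simp [hn0]
  · intro z
    have hden : (z.1.den : ℤ) ∈ (Ideal.span {(ℓ : ℤ)}).primeCompl := by
      intro h
      have h := Ideal.mem_span_singleton.mp (SetLike.mem_coe.mp h)
      have h1 : ℓ ∣ z.1.den := by exact_mod_cast h
      have h2 : z.1.den.Coprime ℓ := z.2
      have h3 : ℓ ∣ Nat.gcd z.1.den ℓ := Nat.dvd_gcd h1 dvd_rfl
      rw [h2] at h3
      exact hℓ.one_lt.ne' (Nat.dvd_one.mp h3)
    refine ⟨(z.1.num, ⟨z.1.den, hden⟩), Subtype.ext ?_⟩
    simp [Rat.mul_den_eq_num]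
  · intro x y h
    refine ⟨1, ?_⟩
    have : (x : ℚ) = y := by simpa using congrArg Subtype.val h
    simp [Int.cast_injective this]

instance h7t_isDVR : IsDiscreteValuationRing ℤℓ := by
  have := h7t_prime_ideal ℓ
  have hℓ : ℓ.Prime := Fact.out
  refine IsLocalization.AtPrime.isDiscreteValuationRing_of_dedekind_domain ℤ
    (P := Ideal.span {(ℓ : ℤ)}) ?_ ℤℓ
  rw [Ne, Ideal.span_singleton_eq_bot]
  exact_mod_cast hℓ.ne_zero

theorem h7t_isIntegrallyClosed : IsIntegrallyClosed ℤℓ := inferInstance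

theorem h7t_prime_l : Prime ((ℓ : ℕ) : ℤℓ) := by
  have := h7t_prime_ideal ℓ
  have hirr : Irreducible ((ℓ : ℕ) : ℤℓ) := by
    rw [IsDiscreteValuationRing.irreducible_iff_uniformizer,
      ← IsLocalization.AtPrime.map_eq_maximalIdeal (Ideal.span {(ℓ : ℤ)}) ℤℓ, Ideal.map_span,
      Set.image_singleton]
    simp
  exact hirr.prime

theorem h7t_separated {x : ℤℓ} (hx : x ≠ 0) : ∃ m : ℕ, ¬ ((ℓ : ℕ) : ℤℓ) ^ m ∣ x := by
  obtain ⟨n, u, hu⟩ := IsDiscreteValuationRing.eq_unit_mul_pow_irreducible hx (h7t_prime_l ℓ).irreducible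
  refine ⟨n + 1, ?_⟩
  rintro ⟨c, hc⟩
  rw [hu, pow_succ] at hc
  have h1 : ((ℓ : ℕ) : ℤℓ) ^ n * (u : ℤℓ) = ((ℓ : ℕ) : ℤℓ) ^ n * (((ℓ : ℕ) : ℤℓ) * c) := by
    rw [mul_comm, hc]; ring
  have h2 := mul_left_cancel₀ (pow_ne_zero n (h7t_prime_l ℓ).ne_zero) h1
  exact (h7t_prime_l ℓ).not_isUnit (isUnit_of_dvd_unit ⟨c, h2⟩ u.isUnit)

end Zl


section Series

variable (ℓ : ℕ) [Fact ℓ.Prime]

set_option quotPrecheck false in
local notation "ℤℓ" => ↥(GaloisRep.ratLocalizedAt ℓ)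

local notation "L" => LaurentSeries ℚ

/-- Laurent series with `ℓ`-integral coefficients. -/
def h7t_W : Subring L where
  carrier := {f | ∀ n, f.coeff n ∈ GaloisRep.ratLocalizedAt ℓ}
  mul_mem' {a b} ha hb n := by
    rw [HahnSeries.coeff_mul]
    exact Subring.sum_mem _ fun ij _ => Subring.mul_mem _ (ha _) (hb _)
  one_mem' n := by
    rw [HahnSeries.coeff_one]
    split_ifs
    · exact Subring.one_mem _
    · exact Subring.zero_mem _
  add_mem' {a b} ha hb n := by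
    rw [HahnSeries.coeff_add]; exact Subring.add_mem _ (ha n) (hb n)
  zero_mem' n := by
    rw [HahnSeries.coeff_zero]; exact Subring.zero_mem _
  neg_mem' {a} ha n := by
    rw [HahnSeries.coeff_neg]; exact Subring.neg_mem _ (ha n)

omit [Fact ℓ.Prime] in
theorem h7t_mem_W_iff {f : L} :
    f ∈ h7t_W ℓ ↔ ∀ n, f.coeff n ∈ GaloisRep.ratLocalizedAt ℓ := Iff.rfl

/-- `f ∈ ℓ·W`. -/
def h7t_InLW (f : L) : Prop := ∃ w ∈ h7t_W ℓ, f = ((ℓ : ℕ) : L) * w

/-- the coefficient embedding `ℤ_(ℓ) → ℚ((q))`. -/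
def h7t_ιL : ℤℓ →+* L := (algebraMap ℚ L).comp (GaloisRep.ratLocalizedAt ℓ).subtype

/-- evaluation of polynomials over `ℤ_(ℓ)` at a Laurent series. -/
def h7t_ev (t : L) : ℤℓ[X] →+* L := Polynomial.eval₂RingHom (h7t_ιL ℓ) t

omit [Fact ℓ.Prime] in
theorem h7t_ιL_mem_W (c : ℤℓ) : h7t_ιL ℓ c ∈ h7t_W ℓ := by
  intro n
  show (algebraMap ℚ L (c : ℚ)).coeff n ∈ _
  rw [algebraMap_apply_eq_single, HahnSeries.coeff_single]
  split_ifs
  · exact c.2
  · exact Subring.zero_mem _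

omit [Fact ℓ.Prime] in
theorem h7t_ev_mem_W {t : L} (ht : t ∈ h7t_W ℓ) (b : ℤℓ[X]) : h7t_ev ℓ t b ∈ h7t_W ℓ := by
  show Polynomial.eval₂ (h7t_ιL ℓ) t b ∈ _
  rw [Polynomial.eval₂_eq_sum_range]
  exact Subring.sum_mem _ fun i _ => Subring.mul_mem _ (h7t_ιL_mem_W ℓ _) (Subring.pow_mem _ ht i)

omit [Fact ℓ.Prime] in
theorem h7t_ev_C_l (t : L) : h7t_ev ℓ t (C ((ℓ : ℕ) : ℤℓ)) = ((ℓ : ℕ) : L) := by
  rw [Polynomial.C_eq_natCast, map_natCast]


/-- **The Igusa-degree contract** for the parameter `t` (`t = jq` or `t = jq⁻¹`).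
`x i` are `ℓ`-integral elements of the function field, spanning it over `ℚ(t)`, and an
`ℤ_(ℓ)[t]`-combination of them is divisible by `ℓ` only if all its coefficients are. -/
structure h7t_ID (N : ℕ) (t : L) (D : ℕ) (x : Fin D → L) : Prop where
  t_int : t ∈ h7t_W ℓ
  x_mem : ∀ i, x i ∈ modularFunctionFieldFull N
  x_int : ∀ i, x i ∈ h7t_W ℓ
  span : ∀ z ∈ modularFunctionFieldFull N, ∃ b : ℤℓ[X], b ≠ 0 ∧ ∃ a : Fin D → ℤℓ[X],
    h7t_ev ℓ t b * z = ∑ i, h7t_ev ℓ t (a i) * x i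
  indep : ∀ a : Fin D → ℤℓ[X], h7t_InLW ℓ (∑ i, h7t_ev ℓ t (a i) * x i) →
    ∀ i, C ((ℓ : ℕ) : ℤℓ) ∣ a i
  transc : ∀ b : ℤℓ[X], h7t_ev ℓ t b = 0 → b = 0

theorem h7t_exists_not_pow_dvd {b : ℤℓ[X]} (hb : b ≠ 0) :
    ∃ m : ℕ, ¬ (C ((ℓ : ℕ) : ℤℓ)) ^ m ∣ b := by
  obtain ⟨m, hm⟩ := h7t_separated ℓ (Polynomial.leadingCoeff_ne_zero.mpr hb)
  refine ⟨m, fun hd => hm ?_⟩
  rw [← map_pow, Polynomial.C_dvd_iff_dvd_coeff] at hd
  exact hd _

omit [Fact ℓ.Prime] in
theorem h7t_natCast_ne_zero [Fact ℓ.Prime] : ((ℓ : ℕ) : L) ≠ 0 := by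
  have hℓ : ℓ.Prime := Fact.out
  intro h
  have h2 : algebraMap ℚ L ((ℓ : ℕ) : ℚ) = 0 := by rw [map_natCast]; exact h
  have h3 := (map_eq_zero (algebraMap ℚ L)).mp h2
  exact hℓ.ne_zero (by exact_mod_cast h3)

/-- the descent: a relation `b(t) z = ∑ a_i(t) x_i` with `z` integral can be divided by `ℓ` until
`ℓ ∤ b`. -/
theorem h7t_descent {t : L} {D : ℕ} {x : Fin D → L} (ht : t ∈ h7t_W ℓ)
    (hindep : ∀ a : Fin D → ℤℓ[X], h7t_InLW ℓ (∑ i, h7t_ev ℓ t (a i) * x i) →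
      ∀ i, C ((ℓ : ℕ) : ℤℓ) ∣ a i)
    {z : L} (hz : z ∈ h7t_W ℓ) :
    ∀ (m : ℕ) (b : ℤℓ[X]) (a : Fin D → ℤℓ[X]), ¬ (C ((ℓ : ℕ) : ℤℓ)) ^ m ∣ b →
      h7t_ev ℓ t b * z = ∑ i, h7t_ev ℓ t (a i) * x i →
      ∃ (s : ℤℓ[X]) (a' : Fin D → ℤℓ[X]), ¬ C ((ℓ : ℕ) : ℤℓ) ∣ s ∧
        h7t_ev ℓ t s * z = ∑ i, h7t_ev ℓ t (a' i) * x i := by
  intro m
  induction m with
  | zero =>
    intro b a hb
    exact absurd (one_dvd b) (by rw [pow_zero] at hb; exact hb)
  | succ m ih =>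
    intro b a hb hba
    by_cases hdiv : C ((ℓ : ℕ) : ℤℓ) ∣ b
    · obtain ⟨b', rfl⟩ := hdiv
      have h1 : h7t_InLW ℓ (∑ i, h7t_ev ℓ t (a i) * x i) :=
        ⟨h7t_ev ℓ t b' * z, Subring.mul_mem _ (h7t_ev_mem_W ℓ ht b') hz, by
          rw [← hba, map_mul, h7t_ev_C_l, mul_assoc]⟩
      have h2 := hindep a h1
      choose a' ha' using h2
      refine ih b' a' (fun hd => hb ?_) ?_
      · rw [pow_succ']; exact mul_dvd_mul_left _ hd
      · apply mul_left_cancel₀ (h7t_natCast_ne_zero ℓ)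
        rw [← mul_assoc, ← h7t_ev_C_l ℓ t, ← map_mul, hba, Finset.mul_sum]
        refine Finset.sum_congr rfl fun i _ => ?_
        rw [ha' i, map_mul]; ring
    · exact ⟨b, a, hdiv, hba⟩

end Series

section JFacts

variable (ℓ : ℕ)

set_option quotPrecheck false in
local notation "ℤℓ" => ↥(GaloisRep.ratLocalizedAt ℓ)

local notation "L" => LaurentSeries ℚ

theorem h7t_single_mem_W (k : ℤ) (n : ℤ) : HahnSeries.single k ((n : ℤ) : ℚ) ∈ h7t_W ℓ := by
  intro m
  rw [HahnSeries.coeff_single]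
  split_ifs
  · exact h7t_intCast_mem ℓ n
  · exact Subring.zero_mem _

theorem h7t_ofPowerSeries_int_mem_W (p : PowerSeries ℤ) :
    HahnSeries.ofPowerSeries ℤ ℚ (p.map (Int.castRingHom ℚ)) ∈ h7t_W ℓ := by
  intro m
  rcases le_or_gt 0 m with hm | hm
  · lift m to ℕ using hm
    rw [HahnSeries.ofPowerSeries_apply_coeff, PowerSeries.coeff_map]
    exact h7t_intCast_mem ℓ _
  · rw [ofPowerSeries_coeff_of_neg _ hm]
    exact Subring.zero_mem _

theorem h7t_jq_mem_W : jq ∈ h7t_W ℓ := by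
  rw [jq]
  refine Subring.mul_mem _ ?_ (h7t_ofPowerSeries_int_mem_W ℓ jNum)
  simpa using h7t_single_mem_W ℓ (-1) 1

theorem h7t_jq_inv_eq : jq⁻¹ = HahnSeries.single (1 : ℤ) (1 : ℚ) *
    HahnSeries.ofPowerSeries ℤ ℚ ((jNum.invOfUnit 1).map (Int.castRingHom ℚ)) := by
  symm
  apply eq_inv_of_mul_eq_one_right
  have h1 : jNum * jNum.invOfUnit 1 = 1 :=
    PowerSeries.mul_invOfUnit _ _ (by rw [constantCoeff_jNum]; rfl)
  have h2 : jNumQ * (jNum.invOfUnit 1).map (Int.castRingHom ℚ) = 1 := by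
    rw [jNumQ, ← map_mul, h1, map_one]
  rw [jq]
  calc HahnSeries.single (-1 : ℤ) (1 : ℚ) * HahnSeries.ofPowerSeries ℤ ℚ jNumQ *
        (HahnSeries.single (1 : ℤ) (1 : ℚ) *
          HahnSeries.ofPowerSeries ℤ ℚ ((jNum.invOfUnit 1).map (Int.castRingHom ℚ)))
      = (HahnSeries.single (-1 : ℤ) (1 : ℚ) * HahnSeries.single (1 : ℤ) (1 : ℚ)) *
        (HahnSeries.ofPowerSeries ℤ ℚ jNumQ *
          HahnSeries.ofPowerSeries ℤ ℚ ((jNum.invOfUnit 1).map (Int.castRingHom ℚ))) := by ring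
    _ = 1 := by
        rw [← map_mul (HahnSeries.ofPowerSeries ℤ ℚ), h2, map_one (HahnSeries.ofPowerSeries ℤ ℚ),
          mul_one, HahnSeries.single_mul_single]
        simp

theorem h7t_jq_inv_mem_W : jq⁻¹ ∈ h7t_W ℓ := by
  rw [h7t_jq_inv_eq]
  refine Subring.mul_mem _ ?_ (h7t_ofPowerSeries_int_mem_W ℓ _)
  simpa using h7t_single_mem_W ℓ 1 1

/-- `jq` is transcendental over `ℚ` (it has a pole). -/
theorem h7t_transcendental_jq : Transcendental ℚ jq := by
  rw [transcendental_iff]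
  intro p hp
  by_contra hp0
  set n := p.natDegree with hn
  have hcoeff : (Polynomial.aeval jq p).coeff (-(n : ℤ)) = p.coeff n := by
    rw [Polynomial.aeval_def, Polynomial.eval₂_eq_sum_range, HahnSeries.coeff_sum,
      Finset.sum_eq_single n]
    · rw [algebraMap_apply_eq_single, HahnSeries.coeff_single_zero_mul,
        coeff_jq_pow_self, mul_one]
    · intro i hi hin
      have hilt : i < n := lt_of_le_of_ne (Nat.lt_succ_iff.mp (Finset.mem_range.mp hi)) hin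
      rw [algebraMap_apply_eq_single, HahnSeries.coeff_single_zero_mul,
        coeff_jq_pow_of_lt, mul_zero]
      omega
    · intro hn'
      exact absurd (Finset.self_mem_range_succ n) hn'
  rw [hp] at hcoeff
  simp only [HahnSeries.coeff_zero] at hcoeff
  exact hp0 (Polynomial.leadingCoeff_eq_zero.mp hcoeff.symm)

theorem h7t_transcendental_jq_inv : Transcendental ℚ jq⁻¹ := fun h =>
  h7t_transcendental_jq (by simpa using h.inv)

theorem h7t_transc_of_transcendental {t : L} (ht : Transcendental ℚ t) (b : ℤℓ[X])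
    (hb : h7t_ev ℓ t b = 0) : b = 0 := by
  have h1 : Polynomial.aeval t (b.map (GaloisRep.ratLocalizedAt ℓ).subtype) = 0 := by
    rw [Polynomial.aeval_def, Polynomial.eval₂_map]
    exact hb
  have h2 := (transcendental_iff.mp ht) _ h1
  exact Polynomial.map_injective _ Subtype.val_injective (by rw [h2, Polynomial.map_zero])

theorem h7t_ev_reflect {t : L} (ht : t ≠ 0) (n : ℕ) (b : ℤℓ[X]) (hb : b.natDegree ≤ n) :
    h7t_ev ℓ t⁻¹ (b.reflect n) * t ^ n = h7t_ev ℓ t b := by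
  let _ := invertibleOfNonzero ht
  have := Polynomial.eval₂_reflect_mul_pow (h7t_ιL ℓ) t n b hb
  rwa [invOf_eq_inv] at this

end JFacts

section Core

variable (N : ℕ) [NeZero N] (ℓ : ℕ) [Fact ℓ.Prime]

set_option quotPrecheck false in
local notation "ℤℓ" => ↥(GaloisRep.ratLocalizedAt ℓ)

set_option quotPrecheck false in
local notation "F" => ↥(modularFunctionFieldFull N)

local notation "L" => LaurentSeries ℚ

/-- evaluation at `tF : F`, as a ring hom `ℤ_(ℓ)[X] → F`. -/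
def h7t_φ (tF : F) : ℤℓ[X] →+* F := Polynomial.eval₂RingHom (algebraMap ℤℓ F) tF

omit [NeZero N] [Fact ℓ.Prime] in
theorem h7t_coe_φ (tF : F) (b : ℤℓ[X]) :
    ((h7t_φ N ℓ tF b : F) : L) = h7t_ev ℓ (tF : L) b := by
  show algebraMap F L (Polynomial.eval₂ (algebraMap ℤℓ F) tF b) =
    Polynomial.eval₂ (h7t_ιL ℓ) (tF : L) b
  rw [Polynomial.hom_eval₂]
  have h1 : (algebraMap F L).comp (algebraMap ℤℓ F) = h7t_ιL ℓ := RingHom.ext fun c => by
    show algebraMap F L (algebraMap ℚ F (c : ℚ)) = algebraMap ℚ L (c : ℚ)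
    rw [eq_ratCast, map_ratCast, eq_ratCast]
  rw [h1]
  rfl

/-- integrality over `ℤ_(ℓ)[tF]` (a subalgebra) implies integrality over the polynomial ring. -/
theorem h7t_isIntegralElem_of_mem_chartAlg (tF x₀ : F) (hx₀ : x₀ ∈ chartAlg N ℓ {tF}) :
    (h7t_φ N ℓ tF).IsIntegralElem x₀ := by
  obtain ⟨p, hmonic, hroot⟩ := (mem_chartAlg_iff N ℓ).mp hx₀
  have hlifts : p.map (algebraMap (Algebra.adjoin ℤℓ ({tF} : Set F)) F) ∈
      Polynomial.lifts (h7t_φ N ℓ tF) := by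
    rw [Polynomial.lifts_iff_coeff_lifts]
    intro i
    rw [Polynomial.coeff_map]
    have h1 : ∀ c : F, c ∈ Algebra.adjoin ℤℓ ({tF} : Set F) →
        c ∈ Set.range (h7t_φ N ℓ tF) := by
      intro c hc
      rw [Algebra.adjoin_singleton_eq_range_aeval] at hc
      obtain ⟨b, hb⟩ := hc
      exact ⟨b, hb⟩
    exact h1 _ (p.coeff i).2
  obtain ⟨p', hp'map, -, hp'monic⟩ :=
    Polynomial.lifts_and_natDegree_eq_and_monic hlifts (hmonic.map _)
  refine ⟨p', hp'monic, ?_⟩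
  rw [Polynomial.eval₂_eq_eval_map, hp'map, ← Polynomial.eval₂_eq_eval_map]
  exact hroot

theorem h7t_mem_chartAlg_of_isIntegralElem (tF y : F)
    (hy : (h7t_φ N ℓ tF).IsIntegralElem y) : y ∈ chartAlg N ℓ {tF} := by
  obtain ⟨p', hmonic, hroot⟩ := hy
  rw [mem_chartAlg_iff]
  let ψ : ℤℓ[X] →+* Algebra.adjoin ℤℓ ({tF} : Set F) :=
    (h7t_φ N ℓ tF).codRestrict (Algebra.adjoin ℤℓ ({tF} : Set F)) fun b => by
      show Polynomial.aeval tF b ∈ Algebra.adjoin ℤℓ ({tF} : Set F)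
      exact Polynomial.aeval_mem_adjoin_singleton _ _
  refine ⟨p'.map ψ, hmonic.map _, ?_⟩
  rw [Polynomial.eval₂_map]
  exact hroot

/-- **Saturation for a single-generator chart.** -/
theorem h7t_sat_single {t : L} {D : ℕ} {x : Fin D → L} (h : h7t_ID ℓ N t D x)
    (tF : F) (htF : (tF : L) = t) (x₀ : F) (hx₀ : x₀ ∈ chartAlg N ℓ {tF})
    (hl : h7t_InLW ℓ (x₀ : L)) :
    ∃ y ∈ chartAlg N ℓ {tF}, x₀ = ((ℓ : ℕ) : F) * y := by
  classical
  subst htF
  let _ : Algebra ℤℓ[X] F := (h7t_φ N ℓ tF).toAlgebra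
  have halg : ∀ b : ℤℓ[X], algebraMap ℤℓ[X] F b = h7t_φ N ℓ tF b := fun _ => rfl
  have hinj : Function.Injective (algebraMap ℤℓ[X] F) := by
    rw [injective_iff_map_eq_zero]
    intro b hb
    apply h.transc
    rw [← h7t_coe_φ, ← halg, hb]; rfl
  have : FaithfulSMul ℤℓ[X] F := (faithfulSMul_iff_algebraMap_injective _ _).mpr hinj
  have : IsIntegrallyClosed ℤℓ := h7t_isIntegrallyClosed ℓ
  have hprime : Prime (C ((ℓ : ℕ) : ℤℓ)) := Polynomial.prime_C_iff.mpr (h7t_prime_l ℓ)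
  let xF : Fin D → F := fun i => ⟨x i, h.x_mem i⟩
  have hMP : ∀ z : F, (z : L) ∈ h7t_W ℓ → h7t_Q (C ((ℓ : ℕ) : ℤℓ)) xF z := by
    intro z hz
    obtain ⟨b, hb0, a, hba⟩ := h.span z z.2
    obtain ⟨m, hm⟩ := h7t_exists_not_pow_dvd ℓ hb0
    obtain ⟨s, a', hs, hsa⟩ := h7t_descent ℓ h.t_int h.indep hz m b a hm hba
    refine ⟨s, hs, ?_⟩
    have : s • z = ∑ i, a' i • xF i := by
      apply Subtype.ext
      rw [Algebra.smul_def, halg, IntermediateField.coe_mul, h7t_coe_φ, hsa,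
        IntermediateField.coe_sum]
      refine Finset.sum_congr rfl fun i _ => ?_
      rw [Algebra.smul_def, halg, IntermediateField.coe_mul, h7t_coe_φ]
    rw [this]
    exact Submodule.sum_mem _ fun i _ => Submodule.smul_mem _ _ (Submodule.subset_span ⟨i, rfl⟩)
  obtain ⟨w, hw, hx₀w⟩ := hl
  have hℓL : ((ℓ : ℕ) : L) ≠ 0 := h7t_natCast_ne_zero ℓ
  let y : F := ⟨((ℓ : ℕ) : L)⁻¹ * x₀, mul_mem (inv_mem (natCast_mem _ ℓ)) x₀.2⟩
  have hyL : (y : L) = w := by
    show ((ℓ : ℕ) : L)⁻¹ * x₀ = w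
    rw [hx₀w, inv_mul_cancel_left₀ hℓL]
  have hx₀y : x₀ = ((ℓ : ℕ) : F) * y := by
    apply Subtype.ext
    rw [IntermediateField.coe_mul]
    show (x₀ : L) = ((ℓ : ℕ) : L) * (((ℓ : ℕ) : L)⁻¹ * x₀)
    rw [mul_inv_cancel_left₀ hℓL]
  have hsmul : (C ((ℓ : ℕ) : ℤℓ)) ^ 1 • y = x₀ := by
    rw [pow_one, Algebra.smul_def, halg, hx₀y]
    congr 1
    show Polynomial.eval₂ (algebraMap ℤℓ F) tF (C ((ℓ : ℕ) : ℤℓ)) = _
    rw [Polynomial.eval₂_C, map_natCast]
  have hint : IsIntegral ℤℓ[X] ((C ((ℓ : ℕ) : ℤℓ)) ^ 1 • y) := by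
    rw [hsmul]
    exact h7t_isIntegralElem_of_mem_chartAlg N ℓ tF x₀ hx₀
  have hyint : IsIntegral ℤℓ[X] y :=
    h7t_lemmaB hprime xF (hMP 1 (by rw [IntermediateField.coe_one]; exact Subring.one_mem _))
      (fun i k => hMP _ (by
        rw [IntermediateField.coe_mul]; exact Subring.mul_mem _ (h.x_int i) (h.x_int k)))
      (hMP y (by rw [hyL]; exact hw)) 1 hint
  exact ⟨y, h7t_mem_chartAlg_of_isIntegralElem N ℓ tF y hyint, hx₀y⟩

omit [NeZero N] [Fact ℓ.Prime] in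
/-- `ℓ·W` is stable under multiplication by integral series. -/
theorem h7t_InLW_mul {f g : L} (hf : h7t_InLW ℓ f) (hg : g ∈ h7t_W ℓ) :
    h7t_InLW ℓ (f * g) := by
  obtain ⟨w, hw, rfl⟩ := hf
  exact ⟨w * g, Subring.mul_mem _ hw hg, by ring⟩

omit [NeZero N] [Fact ℓ.Prime] in
/-- the contract for `t` implies the contract for `t⁻¹`. -/
theorem h7t_ID_inv {t : L} (ht0 : t ≠ 0) (hti : t⁻¹ ∈ h7t_W ℓ) (htr : Transcendental ℚ t⁻¹)
    {D : ℕ} {x : Fin D → L} (h : h7t_ID ℓ N t D x) : h7t_ID ℓ N t⁻¹ D x where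
  t_int := hti
  x_mem := h.x_mem
  x_int := h.x_int
  span := by
    intro z hz
    obtain ⟨b, hb0, a, hba⟩ := h.span z hz
    set n := b.natDegree + ∑ i, (a i).natDegree with hn
    have hbn : b.natDegree ≤ n := Nat.le_add_right _ _
    have han : ∀ i, (a i).natDegree ≤ n := fun i =>
      (Finset.single_le_sum (f := fun i => (a i).natDegree) (fun _ _ => Nat.zero_le _)
        (Finset.mem_univ i)).trans (Nat.le_add_left _ _)
    refine ⟨b.reflect n, Polynomial.reflect_eq_zero_iff.not.mpr hb0,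
      fun i => (a i).reflect n, ?_⟩
    apply mul_right_cancel₀ (pow_ne_zero n ht0)
    rw [mul_right_comm, h7t_ev_reflect ℓ ht0 n b hbn, hba, Finset.sum_mul]
    refine Finset.sum_congr rfl fun i _ => ?_
    rw [mul_right_comm, h7t_ev_reflect ℓ ht0 n (a i) (han i)]
  indep := by
    intro a ha i
    set n := ∑ i, (a i).natDegree with hn
    have han : ∀ i, (a i).natDegree ≤ n := fun i =>
      Finset.single_le_sum (f := fun i => (a i).natDegree) (fun _ _ => Nat.zero_le _)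
        (Finset.mem_univ i)
    have key : ∀ i, h7t_ev ℓ t⁻¹ (a i) * t ^ n = h7t_ev ℓ t ((a i).reflect n) := by
      intro i
      have h1 := h7t_ev_reflect ℓ (inv_ne_zero ht0) n (a i) (han i)
      rw [inv_inv] at h1
      rw [← h1, mul_assoc, inv_pow, inv_mul_cancel₀ (pow_ne_zero n ht0), mul_one]
    have h1 : h7t_InLW ℓ (∑ i, h7t_ev ℓ t ((a i).reflect n) * x i) := by
      have h2 := h7t_InLW_mul ℓ ha (Subring.pow_mem _ h.t_int n)
      have h3 : (∑ i, h7t_ev ℓ t⁻¹ (a i) * x i) * t ^ n =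
          ∑ i, h7t_ev ℓ t ((a i).reflect n) * x i := by
        rw [Finset.sum_mul]
        refine Finset.sum_congr rfl fun i _ => ?_
        rw [← key i]; ring
      rwa [h3] at h2
    have h2 := h.indep _ h1 i
    rw [Polynomial.C_dvd_iff_dvd_coeff] at h2 ⊢
    intro k
    have h3 := h2 (Polynomial.revAt n k)
    rwa [Polynomial.coeff_reflect, Polynomial.revAt_invol] at h3
  transc := h7t_transc_of_transcendental ℓ htr

/-- **(C3) saturation of the three Igusa charts at `ℓ`**, from the Igusa-degree contract for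
`t = jq`: an element of a chart algebra whose `q`-expansion lies in `ℓ·ℤ_(ℓ)((q))` is `ℓ` times an
element of the same chart algebra. -/
theorem h7t_sat {D : ℕ} {x : Fin D → L} (h : h7t_ID ℓ N jq D x) :
    (∀ x₀ : F, x₀ ∈ chartAlgFin N ℓ → h7t_InLW ℓ (x₀ : L) →
      ∃ y ∈ chartAlgFin N ℓ, x₀ = ((ℓ : ℕ) : F) * y) ∧
    (∀ x₀ : F, x₀ ∈ chartAlgInf N ℓ → h7t_InLW ℓ (x₀ : L) →
      ∃ y ∈ chartAlgInf N ℓ, x₀ = ((ℓ : ℕ) : F) * y) ∧
    (∀ x₀ : F, x₀ ∈ chartAlgMid N ℓ → h7t_InLW ℓ (x₀ : L) →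
      ∃ y ∈ chartAlgMid N ℓ, x₀ = ((ℓ : ℕ) : F) * y) := by
  have hFin : ∀ x₀ : F, x₀ ∈ chartAlgFin N ℓ → h7t_InLW ℓ (x₀ : L) →
      ∃ y ∈ chartAlgFin N ℓ, x₀ = ((ℓ : ℕ) : F) * y := fun x₀ hx₀ hl =>
    h7t_sat_single N ℓ h (jFull N) (coe_jFull N) x₀ hx₀ hl
  refine ⟨hFin, ?_, ?_⟩
  · intro x₀ hx₀ hl
    have hinv := h7t_ID_inv N ℓ jq_ne_zero (h7t_jq_inv_mem_W ℓ) h7t_transcendental_jq_inv h
    exact h7t_sat_single N ℓ hinv (jFull N)⁻¹
      (by rw [IntermediateField.coe_inv, coe_jFull]) x₀ hx₀ hl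
  · intro x₀ hx₀ hl
    have hx₀' : x₀ ∈ chartAlg N ℓ (insert (jFull N)⁻¹ {jFull N}) := by
      rw [show insert (jFull N)⁻¹ ({jFull N} : Set F) = {jFull N, (jFull N)⁻¹}
        from Set.pair_comm _ _]
      exact hx₀
    obtain ⟨n, hn⟩ := exists_pow_mul_mem_chartAlg (Set.mem_singleton _) (jFull_ne_zero N) hx₀'
    have hl' : h7t_InLW ℓ (((jFull N) ^ n * x₀ : F) : L) := by
      rw [IntermediateField.coe_mul, IntermediateField.coe_pow, coe_jFull, mul_comm]
      exact h7t_InLW_mul ℓ hl (Subring.pow_mem _ (h7t_jq_mem_W ℓ) n)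
    obtain ⟨y, hy, hxy⟩ := hFin _ hn hl'
    have hjinv : (jFull N)⁻¹ ∈ chartAlgMid N ℓ := subset_chartAlg N ℓ _ (by simp)
    refine ⟨(jFull N)⁻¹ ^ n * y,
      mul_mem (pow_mem hjinv n) (chartAlg_mono N ℓ (sFin_subset N) hy), ?_⟩
    have hj0 : (jFull N) ^ n ≠ 0 := pow_ne_zero n (jFull_ne_zero N)
    apply mul_left_cancel₀ hj0
    rw [hxy, inv_pow]
    field_simp

end Core


end

end Fermat.Agent.Lib.S28
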