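import Mathlib
import Fermat.Agent.Lib.S28.Defs
import Fermat.Agent.Lib.S28.H5Rho

/-!
# S28: (ID)(a),(b) from `h0_EmbData`

* `h8s_natDegree_minpoly_eq`, `h8s_exists_repr`: generic field theory: if `card ι = [F : K]` ring
  homs `σ i : F →+* L` agree on `K` and are pairwise distinct at `θ` then
  `deg minpoly_K θ = [F : K]` and `1, θ, …, θ^(D-1)` span `F` over `K`.
* `h8s_agree_on_adjoin`: ring homs out of `F` agreeing at `j` agree on `ℚ(j)`.
* `h8s_sigma_theta_injective`, `h8s_minpoly_natDegree`, **`h8s_powers_span`** ((ID)(b)).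
* `h8s_mem_int_of_isInt`, **`h8s_theta_mem_int`**, **`h8s_theta_pow_coeff_mem`** ((ID)(a)).
-/

set_option linter.unusedSectionVars false
set_option linter.style.haveILetI false

namespace Fermat.Agent.Lib.S28

open Polynomial Module IntermediateField ModularCurve ModularCurve.IgusaScheme

/-- If `card ι = [F : K]` ring homomorphisms `σ i : F →+* L` into a field agree on `K` and take
pairwise distinct values at `θ`, then `deg (minpoly K θ) = [F : K]`. -/
theorem h8s_natDegree_minpoly_eq {K F L : Type*} [Field K] [Field F] [Field L] [Algebra K F]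
    {ι : Type*} [Fintype ι] (σ : ι → (F →+* L)) (i0 : ι)
    (hagree : ∀ i (a : K), σ i (algebraMap K F a) = σ i0 (algebraMap K F a))
    (θ : F) (hinj : Function.Injective fun i => σ i θ)
    (hcard : Module.finrank K F = Fintype.card ι) :
    FiniteDimensional K F ∧ (minpoly K θ).natDegree = Module.finrank K F := by
  classical
  have hpos : 0 < Module.finrank K F := by
    rw [hcard]; exact Fintype.card_pos_iff.mpr ⟨i0⟩
  have hfin : FiniteDimensional K F := Module.finite_of_finrank_pos hpos
  refine ⟨hfin, ?_⟩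
  have hint : IsIntegral K θ := IsIntegral.of_finite K θ
  set m := minpoly K θ with hm
  have hm0 : m ≠ 0 := minpoly.ne_zero hint
  let τ : K →+* L := (σ i0).comp (algebraMap K F)
  have hroot : ∀ i, (m.map τ).IsRoot (σ i θ) := by
    intro i
    have h1 : (σ i).comp (algebraMap K F) = τ := RingHom.ext fun a => hagree i a
    rw [IsRoot.def, ← h1, eval_map, ← hom_eval₂, ← aeval_def, minpoly.aeval, map_zero]
  have hm0' : m.map τ ≠ 0 := (Polynomial.map_ne_zero_iff τ.injective).mpr hm0
  have hle : Fintype.card ι ≤ m.natDegree := by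
    have hsub : (Finset.univ.image fun i => σ i θ) ⊆ (m.map τ).roots.toFinset := by
      intro z hz
      obtain ⟨i, -, rfl⟩ := Finset.mem_image.mp hz
      exact Multiset.mem_toFinset.mpr ((mem_roots hm0').mpr (hroot i))
    have h2 := Finset.card_le_card hsub
    rw [Finset.card_image_of_injective _ hinj, Finset.card_univ] at h2
    calc Fintype.card ι ≤ (m.map τ).roots.toFinset.card := h2
      _ ≤ Multiset.card (m.map τ).roots := Multiset.toFinset_card_le _
      _ ≤ (m.map τ).natDegree := card_roots' _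
      _ = m.natDegree := natDegree_map_eq_of_injective τ.injective m
  have hge : m.natDegree ≤ Module.finrank K F := by
    rw [← IntermediateField.adjoin.finrank hint]
    exact (K⟮θ⟯).toSubmodule.finrank_le
  omega

/-- In the situation of `h8s_natDegree_minpoly_eq`, `1, θ, …, θ^(D-1)` span `F` over `K`. -/
theorem h8s_exists_repr {K F L : Type*} [Field K] [Field F] [Field L] [Algebra K F]
    {ι : Type*} [Fintype ι] (σ : ι → (F →+* L)) (i0 : ι)
    (hagree : ∀ i (a : K), σ i (algebraMap K F a) = σ i0 (algebraMap K F a))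
    (θ : F) (hinj : Function.Injective fun i => σ i θ)
    (hcard : Module.finrank K F = Fintype.card ι) (x : F) :
    ∃ c : Fin (Fintype.card ι) → K, x = ∑ i, c i • θ ^ (i : ℕ) := by
  obtain ⟨hfin, hdeg⟩ := h8s_natDegree_minpoly_eq σ i0 hagree θ hinj hcard
  have hint : IsIntegral K θ := IsIntegral.of_finite K θ
  have htop : K⟮θ⟯ = ⊤ := (Field.primitive_element_iff_minpoly_natDegree_eq K θ).mpr hdeg
  have hadj : Algebra.adjoin K {θ} = ⊤ := by
    rw [← IntermediateField.adjoin_simple_toSubalgebra_of_isAlgebraic hint.isAlgebraic, htop,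
      IntermediateField.top_toSubalgebra]
  let pb : PowerBasis K F := PowerBasis.ofAdjoinEqTop' hint hadj
  have hdim : pb.dim = Fintype.card ι := by
    rw [PowerBasis.ofAdjoinEqTop'_dim, hdeg, hcard]
  have hgen : pb.gen = θ := PowerBasis.ofAdjoinEqTop'_gen hint hadj
  have hx := pb.basis.sum_repr x
  refine ⟨fun i => pb.basis.repr x (Fin.cast hdim.symm i), ?_⟩
  calc x = ∑ i, pb.basis.repr x i • pb.basis i := hx.symm
    _ = ∑ i, pb.basis.repr x i • θ ^ (i : ℕ) := by
        simp only [PowerBasis.coe_basis, hgen]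
    _ = ∑ i, pb.basis.repr x (Fin.cast hdim.symm i) • θ ^ (i : ℕ) := by
        refine Fintype.sum_equiv (finCongr hdim) _ _ fun i => ?_
        simp


variable (N : ℕ) [NeZero N] (ℓ : ℕ) [Fact ℓ.Prime]

/-- Two ring homs out of `F` agreeing at `j` agree on `ℚ(j)`. -/
theorem h8s_agree_on_adjoin {L : Type*} [Field L] (f g : ↥(modularFunctionFieldFull N) →+* L)
    (h : f (jFull N) = g (jFull N))
    (a : ↥(IntermediateField.adjoin ℚ ({jFull N} : Set ↥(modularFunctionFieldFull N)))) :
    f (a : ↥(modularFunctionFieldFull N)) = g (a : ↥(modularFunctionFieldFull N)) := by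
  let S : IntermediateField ℚ ↥(modularFunctionFieldFull N) :=
    Subfield.toIntermediateField (RingHom.eqLocusField f g) (by
      intro q
      show f _ = g _
      rw [eq_ratCast, map_ratCast, map_ratCast])
  have hle : IntermediateField.adjoin ℚ ({jFull N} : Set ↥(modularFunctionFieldFull N)) ≤ S := by
    rw [IntermediateField.adjoin_le_iff]
    intro x hx
    rw [Set.mem_singleton_iff] at hx
    subst hx
    exact h
  exact hle a.2

variable {N ℓ}

/-- The conjugates `σ i θ` are pairwise distinct. -/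
theorem h8s_sigma_theta_injective {C : h0_Coeff ℓ} (E : h0_EmbData N ℓ C) :
    Function.Injective fun i => E.σ i E.θ := by
  intro i k hik
  by_contra hne
  obtain ⟨-, b, -, hb⟩ := E.θ_diff i k hne
  have h0 : E.σ i E.θ - E.σ k E.θ = 0 := sub_eq_zero.mpr hik
  rw [h0, HahnSeries.leadingCoeff_zero, zero_mul] at hb
  exact zero_ne_one hb

/-- `deg (minpoly ℚ(j) θ) = [F : ℚ(j)] = card ι`. -/
theorem h8s_minpoly_natDegree {C : h0_Coeff ℓ} (E : h0_EmbData N ℓ C) :
    FiniteDimensional ↥(IntermediateField.adjoin ℚ ({jFull N} : Set ↥(modularFunctionFieldFull N)))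
        ↥(modularFunctionFieldFull N) ∧
      (minpoly ↥(IntermediateField.adjoin ℚ ({jFull N} : Set ↥(modularFunctionFieldFull N)))
        E.θ).natDegree = @Fintype.card E.ι E.fin := by
  letI := E.fin
  obtain ⟨h1, h2⟩ := h8s_natDegree_minpoly_eq
    (K := ↥(IntermediateField.adjoin ℚ ({jFull N} : Set ↥(modularFunctionFieldFull N))))
    E.σ E.i0 (fun i a => h8s_agree_on_adjoin N _ _ (E.agree i) a) E.θ
    (h8s_sigma_theta_injective E) E.card
  exact ⟨h1, h2.trans E.card⟩

/-- **(ID)(b)**: `1, θ, …, θ^(D-1)` span `F` over `ℚ(j)`, `D = card ι`. -/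
theorem h8s_powers_span {C : h0_Coeff ℓ} (E : h0_EmbData N ℓ C)
    (x : ↥(modularFunctionFieldFull N)) :
    ∃ c : Fin (@Fintype.card E.ι E.fin) →
        ↥(IntermediateField.adjoin ℚ ({jFull N} : Set ↥(modularFunctionFieldFull N))),
      x = ∑ i, c i • E.θ ^ (i : ℕ) := by
  letI := E.fin
  exact h8s_exists_repr
    (K := ↥(IntermediateField.adjoin ℚ ({jFull N} : Set ↥(modularFunctionFieldFull N))))
    E.σ E.i0 (fun i a => h8s_agree_on_adjoin N _ _ (E.agree i) a) E.θ
    (h8s_sigma_theta_injective E) E.card x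

/-- if `σ i0 x` has coefficients in `O` then `x` has `ℓ`-integral `q`-coefficients -/
theorem h8s_mem_int_of_isInt {C : h0_Coeff ℓ} (E : h0_EmbData N ℓ C)
    (x : ↥(modularFunctionFieldFull N)) (hx : h0_IsInt C (E.σ E.i0 x)) :
    ((x : ↥(modularFunctionFieldFull N)) : LaurentSeries ℚ) ∈ h5r_int ℓ := by
  rw [h5r_mem_int_iff]
  intro m
  have h1 := E.base x ((E.s : ℤ) * m)
  have hs : (E.s : ℤ) ≠ 0 := by exact_mod_cast E.s_pos.ne'
  rw [if_pos (dvd_mul_right _ _), Int.mul_ediv_cancel_left _ hs] at h1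
  have h2 := hx ((E.s : ℤ) * m)
  rw [h1] at h2
  exact C.rat_of_mem _ h2

/-- **(ID)(a)**: `θ` has `ℓ`-integral `q`-coefficients. -/
theorem h8s_theta_mem_int {C : h0_Coeff ℓ} (E : h0_EmbData N ℓ C) :
    ((E.θ : ↥(modularFunctionFieldFull N)) : LaurentSeries ℚ) ∈ h5r_int ℓ :=
  h8s_mem_int_of_isInt E E.θ (E.θ_int E.i0)

/-- **(ID)(a)**: the powers of `θ` have `ℓ`-integral `q`-coefficients. -/
theorem h8s_theta_pow_coeff_mem {C : h0_Coeff ℓ} (E : h0_EmbData N ℓ C) (i : ℕ) (n : ℤ) :
    (((E.θ ^ i : ↥(modularFunctionFieldFull N))) : LaurentSeries ℚ).coeff n ∈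
      GaloisRep.ratLocalizedAt ℓ := by
  have h := Subring.pow_mem _ (h8s_theta_mem_int E) i
  rw [h5r_mem_int_iff] at h
  simpa using h n

end Fermat.Agent.Lib.S28
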