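/-
S28 project (helper7): the bridge from the analytic contract `h0_EmbData` to the algebra-side
target `h0_ChartStatement`:
`h0_EmbData` ⟹ (helper8 `H8Span`, helper6 `H6IDc`) the Igusa-degree contract `h7t_ID` for
`x i = θ ^ i` ⟹ (`h7t_sat`) saturation of the three charts, and with helper5's `h5r_coeff_mem_*`
the statement `h0_ChartStatement`.
-/
import Mathlib
import Fermat.Agent.Lib.S28.Defs
import Fermat.Agent.Lib.S28.H5Rho
import Fermat.Agent.Lib.S28.H8Span
import Fermat.Agent.Lib.S28.H6IDc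
import Fermat.Agent.Lib.S28.H7Sat

set_option autoImplicit false

open Polynomial ModularCurve ModularCurve.IgusaScheme

namespace Fermat.Agent.Lib.S28

noncomputable section

section Bridge

variable (N : ℕ) [NeZero N] (ℓ : ℕ) [Fact ℓ.Prime]

set_option quotPrecheck false in
local notation "ℤℓ" => ↥(GaloisRep.ratLocalizedAt ℓ)

set_option quotPrecheck false in
local notation "F" => ↥(modularFunctionFieldFull N)

local notation "L" => LaurentSeries ℚ

omit [Fact ℓ.Prime] in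
/-- every element of `ℚ(j) ⊆ F` is a fraction of values at `j` of polynomials over `ℤ_(ℓ)`. -/
theorem h7b_frac (c : F) (hc : c ∈ IntermediateField.adjoin ℚ ({jFull N} : Set F)) :
    ∃ a b : ℤℓ[X], h7t_φ N ℓ (jFull N) b ≠ 0 ∧
      h7t_φ N ℓ (jFull N) b * c = h7t_φ N ℓ (jFull N) a := by
  induction hc using IntermediateField.adjoin_induction with
  | mem x hx =>
    rw [Set.mem_singleton_iff] at hx
    subst hx
    refine ⟨X, 1, by rw [map_one]; exact one_ne_zero, ?_⟩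
    rw [map_one, one_mul]
    show jFull N = Polynomial.eval₂ (algebraMap ℤℓ F) (jFull N) X
    rw [Polynomial.eval₂_X]
  | algebraMap q =>
    have hden : ((q.den : ℤ) : ℚ) ∈ GaloisRep.ratLocalizedAt ℓ := h7t_intCast_mem ℓ _
    have hnum : ((q.num : ℤ) : ℚ) ∈ GaloisRep.ratLocalizedAt ℓ := h7t_intCast_mem ℓ _
    refine ⟨C ⟨_, hnum⟩, C ⟨_, hden⟩, ?_, ?_⟩
    · show Polynomial.eval₂ (algebraMap ℤℓ F) (jFull N) (C _) ≠ 0
      rw [Polynomial.eval₂_C]
      show algebraMap ℚ F (((q.den : ℤ) : ℚ)) ≠ 0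
      rw [Ne, map_eq_zero]
      exact_mod_cast q.den_nz
    · show Polynomial.eval₂ (algebraMap ℤℓ F) (jFull N) (C _) * _ =
        Polynomial.eval₂ (algebraMap ℤℓ F) (jFull N) (C _)
      rw [Polynomial.eval₂_C, Polynomial.eval₂_C]
      show algebraMap ℚ F (((q.den : ℤ) : ℚ)) * _ = algebraMap ℚ F (((q.num : ℤ) : ℚ))
      rw [eq_ratCast, eq_ratCast, eq_ratCast]
      have h := Rat.den_mul_eq_num q
      have h1 : ((q.den : ℤ) : ℚ) * q = ((q.num : ℤ) : ℚ) := by exact_mod_cast h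
      have h2 := congrArg (Rat.cast : ℚ → F) h1
      rw [Rat.cast_mul] at h2
      exact h2
  | add x y _ _ hx hy =>
    obtain ⟨a₁, b₁, hb₁, h₁⟩ := hx
    obtain ⟨a₂, b₂, hb₂, h₂⟩ := hy
    refine ⟨a₁ * b₂ + a₂ * b₁, b₁ * b₂, ?_, ?_⟩
    · rw [map_mul]; exact mul_ne_zero hb₁ hb₂
    · rw [map_mul, map_add, map_mul, map_mul, ← h₁, ← h₂]; ring
  | inv x _ hx =>
    obtain ⟨a, b, hb, h⟩ := hx
    by_cases hx0 : x = 0
    · subst hx0
      exact ⟨0, 1, by rw [map_one]; exact one_ne_zero, by simp⟩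
    · refine ⟨b, a, ?_, ?_⟩
      · rw [← h]; exact mul_ne_zero hb hx0
      · rw [← h, mul_assoc, mul_inv_cancel₀ hx0, mul_one]
  | mul x y _ _ hx hy =>
    obtain ⟨a₁, b₁, hb₁, h₁⟩ := hx
    obtain ⟨a₂, b₂, hb₂, h₂⟩ := hy
    refine ⟨a₁ * a₂, b₁ * b₂, ?_, ?_⟩
    · rw [map_mul]; exact mul_ne_zero hb₁ hb₂
    · rw [map_mul, map_mul, ← h₁, ← h₂]; ring

omit [NeZero N] in
/-- coefficientwise description of `ℓ·W`. -/
theorem h7b_InLW_iff_coeff (f : L) :
    h7t_InLW ℓ f ↔ ∀ n : ℤ, ∃ r ∈ GaloisRep.ratLocalizedAt ℓ, f.coeff n = (ℓ : ℚ) * r := by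
  have hℓ : ℓ.Prime := Fact.out
  have hℓ0 : (ℓ : ℚ) ≠ 0 := by exact_mod_cast hℓ.ne_zero
  have hcast : ((ℓ : ℕ) : L) = HahnSeries.single 0 (ℓ : ℚ) := by
    rw [← algebraMap_apply_eq_single, map_natCast]
  constructor
  · rintro ⟨w, hw, rfl⟩ n
    refine ⟨w.coeff n, hw n, ?_⟩
    rw [hcast, HahnSeries.coeff_single_zero_mul]
  · intro h
    refine ⟨HahnSeries.single 0 ((ℓ : ℚ)⁻¹) * f, ?_, ?_⟩
    · intro n
      obtain ⟨r, hr, hfr⟩ := h n
      rw [HahnSeries.coeff_single_zero_mul, hfr, inv_mul_cancel_left₀ hℓ0]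
      exact hr
    · rw [hcast, ← mul_assoc, HahnSeries.single_mul_single, add_zero, mul_inv_cancel₀ hℓ0]
      show f = (1 : L) * f
      rw [one_mul]

/-- **the Igusa-degree contract from the analytic contract** (`x i = θ ^ i`). -/
theorem h7b_ID_of_embData {C : h0_Coeff ℓ} (E : h0_EmbData N ℓ C) :
    h7t_ID ℓ N jq (@Fintype.card E.ι E.fin) (fun i => ((E.θ ^ (i : ℕ) : F) : L)) where
  t_int := h7t_jq_mem_W ℓ
  x_mem := fun i => (E.θ ^ (i : ℕ)).2
  x_int := fun i n => h8s_theta_pow_coeff_mem E i n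
  span := by
    intro z hz
    obtain ⟨c, hc⟩ := h8s_powers_span E ⟨z, hz⟩
    choose a b hb hab using fun i => h7b_frac N ℓ (c i : F) (c i).2
    refine ⟨∏ i, b i, ?_, fun i => a i * ∏ k ∈ Finset.univ.erase i, b k, ?_⟩
    · intro h0
      have h1 : h7t_φ N ℓ (jFull N) (∏ i, b i) = 0 := by rw [h0, map_zero]
      rw [map_prod] at h1
      exact (Finset.prod_ne_zero_iff.mpr fun i _ => hb i) h1
    · have hF : h7t_φ N ℓ (jFull N) (∏ i, b i) * (⟨z, hz⟩ : F) =
          ∑ i, h7t_φ N ℓ (jFull N) (a i * ∏ k ∈ Finset.univ.erase i, b k) * E.θ ^ (i : ℕ) := by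
        rw [hc, Finset.mul_sum]
        refine Finset.sum_congr rfl fun i _ => ?_
        rw [map_mul, ← Finset.mul_prod_erase Finset.univ b (Finset.mem_univ i), map_mul, ← hab i,
          Algebra.smul_def]
        show _ * _ * ((c i : F) * _) = _
        ring
      have hL := congrArg (Subtype.val) hF
      rw [IntermediateField.coe_mul, IntermediateField.coe_sum, h7t_coe_φ, coe_jFull] at hL
      rw [hL]
      refine Finset.sum_congr rfl fun i _ => ?_
      rw [IntermediateField.coe_mul, h7t_coe_φ, coe_jFull]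
  indep := by
    intro a ha i
    have hy : ∀ n : ℤ, ∃ r ∈ GaloisRep.ratLocalizedAt ℓ,
        (((∑ i : Fin (@Fintype.card E.ι E.fin),
          Polynomial.aeval (jFull N) (a i) * E.θ ^ (i : ℕ) : F) : F) : L).coeff n =
          (ℓ : ℚ) * r := by
      rw [← h7b_InLW_iff_coeff]
      have h1 : (((∑ i : Fin (@Fintype.card E.ι E.fin),
          Polynomial.aeval (jFull N) (a i) * E.θ ^ (i : ℕ) : F) : F) : L) =
          ∑ i, h7t_ev ℓ jq (a i) * ((E.θ ^ (i : ℕ) : F) : L) := by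
        rw [IntermediateField.coe_sum]
        refine Finset.sum_congr rfl fun i _ => ?_
        rw [IntermediateField.coe_mul]
        congr 1
        have h2 := h7t_coe_φ N ℓ (jFull N) (a i)
        rw [coe_jFull] at h2
        exact h2
      rw [h1]
      exact ha
    have h3 := h6i_IDc E _ le_rfl a hy i
    rw [Polynomial.C_dvd_iff_dvd_coeff]
    intro m
    obtain ⟨r, hr, hrm⟩ := h3 m
    refine ⟨⟨r, hr⟩, Subtype.ext ?_⟩
    rw [hrm]
    push_cast
    rfl
  transc := h7t_transc_of_transcendental ℓ h7t_transcendental_jq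

/-- **(B) the algebra-side target**: `h0_ChartStatement`. -/
theorem h7b_chartStatement : h0_ChartStatement N ℓ := by
  intro C E
  obtain ⟨hFin, hInf, hMid⟩ := h7t_sat N ℓ (h7b_ID_of_embData N ℓ E)
  have key : ∀ B : Subalgebra ℤℓ F,
      (∀ x ∈ B, ∀ n : ℤ, ((x : F) : L).coeff n ∈ GaloisRep.ratLocalizedAt ℓ) →
      (∀ x₀ : F, x₀ ∈ B → h7t_InLW ℓ (x₀ : L) → ∃ y ∈ B, x₀ = ((ℓ : ℕ) : F) * y) →
      h0_ChartRed N ℓ B := by
    intro B h1 h2
    refine ⟨h1, fun x hx hcoeff => ?_⟩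
    obtain ⟨y, hy, hxy⟩ := h2 x hx ((h7b_InLW_iff_coeff ℓ _).mpr hcoeff)
    refine ⟨y, hy, ?_⟩
    rw [hxy, Algebra.smul_def, map_natCast]
  exact ⟨key _ (h5r_coeff_mem_fin N ℓ) hFin, key _ (h5r_coeff_mem_inf N ℓ) hInf,
    key _ (h5r_coeff_mem_mid N ℓ) hMid⟩

end Bridge

end

end Fermat.Agent.Lib.S28
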