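/-
S28 project, analytic side (helper7): **(E3a)** `h2e_ThetaIntStatement`:
the conjugates `σ_q θ` of `θ = j(q^N)` are the cusp series `j(ζ_e^b u^s)` and so have coefficients
in any subring `𝒪 ⊆ ℂ` containing the `N`-th roots of unity.
-/
import Mathlib
import Fermat.Agent.Lib.S28.DefsAn
import Fermat.Agent.Lib.S28.H2Emb

set_option autoImplicit false

noncomputable section

namespace Fermat.Agent.Lib.S28

open UpperHalfPlane ModularCurve ModularCurve.IgusaScheme Fermat.Agent.Lib.X0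
open scoped MatrixGroups Manifold

variable (N : ℕ) [NeZero N]

/-- The explicit shape of the conjugates of `θ`: `σ_{gΓ₀(N)} θ = j(ζ_e^b u^s)`. -/
theorem h7i_sigma_theta_eq (g : SL(2, ℤ)) :
    ∃ (g' : SL(2, ℤ)) (a b e s : ℕ) (_ : NeZero s), 0 < a ∧ 0 < e ∧ a * e = N ∧ b < e ∧
      s * e = a * N ∧ ((g⁻¹) 1 0 = g' 1 0 * a ∧ (g⁻¹) 1 1 = g' 1 0 * b + g' 1 1 * e) ∧
      h2e_sigma N (g : QN N) (h2e_theta N) = h5_cuspSeries s (h5_zeta e ^ b) := by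
  obtain ⟨g', a, b, e, s, hs0, ha, he, hae, hbe, hs, hg, hexp⟩ :=
    h5_exists_cuspSeries N N dvd_rfl g⁻¹
  refine ⟨g', a, b, e, s, hs0, ha, he, hae, hbe, hs, hg, ?_⟩
  rw [h2e_sigma_theta]
  exact h5_expandsInfty_unique N (h5_JdSeries_spec N ⟨N, dvd_rfl⟩ g⁻¹) hexp

/-- the coefficients of `jq` are integers. -/
theorem h7i_jq_coeff_int (n : ℤ) : ∃ m : ℤ, jq.coeff n = (m : ℚ) := by
  rw [jq, HahnSeries.coeff_single_mul, one_mul]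
  by_cases hn : n - -1 < 0
  · exact ⟨0, by rw [ofPowerSeries_coeff_of_neg _ hn]; simp⟩
  · obtain ⟨k, hk⟩ := Int.eq_ofNat_of_zero_le (not_lt.mp hn)
    rw [hk, HahnSeries.ofPowerSeries_apply_coeff, jNumQ, PowerSeries.coeff_map]
    exact ⟨_, rfl⟩

/-- a cusp series `j(ζ u^s)` with `ζ ∈ 𝒪` (and `ζ⁻¹ ∈ 𝒪`) has coefficients in `𝒪`. -/
theorem h7i_cuspSeries_coeff_mem (𝒪 : Subring ℂ) (s : ℕ) [NeZero s] (ζ : ℂˣ)
    (hζ : ∀ k : ℤ, ((ζ ^ k : ℂˣ) : ℂ) ∈ 𝒪) (n : ℤ) :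
    (h5_cuspSeries s ζ).coeff n ∈ 𝒪 := by
  by_cases hd : (s : ℤ) ∣ n
  · obtain ⟨m, rfl⟩ := hd
    rw [h5_cuspSeries_coeff_mul]
    obtain ⟨k, hk⟩ := h7i_jq_coeff_int m
    rw [hk]
    refine Subring.mul_mem _ (hζ m) ?_
    push_cast
    exact intCast_mem 𝒪 k
  · rw [h5_cuspSeries_coeff_of_not_dvd s ζ hd]
    exact Subring.zero_mem _

/-- **(E3a)** -/
theorem h7i_thetaInt (𝒪 : Subring ℂ) (hζ : ∀ ζ : ℂ, ζ ^ N = 1 → ζ ∈ 𝒪) :
    h2e_ThetaIntStatement N 𝒪 := by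
  intro q n
  obtain ⟨g, rfl⟩ := QuotientGroup.mk_surjective q
  obtain ⟨g', a, b, e, s, hs0, ha, he, hae, hbe, hs, -, heq⟩ := h7i_sigma_theta_eq N g
  rw [heq]
  refine h7i_cuspSeries_coeff_mem 𝒪 s _ (fun k => hζ _ ?_) n
  -- `(ζ_e^b)^k` is an `N`-th root of unity since `e ∣ N`
  have heN : e ∣ N := Dvd.intro_left a hae
  obtain ⟨c, hc⟩ := heN
  have h1 : (h5_zeta e) ^ e = 1 := (h5_zeta_isPrimitiveRoot e he.ne').pow_eq_one
  have h2 : ((h5_zeta e ^ b) ^ k) ^ N = 1 := by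
    rw [← zpow_natCast, ← zpow_natCast, ← zpow_mul, ← zpow_mul, hc]
    have : (b : ℤ) * (k * ((e * c : ℕ) : ℤ)) = (e : ℤ) * (b * k * c) := by push_cast; ring
    rw [this, zpow_mul, zpow_natCast, h1, one_zpow]
  have h3 := congrArg (fun u : ℂˣ => (u : ℂ)) h2
  simpa using h3

end Fermat.Agent.Lib.S28
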