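import Mathlib
import Fermat.Prelude.Def_GaloisRep_Flat
import Fermat.Agent.Lib.S28.Defs

/-!
# S28 package (V): the coefficient DVR `O ⊂ ℂ`

* `h8v_exists_dvr`: for a number field `K'` with an embedding `φ : K' →+* ℂ` and a prime `ℓ`,
  the image of the valuation ring of a place above `ℓ` is a DVR `O ⊂ ℂ` with `O ∩ ℚ = ℤ_(ℓ)`
  containing the image of every algebraic integer of `K'`.
* `h8v_exists_coeff`: the same with `K' = ℚ(ζ_N) ⊂ ℂ`: `O` contains every `N`-th root of unity.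
* `h8v_coeffStatement : h0_CoeffStatement N ℓ` (the (V) target of `Defs.lean`).
* `h8v_one_sub_root_isUnit`: if `ℓ ∤ N` then `1 - z` is a unit of `O` for every `N`-th root of
  unity `z ≠ 1` (for any subring of `ℂ` containing `ℤ_(ℓ)` and the `N`-th roots of unity), and
  the `h0_Coeff` form `h8v_one_sub_root_h0IsUnit`.
-/

namespace Fermat.Agent.Lib.S28

open IsDedekindDomain HeightOneSpectrum WithZero NumberField

/-- discreteness in `ℤᵐ⁰` -/
theorem h8v_le_exp_neg_one {x : ℤᵐ⁰} (hx : x < 1) : x ≤ exp (-1 : ℤ) := by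
  rcases eq_or_ne x 0 with rfl | h0
  · exact zero_le
  · rw [← log_le_iff_le_exp h0]
    have : log x < 0 := by
      rw [log_lt_iff_lt_exp h0, exp_zero]; exact hx
    omega

theorem h8v_exists_dvr (K' : Type*) [Field K'] [NumberField K'] (φ : K' →+* ℂ)
    (ℓ : ℕ) [Fact ℓ.Prime] :
    ∃ (O : Subring ℂ) (π : ℂ), π ∈ O ∧
      (∀ x : K', IsIntegral ℤ x → φ x ∈ O) ∧
      (∀ q : ℚ, (q : ℂ) ∈ O ↔ q ∈ GaloisRep.ratLocalizedAt ℓ) ∧
      (∃ c ∈ O, (ℓ : ℂ) = π * c) ∧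
      (∀ a ∈ O, (∃ b ∈ O, a * b = 1) ∨ (∃ b ∈ O, a = π * b)) ∧
      (¬ ∃ b ∈ O, π * b = 1) ∧
      (∀ a ∈ O, (∀ t : ℕ, ∃ b ∈ O, a = π ^ t * b) → a = 0) := by
  classical
  have hℓ : ℓ.Prime := Fact.out
  -- the prime `(ℓ)` of `ℤ`
  have hpmax : (Ideal.span {(ℓ : ℤ)}).IsMaximal :=
    ((Ideal.span_singleton_prime (by exact_mod_cast hℓ.ne_zero)).mpr
      (Nat.prime_iff_prime_int.mp hℓ)).isMaximal (by
        simpa using hℓ.ne_zero)
  obtain ⟨P, hPmax, hPover⟩ :=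
    Ideal.exists_ideal_over_maximal_of_isIntegral (S := 𝓞 K') (Ideal.span {(ℓ : ℤ)}) (by
      rw [(RingHom.injective_iff_ker_eq_bot _).mp
        (FaithfulSMul.algebraMap_injective ℤ (𝓞 K'))]
      exact bot_le)
  -- membership of integers in `P`
  have hPint : ∀ m : ℤ, ((m : 𝓞 K') ∈ P) ↔ (ℓ : ℤ) ∣ m := by
    intro m
    have : (algebraMap ℤ (𝓞 K') m ∈ P) ↔ m ∈ Ideal.span {(ℓ : ℤ)} := by
      rw [← hPover, Ideal.mem_comap]
    rw [Ideal.mem_span_singleton] at this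
    simpa using this
  have hPne : P ≠ ⊥ := by
    intro h
    have h1 : ((ℓ : ℤ) : 𝓞 K') ∈ P := (hPint ℓ).mpr dvd_rfl
    rw [h, Ideal.mem_bot] at h1
    have : (ℓ : ℤ) = 0 := by exact_mod_cast h1
    exact hℓ.ne_zero (by exact_mod_cast this)
  let v : HeightOneSpectrum (𝓞 K') := ⟨P, hPmax.isPrime, hPne⟩
  let val : Valuation K' ℤᵐ⁰ := v.valuation K'
  -- valuation of integers
  have hval_int_le : ∀ m : ℤ, val (m : K') ≤ 1 := by
    intro m
    have := v.valuation_le_one (K := K') (m : 𝓞 K')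
    simpa using this
  have hval_int_lt : ∀ m : ℤ, val (m : K') < 1 ↔ (ℓ : ℤ) ∣ m := by
    intro m
    have := v.valuation_lt_one_iff_mem (K := K') (m : 𝓞 K')
    rw [← hPint m]
    simpa using this
  have hval_int_eq : ∀ m : ℤ, ¬ (ℓ : ℤ) ∣ m → val (m : K') = 1 := by
    intro m hm
    exact le_antisymm (hval_int_le m) (not_lt.mp (fun h => hm ((hval_int_lt m).mp h)))
  obtain ⟨ϖ, hϖ⟩ := v.valuation_exists_uniformizer K'
  have hϖ' : val ϖ = exp (-1 : ℤ) := hϖ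
  have hϖ0 : ϖ ≠ 0 := by
    intro h
    rw [h, map_zero] at hϖ'
    exact exp_ne_zero hϖ'.symm
  have hexp_lt : exp (-1 : ℤ) < (1 : ℤᵐ⁰) := by
    rw [← exp_zero, exp_lt_exp]; norm_num
  have hφinj : Function.Injective φ := φ.injective
  have hmemO : ∀ z : ℂ, z ∈ val.integer.map φ ↔ ∃ x : K', val x ≤ 1 ∧ φ x = z := by
    intro z
    rw [Subring.mem_map]
    simp only [Valuation.mem_integer_iff]
  -- divisibility by ϖ
  have hdivϖ : ∀ x : K', val x < 1 → val (x / ϖ) ≤ 1 := by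
    intro x hx
    rw [map_div₀, hϖ']
    rw [div_le_iff₀ (by exact zero_lt_iff.mpr exp_ne_zero), one_mul]
    exact h8v_le_exp_neg_one hx
  refine ⟨val.integer.map φ, φ ϖ, ?_, ?_, ?_, ?_, ?_, ?_, ?_⟩
  · -- π ∈ O
    exact (hmemO _).mpr ⟨ϖ, by rw [hϖ']; exact hexp_lt.le, rfl⟩
  · -- integral elements
    intro x hx
    exact (hmemO _).mpr ⟨x, (v.valuation_le_one (K := K') ⟨x, hx⟩ :), rfl⟩
  · -- O ∩ ℚ
    intro q
    have hq : (q : K') = (q.num : K') / (q.den : K') := by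
      exact_mod_cast (Rat.num_div_den q).symm
    have hden0 : ((q.den : ℤ) : K') ≠ 0 := by
      exact_mod_cast q.den_nz
    have hvq : val (q : K') = val ((q.num : ℤ) : K') / val ((q.den : ℤ) : K') := by
      rw [← map_div₀]; congr 1; rw [hq]; push_cast; rfl
    constructor
    · intro h
      obtain ⟨x, hx, hxq⟩ := (hmemO _).mp h
      have hxq' : x = (q : K') := hφinj (by rw [hxq, map_ratCast])
      rw [hxq'] at hx
      show q.den.Coprime ℓ
      by_contra hcop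
      have hdvd : ℓ ∣ q.den := by
        rcases (Nat.coprime_or_dvd_of_prime hℓ q.den) with h | h
        · exact absurd h.symm hcop
        · exact h
      have h1 : val ((q.den : ℤ) : K') < 1 :=
        (hval_int_lt _).mpr (by exact_mod_cast hdvd)
      have hnum : ¬ (ℓ : ℤ) ∣ q.num := by
        intro hn
        have : ℓ ∣ q.num.natAbs := by
          exact Int.natCast_dvd.mp hn
        have hc := q.reduced
        have := Nat.dvd_gcd this hdvd
        rw [hc] at this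
        exact hℓ.one_lt.ne' (Nat.dvd_one.mp this)
      have h2 : val ((q.num : ℤ) : K') = 1 := hval_int_eq _ hnum
      rw [hvq, h2] at hx
      have hpos : 0 < val ((q.den : ℤ) : K') :=
        zero_lt_iff.mpr ((Valuation.ne_zero_iff _).mpr hden0)
      rw [div_le_iff₀ hpos, one_mul] at hx
      exact absurd h1 (not_lt.mpr hx)
    · intro h
      have hcop : q.den.Coprime ℓ := h
      refine (hmemO _).mpr ⟨(q : K'), ?_, map_ratCast φ q⟩
      have hnd : ¬ (ℓ : ℤ) ∣ (q.den : ℤ) := by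
        intro hd
        have : ℓ ∣ q.den := by exact_mod_cast hd
        have := Nat.dvd_gcd this dvd_rfl
        rw [hcop] at this
        exact hℓ.one_lt.ne' (Nat.dvd_one.mp this)
      rw [hvq, hval_int_eq _ hnd, div_one]
      exact hval_int_le _
  · -- π ∣ ℓ
    refine ⟨φ ((ℓ : K') / ϖ), (hmemO _).mpr ⟨_, hdivϖ _ ?_, rfl⟩, ?_⟩
    · have := (hval_int_lt (ℓ : ℤ)).mpr dvd_rfl
      simpa using this
    · rw [← map_mul, mul_div_cancel₀ _ hϖ0, map_natCast]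
  · -- unit or multiple of π
    intro a ha
    obtain ⟨x, hx, rfl⟩ := (hmemO _).mp ha
    rcases lt_or_eq_of_le hx with hlt | heq
    · right
      refine ⟨φ (x / ϖ), (hmemO _).mpr ⟨_, hdivϖ _ hlt, rfl⟩, ?_⟩
      rw [← map_mul, mul_div_cancel₀ _ hϖ0]
    · left
      have hx0 : x ≠ 0 := by
        intro h; rw [h, map_zero] at heq; exact zero_ne_one heq
      refine ⟨φ x⁻¹, (hmemO _).mpr ⟨_, ?_, rfl⟩, ?_⟩
      · rw [map_inv₀, heq, inv_one]
      · rw [← map_mul, mul_inv_cancel₀ hx0, map_one]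
  · -- π not a unit
    rintro ⟨b, hb, hπb⟩
    obtain ⟨y, hy, rfl⟩ := (hmemO _).mp hb
    have h1 : ϖ * y = 1 := hφinj (by rw [map_mul, hπb, map_one])
    have h2 : val ϖ * val y = 1 := by rw [← map_mul, h1, map_one]
    have h3 : val ϖ * val y ≤ val ϖ * 1 := by gcongr
    rw [h2, mul_one, hϖ'] at h3
    exact absurd hexp_lt (not_lt.mpr h3)
  · -- separatedness
    intro a ha hall
    obtain ⟨x, hx, rfl⟩ := (hmemO _).mp ha
    by_contra hne
    have hx0 : x ≠ 0 := fun h => hne (by rw [h, map_zero])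
    have hvx0 : val x ≠ 0 := (Valuation.ne_zero_iff _).mpr hx0
    have key : ∀ t : ℕ, val x ≤ exp (-(t : ℤ)) := by
      intro t
      obtain ⟨b, hb, hab⟩ := hall t
      obtain ⟨y, hy, rfl⟩ := (hmemO _).mp hb
      have h1 : x = ϖ ^ t * y := hφinj (by rw [hab, map_mul, map_pow])
      rw [h1, map_mul, map_pow, hϖ']
      calc exp (-1 : ℤ) ^ t * val y ≤ exp (-1 : ℤ) ^ t * 1 := by gcongr
        _ = exp (-(t : ℤ)) := by
          rw [mul_one, ← exp_nsmul]; simp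
    have hlog : ∀ t : ℕ, log (val x) ≤ -(t : ℤ) := fun t =>
      (log_le_iff_le_exp hvx0).mpr (key t)
    have := hlog ((log (val x)).natAbs + 1)
    push_cast at this
    have h2 := neg_abs_le (log (val x))
    omega


open Complex in
/-- **Package (V).** A coefficient DVR inside `ℂ` above `ℤ_(ℓ)` containing all `N`-th roots
of unity. -/
theorem h8v_exists_coeff (N ℓ : ℕ) [NeZero N] [Fact ℓ.Prime] :
    ∃ (O : Subring ℂ) (π : ℂ), π ∈ O ∧
      (∀ z : ℂ, z ^ N = 1 → z ∈ O) ∧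
      (∀ q : ℚ, (q : ℂ) ∈ O ↔ q ∈ GaloisRep.ratLocalizedAt ℓ) ∧
      (∃ c ∈ O, (ℓ : ℂ) = π * c) ∧
      (∀ a ∈ O, (∃ b ∈ O, a * b = 1) ∨ (∃ b ∈ O, a = π * b)) ∧
      (¬ ∃ b ∈ O, π * b = 1) ∧
      (∀ a ∈ O, (∀ t : ℕ, ∃ b ∈ O, a = π ^ t * b) → a = 0) := by
  have hζ : IsPrimitiveRoot (Complex.exp (2 * Real.pi * I / N)) N :=
    Complex.isPrimitiveRoot_exp N (NeZero.ne N)
  set ζ := Complex.exp (2 * Real.pi * I / N) with hζdef
  have hint : IsIntegral ℤ ζ := hζ.isIntegral (NeZero.pos N)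
  have hintQ : IsIntegral ℚ ζ := hint.tower_top
  let K' := IntermediateField.adjoin ℚ {ζ}
  have : FiniteDimensional ℚ K' := IntermediateField.adjoin.finiteDimensional hintQ
  have : NumberField K' := ⟨⟩
  let φ : K' →+* ℂ := (IntermediateField.val K').toRingHom
  obtain ⟨O, π, hπ, hint', hQ, hℓ, hunit, hnu, hsep⟩ := h8v_exists_dvr K' φ ℓ
  refine ⟨O, π, hπ, ?_, hQ, hℓ, hunit, hnu, hsep⟩
  intro z hz
  obtain ⟨i, -, rfl⟩ := hζ.eq_pow_of_pow_eq_one hz
  have hζmem : ζ ∈ K' := IntermediateField.mem_adjoin_simple_self ℚ ζ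
  have h1 : IsIntegral ℤ (⟨ζ, hζmem⟩ : K') := by
    rw [← isIntegral_algebraMap_iff (B := ℂ) (algebraMap K' ℂ).injective]
    exact hint
  have h2 : φ (⟨ζ, hζmem⟩ : K') = ζ := rfl
  have := hint' _ (h1.pow i)
  rw [map_pow, h2] at this
  exact this


open Complex in
/-- For `ℓ ∤ N`, in any subring of `ℂ` containing `ℤ_(ℓ)` and the `N`-th roots of unity,
`1 - z` is a unit for every `N`-th root of unity `z ≠ 1`. -/
theorem h8v_one_sub_root_isUnit (N ℓ : ℕ) [NeZero N] [Fact ℓ.Prime] (hℓN : ¬ ℓ ∣ N)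
    (O : Subring ℂ) (hroots : ∀ z : ℂ, z ^ N = 1 → z ∈ O)
    (hQ : ∀ q : ℚ, q ∈ GaloisRep.ratLocalizedAt ℓ → (q : ℂ) ∈ O)
    (z : ℂ) (hz : z ^ N = 1) (hz1 : z ≠ 1) : ∃ b ∈ O, (1 - z) * b = 1 := by
  classical
  have hℓ : ℓ.Prime := Fact.out
  have hζ : IsPrimitiveRoot (Complex.exp (2 * Real.pi * I / N)) N :=
    Complex.isPrimitiveRoot_exp N (NeZero.ne N)
  set ζ := Complex.exp (2 * Real.pi * I / N) with hζdef
  obtain ⟨i, hiN, rfl⟩ := hζ.eq_pow_of_pow_eq_one hz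
  have hi0 : i ≠ 0 := by
    rintro rfl
    exact hz1 (pow_zero ζ)
  obtain ⟨n, hn⟩ : ∃ n, N = n + 1 := ⟨N - 1, by have := NeZero.pos N; omega⟩
  have hζ' : IsPrimitiveRoot ζ (n + 1) := hn ▸ hζ
  have hprod := hζ'.prod_one_sub_pow_eq_order
  have hmem : i - 1 ∈ Finset.range n := by
    rw [Finset.mem_range]; omega
  rw [← Finset.mul_prod_erase _ _ hmem] at hprod
  have hi1 : i - 1 + 1 = i := by omega
  rw [hi1] at hprod
  have hNinv : ((N : ℚ)⁻¹ : ℚ) ∈ GaloisRep.ratLocalizedAt ℓ := by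
    show ((N : ℚ)⁻¹).den.Coprime ℓ
    rw [Rat.inv_natCast_den_of_pos (NeZero.pos N)]
    exact (Nat.Prime.coprime_iff_not_dvd hℓ).mpr hℓN |>.symm
  have hN0 : (N : ℂ) ≠ 0 := by exact_mod_cast NeZero.ne N
  refine ⟨(∏ k ∈ (Finset.range n).erase (i - 1), (1 - ζ ^ (k + 1))) * (((N : ℚ)⁻¹ : ℚ) : ℂ),
    O.mul_mem (O.prod_mem fun k _ => O.sub_mem O.one_mem (hroots _ ?_)) (hQ _ hNinv), ?_⟩
  · rw [← pow_mul, mul_comm, pow_mul, hζ.pow_eq_one, one_pow]
  · rw [← mul_assoc, hprod]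
    have hn' : ((n : ℂ) + 1) = (N : ℂ) := by rw [hn]; push_cast; rfl
    rw [hn']
    push_cast
    exact mul_inv_cancel₀ hN0

/-- **(V)**: the coefficient ring statement of `Defs.lean` (the hypothesis `ℓ ∤ N` is not even
needed for the existence). -/
theorem h8v_coeffStatement (N ℓ : ℕ) [NeZero N] [Fact ℓ.Prime] : h0_CoeffStatement N ℓ := by
  intro _
  obtain ⟨O, π, hπ, hroots, hQ, hℓ, hunit, hnu, hsep⟩ := h8v_exists_coeff N ℓ
  exact ⟨{ O := O
           pi := π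
           pi_mem := hπ
           rat_mem := fun r hr => (hQ r).mpr hr
           rat_of_mem := fun r hr => (hQ r).mp hr
           pi_dvd_ell := hℓ
           unit_or_dvd := hunit
           pi_not_unit := fun b hb h => hnu ⟨b, hb, h⟩
           krull := hsep }, hroots⟩

/-- `1 - z` is a unit of `C.O` for every `N`-th root of unity `z ≠ 1`, when `ℓ ∤ N`. -/
theorem h8v_one_sub_root_h0IsUnit (N ℓ : ℕ) [NeZero N] [Fact ℓ.Prime] (hℓN : ¬ ℓ ∣ N)
    (C : h0_Coeff ℓ) (hroots : ∀ ζ : ℂ, ζ ^ N = 1 → ζ ∈ C.O)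
    (z : ℂ) (hz : z ^ N = 1) (hz1 : z ≠ 1) : h0_IsUnit C (1 - z) :=
  ⟨C.O.sub_mem C.O.one_mem (hroots z hz),
    h8v_one_sub_root_isUnit N ℓ hℓN C.O hroots C.rat_mem z hz hz1⟩

end Fermat.Agent.Lib.S28
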