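import Mathlib

namespace Fermat.Agent.Lib.S28

open scoped MatrixGroups

/-- the lower row of an element of `SL(2, ℤ)` is coprime -/
theorem h8k_isCoprime_row (γ : SL(2, ℤ)) : IsCoprime (γ 1 0) (γ 1 1) := by
  have hdet := γ.det_coe
  rw [Matrix.det_fin_two] at hdet
  exact ⟨-(γ 0 1), γ 0 0, by linarith⟩

/-- Hermite data: `a = gcd(d, |γ₁₀|)`. -/
theorem h8k_hermite_gcd (γ g : SL(2, ℤ)) (a b e d : ℕ) (hae : a * e = d)
    (h10 : γ 1 0 = g 1 0 * a) (h11 : γ 1 1 = g 1 0 * b + g 1 1 * e) :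
    a = Nat.gcd d (γ 1 0).natAbs := by
  have hcop : IsCoprime (g 1 0) (e : ℤ) := by
    -- a common prime divisor of `g₁₀` and `e` would divide `γ₁₀` and `γ₁₁`
    have hγ := h8k_isCoprime_row γ
    rw [h10, h11] at hγ
    -- IsCoprime (g10 * a) (g10 * b + g11 * e) → IsCoprime g10 e
    have h1 : IsCoprime (g 1 0) (g 1 0 * b + g 1 1 * e) := hγ.of_mul_left_left
    have h2 : IsCoprime (g 1 0) (g 1 1 * e) := by
      have := h1
      rwa [add_comm, IsCoprime.add_mul_left_right_iff] at this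
    exact h2.of_mul_right_right
  have hnat : Nat.Coprime (g 1 0).natAbs e := by
    have := Int.isCoprime_iff_gcd_eq_one.mp hcop
    rwa [Int.gcd, Int.natAbs_natCast] at this
  rw [← hae, h10, Int.natAbs_mul, Int.natAbs_natCast, mul_comm (g 1 0).natAbs a,
    Nat.gcd_mul_left, Nat.Coprime.gcd_eq_one hnat.symm, mul_one]

/-- consequence used for the order of the unit: `s d = gcd(d, |γ₁₀|)² N`. -/
theorem h8k_hermite_s (γ g : SL(2, ℤ)) (a b e d s N : ℕ) (hae : a * e = d) (hs : s * e = a * N)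
    (h10 : γ 1 0 = g 1 0 * a) (h11 : γ 1 1 = g 1 0 * b + g 1 1 * e) :
    s * d = (Nat.gcd d (γ 1 0).natAbs) ^ 2 * N := by
  rw [← h8k_hermite_gcd γ g a b e d hae h10 h11, ← hae]
  calc s * (a * e) = a * (s * e) := by ring
    _ = a * (a * N) := by rw [hs]
    _ = a ^ 2 * N := by ring

end Fermat.Agent.Lib.S28
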