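import Mathlib
import Fermat.Agent.Lib.S28.DefsAn

/-!
# S28 analytic side: the two purely formal contracts (K2a), (K2b) of `DefsAn.lean`

* `h8t_orderStatement : h2q_OrderStatement` — a nonzero polynomial in `J_N = j(q^N)` over a field
  is a nonzero Laurent series of order `≤ 0`.
* `h8t_triStatement : h2q_TriStatement` — a complex polynomial in `J_N` whose expansion has
  coefficients in `𝒪` is a polynomial in `J_N` over `𝒪` (triangularity, `J_N = u^{-N} + …`).
* helpers: `h8t_algebraMap_eq_C`, `h8t_coeff_aeval_eq_sum`, `h8t_coeff_pow_self`,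
  `h8t_coeff_pow_of_lt`, `h8t_coeff_aeval` (coefficient of `u^{-N n}` in `P(J_N)` is `P.coeff n`
  when `deg P ≤ n`), `h8t_coeffMap_J`, `h8t_coeffMap_C`.
-/

namespace Fermat.Agent.Lib.S28

open Polynomial ModularCurve HahnSeries

section Formal

variable (R : Type*) [CommRing R] (N : ℕ) [NeZero N]

theorem h8t_algebraMap_eq_C (r : R) : algebraMap R (LaurentSeries R) r = HahnSeries.C r := by
  rw [HahnSeries.algebraMap_apply', ← HahnSeries.ofPowerSeries_C]
  rfl

/-- coefficients of `P(x)` for `x` a Laurent series. -/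
theorem h8t_coeff_aeval_eq_sum (P : R[X]) (x : LaurentSeries R) (n : ℤ) (d : ℕ)
    (hd : P.natDegree < d) :
    ((Polynomial.aeval x P)).coeff n = ∑ i ∈ Finset.range d, P.coeff i * (x ^ i).coeff n := by
  rw [Polynomial.aeval_eq_sum_range' hd, HahnSeries.coeff_sum]
  refine Finset.sum_congr rfl fun i _ => ?_
  rw [Algebra.smul_def, h8t_algebraMap_eq_C, HahnSeries.C_mul_eq_smul, HahnSeries.coeff_smul,
    smul_eq_mul]

/-- `J_N = j(q^N)` over `R`. -/
theorem h8t_coeff_pow_self (i : ℕ) :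
    ((qExpand R N (jqModC R)) ^ i).coeff (-((N : ℤ) * (i : ℤ))) = 1 := by
  rw [← map_pow, show -((N : ℤ) * (i : ℤ)) = (N : ℤ) * (-(i : ℤ)) by ring, qExpand_coeff_mul]
  exact coeff_jqModC_pow_self R i

theorem h8t_coeff_pow_of_lt (i : ℕ) {m : ℤ} (hm : m < -((N : ℤ) * (i : ℤ))) :
    ((qExpand R N (jqModC R)) ^ i).coeff m = 0 := by
  rw [← map_pow]
  by_cases hd : (N : ℤ) ∣ m
  · obtain ⟨m', rfl⟩ := hd
    rw [qExpand_coeff_mul]
    apply coeff_jqModC_pow_of_lt
    have hN : (0 : ℤ) < N := by exact_mod_cast NeZero.pos N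
    nlinarith
  · exact qExpand_coeff_of_not_dvd N _ hd

/-- the coefficient of `u^{-N n}` in `P(J_N)` is `P.coeff n` when `deg P ≤ n`. -/
theorem h8t_coeff_aeval (P : Polynomial R) (n : ℕ) (hP : P.natDegree < n + 1) :
    (Polynomial.aeval (qExpand R N (jqModC R)) P).coeff (-((N : ℤ) * (n : ℤ))) = P.coeff n := by
  rw [h8t_coeff_aeval_eq_sum R P _ _ (n + 1) hP]
  rw [Finset.sum_eq_single n]
  · rw [h8t_coeff_pow_self, mul_one]
  · intro i hi hin
    have hN : (0 : ℤ) < N := by exact_mod_cast NeZero.pos N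
    have h1 : i < n := lt_of_le_of_ne (Nat.lt_succ_iff.mp (Finset.mem_range.mp hi)) hin
    have h2 : (i : ℤ) < n := by exact_mod_cast h1
    rw [h8t_coeff_pow_of_lt R N i (m := -((N : ℤ) * (n : ℤ))) (by nlinarith), mul_zero]
  · intro h
    exact absurd (Finset.mem_range.mpr (Nat.lt_succ_self n)) h

end Formal

/-- **(K2b)**. -/
theorem h8t_orderStatement : h2q_OrderStatement := by
  intro N _ k _ p hp
  have hc := h8t_coeff_aeval k N p p.natDegree (Nat.lt_succ_self _)
  have hne : (Polynomial.aeval (qExpand k N (jqModC k)) p).coeff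
      (-((N : ℤ) * (p.natDegree : ℤ))) ≠ 0 := by
    rw [hc]; exact Polynomial.leadingCoeff_ne_zero.mpr hp
  refine ⟨fun h => hne (by rw [h]; rfl), ?_⟩
  refine le_trans (HahnSeries.order_le_of_coeff_ne_zero hne) ?_
  have hN : (0 : ℤ) ≤ N := by exact_mod_cast Nat.zero_le N
  have : (0 : ℤ) ≤ p.natDegree := by exact_mod_cast Nat.zero_le _
  nlinarith

theorem h8t_coeffMap_J {R S : Type*} [CommRing R] [CommRing S] (f : R →+* S) (N : ℕ) [NeZero N] :
    coeffMap f (qExpand R N (jqModC R)) = qExpand S N (jqModC S) := by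
  rw [coeffMap_qExpand, coeffMap_jqModC]

theorem h8t_coeffMap_C {R S : Type*} [CommRing R] [CommRing S] (f : R →+* S) (r : R) :
    coeffMap f (HahnSeries.C r) = HahnSeries.C (f r) := by
  exact coeffMap_single f 0 r

theorem h8t_tri_aux (N : ℕ) [NeZero N] (𝒪 : Subring ℂ) : ∀ (n : ℕ) (P : Polynomial ℂ)
    (σ : LaurentSeries 𝒪), (∀ m, n ≤ m → P.coeff m = 0) →
    coeffMap 𝒪.subtype σ = Polynomial.aeval (qExpand ℂ N (jqModC ℂ)) P →
    ∃ P' : Polynomial 𝒪, σ = Polynomial.aeval (qExpand 𝒪 N (jqModC 𝒪)) P' := by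
  have hinj : Function.Injective (coeffMap 𝒪.subtype) := by
    intro x y hxy
    ext k
    have := congrArg (fun z => z.coeff k) hxy
    simp only [coeffMap_coeff] at this
    exact this
  intro n
  induction n with
  | zero =>
    intro P σ hP h
    have hP0 : P = 0 := Polynomial.ext fun m => by simpa using hP m (Nat.zero_le m)
    refine ⟨0, hinj ?_⟩
    rw [h, hP0, map_zero, map_zero, map_zero]
  | succ n ih =>
    intro P σ hP h
    have hdeg : P.natDegree < n + 1 :=
      Nat.lt_succ_of_le ((Polynomial.natDegree_le_iff_coeff_eq_zero).mpr fun m hm => hP m hm)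
    have hc : ((σ.coeff (-((N : ℤ) * (n : ℤ))) : 𝒪) : ℂ) = P.coeff n := by
      rw [← h8t_coeff_aeval ℂ N P n hdeg, ← h]
      rfl
    set c' : 𝒪 := σ.coeff (-((N : ℤ) * (n : ℤ))) with hc'
    set Q : Polynomial ℂ := P - Polynomial.C (P.coeff n) * Polynomial.X ^ n with hQ
    have hQc : ∀ m, n ≤ m → Q.coeff m = 0 := by
      intro m hm
      rw [hQ, Polynomial.coeff_sub, Polynomial.coeff_C_mul, Polynomial.coeff_X_pow]
      rcases eq_or_lt_of_le hm with rfl | hlt
      · simp
      · rw [if_neg hlt.ne', mul_zero, sub_zero]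
        exact hP m hlt
    set σ' : LaurentSeries 𝒪 := σ - HahnSeries.C c' * (qExpand 𝒪 N (jqModC 𝒪)) ^ n with hσ'
    have h' : coeffMap 𝒪.subtype σ' = Polynomial.aeval (qExpand ℂ N (jqModC ℂ)) Q := by
      rw [hσ', map_sub, map_mul, map_pow, h8t_coeffMap_J, h8t_coeffMap_C, h, hQ, map_sub, map_mul,
        map_pow, Polynomial.aeval_X, Polynomial.aeval_C, h8t_algebraMap_eq_C]
      congr 3
    obtain ⟨Q', hQ'⟩ := ih Q σ' hQc h'
    refine ⟨Q' + Polynomial.C c' * Polynomial.X ^ n, ?_⟩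
    rw [map_add, ← hQ', map_mul, map_pow, Polynomial.aeval_X, Polynomial.aeval_C,
      h8t_algebraMap_eq_C, hσ']
    ring

/-- **(K2a)**. -/
theorem h8t_triStatement : h2q_TriStatement := by
  intro N _ 𝒪 P σ h
  exact h8t_tri_aux N 𝒪 (P.natDegree + 1) P σ
    (fun m hm => Polynomial.coeff_eq_zero_of_natDegree_lt hm) h

end Fermat.Agent.Lib.S28
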