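import Fermat.Agent.Lib.S28.H6Final
import Fermat.Agent.Lib.S28.H7Bridge
import Fermat.Agent.Lib.S28.H8Coeff
import Fermat.Agent.Lib.S28.H2Emb
import Fermat.Agent.Lib.S28.H8Tri
import Fermat.Agent.Lib.S28.H8ThetaDiff
import Fermat.Agent.Lib.S28.H0Card

set_option autoImplicit false
open AlgebraicGeometry CategoryTheory CategoryTheory.Limits ModularCurve ModularCurve.IgusaScheme
open Fermat.Agent.Lib.S28
noncomputable section

/-!
# S28 pre-final wiring (helper8)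

`h8x_prefinal`: the S28 conclusion from the four analytic contracts that are still open
(K1 `h2q_UnitStatement`, K5' `h2q_NormStatement`, E1a `h2e_BaseStatement`, E1b
`h2e_AgreeStatement`); everything else is plugged in
(`h6f_final`, `h8v_coeffStatement`, `h7b_chartStatement`, `h2e_embStatement`, `h8t_orderStatement`,
`h0c_cardStatement`, `h8d_thetaInt`, `h8d_thetaDiff`).
-/

namespace Fermat.Agent.Lib.S28

theorem h8x_prefinal
    (N : ℕ) [NeZero N] (ℓ : ℕ) [Fact ℓ.Prime] (hℓN : ¬ ℓ ∣ N)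
    (hU : ∀ 𝒪 : Subring ℂ, (∀ ζ : ℂ, ζ ^ N = 1 → ζ ∈ 𝒪) → ((N : ℂ)⁻¹ ∈ 𝒪) →
      h2q_UnitStatement N 𝒪)
    (hNorm : ∀ 𝒪 : Subring ℂ, h2q_NormStatement N 𝒪)
    (hBase : h2e_BaseStatement N) (hAgree : h2e_AgreeStatement N)
    (K : Type) [Field K] [CharP K ℓ] [Algebra ↥(GaloisRep.ratLocalizedAt ℓ) K] :
    IsIntegral ↑(pullback (igusaTo N ℓ)
      (Spec.map (CommRingCat.ofHom (algebraMap ↥(GaloisRep.ratLocalizedAt ℓ) K)))) :=
  h6f_final N ℓ (h8v_coeffStatement N ℓ)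
    (h2e_embStatement N ℓ hU hNorm h8t_orderStatement hBase hAgree (h0c_cardStatement N)
      (fun 𝒪 hζ => h8d_thetaInt N 𝒪 hζ) (fun 𝒪 hζ hN => h8d_thetaDiff N 𝒪 hζ hN))
    (h7b_chartStatement N ℓ) hℓN K

end Fermat.Agent.Lib.S28
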